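import Fermat.Agent.Corollaries.Catalan.RayBridge
import Mathlib.NumberTheory.Cyclotomic.Gal

/-!
# The auxiliary primes of Thaine's theorem

`K = ℚ(ζ_p)`, `q ≠ p` an odd prime, `H` a proper subgroup of the class group which contains all
`q`-th powers, `v` not a `q`-th power. There are infinitely many places `P` of `K` of degree one
over `ℓ ≡ 1` modulo `p q` whose class is not in `H` and such that `v` is not a `q`-th power
modulo `P` (`exists_thaine_prime`).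
-/

set_option autoImplicit false

namespace Fermat.Agent.Cor.Catalan

open NumberField IsDedekindDomain nonZeroDivisors WithZero
open Fermat.Agent.CFT.Global (AboveP locPow)
open Fermat.Agent.LT (IsRay)
open Fermat.Agent.Cor.Ray (RayEq)
open Fermat.Agent.Cor.Recip (unt unt_val ind ind_eq_zero_iff)

/-! ### Norms of ideals -/

section Norm

variable {K N : Type} [Field K] [NumberField K] [Field N] [NumberField N] [Algebra K N]

/-- the relative norm on nonzero ideals -/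
noncomputable def rn : (Ideal (𝓞 N))⁰ →* (Ideal (𝓞 K))⁰ where
  toFun I := ⟨Ideal.relNorm (𝓞 K) (I : Ideal (𝓞 N)), by
    rw [mem_nonZeroDivisors_iff_ne_zero, Ne, Ideal.zero_eq_bot, Ideal.relNorm_eq_bot_iff]
    exact nonZeroDivisors.coe_ne_zero I⟩
  map_one' := Subtype.ext (by simp)
  map_mul' I J := Subtype.ext (by simp)

lemma coe_rn (I : (Ideal (𝓞 N))⁰) :
    ((rn (K := K) I : (Ideal (𝓞 K))⁰) : Ideal (𝓞 K)) = Ideal.relNorm (𝓞 K) (I : Ideal (𝓞 N)) := rfl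

/-- the class of the norm modulo `H` -/
noncomputable def clH (H : Subgroup (ClassGroup (𝓞 K))) :
    (Ideal (𝓞 N))⁰ →* ClassGroup (𝓞 K) ⧸ H :=
  (QuotientGroup.mk' H).comp (ClassGroup.mk0.comp rn)

lemma clH_ne_one_iff (H : Subgroup (ClassGroup (𝓞 K))) (I : (Ideal (𝓞 N))⁰) :
    clH H I ≠ 1 ↔ ClassGroup.mk0 (rn (K := K) I) ∉ H := not_congr (QuotientGroup.eq_one_iff _)

lemma clH_congr (H : Subgroup (ClassGroup (𝓞 K))) {𝔪 : Ideal (𝓞 N)} {I J : (Ideal (𝓞 N))⁰}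
    (h : RayEq 𝔪 I J) : clH H I = clH H J := by
  obtain ⟨a, b, ha, hb, -, -, h⟩ := h
  have h1 : ClassGroup.mk0 (rn (K := K) I) = ClassGroup.mk0 (rn (K := K) J) := by
    rw [ClassGroup.mk0_eq_mk0_iff]
    refine ⟨Algebra.intNorm (𝓞 K) (𝓞 N) a, Algebra.intNorm (𝓞 K) (𝓞 N) b, ?_, ?_, ?_⟩
    · rwa [Ne, Algebra.intNorm_eq_zero]
    · rwa [Ne, Algebra.intNorm_eq_zero]
    · have h2 := congrArg (Ideal.relNorm (𝓞 K)) h
      rwa [map_mul, map_mul, Ideal.relNorm_singleton, Ideal.relNorm_singleton] at h2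
  change (QuotientGroup.mk' H) (ClassGroup.mk0 (rn (K := K) I)) =
    (QuotientGroup.mk' H) (ClassGroup.mk0 (rn (K := K) J))
  rw [h1]

lemma finrank_int : Module.finrank (𝓞 K) (𝓞 N) = Module.finrank K N :=
  (IsFractionRing.finrank_eq (𝓞 K) K (𝓞 N) N).symm

/-- a group element whose powers with coprime exponents are in `H` is in `H` -/
lemma mem_of_pow_mem {G : Type*} [Group G] {H : Subgroup G} {c : G} {m n : ℕ}
    (hmn : Nat.Coprime m n) (h1 : c ^ m ∈ H) (h2 : c ^ n ∈ H) : c ∈ H := by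
  obtain ⟨a, b, hab⟩ := Nat.isCoprime_iff_coprime.mpr hmn
  have h3 : c = (c ^ m) ^ a * (c ^ n) ^ b := by
    rw [← zpow_natCast, ← zpow_natCast, ← zpow_mul, ← zpow_mul, ← zpow_add, mul_comm (m : ℤ),
      mul_comm (n : ℤ), hab, zpow_one]
  rw [h3]
  exact H.mul_mem (H.zpow_mem h1 a) (H.zpow_mem h2 b)

/-- the class of the norm modulo `H` is not trivial -/
lemma exists_clH_ne_one {H : Subgroup (ClassGroup (𝓞 K))} (hH : H ≠ ⊤) {q : ℕ}
    (hHq : ∀ c : ClassGroup (𝓞 K), c ^ q ∈ H) (hd : Nat.Coprime (Module.finrank K N) q)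
    {𝔪 : Ideal (𝓞 N)} (h𝔪 : 𝔪 ≠ ⊥) :
    ∃ I : (Ideal (𝓞 N))⁰, IsCoprime (I : Ideal (𝓞 N)) 𝔪 ∧ clH H I ≠ 1 := by
  obtain ⟨c, hc⟩ : ∃ c : ClassGroup (𝓞 K), c ∉ H := by
    by_contra hcon
    push Not at hcon
    exact hH (eq_top_iff.mpr fun c _ => hcon c)
  have hm : Ideal.comap (algebraMap (𝓞 K) (𝓞 N)) 𝔪 ≠ ⊥ := by
    intro h
    exact h𝔪 (Ideal.eq_bot_of_comap_eq_bot h)
  obtain ⟨I, hIc, hI⟩ := Ray.exists_coprime_mk0 c hm
  have hI0 : (I : Ideal (𝓞 K)) ≠ ⊥ := nonZeroDivisors.coe_ne_zero I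
  have hIm0 : Ideal.map (algebraMap (𝓞 K) (𝓞 N)) (I : Ideal (𝓞 K)) ≠ ⊥ := by
    rwa [Ne, Ideal.map_eq_bot_iff_of_injective (FaithfulSMul.algebraMap_injective _ _)]
  refine ⟨⟨_, mem_nonZeroDivisors_of_ne_zero hIm0⟩, ?_, ?_⟩
  · rw [Ideal.isCoprime_iff_sup_eq] at hI ⊢
    rw [eq_top_iff]
    calc (⊤ : Ideal (𝓞 N)) = Ideal.map (algebraMap (𝓞 K) (𝓞 N)) ⊤ := (Ideal.map_top _).symm
      _ = Ideal.map (algebraMap (𝓞 K) (𝓞 N)) (I : Ideal (𝓞 K)) ⊔
          Ideal.map (algebraMap (𝓞 K) (𝓞 N)) (Ideal.comap (algebraMap (𝓞 K) (𝓞 N)) 𝔪) := by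
        rw [← hI, Ideal.map_sup]
      _ ≤ _ := sup_le_sup_left Ideal.map_comap_le _
  · rw [clH_ne_one_iff]
    intro h
    apply hc
    refine mem_of_pow_mem hd ?_ (hHq c)
    have h1 : rn (K := K) ⟨Ideal.map (algebraMap (𝓞 K) (𝓞 N)) (I : Ideal (𝓞 K)),
        mem_nonZeroDivisors_of_ne_zero hIm0⟩ = I ^ Module.finrank K N := by
      apply Subtype.ext
      rw [coe_rn, Ideal.relNorm_algebraMap, finrank_int, SubmonoidClass.coe_pow]
    rw [h1, map_pow, hIc] at h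
    exact h

/-- the norm of a place of prime norm is the place below -/
lemma rn_pl {P : HeightOneSpectrum (𝓞 N)} (hP : (Ideal.absNorm P.asIdeal).Prime) :
    ((rn (K := K) (pl P) : (Ideal (𝓞 K))⁰) : Ideal (𝓞 K)) =
      (HeightOneSpectrum.under (𝓞 K) P).asIdeal ∧
    Ideal.absNorm (HeightOneSpectrum.under (𝓞 K) P).asIdeal = Ideal.absNorm P.asIdeal := by
  have h1 : Ideal.absNorm (Ideal.relNorm (𝓞 K) P.asIdeal) = Ideal.absNorm P.asIdeal :=
    Ideal.absNorm_relNorm (𝓞 K) (𝓞 N) _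
  have h2 : Ideal.relNorm (𝓞 K) P.asIdeal ≤ (HeightOneSpectrum.under (𝓞 K) P).asIdeal :=
    Ideal.relNorm_le_comap (𝓞 K) P.asIdeal
  obtain ⟨J, hJ⟩ := Ideal.dvd_iff_le.mpr h2
  have h3 : Ideal.absNorm (HeightOneSpectrum.under (𝓞 K) P).asIdeal * Ideal.absNorm J =
      Ideal.absNorm P.asIdeal := by rw [← map_mul, ← hJ, h1]
  have h4 : Ideal.absNorm (HeightOneSpectrum.under (𝓞 K) P).asIdeal ≠ 1 := by
    rw [Ne, Ideal.absNorm_eq_one_iff]
    exact (HeightOneSpectrum.under (𝓞 K) P).isPrime.ne_top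
  have h5 : Ideal.absNorm (HeightOneSpectrum.under (𝓞 K) P).asIdeal = Ideal.absNorm P.asIdeal :=
    ((Nat.dvd_prime hP).mp ⟨_, h3.symm⟩).resolve_left h4
  have h6 : Ideal.absNorm J = 1 := by
    rw [h5] at h3
    exact (Nat.mul_eq_left hP.ne_zero).mp h3
  rw [Ideal.absNorm_eq_one_iff] at h6
  refine ⟨?_, h5⟩
  rw [coe_rn]
  change Ideal.relNorm (𝓞 K) P.asIdeal = _
  rw [hJ, h6, Ideal.mul_top]

/-- an element of `K` which is not a `q`-th power is not a `q`-th power in `N` -/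
lemma not_pow_of_coprime {q : ℕ} (hd : Nat.Coprime (Module.finrank K N) q) {v : K} (hv0 : v ≠ 0)
    (hv : ∀ w : K, v ≠ w ^ q) (w : N) : algebraMap K N v ≠ w ^ q := by
  intro h
  have h1 := congrArg (Algebra.norm K) h
  rw [Algebra.norm_algebraMap, map_pow] at h1
  obtain ⟨a, b, hab⟩ := Nat.isCoprime_iff_coprime.mpr hd
  apply hv ((Algebra.norm K w) ^ a * v ^ b)
  have h2 : v = (v ^ Module.finrank K N) ^ a * (v ^ q) ^ b := by
    rw [← zpow_natCast, ← zpow_natCast, ← zpow_mul, ← zpow_mul, ← zpow_add₀ hv0,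
      mul_comm (Module.finrank K N : ℤ), mul_comm (q : ℤ), hab, zpow_one]
  rw [h1] at h2
  rw [mul_pow]
  nth_rw 1 [h2]
  rw [← zpow_natCast, ← zpow_natCast, ← zpow_natCast, ← zpow_natCast, ← zpow_mul, ← zpow_mul,
    ← zpow_mul, ← zpow_mul]
  ring_nf

end Norm

/-! ### The theorem -/

section Main

variable {q : ℕ} [hq : Fact q.Prime]

/-- The two conditions together, over a field `N` containing the `q`-th roots of unity. -/
theorem exists_place_of_ray (hq2 : q ≠ 2) {K N : Type} [Field K] [NumberField K] [Field N]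
    [NumberField N] [Algebra K N] (hd : Nat.Coprime (Module.finrank K N) q) {ζ : 𝓞 N}
    (hζ : IsPrimitiveRoot ζ q) (H : Subgroup (ClassGroup (𝓞 K))) (hH : H ≠ ⊤)
    (hHq : ∀ c : ClassGroup (𝓞 K), c ^ q ∈ H) {v : 𝓞 K} (hv0 : v ≠ 0)
    (hv : ∀ w : K, (v : K) ≠ w ^ q) (B : ℕ) :
    ∃ P : HeightOneSpectrum (𝓞 N), (Ideal.absNorm P.asIdeal).Prime ∧ B < Ideal.absNorm P.asIdeal ∧
      (q : 𝓞 N) ∉ P.asIdeal ∧ algebraMap (𝓞 K) (𝓞 N) v ∉ P.asIdeal ∧
      ClassGroup.mk0 (rn (K := K) (pl P)) ∉ H ∧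
      ∀ w : 𝓞 N, w ^ q - algebraMap (𝓞 K) (𝓞 N) v ∉ P.asIdeal := by
  classical
  have hζN : IsPrimitiveRoot (algebraMap (𝓞 N) N ζ) q :=
    hζ.map_of_injective RingOfIntegers.coe_injective
  have hTC : IsTotallyComplex N := Recip.isTotallyComplex_of_odd hq.out hq2 hζN
  set v' : 𝓞 N := algebraMap (𝓞 K) (𝓞 N) v with hv'
  have hv'0 : v' ≠ 0 := by
    rw [hv', Ne, map_eq_zero_iff _ (FaithfulSMul.algebraMap_injective (𝓞 K) (𝓞 N))]
    exact hv0
  have hq0 : (q : 𝓞 N) ≠ 0 := by exact_mod_cast hq.out.ne_zero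
  -- the bad places
  have hfin : {P : HeightOneSpectrum (𝓞 N) | P.asIdeal ∣ Ideal.span {(q : 𝓞 N) * v'}}.Finite := by
    apply Ideal.finite_factors
    rw [Ne, Ideal.zero_eq_bot, Ideal.span_singleton_eq_bot]
    exact mul_ne_zero hq0 hv'0
  set S := hfin.toFinset with hSdef
  have hS1 : ∀ P : HeightOneSpectrum (𝓞 N), P ∉ S → (q : 𝓞 N) ∉ P.asIdeal ∧ v' ∉ P.asIdeal := by
    intro P hP
    constructor
    · intro h
      apply hP
      rw [hSdef, Set.Finite.mem_toFinset, Set.mem_ofPred_eq, Ideal.dvd_span_singleton]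
      exact P.asIdeal.mul_mem_right _ h
    · intro h
      apply hP
      rw [hSdef, Set.Finite.mem_toFinset, Set.mem_ofPred_eq, Ideal.dvd_span_singleton]
      exact P.asIdeal.mul_mem_left _ h
  have hSq : AboveP q S := by
    intro P hP
    by_contra h
    exact (hS1 P h).1 hP
  obtain ⟨LS, c, hc, hprod⟩ := CFT.Global2.exists_productFormula (p := q) N hζN
  obtain ⟨k, hk0, hk⟩ := Recip.exists_consts hζ LS hc
  obtain ⟨n, hn⟩ := Recip.exists_isRay_theta LS hprod hk hSq hv'0 (fun P hP => (hS1 P hP).2)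
  -- not a `q`-th power at some place
  have hvN : ∀ b : Nˣ, b ^ q ≠ unt hv'0 := by
    intro b hb
    have h1 := congrArg (fun u : Nˣ => (u : N)) hb
    simp only [Units.val_pow_eq_pow_val, unt_val] at h1
    refine not_pow_of_coprime (K := K) (N := N) hd (v := (v : K)) ?_ hv (b : N) ?_
    · exact_mod_cast hv0
    · rw [h1]
      rfl
  obtain ⟨P₁, hP₁S, hP₁⟩ := CFT.Global2.exists_notMem_locPow CFT.Global2.inputs hζN S hvN
  have hP₁i : ind q ζ P₁ v' ≠ 0 := by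
    rwa [Recip.mem_locPow_iff_ind hζ (hS1 P₁ hP₁S).1 hv'0 (hS1 P₁ hP₁S).2] at hP₁
  have h𝔪 := modS_ne_bot (K := N) S n
  obtain ⟨P, hPp, hPB, hPc, hP₁', hP₂'⟩ := exists_deg_one_of_two h𝔪
    (idVal S fun P => k P * ind q ζ P v') (clH (N := N) H)
    (fun I J h => idVal_eq_of_rayEq hn h) (fun I J h => clH_congr H h)
    ⟨pl P₁, coprime_of_notMem hP₁S, by
      rw [idVal_pl hP₁S]
      intro h
      have h1 : k P₁ * ind q ζ P₁ v' = 0 := Multiplicative.ofAdd.injective (h.trans ofAdd_zero.symm)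
      exact mul_ne_zero (hk0 P₁ (hS1 P₁ hP₁S).1) hP₁i h1⟩
    (exists_clH_ne_one hH hHq hd h𝔪) B
  have hPS : P ∉ S := notMem_of_coprime hPc
  refine ⟨P, hPp, hPB, (hS1 P hPS).1, (hS1 P hPS).2, (clH_ne_one_iff H (pl P)).mp hP₂', ?_⟩
  intro w hw
  apply hP₁'
  rw [idVal_pl hPS, (ind_eq_zero_iff hζ (hS1 P hPS).1 (hS1 P hPS).2).mpr ⟨w, hw⟩, mul_zero,
    ofAdd_zero]

/-- **The auxiliary primes of Thaine's theorem.** -/
theorem exists_thaine_prime {p q : ℕ} [hp : Fact p.Prime] [hq : Fact q.Prime] (hq2 : q ≠ 2)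
    (hpq : p ≠ q) {K : Type} [Field K] [NumberField K] [IsCyclotomicExtension {p} ℚ K]
    (H : Subgroup (ClassGroup (𝓞 K))) (hH : H ≠ ⊤) (hHq : ∀ c : ClassGroup (𝓞 K), c ^ q ∈ H)
    {v : 𝓞 K} (hv0 : v ≠ 0) (hv : ∀ w : K, (v : K) ≠ w ^ q) (B : ℕ) :
    ∃ (ℓ : ℕ) (P : HeightOneSpectrum (𝓞 K)), ℓ.Prime ∧ B < ℓ ∧ p * q ∣ ℓ - 1 ∧
      Ideal.absNorm P.asIdeal = ℓ ∧
      ClassGroup.mk0 ⟨P.asIdeal, mem_nonZeroDivisors_of_ne_zero P.ne_bot⟩ ∉ H ∧
      v ∉ P.asIdeal ∧ ∀ w : 𝓞 K, v - w ^ q ∉ P.asIdeal := by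
  let N := CyclotomicField q K
  have hNe : NeZero ((q : ℕ) : N) := ⟨by exact_mod_cast hq.out.ne_zero⟩
  have hζN : IsPrimitiveRoot (IsCyclotomicExtension.zeta q K N) q :=
    IsCyclotomicExtension.zeta_spec q K N
  have hζO : IsPrimitiveRoot hζN.toInteger q := hζN.toInteger_isPrimitiveRoot
  have hd : Nat.Coprime (Module.finrank K N) q := by
    have hG : IsGalois K N := IsCyclotomicExtension.isGalois {q} K N
    have h1 : Nat.card Gal(N/K) ∣ Nat.card (ZMod q)ˣ :=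
      Subgroup.card_dvd_of_injective _ (hζN.autToPow_injective (K := K))
    rw [IsGalois.card_aut_eq_finrank, Nat.card_eq_fintype_card, ZMod.card_units] at h1
    have h2 : 0 < Module.finrank K N := Module.finrank_pos
    refine Nat.Coprime.symm ((Nat.Prime.coprime_iff_not_dvd hq.out).mpr fun h => ?_)
    have h3 := Nat.le_of_dvd (by have := hq.out.two_le; omega) (h.trans h1)
    have := hq.out.two_le
    omega
  obtain ⟨P, hPp, hPB, hPq, hPv, hPH, hPw⟩ := exists_place_of_ray (K := K) (N := N) hq2 hd hζO H hH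
    hHq hv0 hv (max B (p * q))
  obtain ⟨hrn, habs⟩ := rn_pl (K := K) hPp
  set Q := HeightOneSpectrum.under (𝓞 K) P with hQ
  have hmem : ∀ x : 𝓞 K, x ∈ Q.asIdeal ↔ algebraMap (𝓞 K) (𝓞 N) x ∈ P.asIdeal := fun x => Iff.rfl
  set ℓ := Ideal.absNorm P.asIdeal with hℓ
  have hBℓ : B < ℓ := (le_max_left _ _).trans_lt hPB
  have hpqℓ : p * q < ℓ := (le_max_right _ _).trans_lt hPB
  -- `p` is not in `P`
  have hpP : (p : 𝓞 K) ∉ Q.asIdeal := by
    intro h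
    have h1 : (ℓ : 𝓞 K) ∈ Q.asIdeal := by
      rw [← habs]
      exact Ideal.absNorm_mem _
    have hne : p ≠ ℓ := by
      intro h
      have : p * 1 ≤ p * q := Nat.mul_le_mul_left p hq.out.one_lt.le
      omega
    obtain ⟨a, b, hab⟩ := Nat.isCoprime_iff_coprime.mpr ((Nat.coprime_primes hp.out hPp).mpr hne)
    apply Q.isPrime.ne_top
    rw [Ideal.eq_top_iff_one]
    have h2 : (1 : 𝓞 K) = (a : 𝓞 K) * (p : 𝓞 K) + (b : 𝓞 K) * (ℓ : 𝓞 K) := by
      exact_mod_cast congrArg (fun z : ℤ => (z : 𝓞 K)) hab.symm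
    rw [h2]
    exact Q.asIdeal.add_mem (Q.asIdeal.mul_mem_left _ h) (Q.asIdeal.mul_mem_left _ h1)
  refine ⟨ℓ, Q, hPp, hBℓ, ?_, habs, ?_, ?_, ?_⟩
  · refine Nat.Coprime.mul_dvd_of_dvd_of_dvd ((Nat.coprime_primes hp.out hq.out).mpr hpq) ?_ ?_
    · rw [← habs]
      exact Recip.dvd_absNorm_sub_one (ζ := (IsCyclotomicExtension.zeta_spec p ℚ K).toInteger)
        (IsCyclotomicExtension.zeta_spec p ℚ K).toInteger_isPrimitiveRoot hpP
    · exact Recip.dvd_absNorm_sub_one hζO hPq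
  · have h1 : rn (K := K) (pl P) = ⟨Q.asIdeal, mem_nonZeroDivisors_of_ne_zero Q.ne_bot⟩ :=
      Subtype.ext hrn
    rwa [h1] at hPH
  · exact fun h => hPv ((hmem v).mp h)
  · intro w h
    apply hPw (algebraMap (𝓞 K) (𝓞 N) w)
    have h1 := P.asIdeal.neg_mem ((hmem _).mp h)
    rwa [map_sub, map_pow, neg_sub] at h1

end Main

end Fermat.Agent.Cor.Catalan
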