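import Fermat.Agent.Corollaries.Catalan.Defs

/-!
# Catalan's equation: basic lemmas on `sg`, `pw`, `clPw`
-/

set_option autoImplicit false

namespace Fermat.Agent.Cor.Catalan

open NumberField Polynomial nonZeroDivisors

section Field

variable {p : ℕ} [Fact p.Prime] {K : Type} [Field K] [NumberField K]
  [IsCyclotomicExtension {p} ℚ K]

theorem sg_one : sg p K 1 = 1 := map_one _

theorem sg_mul (a b : (ZMod p)ˣ) : sg p K (a * b) = sg p K a * sg p K b := map_mul _ _ _

theorem sg_mul_apply (a b : (ZMod p)ˣ) (z : K) :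
    sg p K (a * b) z = sg p K a (sg p K b z) := by
  rw [sg_mul]; rfl

theorem sg_bijective : Function.Bijective (sg p K) :=
  (JacobiSumStickelberger.cycloGalEquiv p K).symm.bijective

/-- `σ_a ζ = ζ ^ a` for every primitive root of unity `ζ` -/
theorem sg_apply {ζ : K} (hζ : IsPrimitiveRoot ζ p) (a : (ZMod p)ˣ) :
    sg p K a ζ = ζ ^ (a : ZMod p).val := by
  have hz := IsCyclotomicExtension.zeta_spec p ℚ K
  have h1 : hz.autToPow ℚ (sg p K a) = a := by
    have h2 : (JacobiSumStickelberger.cycloGalEquiv p K) (sg p K a) = a :=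
      (JacobiSumStickelberger.cycloGalEquiv p K).apply_symm_apply a
    exact h2
  have h3 := hz.autToPow_spec ℚ (sg p K a)
  rw [h1] at h3
  obtain ⟨i, -, hi⟩ := hz.eq_pow_of_pow_eq_one hζ.pow_eq_one
  rw [← hi, map_pow, ← h3, ← pow_mul, ← pow_mul, mul_comm]

theorem sg_ne_zero (a : (ZMod p)ˣ) {z : K} (hz : z ≠ 0) : sg p K a z ≠ 0 := by
  rwa [Ne, map_eq_zero_iff _ (sg p K a).injective]

theorem pw_zero (z : K) : pw p K 0 z = 1 := by simp [pw]

theorem pw_add (m n : (ZMod p)ˣ → ℤ) {z : K} (hz : z ≠ 0) :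
    pw p K (m + n) z = pw p K m z * pw p K n z := by
  rw [pw, pw, pw, ← Finset.prod_mul_distrib]
  exact Finset.prod_congr rfl fun a _ => zpow_add₀ (sg_ne_zero a hz) _ _

theorem pw_neg (n : (ZMod p)ˣ → ℤ) (z : K) : pw p K (-n) z = (pw p K n z)⁻¹ := by
  rw [pw, pw, ← Finset.prod_inv_distrib]
  exact Finset.prod_congr rfl fun a _ => zpow_neg _ _

theorem pw_sub (m n : (ZMod p)ˣ → ℤ) {z : K} (hz : z ≠ 0) :
    pw p K (m - n) z = pw p K m z / pw p K n z := by
  rw [sub_eq_add_neg, pw_add _ _ hz, pw_neg, div_eq_mul_inv]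

theorem pw_smul (k : ℤ) (n : (ZMod p)ˣ → ℤ) (z : K) : pw p K (k • n) z = (pw p K n z) ^ k := by
  rw [pw, pw, ← Finset.prod_zpow]
  refine Finset.prod_congr rfl fun a _ => ?_
  rw [Pi.smul_apply, smul_eq_mul, mul_comm, zpow_mul]

theorem pw_sum {ι : Type*} (s : Finset ι) (n : ι → (ZMod p)ˣ → ℤ) {z : K} (hz : z ≠ 0) :
    pw p K (∑ i ∈ s, n i) z = ∏ i ∈ s, pw p K (n i) z := by
  classical
  induction s using Finset.induction_on with
  | empty => simp [pw]
  | insert i s hi ih => rw [Finset.sum_insert hi, Finset.prod_insert hi, pw_add _ _ hz, ih]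

theorem pw_mul (n : (ZMod p)ˣ → ℤ) (z w : K) : pw p K n (z * w) = pw p K n z * pw p K n w := by
  rw [pw, pw, pw, ← Finset.prod_mul_distrib]
  exact Finset.prod_congr rfl fun a _ => by rw [map_mul, mul_zpow]

theorem pw_one (n : (ZMod p)ˣ → ℤ) : pw p K n 1 = 1 := by
  rw [pw]
  exact Finset.prod_eq_one fun a _ => by rw [map_one, one_zpow]

theorem pw_inv (n : (ZMod p)ˣ → ℤ) (z : K) : pw p K n z⁻¹ = (pw p K n z)⁻¹ := by
  rw [pw, pw, ← Finset.prod_inv_distrib]
  exact Finset.prod_congr rfl fun a _ => by rw [map_inv₀, inv_zpow]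

theorem pw_pow (n : (ZMod p)ˣ → ℤ) (z : K) (k : ℕ) : pw p K n (z ^ k) = (pw p K n z) ^ k := by
  rw [pw, pw, ← Finset.prod_pow]
  exact Finset.prod_congr rfl fun a _ => by
    rw [map_pow, ← zpow_natCast, ← zpow_natCast, ← zpow_mul, ← zpow_mul, mul_comm]

theorem pw_zpow (n : (ZMod p)ˣ → ℤ) (z : K) (k : ℤ) : pw p K n (z ^ k) = (pw p K n z) ^ k := by
  rw [pw, pw, ← Finset.prod_zpow]
  exact Finset.prod_congr rfl fun a _ => by rw [map_zpow₀, ← zpow_mul, ← zpow_mul, mul_comm]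

theorem pw_ne_zero (n : (ZMod p)ˣ → ℤ) {z : K} (hz : z ≠ 0) : pw p K n z ≠ 0 :=
  Finset.prod_ne_zero_iff.mpr fun a _ => zpow_ne_zero _ (sg_ne_zero a hz)

theorem pw_single (a : (ZMod p)ˣ) (k : ℤ) (z : K) :
    pw p K (Pi.single a k) z = (sg p K a z) ^ k := by
  classical
  rw [pw, Finset.prod_eq_single a]
  · rw [Pi.single_eq_same]
  · intro b _ hb
    rw [Pi.single_eq_of_ne hb, zpow_zero]
  · intro h
    exact absurd (Finset.mem_univ a) h

/-- the translate `σ_b n` -/
theorem sg_pw (b : (ZMod p)ˣ) (n : (ZMod p)ˣ → ℤ) (z : K) :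
    sg p K b (pw p K n z) = pw p K (fun a => n (b⁻¹ * a)) z := by
  rw [pw, pw, map_prod]
  refine Fintype.prod_equiv (Equiv.mulLeft b) _ _ fun a => ?_
  rw [map_zpow₀, Equiv.coe_mulLeft, inv_mul_cancel_left, sg_mul_apply]

theorem pw_sg (b : (ZMod p)ˣ) (n : (ZMod p)ˣ → ℤ) (z : K) :
    pw p K n (sg p K b z) = pw p K (fun a => n (b⁻¹ * a)) z := by
  rw [pw, pw]
  refine Fintype.prod_equiv (Equiv.mulLeft b) _ _ fun a => ?_
  simp only [Equiv.coe_mulLeft, inv_mul_cancel_left]
  rw [mul_comm b a, sg_mul_apply]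

/-- the product in the group ring -/
theorem pw_pw (m n : (ZMod p)ˣ → ℤ) {z : K} (hz : z ≠ 0) :
    pw p K m (pw p K n z) = pw p K (fun a => ∑ b, m b * n (b⁻¹ * a)) z := by
  have h1 : (fun a => ∑ b, m b * n (b⁻¹ * a)) =
      ∑ b, (m b) • (fun a => n (b⁻¹ * a)) := by
    funext a
    rw [Finset.sum_apply]
    rfl
  rw [h1, pw_sum _ _ hz]
  conv_lhs => rw [pw]
  refine Finset.prod_congr rfl fun b _ => ?_
  rw [pw_smul, sg_pw]

/-- exponents divisible by `q` give `q`-th powers -/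
theorem exists_pw_eq_pow {q : ℕ} {n : (ZMod p)ˣ → ℤ} (hn : ∀ a, (q : ℤ) ∣ n a) (z : K) :
    ∃ w : K, pw p K n z = w ^ q := by
  choose k hk using hn
  refine ⟨pw p K k z, ?_⟩
  have : n = (q : ℤ) • k := by
    funext a
    rw [Pi.smul_apply, smul_eq_mul, hk]
  rw [this, pw_smul, zpow_natCast]

/-! ### Polynomials in a fixed `s` -/

theorem plEl_eq (s : (ZMod p)ˣ) (P : ℤ[X]) (n : ℕ) (hn : P.natDegree < n) :
    plEl p s P = ∑ i ∈ Finset.range n, Pi.single (s ^ i) (P.coeff i) := by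
  rw [plEl]
  refine Finset.sum_subset (fun i hi => ?_) fun i _ hi => ?_
  · exact Finset.mem_range.mpr ((le_natDegree_of_mem_supp i hi).trans_lt hn)
  · rw [notMem_support_iff.mp hi, Pi.single_zero]

theorem plEl_add (s : (ZMod p)ˣ) (P Q : ℤ[X]) : plEl p s (P + Q) = plEl p s P + plEl p s Q := by
  set n := max (max P.natDegree Q.natDegree) (P + Q).natDegree + 1 with hn
  rw [plEl_eq s P n (by omega), plEl_eq s Q n (by omega), plEl_eq s (P + Q) n (by omega),
    ← Finset.sum_add_distrib]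
  refine Finset.sum_congr rfl fun i _ => ?_
  rw [coeff_add, Pi.single_add]

theorem plEl_zero (s : (ZMod p)ˣ) : plEl p s 0 = 0 := by simp [plEl]

theorem plEl_monomial (s : (ZMod p)ˣ) (i : ℕ) (c : ℤ) :
    plEl p s (monomial i c) = Pi.single (s ^ i) c := by
  rw [plEl_eq s _ (i + 1) ((natDegree_monomial_le c).trans_lt (Nat.lt_succ_self i)),
    Finset.sum_eq_single i]
  · rw [coeff_monomial_same]
  · intro j _ hj
    rw [coeff_monomial_of_ne _ hj, Pi.single_zero]
  · intro h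
    exact absurd (Finset.mem_range.mpr (Nat.lt_succ_self i)) h

theorem plEl_C_mul (s : (ZMod p)ˣ) (c : ℤ) (P : ℤ[X]) :
    plEl p s (C c * P) = c • plEl p s P := by
  induction P using Polynomial.induction_on' with
  | add P Q hP hQ => rw [mul_add, plEl_add, plEl_add, hP, hQ, smul_add]
  | monomial i d =>
    rw [C_mul_monomial, plEl_monomial, plEl_monomial]
    funext a
    rw [Pi.smul_apply, smul_eq_mul]
    by_cases h : a = s ^ i
    · subst h
      rw [Pi.single_eq_same, Pi.single_eq_same]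
    · rw [Pi.single_eq_of_ne h, Pi.single_eq_of_ne h, mul_zero]

/-- `P(s)` and `Q(s)` act as `(P Q)(s)` -/
theorem pw_plEl_mul (s : (ZMod p)ˣ) (P Q : ℤ[X]) {z : K} (hz : z ≠ 0) :
    pw p K (plEl p s (P * Q)) z = pw p K (plEl p s P) (pw p K (plEl p s Q) z) := by
  induction P using Polynomial.induction_on' with
  | add P P' hP hP' =>
    rw [add_mul, plEl_add, pw_add _ _ hz, plEl_add, pw_add _ _ (pw_ne_zero _ hz), hP, hP']
  | monomial i c =>
    induction Q using Polynomial.induction_on' with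
    | add Q Q' hQ hQ' =>
      rw [mul_add, plEl_add, pw_add _ _ hz, plEl_add, pw_add _ _ hz, hQ, hQ', ← pw_mul]
    | monomial j d =>
      rw [monomial_mul_monomial, plEl_monomial, plEl_monomial, plEl_monomial, pw_single,
        pw_single, pw_single, pow_add, sg_mul_apply, map_zpow₀, ← zpow_mul, mul_comm d c]

theorem pw_plEl_add (s : (ZMod p)ˣ) (P Q : ℤ[X]) {z : K} (hz : z ≠ 0) :
    pw p K (plEl p s (P + Q)) z = pw p K (plEl p s P) z * pw p K (plEl p s Q) z := by
  rw [plEl_add, pw_add _ _ hz]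

theorem pw_plEl_one (s : (ZMod p)ˣ) (z : K) : pw p K (plEl p s 1) z = z := by
  rw [← monomial_zero_one, plEl_monomial, pw_single, pow_zero, zpow_one, sg_one]
  rfl

/-! ### Ideal classes -/

theorem clAct_mul (a b : (ZMod p)ˣ) (c : ClassGroup (𝓞 K)) :
    clAct p K (a * b) c = clAct p K a (clAct p K b c) := by
  rw [clAct, clAct, clAct, map_mul]
  exact ClassGroup.mulEquiv_trans_apply _ _ c

theorem clAct_one (c : ClassGroup (𝓞 K)) : clAct p K 1 c = c := by
  rw [clAct, map_one]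
  exact ClassGroup.mulEquiv_refl_apply c

theorem clAct_mk0 (a : (ZMod p)ˣ) (I : (Ideal (𝓞 K))⁰) :
    clAct p K a (ClassGroup.mk0 I) =
      ClassGroup.mk0 (Ideal.mapNonZero (JacobiSumStickelberger.clRingAction p K a) I) :=
  ClassGroup.mulEquiv_mk0 _ _

theorem coe_clRingAction (a : (ZMod p)ˣ) (z : 𝓞 K) :
    ((JacobiSumStickelberger.clRingAction p K a z : 𝓞 K) : K) = sg p K a z :=
  algebraMap_galRestrict_apply ℤ (sg p K a) z

theorem clPw_add (m n : (ZMod p)ˣ → ℤ) (c : ClassGroup (𝓞 K)) :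
    clPw p K (m + n) c = clPw p K m c * clPw p K n c := by
  rw [clPw, clPw, clPw, ← Finset.prod_mul_distrib]
  exact Finset.prod_congr rfl fun a _ => zpow_add _ _ _

theorem clPw_mul (n : (ZMod p)ˣ → ℤ) (c d : ClassGroup (𝓞 K)) :
    clPw p K n (c * d) = clPw p K n c * clPw p K n d := by
  rw [clPw, clPw, clPw, ← Finset.prod_mul_distrib]
  exact Finset.prod_congr rfl fun a _ => by rw [map_mul, mul_zpow]

theorem clPw_single (a : (ZMod p)ˣ) (k : ℤ) (c : ClassGroup (𝓞 K)) :
    clPw p K (Pi.single a k) c = (clAct p K a c) ^ k := by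
  classical
  rw [clPw, Finset.prod_eq_single a]
  · rw [Pi.single_eq_same]
  · intro b _ hb
    rw [Pi.single_eq_of_ne hb, zpow_zero]
  · intro h
    exact absurd (Finset.mem_univ a) h

theorem clPw_plEl_mul (s : (ZMod p)ˣ) (P Q : ℤ[X]) (c : ClassGroup (𝓞 K)) :
    clPw p K (plEl p s (P * Q)) c = clPw p K (plEl p s P) (clPw p K (plEl p s Q) c) := by
  induction P using Polynomial.induction_on' with
  | add P P' hP hP' => rw [add_mul, plEl_add, clPw_add, plEl_add, clPw_add, hP, hP']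
  | monomial i k =>
    induction Q using Polynomial.induction_on' with
    | add Q Q' hQ hQ' =>
      rw [mul_add, plEl_add, clPw_add, plEl_add, clPw_add, hQ, hQ', ← clPw_mul]
    | monomial j d =>
      rw [monomial_mul_monomial, plEl_monomial, plEl_monomial, plEl_monomial, clPw_single,
        clPw_single, clPw_single, pow_add, clAct_mul, map_zpow, ← zpow_mul, mul_comm d k]

end Field

end Fermat.Agent.Cor.Catalan
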