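import Fermat.Agent.Corollaries.Catalan.Prim

/-!
# Catalan's equation: the Bezout argument (C13c)

If the `g`-parts of `1 - ζ` are `q`-primary for all irreducible `g ∣ X ^ m - 1`,
`m = (p - 1) / 2`, then `1 - ζ` is `q`-primary: the polynomials `P ∈ 𝔽_q[X]` such that
`(1 - ζ) ^ P(s)` is primary form an ideal `(d)`; no `g` divides `d`, so `d ∣ X ^ m + 1`, hence
`(1 - ζ)(1 - ζ⁻¹) = -ζ⁻¹ (1 - ζ) ^ 2` is primary.
-/

set_option autoImplicit false

namespace Fermat.Agent.Cor.Catalan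

open NumberField Polynomial

section Ideal

variable {p : ℕ} [Fact p.Prime] {K : Type} [Field K] [NumberField K]
  [IsCyclotomicExtension {p} ℚ K] {q : ℕ} [hq : Fact q.Prime]

/-- a polynomial `≡ 0 mod q` gives `q`-th powers -/
lemma prim_of_map_eq_zero (s : (ZMod p)ˣ) {P : ℤ[X]} (hP : P.map (Int.castRingHom (ZMod q)) = 0)
    {z : K} (hz : z ≠ 0) : Prim q K (pw p K (plEl p s P) z) := by
  obtain ⟨R, rfl⟩ := exists_C_mul_of_map_eq_zero hP
  rw [plEl_C_mul, pw_smul, zpow_natCast]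
  exact Prim.pow_self q (pw_ne_zero _ hz)

/-- the ideal of the polynomials `P` such that `z ^ P(s)` is primary -/
def primIdeal (s : (ZMod p)ˣ) {z : K} (hz : z ≠ 0) : Ideal (ZMod q)[X] where
  carrier := {P | ∀ R : ℤ[X], R.map (Int.castRingHom (ZMod q)) = P →
    Prim q K (pw p K (plEl p s R) z)}
  zero_mem' := fun R hR => prim_of_map_eq_zero s hR hz
  add_mem' := by
    intro P Q hP hQ R hR
    obtain ⟨Q', hQ'⟩ := Polynomial.map_surjective (Int.castRingHom (ZMod q))
      (ZMod.ringHom_surjective _) Q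
    have h1 : R = (R - Q') + Q' := by ring
    rw [h1, pw_plEl_add _ _ _ hz]
    refine (hP _ ?_).mul (hQ _ hQ')
    rw [Polynomial.map_sub, hR, hQ', add_sub_cancel_right]
  smul_mem' := by
    intro Q P hP R hR
    obtain ⟨Q', hQ'⟩ := Polynomial.map_surjective (Int.castRingHom (ZMod q))
      (ZMod.ringHom_surjective _) Q
    obtain ⟨P', hP'⟩ := Polynomial.map_surjective (Int.castRingHom (ZMod q))
      (ZMod.ringHom_surjective _) P
    have h1 : R = Q' * P' + (R - Q' * P') := by ring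
    rw [h1, pw_plEl_add _ _ _ hz, pw_plEl_mul _ _ _ hz]
    refine ((hP _ hP').pw hq.out _).mul (prim_of_map_eq_zero s ?_ hz)
    rw [Polynomial.map_sub, Polynomial.map_mul, hR, hQ', hP', smul_eq_mul, sub_self]

lemma mem_primIdeal {s : (ZMod p)ˣ} {z : K} (hz : z ≠ 0) {P : (ZMod q)[X]} :
    P ∈ primIdeal s hz ↔ ∀ R : ℤ[X], R.map (Int.castRingHom (ZMod q)) = P →
      Prim q K (pw p K (plEl p s R) z) := Iff.rfl

end Ideal

/-- a generator of `(ZMod p)ˣ` to the power `(p - 1) / 2` is `-1` -/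
lemma bez_pow_half {p : ℕ} [hp : Fact p.Prime] (hp2 : p ≠ 2) {s : (ZMod p)ˣ}
    (hs : ∀ a, a ∈ Subgroup.zpowers s) : s ^ ((p - 1) / 2) = -1 := by
  have hord : orderOf s = p - 1 := by
    rw [orderOf_eq_card_of_forall_mem_zpowers hs, Nat.card_eq_fintype_card, ZMod.card_units]
  have h2 := hp.out.two_le
  have hodd := hp.out.odd_of_ne_two hp2
  obtain ⟨m, hm⟩ := hodd
  have hm2 : (p - 1) / 2 = m := by omega
  have hm0 : 0 < m := by omega
  rw [hm2]
  have h3 : (s ^ m) ^ 2 = 1 := by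
    rw [← pow_mul, orderOf_dvd_iff_pow_eq_one.symm, hord]
    exact ⟨1, by omega⟩
  have h4 : s ^ m ≠ 1 := by
    intro h
    have h5 := Nat.le_of_dvd hm0 (orderOf_dvd_of_pow_eq_one h)
    omega
  have h6 : ((s ^ m : (ZMod p)ˣ) : ZMod p) ^ 2 = 1 := by
    rw [← Units.val_pow_eq_pow_val, h3, Units.val_one]
  rw [pow_two] at h6
  rcases mul_self_eq_one_iff.mp h6 with h7 | h7
  · exact absurd (Units.ext h7) h4
  · exact Units.ext (by rw [h7, Units.val_neg, Units.val_one])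

/-- **(C13c)** -/
theorem bezStmt : BezStmt := by
  intro p q hp hq hp2 hq2 hpq hqp K _ _ _ ζ hζ s hs H
  have hζK : IsPrimitiveRoot (ζ : K) p := hζ.map_of_injective RingOfIntegers.coe_injective
  have hz : (1 : K) - ζ ≠ 0 := by
    rw [sub_ne_zero]
    exact (hζK.ne_one hp.out.one_lt).symm
  set z : K := 1 - ζ with hzdef
  set m := (p - 1) / 2 with hm
  have hp2' := hp.out.two_le
  obtain ⟨m', hm'⟩ := hp.out.odd_of_ne_two hp2
  have hm2 : p - 1 = m + m := by omega
  have hm0 : 0 < m := by omega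
  -- the ideal
  obtain ⟨d, hd⟩ := (IsPrincipalIdealRing.principal (primIdeal (q := q) s hz)).principal
  have hmem : ∀ P : (ZMod q)[X], P ∈ primIdeal (q := q) s hz ↔ d ∣ P := by
    intro P
    rw [hd]
    exact Ideal.mem_span_singleton
  have hfac : (X ^ (p - 1) - 1 : (ZMod q)[X]) = (X ^ m - 1) * (X ^ m + 1) := by
    rw [hm2, pow_add]
    ring
  have hne : (X ^ (p - 1) - 1 : (ZMod q)[X]) ≠ 0 :=
    (monic_X_pow_sub_C (1 : ZMod q) (by omega)).ne_zero
  have hd1 : d ∣ (X ^ (p - 1) - 1 : (ZMod q)[X]) := by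
    rw [← hmem, mem_primIdeal]
    intro R hR
    obtain ⟨w, hw⟩ := exists_pw_eq_pow (q := q) (fun a => dvd_plEl s (P := R) (by rw [hR]) a) z
    rw [hw]
    refine Prim.pow_self q ?_
    rintro rfl
    rw [zero_pow hq.out.ne_zero] at hw
    exact pw_ne_zero _ hz hw
  have hsq : Squarefree (X ^ (p - 1) - 1 : (ZMod q)[X]) := by
    apply Separable.squarefree
    rw [X_pow_sub_one_separable_iff]
    rw [Ne, ZMod.natCast_eq_zero_iff]
    exact hqp
  have hcop : IsCoprime d (X ^ m - 1 : (ZMod q)[X]) := by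
    refine isCoprime_of_irreducible_dvd ?_ ?_
    · rintro ⟨-, h⟩
      rw [hfac, h, zero_mul] at hne
      exact hne rfl
    · intro g hg hgd hgm
      obtain ⟨h', hh'⟩ : g ∣ (X ^ (p - 1) - 1 : (ZMod q)[X]) := by
        rw [hfac]
        exact hgm.mul_right _
      have h1 : h' ∈ primIdeal (q := q) s hz := by
        rw [mem_primIdeal]
        intro R hR
        refine H g hg hgm R ?_
        rw [hR, hh', mul_comm]
      rw [hmem] at h1
      have h2 : g * g ∣ (X ^ (p - 1) - 1 : (ZMod q)[X]) := by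
        rw [hh']
        exact mul_dvd_mul_left g (hgd.trans h1)
      exact hg.not_isUnit (hsq g h2)
  have hd2 : d ∣ (X ^ m + 1 : (ZMod q)[X]) := by
    rw [hfac] at hd1
    exact hcop.dvd_of_dvd_mul_left hd1
  -- the norm to the real subfield
  rw [← hmem, mem_primIdeal] at hd2
  have h1 := hd2 (X ^ m + 1) (by simp)
  have h2 : pw p K (plEl p s (X ^ m + 1)) z = sg p K (-1) z * z := by
    rw [pw_plEl_add _ _ _ hz, pw_plEl_one, ← monomial_one_right_eq_X_pow, plEl_monomial, pw_single,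
      zpow_one, bez_pow_half hp2 hs]
  rw [h2] at h1
  -- `σ (1 - ζ) (1 - ζ) = -ζ⁻¹ (1 - ζ) ^ 2`
  have hζ0 : (ζ : K) ≠ 0 := hζK.ne_zero hp.out.ne_zero
  have h3 : sg p K (-1) (ζ : K) = (ζ : K)⁻¹ := by
    rw [sg_apply hζK]
    apply eq_inv_of_mul_eq_one_left
    rw [← pow_succ, hζK.pow_eq_one_iff_dvd,
      ← ZMod.natCast_eq_zero_iff, Nat.cast_add, ZMod.natCast_zmod_val, Units.val_neg,
      Units.val_one, Nat.cast_one, neg_add_cancel]
  obtain ⟨η, hη, hηq⟩ := exists_root_of_unity hζ hq.out hpq.symm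
  have hη0 : (η : K) ≠ 0 := by
    simpa using hη.ne_zero hp.out.ne_zero
  have hηq' : (η : K) ^ q = ζ := by
    rw [← hηq]
    simp
  have hodd : Odd q := hq.out.odd_of_ne_two hq2
  have h4 : sg p K (-1) z * z = z ^ 2 * (-(η : K)⁻¹) ^ q := by
    rw [hodd.neg_pow, inv_pow, hηq', hzdef, map_sub, map_one, h3]
    field_simp
    ring
  rw [h4] at h1
  have h5 : Prim q K (z ^ 2) := h1.of_mul_pow (neg_ne_zero.mpr (inv_ne_zero hη0))
  obtain ⟨k, hk⟩ := hodd
  have h6 := h5.pow (k + 1)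
  have h7 : (z ^ 2) ^ (k + 1) = z * z ^ q := by
    rw [← pow_mul, ← pow_succ', hk]
    congr 1
  rw [h7] at h6
  exact h6.of_mul_pow hz

end Fermat.Agent.Cor.Catalan
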