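import Fermat.Agent.Corollaries.Catalan.Defs
import Fermat.Agent.Corollaries.Cat.Mih

/-!
# Catalan's equation: the ideal `(x - ζ)` of `ℚ(ζ)`

For a solution of `x ^ p - y ^ q = 1` the ideal `(x - ζ)` is `(1 - ζ) I ^ q`, where the conjugates of
`I` are pairwise coprime and prime to `p`.
-/

set_option autoImplicit false
set_option linter.style.haveILetI false

namespace Fermat.Agent.Cor.Catalan.XZ

open NumberField Finset

section

variable (p : ℕ) [hp : Fact p.Prime] (K : Type) [Field K] [NumberField K]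
  [hcyc : IsCyclotomicExtension {p} ℚ K]

/-- The two descriptions of the action of `σ_a` on the ring of integers. -/
theorem clRingAction_eq (a : (ZMod p)ˣ) :
    JacobiSumStickelberger.clRingAction p K a = Cat.Mih.act (sg p K a) := by
  ext y
  exact algebraMap_galRestrict_apply ℤ (sg p K a) y

theorem sg_mul (a b : (ZMod p)ˣ) : sg p K (a * b) = sg p K a * sg p K b :=
  map_mul (JacobiSumStickelberger.cycloGalEquiv p K).symm a b

theorem sg_injective : Function.Injective (sg p K) :=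
  (JacobiSumStickelberger.cycloGalEquiv p K).symm.injective

theorem sg_one : sg p K 1 = 1 :=
  map_one (JacobiSumStickelberger.cycloGalEquiv p K).symm

variable {K}

/-- `σ_a ζ = ζ ^ a` -/
theorem sg_apply {ζ : K} (hζ : IsPrimitiveRoot ζ p) (a : (ZMod p)ˣ) :
    sg p K a ζ = ζ ^ (a : ZMod p).val := by
  have h0 := IsCyclotomicExtension.zeta_spec p ℚ K
  obtain ⟨j, -, hj⟩ := h0.eq_pow_of_pow_eq_one hζ.pow_eq_one
  have h1 : sg p K a (IsCyclotomicExtension.zeta p ℚ K) =
      (IsCyclotomicExtension.zeta p ℚ K) ^ (a : ZMod p).val := by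
    have h2 := h0.autToPow_spec ℚ (sg p K a)
    rw [← h2]
    congr 2
    have h3 : (JacobiSumStickelberger.cycloGalEquiv p K) (sg p K a) = a :=
      (JacobiSumStickelberger.cycloGalEquiv p K).apply_symm_apply a
    have h4 : h0.autToPow ℚ (sg p K a) = a := h3
    rw [h4]
  rw [← hj, map_pow, h1, ← pow_mul, ← pow_mul, mul_comm]

end

section

variable {p : ℕ} [hp : Fact p.Prime] {K : Type} [Field K] [NumberField K]
  [hcyc : IsCyclotomicExtension {p} ℚ K]

include hcyc in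
/-- `(x - ζ) / (1 - ζ)` is integral -/
theorem exists_quot {z : 𝓞 K} (hz : IsPrimitiveRoot z p) {x : ℤ} (hx : (p : ℤ) ∣ x - 1) :
    ∃ l : 𝓞 K, (1 - z) * l = x - z := by
  have h3 : (1 - z) ∣ ((x - 1 : ℤ) : 𝓞 K) := by
    have h4 : ((p : ℤ) : 𝓞 K) ∣ ((x - 1 : ℤ) : 𝓞 K) := Int.cast_dvd_cast _ _ hx
    rw [Int.cast_natCast] at h4
    exact (dvd_trans (dvd_pow_self _ (by have := hp.out.two_le; omega))
      (Cat.Mih.one_sub_pow_dvd hz)).trans h4
  obtain ⟨k, hk⟩ := h3
  refine ⟨1 + k, ?_⟩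
  push_cast at hk
  linear_combination -hk

include hcyc in
/-- the norm of `(x - ζ) / (1 - ζ)` -/
theorem prod_quot {z : 𝓞 K} (hz : IsPrimitiveRoot z p) {x u : ℤ} {q : ℕ} {l : 𝓞 K}
    (hl : (1 - z) * l = x - z) (h2 : ∑ i ∈ range p, x ^ i = p * u ^ q) :
    ∏ σ : K ≃ₐ[ℚ] K, Cat.Mih.act σ l = (u : 𝓞 K) ^ q := by
  have hone : ∏ σ : K ≃ₐ[ℚ] K, Cat.Mih.act σ (1 - z) = (p : 𝓞 K) := by
    have h3 := Cat.Mih.prod_act hz 1
    simp only [Int.cast_one, one_pow, sum_const, card_range, nsmul_eq_mul, mul_one] at h3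
    rw [Int.cast_natCast] at h3
    rw [← h3]
    exact prod_congr rfl fun σ _ => by rw [map_sub, map_one]
  have hpne : (p : 𝓞 K) ≠ 0 := Nat.cast_ne_zero.mpr hp.out.ne_zero
  apply mul_left_cancel₀ hpne
  have h3 := Cat.Mih.prod_act hz x
  rw [h2] at h3
  push_cast at h3
  rw [← h3]
  nth_rewrite 1 [← hone]
  rw [← prod_mul_distrib]
  refine prod_congr rfl fun σ _ => ?_
  rw [← map_mul, hl, map_sub, map_intCast]

end

end XZ

open XZ NumberField Finset

/-- (C5) The ideal of `x - ζ`. -/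
theorem idealStmt_of (hRel : RelStmt) : IdealStmt := by
  intro p q x y h hp K _ _ _ ζ hζ
  obtain ⟨hpq, a, u, h1, h2, h3, h4, h5, h6, h7⟩ := hRel p q x y h
  have hq0 : q ≠ 0 := h.hq.ne_zero
  have hpdvd : (p : ℤ) ∣ x - 1 := by
    rw [h1]
    exact (dvd_pow_self _ (by have := h.hq.two_le; omega)).mul_right _
  obtain ⟨l, hl⟩ := exists_quot hζ hpdvd
  have hprod := prod_quot hζ hl h2
  obtain ⟨I, hI⟩ := Cat.Mih.exists_ideal hζ hl hprod
  have hlu : l ∣ (u : 𝓞 K) ^ q := by
    rw [← hprod]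
    exact dvd_prod_of_mem (fun σ : K ≃ₐ[ℚ] K => Cat.Mih.act σ l) (mem_univ 1)
  have hu0 : (u : 𝓞 K) ≠ 0 := by
    have : u ≠ 0 := by omega
    exact_mod_cast this
  have hl0 : l ≠ 0 := by
    rintro rfl
    exact pow_ne_zero q hu0 (zero_dvd_iff.mp hlu)
  refine ⟨I, ?_, ?_, ?_, ?_, ?_⟩
  · rw [← hI, Ideal.span_singleton_mul_span_singleton, hl]
  · rintro rfl
    rw [Ideal.top_pow, Ideal.span_singleton_eq_top] at hI
    have h8 : IsUnit ((u : 𝓞 K) ^ q) := by
      rw [← hprod, IsUnit.prod_univ_iff]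
      exact fun σ => hI.map (Cat.Mih.act σ)
    have h9 : ((u : ℤ) : 𝓞 K) ∣ ((1 : ℤ) : 𝓞 K) := by
      rw [Int.cast_one]
      exact ((isUnit_pow_iff hq0).mp h8).dvd
    have h10 := Cat.Mih.intCast_dvd_iff h9
    have := Int.le_of_dvd one_pos h10
    omega
  · rintro rfl
    rw [← Ideal.zero_eq_bot, zero_pow hq0, Ideal.zero_eq_bot, Ideal.span_singleton_eq_bot] at hI
    exact hl0 hI
  · have h8 : IsCoprime l ((p : ℤ) : 𝓞 K) := by
      have h9 : IsCoprime u (p : ℤ) := by
        rw [isCoprime_comm]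
        exact (Nat.prime_iff_prime_int.mp h.hp).coprime_iff_not_dvd.mpr h4
      have h10 := (h9.map (Int.castRingHom (𝓞 K))).pow_left (m := q)
      exact IsCoprime.of_isCoprime_of_dvd_left h10 (by simpa using hlu)
    rw [Int.cast_natCast, ← Ideal.isCoprime_span_singleton_iff, hI] at h8
    exact (IsCoprime.pow_left_iff (Nat.pos_of_ne_zero hq0)).mp h8
  · intro b hb
    have h8 : IsCoprime l (Cat.Mih.act (sg p K b) l) := by
      have hb' : sg p K b ≠ 1 := fun h => hb (sg_injective p K (h.trans (sg_one p K).symm))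
      refine Cat.Mih.isCoprime_conj hp.out hζ (w := Cat.Mih.act (sg p K b) ζ) ?_ ?_ ?_ hl ?_
      · rw [← map_pow, hζ.pow_eq_one, map_one]
      · exact (hζ.map_of_injective (Cat.Mih.act (sg p K b)).injective).ne_one hp.out.one_lt
      · intro h
        exact hb' (Cat.Mih.act_injective hζ (τ := 1) h)
      · have := congrArg (Cat.Mih.act (sg p K b)) hl
        rwa [map_mul, map_sub, map_sub, map_one, map_intCast] at this
    rw [clRingAction_eq]
    rw [← Ideal.isCoprime_span_singleton_iff, hI] at h8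
    have h9 : Ideal.span {Cat.Mih.act (sg p K b) l} =
        (I.map (Cat.Mih.act (sg p K b) : 𝓞 K →+* 𝓞 K)) ^ q := by
      rw [← Ideal.map_pow, ← hI, Ideal.map_span, Set.image_singleton]
      rfl
    rw [h9] at h8
    exact (IsCoprime.pow_iff (Nat.pos_of_ne_zero hq0) (Nat.pos_of_ne_zero hq0)).mp h8

end Fermat.Agent.Cor.Catalan
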