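import Fermat.Agent.Corollaries.Catalan.PlusDefs
import Fermat.Agent.Corollaries.Catalan.Ideal

/-!
# Catalan's equation: the ideal class of `(x - ζ)` and Thaine's theorem

For every irreducible factor `g` of `1 + X + ⋯ + X^(m-1)` modulo `q`, `m = (p-1)/2`, `h` a lift of
`(X^(p-1) - 1) / g`: if `(1 - ζ) ^ h(s)` is not a `q`-th power then `(x - ζ) ^ h(s)` is
`(1 - ζ) ^ h(s)` times a unit and a `q`-th power.
-/

set_option autoImplicit false

namespace Fermat.Agent.Cor.Catalan.Cls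

open NumberField Polynomial nonZeroDivisors

section

variable {p : ℕ} [Fact p.Prime] {K : Type} [Field K] [NumberField K]
  [IsCyclotomicExtension {p} ℚ K]

theorem clPw_one (n : (ZMod p)ˣ → ℤ) : clPw p K n 1 = 1 := by
  have h := clPw_mul (K := K) n 1 1
  rw [mul_one] at h
  exact (mul_eq_left (a := clPw p K n 1)).mp h.symm

theorem clPw_pow (n : (ZMod p)ˣ → ℤ) (c : ClassGroup (𝓞 K)) (k : ℕ) :
    clPw p K n (c ^ k) = clPw p K n c ^ k := by
  induction k with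
  | zero => rw [pow_zero, pow_zero, clPw_one]
  | succ k ih => rw [pow_succ, pow_succ, clPw_mul, ih]

/-- exponents divisible by `q` kill a class of order `q` -/
theorem clPw_eq_one {q : ℕ} {n : (ZMod p)ˣ → ℤ} (hn : ∀ a, (q : ℤ) ∣ n a)
    {c : ClassGroup (𝓞 K)} (hc : c ^ q = 1) : clPw p K n c = 1 := by
  rw [clPw]
  refine Finset.prod_eq_one fun a _ => ?_
  obtain ⟨k, hk⟩ := hn a
  rw [hk, zpow_mul, zpow_natCast, ← map_pow, hc, map_one, one_zpow]

/-- a relation in the class group with exponents `≥ 0` -/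
theorem exists_span_of_clPw {m : (ZMod p)ˣ → ℕ} {I : Ideal (𝓞 K)} (hI : I ∈ (Ideal (𝓞 K))⁰)
    (h : clPw p K (fun a => (m a : ℤ)) (ClassGroup.mk0 ⟨I, hI⟩) = 1) :
    ∃ β : 𝓞 K, ∏ a, (I.map (JacobiSumStickelberger.clRingAction p K a : 𝓞 K →+* 𝓞 K)) ^ (m a) =
      Ideal.span {β} := by
  rw [clPw] at h
  have h2 : ∀ a : (ZMod p)ˣ, (clAct p K a (ClassGroup.mk0 ⟨I, hI⟩)) ^ ((m a : ℕ) : ℤ) =
      ClassGroup.mk0 ((Ideal.mapNonZero (JacobiSumStickelberger.clRingAction p K a)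
        ⟨I, hI⟩) ^ (m a)) := fun a => by
    rw [zpow_natCast, clAct_mk0, map_pow]
  rw [Finset.prod_congr rfl fun a _ => h2 a, ← map_prod, ClassGroup.mk0_eq_one_iff] at h
  obtain ⟨β, hβ⟩ := h
  refine ⟨β, ?_⟩
  rw [Submonoid.coe_finsetProd] at hβ
  rw [← Ideal.submodule_span_eq, ← hβ]
  refine Finset.prod_congr rfl fun a _ => ?_
  rw [SubmonoidClass.coe_pow, Ideal.coe_mapNonZero]

end

end Cls

open NumberField Polynomial nonZeroDivisors Cls

/-- (C13b1) -/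
theorem classStmt_of (hI : IdealStmt) (hT : ThaineStmt) : ClassStmt := by
  intro p q x y h hlt hndvd hp hq K _ _ _ ζ hζ s hs g hg hgd P hP hne
  obtain ⟨I, hI1, -, hI0, -, -⟩ := hI p q x y h K ζ hζ
  have hq0 : q ≠ 0 := hq.out.ne_zero
  have hζK : IsPrimitiveRoot (ζ : K) p :=
    hζ.map_of_injective (RingOfIntegers.coe_injective (K := K))
  have hI0' : I ∈ (Ideal (𝓞 K))⁰ := mem_nonZeroDivisors_of_ne_zero hI0
  have h1z : (1 : 𝓞 K) - ζ ≠ 0 := sub_ne_zero.mpr (hζ.ne_one hp.out.one_lt).symm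
  have h1z' : (Ideal.span {1 - ζ} : Ideal (𝓞 K)) ≠ 0 := by
    rw [Ideal.zero_eq_bot, ne_eq, Ideal.span_singleton_eq_bot]
    exact h1z
  have hxz : (x : 𝓞 K) - ζ ≠ 0 := by
    intro h0
    rw [h0, Ideal.span_singleton_zero, ← Ideal.zero_eq_bot] at hI1
    exact mul_ne_zero h1z' (pow_ne_zero q hI0) hI1.symm
  -- `x - ζ = (1 - ζ) l` and `(l) = I ^ q`
  obtain ⟨l, hl⟩ : ∃ l : 𝓞 K, (x : 𝓞 K) - ζ = (1 - ζ) * l := by
    have h2 : (x : 𝓞 K) - ζ ∈ Ideal.span {1 - ζ} := Ideal.dvd_span_singleton.mp ⟨I ^ q, hI1⟩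
    exact Ideal.mem_span_singleton.mp h2
  have hlI : Ideal.span {l} = I ^ q := by
    rw [hl, ← Ideal.span_singleton_mul_span_singleton] at hI1
    exact mul_left_cancel₀ h1z' hI1
  -- the class of `I`
  set c : ClassGroup (𝓞 K) := ClassGroup.mk0 ⟨I, hI0'⟩ with hcdef
  have hcq : c ^ q = 1 := by
    rw [hcdef, ← map_pow, ClassGroup.mk0_eq_one_iff, SubmonoidClass.coe_pow, ← hlI]
    exact ⟨⟨l, rfl⟩⟩
  have hc' : clPw p K (plEl p s P) c = 1 := by
    refine hT p q h.hp2 h.hq2 hlt.ne' hndvd K (ζ : K) hζK s hs g hg hgd P hP hne _ ?_ ?_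
    · rw [← clPw_pow, hcq, clPw_one]
    · intro Q hQ
      rw [← clPw_plEl_mul]
      refine clPw_eq_one (q := q) (dvd_plEl s ?_) hcq
      rw [Polynomial.map_mul, hQ, ← hP, mul_comm]
  -- exponents `≥ 0`
  set n : (ZMod p)ˣ → ℤ := plEl p s P with hn
  have hqpos : (0 : ℤ) < q := by exact_mod_cast hq.out.pos
  obtain ⟨m, k, hmk⟩ : ∃ (m : (ZMod p)ˣ → ℕ) (k : (ZMod p)ˣ → ℤ),
      n = (fun a => (m a : ℤ)) + (q : ℤ) • k := by
    refine ⟨fun a => (n a % q).toNat, fun a => n a / q, ?_⟩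
    funext a
    rw [Pi.add_apply, Pi.smul_apply, smul_eq_mul, Int.toNat_of_nonneg (Int.emod_nonneg _ hqpos.ne')]
    exact (Int.emod_add_mul_ediv (n a) q).symm
  have hcm : clPw p K (fun a => (m a : ℤ)) c = 1 := by
    have h2 : clPw p K ((q : ℤ) • k) c = 1 :=
      clPw_eq_one (q := q) (fun a => by rw [Pi.smul_apply, smul_eq_mul]; exact dvd_mul_right _ _) hcq
    rw [hmk, clPw_add, h2, mul_one] at hc'
    exact hc'
  obtain ⟨β, hβ⟩ := exists_span_of_clPw hI0' hcm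
  -- elements
  have hel : Ideal.span {β ^ q} =
      Ideal.span {∏ a, (JacobiSumStickelberger.clRingAction p K a l) ^ (m a)} := by
    rw [← Ideal.span_singleton_pow, ← hβ, ← Finset.prod_pow, ← Ideal.prod_span_singleton]
    refine Finset.prod_congr rfl fun a _ => ?_
    rw [← Ideal.span_singleton_pow, ← pow_mul, mul_comm (m a) q, pow_mul, ← Ideal.map_pow, ← hlI,
      Ideal.map_span, Set.image_singleton]
    rfl
  obtain ⟨u, hu⟩ := Ideal.span_singleton_eq_span_singleton.mp hel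
  have hl0 : l ≠ 0 := by
    rintro rfl
    exact hxz (by rw [hl, mul_zero])
  have hβ0 : β ≠ 0 := by
    rintro rfl
    rw [zero_pow hq0, zero_mul] at hu
    refine absurd hu.symm (Finset.prod_ne_zero_iff.mpr fun a _ => pow_ne_zero _ ?_)
    exact (map_ne_zero_iff _ (JacobiSumStickelberger.clRingAction p K a).injective).mpr hl0
  have hcoe : ∀ {z : 𝓞 K}, z ≠ 0 → (z : K) ≠ 0 := fun hz =>
    (map_ne_zero_iff _ (RingOfIntegers.coe_injective (K := K))).mpr hz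
  have hβK : (β : K) ≠ 0 := hcoe hβ0
  have hlK : (x : K) - ζ = (1 - (ζ : K)) * l := by
    have := congrArg (algebraMap (𝓞 K) K) hl
    rw [map_mul, map_sub, map_sub, map_one, map_intCast] at this
    exact this
  have h1zK : (1 : K) - ζ ≠ 0 := sub_ne_zero.mpr (hζK.ne_one hp.out.one_lt).symm
  have hxzK : (x : K) - ζ ≠ 0 := by
    rw [hlK]
    exact mul_ne_zero h1zK (hcoe hl0)
  have hpl : pw p K (fun a => (m a : ℤ)) (l : K) = (β : K) ^ q * ((u : 𝓞 K) : K) := by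
    have := congrArg (algebraMap (𝓞 K) K) hu
    rw [map_mul, map_pow, map_prod] at this
    rw [pw]
    refine Eq.trans (Finset.prod_congr rfl fun a _ => ?_) this.symm
    rw [zpow_natCast, map_pow]
    congr 1
    exact (coe_clRingAction a l).symm
  refine ⟨u, β * (pw p K k ((x : K) - ζ) / pw p K k (1 - (ζ : K))), ?_, ?_⟩
  · exact mul_ne_zero hβK (div_ne_zero (pw_ne_zero _ hxzK) (pw_ne_zero _ h1zK))
  · rw [hmk, pw_add _ _ hxzK, pw_add _ _ h1zK, pw_smul, pw_smul, zpow_natCast, zpow_natCast]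
    have e1 : pw p K (fun a => (m a : ℤ)) ((x : K) - ζ) =
        pw p K (fun a => (m a : ℤ)) (1 - (ζ : K)) * ((β : K) ^ q * ((u : 𝓞 K) : K)) := by
      rw [← hpl, ← pw_mul, hlK]
    rw [e1, mul_pow, div_pow]
    have h3 : (pw p K k (1 - (ζ : K))) ^ q ≠ 0 := pow_ne_zero _ (pw_ne_zero _ h1zK)
    field_simp

end Fermat.Agent.Cor.Catalan
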