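import Fermat.Prelude.Def_ClassGroup_GaloisAction

/-!
# Catalan's equation: the cut (block CAT, captain helper83)

`x ^ p - y ^ q = 1` in non-zero integers, `p`, `q` odd primes, has no solution
(Catalan's conjecture, Mihăilescu 2002); with Lebesgue (`x ^ m = y ^ 2 + 1`), Euler and Chao Ko
(`x ^ 2 = y ^ q + 1`) the only solution of `x ^ a = y ^ b + 1` in integers `a, b > 1`, `x, y > 0` is
`3 ^ 2 = 2 ^ 3 + 1`.

Notation: `K = ℚ(ζ)`, `ζ` a primitive `p`-th root of unity, `G = (ZMod p)ˣ` acts by `sg`; elements of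
`ℤ[G]` are functions `n : (ZMod p)ˣ → ℤ`; complex conjugation is `-1`.
-/

set_option autoImplicit false

namespace Fermat.Agent.Cor.Catalan

open NumberField Polynomial

/-- A non-trivial solution of Catalan's equation with odd prime exponents. -/
structure Sol (p q : ℕ) (x y : ℤ) : Prop where
  hp : p.Prime
  hq : q.Prime
  hp2 : p ≠ 2
  hq2 : q ≠ 2
  hx : x ≠ 0
  hy : y ≠ 0
  eq : x ^ p - y ^ q = 1

theorem Sol.symm {p q : ℕ} {x y : ℤ} (h : Sol p q x y) : Sol q p (-y) (-x) where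
  hp := h.hq
  hq := h.hp
  hp2 := h.hq2
  hq2 := h.hp2
  hx := neg_ne_zero.mpr h.hy
  hy := neg_ne_zero.mpr h.hx
  eq := by
    have hpo : Odd p := h.hp.odd_of_ne_two h.hp2
    have hqo : Odd q := h.hq.odd_of_ne_two h.hq2
    rw [hpo.neg_pow, hqo.neg_pow, ← h.eq]
    ring

section Field

variable (p : ℕ) [Fact p.Prime] (K : Type) [Field K] [NumberField K]
  [IsCyclotomicExtension {p} ℚ K]

/-- the automorphism `ζ ↦ ζ ^ a` -/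
noncomputable def sg (a : (ZMod p)ˣ) : K ≃ₐ[ℚ] K :=
  (JacobiSumStickelberger.cycloGalEquiv p K).symm a

/-- `z ^ n = ∏ σ_a (z) ^ (n a)` for `n` in `ℤ[G]` -/
noncomputable def pw (n : (ZMod p)ˣ → ℤ) (z : K) : K := ∏ a, (sg p K a z) ^ (n a)

/-- the action of `σ_a` on ideal classes -/
noncomputable def clAct (a : (ZMod p)ˣ) : ClassGroup (𝓞 K) ≃* ClassGroup (𝓞 K) :=
  ClassGroup.mulEquiv (JacobiSumStickelberger.clRingAction p K a)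

/-- `c ^ n = ∏ σ_a (c) ^ (n a)` for an ideal class `c` -/
noncomputable def clPw (n : (ZMod p)ˣ → ℤ) (c : ClassGroup (𝓞 K)) : ClassGroup (𝓞 K) :=
  ∏ a, (clAct p K a c) ^ (n a)

/-- the Stickelberger element `Σ_{c > p/2} σ_c⁻¹` -/
def half (a : (ZMod p)ˣ) : ℤ := if p < 2 * ((a⁻¹ : (ZMod p)ˣ) : ZMod p).val then 1 else 0

/-- `(1 - ι) Σ_{c > p/2} σ_c⁻¹`, all coefficients are `± 1` -/
def fel (a : (ZMod p)ˣ) : ℤ := if p < 2 * ((a⁻¹ : (ZMod p)ˣ) : ZMod p).val then 1 else -1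

/-- the element `P(s)` of `ℤ[G]` for a polynomial `P` and `s : G` -/
noncomputable def plEl (s : (ZMod p)ˣ) (P : ℤ[X]) : (ZMod p)ˣ → ℤ :=
  ∑ i ∈ P.support, Pi.single (s ^ i) (P.coeff i)

end Field

/-! ### The steps -/

/-- (C1) V. A. Lebesgue -/
def LebesgueStmt : Prop := ∀ (m : ℕ) (x y : ℤ), 1 < m → Odd m → x ^ m = y ^ 2 + 1 → y = 0

/-- (C2) Euler (`q = 3`) -/
def EulerStmt : Prop := ∀ x y : ℤ, x ^ 2 = y ^ 3 + 1 → y = 0 ∨ y = -1 ∨ y = 2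

/-- (C2) Chao Ko -/
def KoStmt : Prop := ∀ (q : ℕ) (x y : ℤ), q.Prime → 5 ≤ q → x ^ 2 = y ^ q + 1 → x = 0 ∨ y = 0

/-- (C3) Cassels -/
def CasselsStmt : Prop := ∀ (p q : ℕ) (x y : ℤ), Sol p q x y → (q : ℤ) ∣ x

/-- (C3) Cassels' relations -/
def RelStmt : Prop := ∀ (p q : ℕ) (x y : ℤ), Sol p q x y → p ≠ q ∧
  ∃ a u : ℤ, x - 1 = p ^ (q - 1) * a ^ q ∧ ∑ i ∈ Finset.range p, x ^ i = p * u ^ q ∧
    y = p * a * u ∧ ¬ (p : ℤ) ∣ u ∧ 1 < u ∧ IsCoprime a u ∧ a ≠ 0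

/-- (C3) Hyyrö's bound in the form used by Runge's method -/
def BoundStmt : Prop := ∀ (p q : ℕ) (x y : ℤ), Sol p q x y → q < p →
  (q : ℤ) ^ (q * (p - 1)) ≤ |x| ^ (q - 1)

/-- (C4) Nagell -/
def NagellStmt : Prop := ∀ (p : ℕ) (x y : ℤ), ¬ Sol p 3 x y

/-- (C5) the ideal `(x - ζ)` -/
def IdealStmt : Prop := ∀ (p q : ℕ) (x y : ℤ), Sol p q x y → ∀ [Fact p.Prime] (K : Type) [Field K]
  [NumberField K] [IsCyclotomicExtension {p} ℚ K] (ζ : 𝓞 K), IsPrimitiveRoot ζ p →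
  ∃ I : Ideal (𝓞 K), Ideal.span {(x : 𝓞 K) - ζ} = Ideal.span {1 - ζ} * I ^ q ∧ I ≠ ⊤ ∧ I ≠ ⊥ ∧
    IsCoprime I (Ideal.span {(p : 𝓞 K)}) ∧
    ∀ a : (ZMod p)ˣ, a ≠ 1 → IsCoprime I
      (I.map (JacobiSumStickelberger.clRingAction p K a : 𝓞 K →+* 𝓞 K))

/-- (C6) Stickelberger -/
def StickStmt : Prop := ∀ (p : ℕ) [Fact p.Prime] (K : Type) [Field K] [NumberField K]
  [IsCyclotomicExtension {p} ℚ K], p ≠ 2 → ∀ c : ClassGroup (𝓞 K), clPw p K (half p) c = 1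

/-- (C7) the `q`-th roots -/
def RootStmt : Prop := ∀ (p q : ℕ) (x y : ℤ), Sol p q x y → ∀ [Fact p.Prime] (K : Type) [Field K]
  [NumberField K] [IsCyclotomicExtension {p} ℚ K] (ζ : K), IsPrimitiveRoot ζ p →
  ∀ b : (ZMod p)ˣ, ∃ α : K, pw p K (fun a => fel p (b⁻¹ * a)) ((x : K) - ζ) = α ^ q

/-- (C7) Mihăilescu's double Wieferich criterion, the main part -/
def WieferichStmt : Prop := ∀ (p q : ℕ) (x y : ℤ), Sol p q x y → (q : ℤ) ^ 2 ∣ x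

/-- (C8) the minus argument -/
def MinusStmt : Prop := ∀ (p q : ℕ) (x y : ℤ), Sol p q x y → 5 ≤ p → p < q → q < 4 * p ^ 2

/-- (C9) `B_{1,χ} ≠ 0` in the form: `fel` is not a zero divisor on the odd part of `ℤ[G]` -/
def IndepStmt : Prop := ∀ (p : ℕ) [Fact p.Prime], p ≠ 2 → ∀ c : (ZMod p)ˣ → ℤ,
  (∀ a, c (-a) = -c a) → (∀ a, ∑ b, c b * fel p (b⁻¹ * a) = 0) → c = 0

/-- (C10) Runge's method (plus argument, first half) -/
def RungeStmt : Prop := ∀ (p q : ℕ) (x y : ℤ), Sol p q x y → q < p → ∀ [Fact p.Prime] (K : Type)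
  [Field K] [NumberField K] [IsCyclotomicExtension {p} ℚ K] (ζ : K), IsPrimitiveRoot ζ p →
  ∀ n : (ZMod p)ˣ → ℤ, (∀ a, n (-a) = n a) → (∃ α : K, pw p K n ((x : K) - ζ) = α ^ q) →
    ∀ a, (q : ℤ) ∣ n a

/-- (C11) Thaine's theorem modulo `q`, one irreducible factor `g` of `1 + X + ⋯ + X^(m-1)`,
`m = (p-1)/2`; `h` is a lift of `(X^(p-1) - 1) / g`. -/
def ThaineStmt : Prop := ∀ (p q : ℕ) [Fact p.Prime] [Fact q.Prime], p ≠ 2 → q ≠ 2 → p ≠ q →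
  ¬ q ∣ p - 1 → ∀ (K : Type) [Field K] [NumberField K] [IsCyclotomicExtension {p} ℚ K] (ζ : K),
  IsPrimitiveRoot ζ p → ∀ s : (ZMod p)ˣ, (∀ a, a ∈ Subgroup.zpowers s) →
  ∀ g : (ZMod q)[X], Irreducible g → g ∣ ∑ i ∈ Finset.range ((p - 1) / 2), X ^ i →
  ∀ h : ℤ[X], h.map (Int.castRingHom (ZMod q)) * g = X ^ (p - 1) - 1 →
  (∀ w : K, pw p K (plEl p s h) (1 - ζ) ≠ w ^ q) →
  ∀ c : ClassGroup (𝓞 K), c ^ q = 1 →
    (∀ P : ℤ[X], P.map (Int.castRingHom (ZMod q)) = g → clPw p K (plEl p s P) c = 1) → c = 1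

/-- (C12) the `g`-part of the units modulo `q`-th powers is cyclic -/
def UnitStmt : Prop := ∀ (p q : ℕ) [Fact p.Prime] [Fact q.Prime], p ≠ 2 → q ≠ 2 → p ≠ q →
  ¬ q ∣ p - 1 → ∀ (K : Type) [Field K] [NumberField K] [IsCyclotomicExtension {p} ℚ K],
  ∀ s : (ZMod p)ˣ, (∀ a, a ∈ Subgroup.zpowers s) →
  ∀ g : (ZMod q)[X], Irreducible g → g ∣ ∑ i ∈ Finset.range ((p - 1) / 2), X ^ i →
  ∀ u v : (𝓞 K)ˣ,
    (∀ P : ℤ[X], P.map (Int.castRingHom (ZMod q)) = g →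
      ∃ w : K, pw p K (plEl p s P) ((u : 𝓞 K) : K) = w ^ q) →
    (∀ P : ℤ[X], P.map (Int.castRingHom (ZMod q)) = g →
      ∃ w : K, pw p K (plEl p s P) ((v : 𝓞 K) : K) = w ^ q) →
    (∀ w : K, ((v : 𝓞 K) : K) ≠ w ^ q) →
    ∃ (r : ℤ[X]) (w : K), ((u : 𝓞 K) : K) = pw p K (plEl p s r) ((v : 𝓞 K) : K) * w ^ q

/-- (C13) the plus argument: `1 - ζ` is `q`-primary -/
def PlusStmt : Prop := ∀ (p q : ℕ) (x y : ℤ), Sol p q x y → q < p → 5 ≤ q → ¬ q ∣ p - 1 →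
  ∀ [Fact p.Prime] (K : Type) [Field K] [NumberField K] [IsCyclotomicExtension {p} ℚ K] (ζ : 𝓞 K),
  IsPrimitiveRoot ζ p → ∃ γ : 𝓞 K, (q : 𝓞 K) ^ 2 ∣ (1 - ζ) - γ ^ q

/-- (C14) `1 - ζ` is not `q`-primary for `q < p` -/
def NotPrimaryStmt : Prop := ∀ (p q : ℕ), q.Prime → q ≠ 2 → q < p → ∀ [Fact p.Prime] (K : Type)
  [Field K] [NumberField K] [IsCyclotomicExtension {p} ℚ K] (ζ : 𝓞 K), IsPrimitiveRoot ζ p →
  ∀ γ : 𝓞 K, ¬ (q : 𝓞 K) ^ 2 ∣ (1 - ζ) - γ ^ q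

/-- **Catalan's conjecture** (Mihăilescu) -/
def CatalanStmt : Prop := ∀ x y a b : ℕ, 1 < a → 1 < b → 0 < x → 0 < y → x ^ a = y ^ b + 1 →
  x = 3 ∧ a = 2 ∧ y = 2 ∧ b = 3

end Fermat.Agent.Cor.Catalan
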