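import Fermat.Agent.Corollaries.Catalan.Defs

/-!
# Catalan's conjecture: the assembly

`no_sol_of`: no `Sol p q x y`, from the steps; `catalanStmt_of`: the theorem for all exponents.
-/

set_option autoImplicit false

namespace Fermat.Agent.Cor.Catalan

open NumberField

/-- `p ≡ 1 mod q` and `p ^ (q - 1) ≡ 1 mod q ^ 2` imply `p ≡ 1 mod q ^ 2`. -/
theorem sq_dvd_sub_one {p q : ℕ} (hq : q.Prime) (h1 : (q : ℤ) ∣ p - 1)
    (h2 : (q : ℤ) ^ 2 ∣ (p : ℤ) ^ (q - 1) - 1) : (q : ℤ) ^ 2 ∣ (p : ℤ) - 1 := by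
  obtain ⟨k, hk⟩ := h1
  have hp : (p : ℤ) = 1 + q * k := by linarith
  -- `(1 + q k) ^ n ≡ 1 + n q k mod q ^ 2`
  have key : ∀ n : ℕ, (q : ℤ) ^ 2 ∣ (1 + (q : ℤ) * k) ^ n - (1 + n * (q * k)) := by
    intro n
    induction n with
    | zero => simp
    | succ n ih =>
      obtain ⟨c, hc⟩ := ih
      refine ⟨c * (1 + q * k) + n * k ^ 2, ?_⟩
      have h3 : (1 + (q : ℤ) * k) ^ n = 1 + n * (q * k) + (q : ℤ) ^ 2 * c := by linarith
      rw [pow_succ, h3]
      push_cast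
      ring
  rw [hp] at h2 ⊢
  have h3 := key (q - 1)
  have h4 : (q : ℤ) ^ 2 ∣ ((q - 1 : ℕ) : ℤ) * (q * k) := by
    have : ((q - 1 : ℕ) : ℤ) * (q * k) = ((1 + (q : ℤ) * k) ^ (q - 1) - 1) -
        ((1 + (q : ℤ) * k) ^ (q - 1) - (1 + ((q - 1 : ℕ) : ℤ) * (q * k))) := by ring
    rw [this]
    exact dvd_sub h2 h3
  have hqc : IsCoprime ((q : ℤ) ^ 2) ((q - 1 : ℕ) : ℤ) := by
    refine IsCoprime.pow_left ?_
    refine ⟨1, -1, ?_⟩
    rw [Nat.cast_sub hq.one_le]
    push_cast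
    ring
  have h5 := hqc.dvd_of_dvd_mul_left h4
  have : 1 + (q : ℤ) * k - 1 = q * k := by ring
  rw [this]
  exact h5

/-- from `q ^ 2 ∣ x` and `x - 1 = p ^ (q - 1) a ^ q`: `p ^ (q - 1) ≡ 1 mod q ^ 2` -/
theorem wieferich_of {p q : ℕ} {x a : ℤ} (hq : q.Prime) (hq2 : q ≠ 2)
    (hpq : IsCoprime (q : ℤ) p) (hx : (q : ℤ) ^ 2 ∣ x)
    (h : x - 1 = (p : ℤ) ^ (q - 1) * a ^ q) : (q : ℤ) ^ 2 ∣ (p : ℤ) ^ (q - 1) - 1 := by
  have hodd : Odd q := hq.odd_of_ne_two hq2
  have : Fact q.Prime := ⟨hq⟩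
  -- Fermat
  have hf : (q : ℤ) ∣ (p : ℤ) ^ (q - 1) - 1 := by
    have h1 : ((p : ℤ) : ZMod q) ≠ 0 := by
      rw [Ne, ZMod.intCast_zmod_eq_zero_iff_dvd]
      intro hd
      have h2 := hpq.isUnit_of_dvd' dvd_rfl hd
      rw [Int.isUnit_iff] at h2
      have := hq.two_le
      omega
    have h2 := ZMod.pow_card_sub_one_eq_one h1
    rw [← ZMod.intCast_zmod_eq_zero_iff_dvd]
    push_cast at h2 ⊢
    rw [h2, sub_self]
  -- `a ≡ -1 mod q`
  have ha : (q : ℤ) ∣ a + 1 := by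
    have h1 : (q : ℤ) ∣ a ^ q + 1 := by
      have h2 : a ^ q + 1 = x - ((p : ℤ) ^ (q - 1) - 1) * a ^ q := by linarith
      rw [h2]
      exact dvd_sub ((dvd_pow_self _ two_ne_zero).trans hx) (hf.mul_right _)
    have h3 : (q : ℤ) ∣ a ^ q - a := by
      rw [← ZMod.intCast_zmod_eq_zero_iff_dvd]
      push_cast
      rw [ZMod.pow_card, sub_self]
    have h4 : a + 1 = (a ^ q + 1) - (a ^ q - a) := by ring
    rw [h4]
    exact dvd_sub h1 h3
  -- `a ^ q ≡ -1 mod q ^ 2`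
  have ha2 : (q : ℤ) ^ 2 ∣ a ^ q + 1 := by
    obtain ⟨c, hc⟩ := ha
    have ha' : a = -(1 - q * c) := by linarith
    have h1 : (q : ℤ) ^ 2 ∣ (1 - (q : ℤ) * c) ^ q - 1 := by
      have h2 : ∀ n : ℕ, (q : ℤ) ^ 2 ∣ (1 - (q : ℤ) * c) ^ n - (1 - n * (q * c)) := by
        intro n
        induction n with
        | zero => simp
        | succ n ih =>
          obtain ⟨d, hd⟩ := ih
          refine ⟨d * (1 - q * c) + n * c ^ 2, ?_⟩
          have h3 : (1 - (q : ℤ) * c) ^ n = 1 - n * (q * c) + (q : ℤ) ^ 2 * d := by linarith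
          rw [pow_succ, h3]
          push_cast
          ring
      have h3 := h2 q
      have h4 : (1 - (q : ℤ) * c) ^ q - 1 =
          ((1 - (q : ℤ) * c) ^ q - (1 - q * (q * c))) - (q : ℤ) ^ 2 * c := by ring
      rw [h4]
      exact dvd_sub h3 (dvd_mul_right _ _)
    rw [ha', hodd.neg_pow]
    have h5 : -(1 - (q : ℤ) * c) ^ q + 1 = -((1 - (q : ℤ) * c) ^ q - 1) := by ring
    rw [h5]
    exact (dvd_neg).mpr h1
  have h6 : (p : ℤ) ^ (q - 1) - 1 = (p : ℤ) ^ (q - 1) * (a ^ q + 1) - x := by linarith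
  rw [h6]
  exact dvd_sub (ha2.mul_left _) hx

/-- there is a `p`-th cyclotomic field in `Type` -/
theorem exists_cyc (p : ℕ) [Fact p.Prime] : ∃ (K : Type) (_ : Field K) (_ : NumberField K)
    (_ : IsCyclotomicExtension {p} ℚ K) (ζ : 𝓞 K), IsPrimitiveRoot ζ p := by
  have h0 : NeZero p := ⟨(Fact.out : p.Prime).ne_zero⟩
  have h1 : IsCyclotomicExtension {p} ℚ (CyclotomicField p ℚ) := by
    have e : (DivisionRing.toRatAlgebra : Algebra ℚ (CyclotomicField p ℚ)) =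
      CyclotomicField.algebra p ℚ := Subsingleton.elim _ _
    rw [e]
    exact CyclotomicField.isCyclotomicExtension p ℚ
  have h2 : NumberField (CyclotomicField p ℚ) := IsCyclotomicExtension.numberField {p} ℚ _
  have hζ := IsCyclotomicExtension.zeta_spec p ℚ (CyclotomicField p ℚ)
  exact ⟨_, _, h2, h1, hζ.toInteger, hζ.toInteger_isPrimitiveRoot⟩

/-- **No solution with odd prime exponents**, from the steps. -/
theorem no_sol_of (hR : RelStmt) (hN : NagellStmt) (hW : WieferichStmt) (hM : MinusStmt)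
    (hP : PlusStmt) (hNP : NotPrimaryStmt) {p q : ℕ} {x y : ℤ} : ¬ Sol p q x y := by
  suffices key : ∀ {p q : ℕ} {x y : ℤ}, q < p → ¬ Sol p q x y by
    intro h
    rcases lt_trichotomy p q with hlt | heq | hgt
    · exact key hlt h.symm
    · exact (hR p q x y h).1 heq
    · exact key hgt h
  intro p q x y hqp h
  have hq3 : q ≠ 3 := by
    rintro rfl
    exact hN p x y h
  have hq5 : 5 ≤ q := by
    have h2 := h.hq.two_le
    have h3 := h.hq2
    have h4 : q ≠ 4 := by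
      rintro rfl
      exact absurd h.hq (by norm_num)
    omega
  obtain ⟨-, a, u, ha, -, -, -, -, -, -⟩ := hR p q x y h
  have hpq : IsCoprime (q : ℤ) p := by
    rw [Nat.isCoprime_iff_coprime]
    exact (Nat.coprime_primes h.hq h.hp).mpr hqp.ne
  have hw := wieferich_of h.hq h.hq2 hpq (hW p q x y h) ha
  by_cases hd : q ∣ p - 1
  · -- `p ≡ 1 mod q ^ 2`, `p < 4 q ^ 2`
    have hd' : (q : ℤ) ∣ (p : ℤ) - 1 := by
      have h1 := Int.natCast_dvd_natCast.mpr hd
      rwa [Nat.cast_sub h.hp.one_le, Nat.cast_one] at h1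
    obtain ⟨k, hk⟩ := sq_dvd_sub_one h.hq hd' hw
    have hlt : p < 4 * q ^ 2 := hM q p (-y) (-x) h.symm hq5 hqp
    have hpk : (p : ℤ) = 1 + q ^ 2 * k := by linarith
    have hq0 : (0 : ℤ) < (q : ℤ) ^ 2 := by positivity
    have hk0 : 0 < k := by
      by_contra hcon
      have h1 : (q : ℤ) ^ 2 * k ≤ 0 := mul_nonpos_of_nonneg_of_nonpos hq0.le (not_lt.mp hcon)
      have h2 := h.hp.two_le
      omega
    have hk4 : k < 4 := by
      by_contra hcon
      have h1 : (q : ℤ) ^ 2 * 4 ≤ q ^ 2 * k := mul_le_mul_of_nonneg_left (not_lt.mp hcon) hq0.le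
      have h2 : (p : ℤ) < 4 * q ^ 2 := by exact_mod_cast hlt
      linarith
    -- parity
    have hpo : (p : ℤ) % 2 = 1 := by
      have := Nat.odd_iff.mp (h.hp.odd_of_ne_two h.hp2)
      omega
    have hqo : ((q : ℤ) ^ 2) % 2 = 1 := by
      have h1 := Nat.odd_iff.mp ((h.hq.odd_of_ne_two h.hq2).pow (n := 2))
      have h2 : ((q ^ 2 : ℕ) : ℤ) % 2 = 1 := by omega
      push_cast at h2
      exact h2
    have hk2 : k = 2 := by
      rcases (by omega : k = 1 ∨ k = 2 ∨ k = 3) with rfl | rfl | rfl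
      · omega
      · rfl
      · omega
    subst hk2
    -- modulo `3`
    have hq3' : ((q : ℤ) ^ 2) % 3 = 1 := by
      have h1 : ¬ (3 : ℤ) ∣ q := by
        intro h3
        have h4 : 3 ∣ q := by exact_mod_cast h3
        exact hq3 ((Nat.prime_dvd_prime_iff_eq Nat.prime_three h.hq).mp h4).symm
      have h2 : (q : ℤ) % 3 = 1 ∨ (q : ℤ) % 3 = 2 := by omega
      rcases h2 with h2 | h2 <;> rw [pow_two, Int.mul_emod, h2] <;> norm_num
    have h3p : (3 : ℤ) ∣ p := by omega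
    have h3p' : 3 ∣ p := by exact_mod_cast h3p
    have hp3 := (Nat.prime_dvd_prime_iff_eq Nat.prime_three h.hp).mp h3p'
    omega
  · have : Fact p.Prime := ⟨h.hp⟩
    obtain ⟨K, _, _, _, ζ, hζ⟩ := exists_cyc p
    obtain ⟨γ, hγ⟩ := hP p q x y h hqp hq5 hd K ζ hζ
    exact hNP p q h.hq h.hq2 hqp K ζ hζ γ hγ

/-- **Catalan's conjecture**, from the steps. -/
theorem catalanStmt_of (hL : LebesgueStmt) (hE : EulerStmt) (hK : KoStmt) (hR : RelStmt)
    (hN : NagellStmt) (hW : WieferichStmt) (hM : MinusStmt) (hP : PlusStmt)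
    (hNP : NotPrimaryStmt) : CatalanStmt := by
  intro x y a b ha hb hx hy h
  -- prime exponents
  obtain ⟨p, hp, hpa⟩ := Nat.exists_prime_and_dvd (by omega : a ≠ 1)
  obtain ⟨q, hq, hqb⟩ := Nat.exists_prime_and_dvd (by omega : b ≠ 1)
  -- the equation for the prime exponents `p ∣ a`, `q ∣ b`
  have hx1 : x ≠ 1 := by
    rintro rfl
    rw [one_pow] at h
    have := pow_pos hy b
    omega
  have main : ∀ p q : ℕ, p.Prime → q.Prime → p ∣ a → q ∣ b → p = 2 ∧ q = 3 := by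
    intro p q hp hq hpa hqb
    obtain ⟨a', rfl⟩ := hpa
    obtain ⟨b', rfl⟩ := hqb
    have hX : ((x : ℤ) ^ a') ^ p = ((y : ℤ) ^ b') ^ q + 1 := by
      rw [← pow_mul, ← pow_mul, mul_comm a' p, mul_comm b' q]
      exact_mod_cast h
    have hX0 : (0 : ℤ) < (x : ℤ) ^ a' := by positivity
    have hY0 : (0 : ℤ) < (y : ℤ) ^ b' := by positivity
    by_cases hp2 : p = 2
    · subst hp2
      refine ⟨rfl, ?_⟩
      by_cases hq2 : q = 2
      · -- `X ^ 2 = Y ^ 2 + 1`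
        subst hq2
        exfalso
        generalize (x : ℤ) ^ a' = X at hX hX0
        generalize (y : ℤ) ^ b' = Y at hX hY0
        rcases le_or_gt X Y with h1 | h1
        · nlinarith
        · nlinarith
      by_cases hq3 : q = 3
      · exact hq3
      have hq5 : 5 ≤ q := by
        have h2 := hq.two_le
        have h4 : q ≠ 4 := by
          rintro rfl
          exact absurd hq (by norm_num)
        omega
      rcases hK q _ _ hq hq5 hX with h1 | h1 <;> omega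
    · exfalso
      by_cases hq2 : q = 2
      · subst hq2
        have h1 := hL p _ _ hp.one_lt (hp.odd_of_ne_two hp2) hX
        omega
      · refine no_sol_of hR hN hW hM hP hNP (p := p) (q := q) (x := (x : ℤ) ^ a')
          (y := (y : ℤ) ^ b') ⟨hp, hq, hp2, hq2, hX0.ne', hY0.ne', ?_⟩
        linarith
  -- `a` is a power of two and `b` is a power of three
  obtain ⟨k, hk⟩ : ∃ k, a = 2 ^ k :=
    ⟨_, Nat.eq_prime_pow_of_unique_prime_dvd (by omega) fun {d} hd hda =>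
      (main d q hd hq hda hqb).1⟩
  obtain ⟨l, hl⟩ : ∃ l, b = 3 ^ l :=
    ⟨_, Nat.eq_prime_pow_of_unique_prime_dvd (by omega) fun {d} hd hdb =>
      (main p d hp hd hpa hdb).2⟩
  obtain ⟨hp2, hq3⟩ := main p q hp hq hpa hqb
  subst hp2 hq3
  -- Euler
  obtain ⟨a', ha'⟩ := hpa
  obtain ⟨b', hb'⟩ := hqb
  have hX : ((x : ℤ) ^ a') ^ 2 = ((y : ℤ) ^ b') ^ 3 + 1 := by
    rw [← pow_mul, ← pow_mul, mul_comm a' 2, mul_comm b' 3, ← ha', ← hb']
    exact_mod_cast h
  have hX0 : (0 : ℤ) < (x : ℤ) ^ a' := by positivity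
  have hY0 : (0 : ℤ) < (y : ℤ) ^ b' := by positivity
  have hY : (y : ℤ) ^ b' = 2 := by
    rcases hE _ _ hX with h1 | h1 | h1
    · omega
    · omega
    · exact h1
  have hX3 : (x : ℤ) ^ a' = 3 := by
    rw [hY] at hX
    nlinarith
  have hY' : y ^ b' = 2 := by exact_mod_cast hY
  have hX' : x ^ a' = 3 := by exact_mod_cast hX3
  have hone : ∀ z n r : ℕ, r.Prime → z ^ n = r → n = 1 ∧ z = r := by
    intro z n r hr h1
    have h2 : n = 1 := by
      by_contra hn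
      rcases Nat.lt_or_gt_of_ne hn with h3 | h3
      · interval_cases n
        rw [pow_zero] at h1
        exact hr.one_lt.ne h1
      · exact Nat.Prime.not_prime_pow (by omega : 2 ≤ n) (h1 ▸ hr)
    subst h2
    exact ⟨rfl, by rwa [pow_one] at h1⟩
  obtain ⟨hb1, hy2⟩ := hone y b' 2 Nat.prime_two hY'
  obtain ⟨ha1, hx3⟩ := hone x a' 3 Nat.prime_three hX'
  refine ⟨hx3, ?_, hy2, ?_⟩
  · rw [ha', ha1]
  · rw [hb', hb1]

end Fermat.Agent.Cor.Catalan
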