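import Fermat.Agent.Corollaries.Catalan.Defs
import Fermat.Agent.Corollaries.Diri.LVal
import Fermat.Agent.Corollaries.Diri.Half

/-!
# `B_{1,χ} ≠ 0` and the Stickelberger element

(C9) `indepStmt`: the element `fel = Σ ± σ_a` of `ℤ[G]` is not a zero divisor on the odd part.

* `Indep.LFunction_zero_ne_zero`: `L(0, χ) ≠ 0` for an odd primitive Dirichlet character;
* `Indep.sum_mul_ne_zero`: `Σ_{a < p} a χ(a) ≠ 0` for an odd character modulo a prime `p`;
* `Indep.half_sum_ne_zero`: `Σ_{0 < a < p/2} χ(a) ≠ 0`.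
-/

set_option autoImplicit false

namespace Fermat.Agent.Cor.Catalan

open Finset DirichletCharacter

namespace Indep

/-! ### `L(0, χ) ≠ 0` -/

/-- `L(0, χ) ≠ 0` for odd primitive characters. -/
theorem LFunction_zero_ne_zero {N : ℕ} [NeZero N] {χ : DirichletCharacter ℂ N}
    (hp : χ.IsPrimitive) (ho : χ.Odd) : χ.LFunction 0 ≠ 0 := by
  have hN : N ≠ 1 := by
    rintro rfl
    have h1 : χ = 1 := DirichletCharacter.level_one χ
    have h2 : χ (-1) = -1 := ho
    rw [h1, MulChar.one_apply isUnit_one.neg] at h2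
    norm_num at h2
  have h1 : χ ≠ 1 := by
    rintro rfl
    have h2 : (1 : DirichletCharacter ℂ N) (-1) = -1 := ho
    rw [MulChar.one_apply isUnit_one.neg] at h2
    norm_num at h2
  have h2 : χ⁻¹ ≠ 1 := inv_ne_one.mpr h1
  have h3 := LFunction_apply_one_ne_zero h2
  intro h0
  apply h3
  have hp' : IsPrimitive χ⁻¹ := by
    rw [isPrimitive_def] at hp ⊢
    rw [conductor_inv]
    exact hp
  have h4 := IsPrimitive.completedLFunction_one_sub hp' 0
  rw [sub_zero, inv_inv] at h4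
  rw [LFunction_eq_completed_div_gammaFactor χ 0 (Or.inr hN), ho.gammaFactor_def, zero_add,
    Complex.Gammaℝ_one, div_one] at h0
  rw [LFunction_eq_completed_div_gammaFactor χ⁻¹ 1 (Or.inr hN), h4, h0, mul_zero, zero_div]

/-! ### Sums modulo a prime -/

section Prime

variable {p : ℕ} [hp : Fact p.Prime] {χ : DirichletCharacter ℂ p}

theorem ne_one_of_odd (ho : χ.Odd) : χ ≠ 1 := by
  rintro rfl
  have h2 : (1 : DirichletCharacter ℂ p) (-1) = -1 := ho
  rw [MulChar.one_apply isUnit_one.neg] at h2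
  norm_num at h2

theorem isPrimitive_of_odd (ho : χ.Odd) : χ.IsPrimitive := by
  rw [isPrimitive_def]
  rcases (Nat.dvd_prime hp.out).mp χ.conductor_dvd_level with h | h
  · exact absurd ((eq_one_iff_conductor_eq_one).mpr h) (ne_one_of_odd ho)
  · exact h

theorem apply_neg_of_odd (ho : χ.Odd) (a : ZMod p) : χ (-a) = -χ a := by
  rw [← neg_one_mul, map_mul, ho, neg_one_mul]

/-- `Σ_{a < p} a χ(a) ≠ 0` for `χ` odd (`B_{1,χ} ≠ 0`). -/
theorem sum_mul_ne_zero (ho : χ.Odd) : ∑ a ∈ range p, (a : ℂ) * χ (a : ZMod p) ≠ 0 := by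
  intro h
  apply LFunction_zero_ne_zero (isPrimitive_of_odd ho) ho
  rw [Diri.LFunction_zero' (ne_one_of_odd ho), h, mul_zero]

/-- `Σ_{0 < a < p/2} χ(a) ≠ 0` for `χ` odd. -/
theorem half_sum_ne_zero (ho : χ.Odd) {m : ℕ} (hm : p = 2 * m + 1) :
    ∑ c ∈ range m, χ ((c + 1 : ℕ) : ZMod p) ≠ 0 := by
  have hcast : ∀ a : ℕ, a ≤ p → ((p - a : ℕ) : ZMod p) = -(a : ZMod p) := by
    intro a ha
    rw [Nat.cast_sub ha, ZMod.natCast_self, zero_sub]
  have key1 := Diri.sum_range_reflect_half (fun a => (a : ℂ) * χ (a : ZMod p)) m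
  have key2 := Diri.sum_range_even_odd (fun a => (a : ℂ) * χ (a : ZMod p)) m
  rw [← hm] at key1 key2
  simp only [Nat.cast_zero, zero_mul, zero_add] at key1 key2
  have hS0 := sum_mul_ne_zero ho
  generalize hS : ∑ a ∈ range p, (a : ℂ) * χ (a : ZMod p) = S at key1 key2 hS0
  intro hT
  have e1 : S = 2 * ∑ c ∈ range m, ((c + 1 : ℕ) : ℂ) * χ ((c + 1 : ℕ) : ZMod p) := by
    have e : S = 2 * ∑ c ∈ range m, ((c + 1 : ℕ) : ℂ) * χ ((c + 1 : ℕ) : ZMod p) -
        p * ∑ c ∈ range m, χ ((c + 1 : ℕ) : ZMod p) := by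
      rw [key1, Finset.mul_sum, Finset.mul_sum, ← Finset.sum_sub_distrib]
      refine Finset.sum_congr rfl fun c hc => ?_
      have hc' := Finset.mem_range.mp hc
      rw [hcast (c + 1) (by omega), apply_neg_of_odd ho, Nat.cast_sub (by omega : c + 1 ≤ p)]
      ring
    rw [e, hT, mul_zero, sub_zero]
  have e2 : S = χ 2 * (4 * ∑ c ∈ range m, ((c + 1 : ℕ) : ℂ) * χ ((c + 1 : ℕ) : ZMod p)) := by
    have e : S = χ 2 * (4 * ∑ c ∈ range m, ((c + 1 : ℕ) : ℂ) * χ ((c + 1 : ℕ) : ZMod p) -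
        p * ∑ c ∈ range m, χ ((c + 1 : ℕ) : ZMod p)) := by
      rw [key2, Finset.mul_sum, Finset.mul_sum, ← Finset.sum_sub_distrib, Finset.mul_sum]
      refine Finset.sum_congr rfl fun c hc => ?_
      have hc' := Finset.mem_range.mp hc
      rw [hcast (2 * (c + 1)) (by omega), apply_neg_of_odd ho,
        Nat.cast_sub (by omega : 2 * (c + 1) ≤ p)]
      have e : ((2 * (c + 1) : ℕ) : ZMod p) = 2 * ((c + 1 : ℕ) : ZMod p) := by push_cast; ring
      have e' : ((2 * (c + 1) : ℕ) : ℂ) = 2 * ((c + 1 : ℕ) : ℂ) := by push_cast; ring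
      rw [e, e', map_mul]
      ring
    rw [e, hT, mul_zero, sub_zero]
  generalize ∑ c ∈ range m, ((c + 1 : ℕ) : ℂ) * χ ((c + 1 : ℕ) : ZMod p) = A at e1 e2
  have h2 : IsUnit (2 : ZMod p) := by
    have h3 : ((2 : ℕ) : ZMod p) ≠ 0 := by
      intro h
      rw [ZMod.natCast_eq_zero_iff] at h
      have := Nat.le_of_dvd two_pos h
      have := hp.out.two_le
      omega
    exact isUnit_iff_ne_zero.mpr (by exact_mod_cast h3)
  have hn : ‖χ 2‖ = 1 := by
    obtain ⟨u, hu⟩ := h2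
    rw [← hu]
    exact DirichletCharacter.unit_norm_eq_one χ u
  have hA : A ≠ 0 := by
    rintro rfl
    rw [mul_zero] at e1
    exact hS0 e1
  have h3 : (2 : ℂ) * χ 2 = 1 := by
    have h4 : (2 * A) * (2 * χ 2) = (2 * A) * 1 := by
      linear_combination e1 - e2
    exact mul_left_cancel₀ (mul_ne_zero two_ne_zero hA) h4
  have h5 := congrArg norm h3
  rw [norm_mul, hn, Complex.norm_ofNat, norm_one] at h5
  norm_num at h5

/-- The Fourier coefficients of `fel` at the odd characters do not vanish. -/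
theorem sum_fel_ne_zero (h2 : p ≠ 2) (ho : χ.Odd) :
    ∑ a : (ZMod p)ˣ, χ (a : ZMod p) * (fel p a : ℂ) ≠ 0 := by
  obtain ⟨m, hm⟩ := hp.out.odd_of_ne_two h2
  have ho' : (χ⁻¹).Odd := by
    have h3 : χ (-1) = -1 := ho
    change χ⁻¹ (-1) = -1
    rw [MulChar.inv_apply_eq_inv', h3]
    norm_num
  have h3 := half_sum_ne_zero ho' hm
  -- substitute `a⁻¹`
  let g : ℕ → ℂ := fun b => if p < 2 * b then 1 else -1
  have e1 : ∑ a : (ZMod p)ˣ, χ (a : ZMod p) * (fel p a : ℂ) =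
      ∑ a : (ZMod p)ˣ, χ⁻¹ (a : ZMod p) * g (a : ZMod p).val := by
    rw [← Equiv.sum_comp (Equiv.inv (ZMod p)ˣ)]
    refine Finset.sum_congr rfl fun a _ => ?_
    rw [Equiv.inv_apply]
    have e2 : χ ((a⁻¹ : (ZMod p)ˣ) : ZMod p) = χ⁻¹ (a : ZMod p) := by
      rw [MulChar.inv_apply, Ring.inverse_unit]
    rw [e2]
    congr 1
    simp only [fel, g, inv_inv]
    split_ifs <;> norm_num
  have e2 : ∑ a : (ZMod p)ˣ, χ⁻¹ (a : ZMod p) * g (a : ZMod p).val =
      ∑ a : ZMod p, χ⁻¹ a * g a.val := by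
    rw [← Finset.sum_subset (Finset.subset_univ
      (Finset.univ.map ⟨((↑) : (ZMod p)ˣ → ZMod p), Units.val_injective⟩))]
    · rw [Finset.sum_map]
      rfl
    · intro a _ ha
      have : ¬ IsUnit a := by
        rintro ⟨u, rfl⟩
        exact ha (Finset.mem_map.mpr ⟨u, Finset.mem_univ u, rfl⟩)
      rw [MulChar.map_nonunit _ this, zero_mul]
  have e3 : ∑ a : ZMod p, χ⁻¹ a * g a.val = ∑ a ∈ range p, χ⁻¹ (a : ZMod p) * g a := by
    rw [Diri.sum_zmod_eq]
    refine Finset.sum_congr rfl fun a ha => ?_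
    rw [ZMod.val_cast_of_lt (Finset.mem_range.mp ha)]
  have e4 : ∑ a ∈ range p, χ⁻¹ (a : ZMod p) * g a =
      -2 * ∑ c ∈ range m, χ⁻¹ ((c + 1 : ℕ) : ZMod p) := by
    have key := Diri.sum_range_reflect_half (fun a => χ⁻¹ (a : ZMod p) * g a) m
    rw [← hm] at key
    have h0 : χ⁻¹ ((0 : ℕ) : ZMod p) = 0 := by
      rw [Nat.cast_zero]
      exact MulChar.map_nonunit _ (by simp)
    rw [key, h0, zero_mul, zero_add, Finset.mul_sum]
    refine Finset.sum_congr rfl fun c hc => ?_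
    have hc' := Finset.mem_range.mp hc
    have g1 : g (c + 1) = -1 := if_neg (by omega)
    have g2 : g (p - (c + 1)) = 1 := if_pos (by omega)
    rw [g1, g2, Nat.cast_sub (by omega), ZMod.natCast_self, zero_sub, apply_neg_of_odd ho']
    ring
  rw [e1, e2, e3, e4]
  exact mul_ne_zero (by norm_num) h3

end Prime

end Indep

open Indep in
/-- **(C9)** `fel` is not a zero divisor on the odd part of `ℤ[G]`. -/
theorem indepStmt : IndepStmt := by
  intro p hp h2 c hodd hc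
  -- the Fourier coefficients
  have hC : ∀ χ : DirichletCharacter ℂ p, ∑ b : (ZMod p)ˣ, (c b : ℂ) * χ (b : ZMod p) = 0 := by
    intro χ
    rcases χ.even_or_odd with he | ho
    · have e1 : ∑ b : (ZMod p)ˣ, (c b : ℂ) * χ (b : ZMod p) =
          -∑ b : (ZMod p)ˣ, (c b : ℂ) * χ (b : ZMod p) := by
        conv_lhs => rw [← Equiv.sum_comp (Equiv.neg (ZMod p)ˣ)]
        rw [← Finset.sum_neg_distrib]
        refine Finset.sum_congr rfl fun b _ => ?_
        rw [Equiv.neg_apply, hodd, Units.val_neg, Int.cast_neg, ← neg_one_mul (b : ZMod p), map_mul,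
          show χ (-1) = 1 from he]
        ring
      have e2 : (2 : ℂ) * ∑ b : (ZMod p)ˣ, (c b : ℂ) * χ (b : ZMod p) = 0 := by
        linear_combination e1
      exact (mul_eq_zero.mp e2).resolve_left two_ne_zero
    · have e1 : ∑ a : (ZMod p)ˣ, χ (a : ZMod p) * ((∑ b, c b * fel p (b⁻¹ * a) : ℤ) : ℂ) = 0 := by
        refine Finset.sum_eq_zero fun a _ => ?_
        rw [hc a, Int.cast_zero, mul_zero]
      have e2 : ∑ a : (ZMod p)ˣ, χ (a : ZMod p) * ((∑ b, c b * fel p (b⁻¹ * a) : ℤ) : ℂ) =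
          (∑ b : (ZMod p)ˣ, (c b : ℂ) * χ (b : ZMod p)) *
            ∑ a : (ZMod p)ˣ, χ (a : ZMod p) * (fel p a : ℂ) := by
        rw [Finset.sum_mul]
        calc ∑ a : (ZMod p)ˣ, χ (a : ZMod p) * ((∑ b, c b * fel p (b⁻¹ * a) : ℤ) : ℂ)
            = ∑ a : (ZMod p)ˣ, ∑ b : (ZMod p)ˣ, (c b : ℂ) * χ (b : ZMod p) *
                (χ ((b⁻¹ * a : (ZMod p)ˣ) : ZMod p) * (fel p (b⁻¹ * a) : ℂ)) := by
              refine Finset.sum_congr rfl fun a _ => ?_
              rw [Int.cast_sum, Finset.mul_sum]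
              refine Finset.sum_congr rfl fun b _ => ?_
              have e3 : χ (a : ZMod p) = χ (b : ZMod p) * χ ((b⁻¹ * a : (ZMod p)ˣ) : ZMod p) := by
                rw [← map_mul, ← Units.val_mul, mul_inv_cancel_left]
              rw [e3, Int.cast_mul]
              ring
          _ = ∑ b : (ZMod p)ˣ, ∑ a : (ZMod p)ˣ, (c b : ℂ) * χ (b : ZMod p) *
                (χ ((b⁻¹ * a : (ZMod p)ˣ) : ZMod p) * (fel p (b⁻¹ * a) : ℂ)) := Finset.sum_comm
          _ = ∑ b : (ZMod p)ˣ, (c b : ℂ) * χ (b : ZMod p) *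
                ∑ a : (ZMod p)ˣ, χ (a : ZMod p) * (fel p a : ℂ) := by
              refine Finset.sum_congr rfl fun b _ => ?_
              rw [← Finset.mul_sum]
              congr 1
              exact Equiv.sum_comp (Equiv.mulLeft b⁻¹)
                (fun a : (ZMod p)ˣ => χ (a : ZMod p) * (fel p a : ℂ))
      rw [e2] at e1
      exact (mul_eq_zero.mp e1).resolve_right (sum_fel_ne_zero h2 ho)
  -- Fourier inversion
  funext b₀
  have e1 : ∑ χ : DirichletCharacter ℂ p, χ (b₀ : ZMod p)⁻¹ *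
      ∑ b : (ZMod p)ˣ, (c b : ℂ) * χ (b : ZMod p) = 0 :=
    Finset.sum_eq_zero fun χ _ => by rw [hC χ, mul_zero]
  have e2 : ∑ χ : DirichletCharacter ℂ p, χ (b₀ : ZMod p)⁻¹ *
      ∑ b : (ZMod p)ˣ, (c b : ℂ) * χ (b : ZMod p) = (c b₀ : ℂ) * (p.totient : ℂ) := by
    calc ∑ χ : DirichletCharacter ℂ p, χ (b₀ : ZMod p)⁻¹ *
          ∑ b : (ZMod p)ˣ, (c b : ℂ) * χ (b : ZMod p)
        = ∑ χ : DirichletCharacter ℂ p, ∑ b : (ZMod p)ˣ,
            (c b : ℂ) * (χ (b₀ : ZMod p)⁻¹ * χ (b : ZMod p)) := by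
          refine Finset.sum_congr rfl fun χ _ => ?_
          rw [Finset.mul_sum]
          exact Finset.sum_congr rfl fun b _ => by ring
      _ = ∑ b : (ZMod p)ˣ, ∑ χ : DirichletCharacter ℂ p,
            (c b : ℂ) * (χ (b₀ : ZMod p)⁻¹ * χ (b : ZMod p)) := Finset.sum_comm
      _ = ∑ b : (ZMod p)ˣ, (c b : ℂ) * if b₀ = b then (p.totient : ℂ) else 0 := by
          refine Finset.sum_congr rfl fun b _ => ?_
          rw [← Finset.mul_sum, sum_char_inv_mul_char_eq ℂ b₀.isUnit]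
          simp only [Units.val_inj]
      _ = (c b₀ : ℂ) * (p.totient : ℂ) := by
          rw [Finset.sum_eq_single b₀]
          · rw [if_pos rfl]
          · intro b _ hb
            rw [if_neg (Ne.symm hb), mul_zero]
          · intro h
            exact absurd (Finset.mem_univ _) h
  rw [e1] at e2
  have h3 : (p.totient : ℂ) ≠ 0 := by
    have : 0 < p.totient := Nat.totient_pos.mpr hp.out.pos
    exact_mod_cast this.ne'
  have h4 := (mul_eq_zero.mp e2.symm).resolve_right h3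
  exact_mod_cast h4

end Fermat.Agent.Cor.Catalan
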