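import Mathlib

/-!
# Counting for the minus argument (block MIH, piece 8a)

At least `n (n - 1) r (r - 1)` vectors of `ℤ ^ n` have exactly two non-zero coordinates and `ℓ¹`-norm
at most `r`; pigeonhole.
-/

set_option autoImplicit false

namespace Fermat.Agent.Cor.Catalan

open Finset

namespace Count

/-- the sign of a boolean -/
def sgn (e : Bool) : ℤ := if e then 1 else -1

theorem sgn_cases (e : Bool) : sgn e = 1 ∨ sgn e = -1 := by cases e <;> simp [sgn]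

theorem natAbs_sgn_mul (e : Bool) (k : ℤ) : (sgn e * k).natAbs = k.natAbs := by
  rcases sgn_cases e with h | h <;> rw [h] <;> simp

theorem sgn_inj {e e' : Bool} {k : ℤ} (hk : k ≠ 0) (h : sgn e * k = sgn e' * k) : e = e' := by
  have h1 := mul_right_cancel₀ hk h
  cases e <;> cases e' <;> simp [sgn] at h1 ⊢

/-- pairs `b₁ < b₂` -/
def pairs (n : ℕ) : Finset (Σ _ : Fin n, Fin n) := univ.sigma fun b => Iio b

theorem card_pairs (n : ℕ) : (pairs n).card * 2 = n * (n - 1) := by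
  rw [pairs, card_sigma]
  have h : ∑ b : Fin n, (Iio b).card = ∑ i ∈ range n, i := by
    rw [← Fin.sum_univ_eq_sum_range (fun i => i) n]
    exact sum_congr rfl fun b _ => Fin.card_Iio b
  rw [h, sum_range_id_mul_two]

/-- pairs `l < m < r` -/
def triv (r : ℕ) : Finset (Σ _ : ℕ, ℕ) := (range r).sigma fun m => range m

theorem card_triv (r : ℕ) : (triv r).card * 2 = r * (r - 1) := by
  rw [triv, card_sigma]
  simp_rw [card_range]
  exact sum_range_id_mul_two r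

/-- the index set -/
def idx (n r : ℕ) : Finset ((Σ _ : Fin n, Fin n) × (Σ _ : ℕ, ℕ) × Bool × Bool) :=
  pairs n ×ˢ triv r ×ˢ univ

theorem card_idx (n r : ℕ) : (idx n r).card = n * (n - 1) * (r * (r - 1)) := by
  rw [idx, card_product, card_product, ← card_pairs, ← card_triv]
  have h : (univ : Finset (Bool × Bool)).card = 4 := by decide
  rw [h]
  ring

/-- the vector -/
def vec {n : ℕ} (t : (Σ _ : Fin n, Fin n) × (Σ _ : ℕ, ℕ) × Bool × Bool) (i : Fin n) : ℤ :=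
  if i = t.1.2 then sgn t.2.2.1 * (t.2.1.2 + 1)
  else if i = t.1.1 then sgn t.2.2.2 * (t.2.1.1 - t.2.1.2) else 0

theorem sum_vec {n r : ℕ} {t : (Σ _ : Fin n, Fin n) × (Σ _ : ℕ, ℕ) × Bool × Bool}
    (ht : t ∈ idx n r) : ∑ i, (vec t i).natAbs ≤ r := by
  obtain ⟨⟨b₂, b₁⟩, ⟨m, l⟩, e₁, e₂⟩ := t
  simp only [idx, pairs, triv, mem_product, mem_sigma, mem_univ, true_and, mem_Iio, mem_range,
    and_true] at ht
  obtain ⟨hb, hm, hl⟩ := ht
  have h1 : ∀ i ∉ ({b₁, b₂} : Finset (Fin n)),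
      (vec (⟨b₂, b₁⟩, ⟨m, l⟩, e₁, e₂) i).natAbs = 0 := by
    intro i hi
    rw [mem_insert, mem_singleton, not_or] at hi
    rw [vec, if_neg hi.1, if_neg hi.2, Int.natAbs_zero]
  rw [← sum_subset (subset_univ ({b₁, b₂} : Finset (Fin n))) fun i _ hi => h1 i hi,
    sum_pair hb.ne]
  have e1 : (vec (⟨b₂, b₁⟩, ⟨m, l⟩, e₁, e₂) b₁).natAbs = l + 1 := by
    rw [vec, if_pos rfl, natAbs_sgn_mul]
    simp only
    omega
  have e2 : (vec (⟨b₂, b₁⟩, ⟨m, l⟩, e₁, e₂) b₂).natAbs = m - l := by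
    rw [vec, if_neg hb.ne', if_pos rfl, natAbs_sgn_mul]
    simp only
    omega
  rw [e1, e2]
  omega

theorem vec_injOn (n r : ℕ) : Set.InjOn (vec (n := n)) (idx n r) := by
  rintro ⟨⟨b₂, b₁⟩, ⟨m, l⟩, e₁, e₂⟩ ht ⟨⟨c₂, c₁⟩, ⟨m', l'⟩, f₁, f₂⟩ ht' h
  rw [mem_coe] at ht ht'
  simp only [idx, pairs, triv, mem_product, mem_sigma, mem_univ, true_and, mem_Iio, mem_range,
    and_true] at ht ht'
  obtain ⟨hb, hm, hl⟩ := ht
  obtain ⟨hc, hm', hl'⟩ := ht'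
  have v1 : vec (⟨b₂, b₁⟩, ⟨m, l⟩, e₁, e₂) b₁ = sgn e₁ * (l + 1) := by rw [vec, if_pos rfl]
  have v2 : vec (⟨b₂, b₁⟩, ⟨m, l⟩, e₁, e₂) b₂ = sgn e₂ * (m - l) := by
    rw [vec, if_neg hb.ne', if_pos rfl]
  have w1 : vec (⟨c₂, c₁⟩, ⟨m', l'⟩, f₁, f₂) c₁ = sgn f₁ * (l' + 1) := by rw [vec, if_pos rfl]
  have w2 : vec (⟨c₂, c₁⟩, ⟨m', l'⟩, f₁, f₂) c₂ = sgn f₂ * (m' - l') := by
    rw [vec, if_neg hc.ne', if_pos rfl]
  have hne : ∀ (e : Bool) (k : ℤ), 0 < k → sgn e * k ≠ 0 := by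
    intro e k hk
    rcases sgn_cases e with h | h <;> rw [h] <;> omega
  have hsup : ∀ i, vec (⟨c₂, c₁⟩, ⟨m', l'⟩, f₁, f₂) i ≠ 0 → i = c₁ ∨ i = c₂ := by
    intro i hi
    by_contra hcon
    rw [not_or] at hcon
    exact hi (by rw [vec, if_neg hcon.1, if_neg hcon.2])
  have hb1 : b₁ = c₁ ∨ b₁ = c₂ := hsup b₁ (by rw [← h, v1]; exact hne _ _ (by omega))
  have hb2 : b₂ = c₁ ∨ b₂ = c₂ := hsup b₂ (by rw [← h, v2]; exact hne _ _ (by omega))
  have key : b₁ = c₁ ∧ b₂ = c₂ := by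
    rcases hb1 with h1 | h1 <;> rcases hb2 with h2 | h2
    · rw [h1, h2] at hb
      exact absurd hb (lt_irrefl _)
    · exact ⟨h1, h2⟩
    · rw [h1, h2] at hb
      exact absurd (hb.trans hc) (lt_irrefl _)
    · rw [h1, h2] at hb
      exact absurd hb (lt_irrefl _)
  obtain ⟨rfl, rfl⟩ := key
  have q1 : sgn e₁ * (l + 1 : ℤ) = sgn f₁ * (l' + 1) := by rw [← v1, h, w1]
  have q2 : sgn e₂ * (m - l : ℤ) = sgn f₂ * (m' - l') := by rw [← v2, h, w2]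
  have a1 := congrArg Int.natAbs q1
  have a2 := congrArg Int.natAbs q2
  rw [natAbs_sgn_mul, natAbs_sgn_mul] at a1 a2
  have hl1 : l = l' := by omega
  subst hl1
  have hm1 : m = m' := by omega
  subst hm1
  have s1 := sgn_inj (by omega) q1
  have s2 := sgn_inj (by omega) q2
  rw [s1, s2]

/-- **Pigeonhole.** -/
theorem exists_ne_map_eq {n r : ℕ} {α : Type*} [DecidableEq α] (f : (Fin n → ℤ) → α)
    (s : Finset α) (hs : ∀ c, f c ∈ s) (hcard : s.card < n * (n - 1) * (r * (r - 1))) :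
    ∃ c c' : Fin n → ℤ, c ≠ c' ∧ f c = f c' ∧ ∑ i, (c i).natAbs ≤ r ∧
      ∑ i, (c' i).natAbs ≤ r := by
  rw [← card_idx] at hcard
  obtain ⟨t, ht, t', ht', hne, he⟩ := exists_ne_map_eq_of_card_lt_of_maps_to hcard
    (f := fun t => f (vec t)) (fun t _ => hs _)
  exact ⟨vec t, vec t', fun h => hne (vec_injOn n r ht ht' h), he, sum_vec ht, sum_vec ht'⟩

/-- The numerical inequality: `q ≥ 4 p²`, `p = 2 n + 1`, `r = ⌊7 q / (16 n²)⌋`. -/
theorem card_lt {n q : ℕ} (hn : 2 ≤ n) (hq : 4 * (2 * n + 1) ^ 2 ≤ q) :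
    q < n * (n - 1) * ((7 * q / (16 * n ^ 2)) * (7 * q / (16 * n ^ 2) - 1)) := by
  set r := 7 * q / (16 * n ^ 2) with hr
  have hn2 : 0 < 16 * n ^ 2 := by positivity
  have h1 : 7 * q < 16 * n ^ 2 * (r + 1) := by
    have := Nat.lt_div_mul_add (a := 7 * q) hn2
    rw [← hr] at this
    linarith
  have h7 : 7 ≤ r := by
    rw [hr, Nat.le_div_iff_mul_le hn2]
    nlinarith
  obtain ⟨k, rfl⟩ : ∃ k, n = k + 2 := ⟨n - 2, by omega⟩
  obtain ⟨s, hs⟩ : ∃ s, r = s + 7 := ⟨r - 7, by omega⟩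
  rw [hs] at h1 ⊢
  have e1 : k + 2 - 1 = k + 1 := by omega
  have e2 : s + 7 - 1 = s + 6 := by omega
  rw [e1, e2]
  have h2 : 16 * (k + 2) ^ 2 * (s + 7 + 1) ≤ 7 * ((k + 2) * (k + 1) * ((s + 7) * (s + 6))) := by
    have h3 : 32 * (s + 8) ≤ 7 * ((s + 7) * (s + 6)) := by nlinarith
    have h4 : k + 2 ≤ 2 * (k + 1) := by omega
    calc 16 * (k + 2) ^ 2 * (s + 7 + 1) = (k + 2) * (k + 2) * (16 * (s + 8)) := by ring
      _ ≤ (k + 2) * (2 * (k + 1)) * (16 * (s + 8)) := by gcongr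
      _ = (k + 2) * (k + 1) * (32 * (s + 8)) := by ring
      _ ≤ (k + 2) * (k + 1) * (7 * ((s + 7) * (s + 6))) := by gcongr
      _ = _ := by ring
  omega

end Count

end Fermat.Agent.Cor.Catalan
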