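import Fermat.Agent.Corollaries.Catalan.MinusArith
import Fermat.Agent.Corollaries.Catalan.MinusCount

/-!
# The minus argument (block MIH, piece 8)

If `x ^ p - y ^ q = 1` in non-zero integers, `5 ≤ p < q` primes, then `q < 4 p ^ 2` (Mihăilescu).

The elements `Θ(c) = ∑ c_i (σ_{b_i} f)` of the minus part (`f = fel`, `c ∈ ℤ ^ ((p-1)/2)`) satisfy
`(x - ζ) ^ Θ(c) = α(c) ^ q`, and `α(c) = ξ(c) exp (Λ(c) / q)` in `ℂ` with `ξ(c) ^ q = 1`,
`Λ(c) = ∑ Θ(c)_a log (1 - σ_a ζ / x)` very small. If `q ≥ 4 p ^ 2` then there are more than `q` small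
vectors `c`, so two have the same `ξ`, and `α = α(c) / α(c')` is very near to `1` in two of the
embeddings and of absolute value `1` in the others; its denominator is small: contradiction.
-/

set_option autoImplicit false

noncomputable section

namespace Fermat.Agent.Cor.Catalan

open NumberField Finset
open scoped ComplexConjugate

namespace Minus

/-! ### Powers -/

theorem prod_zpow_eq {F ι : Type*} [CommGroupWithZero F] {z : F} (hz : z ≠ 0) (s : Finset ι)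
    (f : ι → ℤ) : ∏ i ∈ s, z ^ f i = z ^ ∑ i ∈ s, f i := by
  classical
  induction s using Finset.induction_on with
  | empty => simp
  | insert i s hi ih => rw [prod_insert hi, sum_insert hi, ih, zpow_add₀ hz]

/-! ### The element `fel` -/

section Fel

variable {p : ℕ} [hp : Fact p.Prime]

theorem val_neg_add (c : (ZMod p)ˣ) :
    ((-c : (ZMod p)ˣ) : ZMod p).val + (c : ZMod p).val = p := by
  have h0 : (c : ZMod p) ≠ 0 := c.ne_zero
  have h1 : ((-c : (ZMod p)ˣ) : ZMod p).val = p - (c : ZMod p).val := by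
    rw [Units.val_neg, ZMod.neg_val, if_neg h0]
  have h2 := ZMod.val_lt (c : ZMod p)
  omega

theorem fel_neg (hp2 : p ≠ 2) (a : (ZMod p)ˣ) : fel p (-a) = -fel p a := by
  have h1 := val_neg_add (a⁻¹)
  have h2 : p % 2 = 1 := (hp.out.eq_two_or_odd.resolve_left hp2)
  rw [fel, fel, inv_neg]
  by_cases h : p < 2 * ((a⁻¹ : (ZMod p)ˣ) : ZMod p).val
  · rw [if_pos h, if_neg (by omega)]
  · rw [if_neg h, if_pos (by omega)]
    norm_num

theorem natAbs_fel (a : (ZMod p)ˣ) : (fel p a).natAbs = 1 := by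
  rw [fel]
  split_ifs <;> rfl

theorem sum_eq_zero_of_odd {Θ : (ZMod p)ˣ → ℤ} (h : ∀ a, Θ (-a) = -Θ a) : ∑ a, Θ a = 0 := by
  have h1 : ∑ a, Θ a = ∑ a, Θ (-a) := (Equiv.sum_comp (Equiv.neg _) _).symm
  simp_rw [h, sum_neg_distrib] at h1
  omega

theorem coprime_succ (i : Fin ((p - 1) / 2)) : (i.1 + 1).Coprime p := by
  have h1 := i.2
  refine ((Nat.Prime.coprime_iff_not_dvd hp.out).mpr ?_).symm
  exact Nat.not_dvd_of_pos_of_lt (Nat.succ_pos _) (by omega)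

/-- the unit `i + 1` -/
def bb (i : Fin ((p - 1) / 2)) : (ZMod p)ˣ := ZMod.unitOfCoprime (i.1 + 1) (coprime_succ i)

theorem val_bb (i : Fin ((p - 1) / 2)) : (bb i : ZMod p).val = i.1 + 1 := by
  have h1 := i.2
  rw [bb, ZMod.coe_unitOfCoprime, ZMod.val_natCast, Nat.mod_eq_of_lt (by omega)]

theorem bb_inj {i j : Fin ((p - 1) / 2)} (h : bb i = bb j) : i = j := by
  have h1 := val_bb i
  rw [h, val_bb] at h1
  exact Fin.ext (by omega)

theorem bb_ne_neg (i j : Fin ((p - 1) / 2)) : bb i ≠ -bb j := by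
  intro h
  have h1 := val_neg_add (bb j)
  rw [← h, val_bb, val_bb] at h1
  have h2 := i.2
  have h3 := j.2
  omega

/-- the element `∑ c_i σ_{b_i} f` -/
def Th (c : Fin ((p - 1) / 2) → ℤ) (a : (ZMod p)ˣ) : ℤ := ∑ i, c i * fel p ((bb i)⁻¹ * a)

theorem Th_neg (hp2 : p ≠ 2) (c : Fin ((p - 1) / 2) → ℤ) (a : (ZMod p)ˣ) :
    Th c (-a) = -Th c a := by
  rw [Th, Th, ← sum_neg_distrib]
  refine sum_congr rfl fun i _ => ?_
  rw [mul_neg, fel_neg hp2, mul_neg]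

theorem Th_sub (c d : Fin ((p - 1) / 2) → ℤ) : Th (c - d) = Th c - Th d := by
  funext a
  rw [Pi.sub_apply, Th, Th, Th, ← sum_sub_distrib]
  refine sum_congr rfl fun i _ => ?_
  rw [Pi.sub_apply, sub_mul]

theorem natAbs_Th_le (c : Fin ((p - 1) / 2) → ℤ) (a : (ZMod p)ˣ) :
    (Th c a).natAbs ≤ ∑ i, (c i).natAbs := by
  refine (Int.natAbs_sum_le _ _).trans (sum_le_sum fun i _ => ?_)
  rw [Int.natAbs_mul, natAbs_fel, mul_one]

/-- the odd function belonging to `c` -/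
def od (c : Fin ((p - 1) / 2) → ℤ) (a : (ZMod p)ˣ) : ℤ :=
  ∑ i, c i * ((if a = bb i then 1 else 0) - (if a = -bb i then 1 else 0))

theorem od_neg (c : Fin ((p - 1) / 2) → ℤ) (a : (ZMod p)ˣ) : od c (-a) = -od c a := by
  rw [od, od, ← sum_neg_distrib]
  refine sum_congr rfl fun i _ => ?_
  have h1 : (-a = bb i) ↔ (a = -bb i) := by rw [neg_eq_iff_eq_neg]
  have h2 : (-a = -bb i) ↔ (a = bb i) := neg_inj
  simp only [h1, h2]
  ring

theorem od_bb (c : Fin ((p - 1) / 2) → ℤ) (j : Fin ((p - 1) / 2)) : od c (bb j) = c j := by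
  rw [od, sum_eq_single j]
  · rw [if_pos rfl, if_neg (bb_ne_neg j j)]
    ring
  · intro i _ hij
    rw [if_neg (fun h => hij (bb_inj h).symm), if_neg (bb_ne_neg j i)]
    ring
  · exact fun h => absurd (mem_univ j) h

theorem sum_od_mul (hp2 : p ≠ 2) (c : Fin ((p - 1) / 2) → ℤ) (a : (ZMod p)ˣ) :
    ∑ b, od c b * fel p (b⁻¹ * a) = 2 * Th c a := by
  simp_rw [od, sum_mul]
  rw [sum_comm, Th, mul_sum]
  refine sum_congr rfl fun i _ => ?_
  have h1 : ∀ b : (ZMod p)ˣ, c i * ((if b = bb i then 1 else 0) - (if b = -bb i then 1 else 0)) *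
      fel p (b⁻¹ * a) = (if b = bb i then c i * fel p (b⁻¹ * a) else 0) -
        (if b = -bb i then c i * fel p (b⁻¹ * a) else 0) := by
    intro b
    split_ifs <;> ring
  simp_rw [h1]
  rw [sum_sub_distrib, sum_ite_eq' univ (bb i) (fun b => c i * fel p (b⁻¹ * a)),
    sum_ite_eq' univ (-bb i) (fun b => c i * fel p (b⁻¹ * a)), if_pos (mem_univ _),
    if_pos (mem_univ _), inv_neg, neg_mul, fel_neg hp2]
  ring

theorem eq_zero_of_Th (hInd : IndepStmt) (hp2 : p ≠ 2) {c : Fin ((p - 1) / 2) → ℤ}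
    (h : Th c = 0) : c = 0 := by
  have h1 := hInd p hp2 (od c) (od_neg c) (fun a => by rw [sum_od_mul hp2, h]; simp)
  funext j
  rw [← od_bb c j, h1]
  rfl

end Fel

/-! ### The root `α` -/

section Root

variable {p : ℕ} [hp : Fact p.Prime] {K : Type} [Field K] [NumberField K]
  [IsCyclotomicExtension {p} ℚ K]

theorem pw_Th {z : K} (hz : z ≠ 0) (c : Fin ((p - 1) / 2) → ℤ) :
    pw p K (Th c) z = ∏ i, (pw p K (fun a => fel p ((bb i)⁻¹ * a)) z) ^ (c i) := by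
  simp_rw [pw]
  have h1 : ∀ i : Fin ((p - 1) / 2), (∏ a, (sg p K a z) ^ fel p ((bb i)⁻¹ * a)) ^ (c i) =
      ∏ a, (sg p K a z) ^ (c i * fel p ((bb i)⁻¹ * a)) := by
    intro i
    rw [← prod_zpow]
    refine prod_congr rfl fun a _ => ?_
    rw [mul_comm (c i), zpow_mul]
  rw [prod_congr rfl fun i _ => h1 i, prod_comm]
  refine prod_congr rfl fun a _ => ?_
  rw [prod_zpow_eq ((map_ne_zero _).mpr hz)]
  rfl

end Root

/-! ### The embeddings -/

section Emb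

variable {p : ℕ} [hp : Fact p.Prime] {K : Type} [Field K] [NumberField K]
  [IsCyclotomicExtension {p} ℚ K] {ζ : 𝓞 K} (hζ : IsPrimitiveRoot (ζ : K) p) (Ψ : K →ₐ[ℚ] ℂ)

include hζ

theorem norm_emb (a : (ZMod p)ˣ) : ‖Ψ (sg p K a ζ)‖ = 1 := by
  have h1 : (sg p K a (ζ : K)) ^ p = 1 := by rw [← map_pow, hζ.pow_eq_one, map_one]
  refine Complex.norm_eq_one_of_pow_eq_one (n := p) ?_ hp.out.ne_zero
  rw [← map_pow, h1, map_one]

theorem emb_neg (a : (ZMod p)ˣ) : Ψ (sg p K (-a) ζ) = conj (Ψ (sg p K a ζ)) := by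
  rw [← Complex.inv_eq_conj (norm_emb hζ Ψ a)]
  refine eq_inv_of_mul_eq_one_left ?_
  rw [← map_mul, sg_zeta hζ, sg_zeta hζ, ← pow_add, val_neg_add, hζ.pow_eq_one, map_one]

omit hζ in
theorem emb_sub (x : ℤ) (a : (ZMod p)ˣ) :
    Ψ (sg p K a ((x : K) - (ζ : K))) = (x : ℂ) - Ψ (sg p K a ζ) := by
  rw [map_sub, map_sub, map_intCast, map_intCast]

theorem norm_emb_sub_le (x : ℤ) (a : (ZMod p)ˣ) :
    ‖Ψ (sg p K a ((x : K) - (ζ : K)))‖ ≤ |(x : ℝ)| + 1 := by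
  rw [emb_sub]
  refine (norm_sub_le _ _).trans ?_
  rw [norm_emb hζ, Complex.norm_intCast]

theorem norm_emb_sub_neg (x : ℤ) (a : (ZMod p)ˣ) :
    ‖Ψ (sg p K (-a) ((x : K) - (ζ : K)))‖ = ‖Ψ (sg p K a ((x : K) - (ζ : K)))‖ := by
  have h1 : (x : ℂ) - conj (Ψ (sg p K a ζ)) = conj ((x : ℂ) - Ψ (sg p K a ζ)) := by
    rw [map_sub, map_intCast]
  rw [emb_sub, emb_sub, emb_neg hζ, h1, Complex.norm_conj]

/-- the elements of the minus part have absolute value `1` -/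
theorem norm_pw {x : ℤ} (hx : (x : K) - (ζ : K) ≠ 0) {Θ : (ZMod p)ˣ → ℤ}
    (hodd : ∀ a, Θ (-a) = -Θ a) : ‖Ψ (pw p K Θ ((x : K) - (ζ : K)))‖ = 1 := by
  set f : (ZMod p)ˣ → ℝ := fun a => ‖Ψ (sg p K a ((x : K) - (ζ : K)))‖ with hf
  have hf0 : ∀ a, 0 < f a := fun a => norm_pos_iff.mpr
    ((map_ne_zero _).mpr ((map_ne_zero _).mpr hx))
  have h1 : ‖Ψ (pw p K Θ ((x : K) - (ζ : K)))‖ = ∏ a, f a ^ Θ a := by
    rw [pw, map_prod, norm_prod]
    refine prod_congr rfl fun a _ => ?_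
    rw [map_zpow₀, norm_zpow]
  have h2 : ∏ a, f a ^ Θ a = (∏ a, f a ^ Θ a)⁻¹ := by
    calc ∏ a, f a ^ Θ a = ∏ a, f (-a) ^ Θ (-a) := (Equiv.prod_comp (Equiv.neg _) _).symm
      _ = ∏ a, (f a ^ Θ a)⁻¹ := by
          refine prod_congr rfl fun a _ => ?_
          rw [hodd, zpow_neg]
          congr 2
          exact norm_emb_sub_neg hζ Ψ x a
      _ = _ := prod_inv_distrib _
  have h3 : 0 < ∏ a, f a ^ Θ a := prod_pos fun a _ => zpow_pos (hf0 a) _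
  rw [h1]
  have h4 : (∏ a, f a ^ Θ a) * (∏ a, f a ^ Θ a) = 1 := by
    nth_rw 2 [h2]
    exact mul_inv_cancel₀ h3.ne'
  nlinarith

/-- the logarithm of `1 - σ_a ζ / x` -/
def lo (x : ℤ) (ζ : 𝓞 K) (Ψ : K →ₐ[ℚ] ℂ) (a : (ZMod p)ˣ) : ℂ :=
  Complex.log (1 + -(Ψ (sg p K a ζ) / x))

theorem norm_lo_le {x : ℤ} (hx : 2 ≤ |(x : ℝ)|) (a : (ZMod p)ˣ) :
    ‖lo x ζ Ψ a‖ ≤ 3 / 2 / |(x : ℝ)| := by
  have h1 : ‖-(Ψ (sg p K a ζ) / x)‖ = 1 / |(x : ℝ)| := by
    rw [norm_neg, norm_div, norm_emb hζ, Complex.norm_intCast]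
  have h2 := Complex.norm_log_one_add_half_le_self (z := -(Ψ (sg p K a ζ) / x)) (by
    rw [h1]
    exact one_div_le_one_div_of_le two_pos hx)
  rw [h1] at h2
  rw [lo]
  refine h2.trans_eq ?_
  ring

theorem exp_lo {x : ℤ} (hx : 2 ≤ |(x : ℝ)|) (a : (ZMod p)ˣ) :
    (x : ℂ) * Complex.exp (lo x ζ Ψ a) = Ψ (sg p K a ((x : K) - (ζ : K))) := by
  have hx0 : (x : ℂ) ≠ 0 := by
    intro h0
    have h1 : x = 0 := by exact_mod_cast h0
    rw [h1, Int.cast_zero, abs_zero] at hx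
    linarith
  rw [lo, Complex.exp_log, emb_sub]
  · field_simp
    ring
  · intro h0
    have h1 : (x : ℂ) = Ψ (sg p K a ζ) := by
      field_simp at h0
      linear_combination h0
    have h2 := congrArg norm h1
    rw [norm_emb hζ, Complex.norm_intCast] at h2
    rw [h2] at hx
    linarith

/-- the sum of the logarithms -/
def La (x : ℤ) (ζ : 𝓞 K) (Ψ : K →ₐ[ℚ] ℂ) (Θ : (ZMod p)ˣ → ℤ) : ℂ := ∑ a, (Θ a : ℂ) * lo x ζ Ψ a

theorem emb_pw {x : ℤ} (hx : 2 ≤ |(x : ℝ)|) {Θ : (ZMod p)ˣ → ℤ} (hΘ : ∑ a, Θ a = 0) :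
    Ψ (pw p K Θ ((x : K) - (ζ : K))) = Complex.exp (La x ζ Ψ Θ) := by
  have hx0 : (x : ℂ) ≠ 0 := by
    intro h0
    have h1 : x = 0 := by exact_mod_cast h0
    rw [h1, Int.cast_zero, abs_zero] at hx
    linarith
  rw [pw, map_prod, La, Complex.exp_sum]
  have h1 : ∀ a, Ψ ((sg p K a ((x : K) - (ζ : K))) ^ Θ a) =
      (x : ℂ) ^ Θ a * Complex.exp ((Θ a : ℂ) * lo x ζ Ψ a) := by
    intro a
    rw [map_zpow₀, ← exp_lo hζ Ψ hx, mul_zpow, Complex.exp_int_mul]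
  rw [prod_congr rfl fun a _ => h1 a, prod_mul_distrib, prod_zpow_eq hx0, hΘ, zpow_zero, one_mul]

theorem norm_La_le {x : ℤ} (hx : 2 ≤ |(x : ℝ)|) {Θ : (ZMod p)ˣ → ℤ} {R : ℕ}
    (hR : ∀ a, (Θ a).natAbs ≤ R) :
    ‖La x ζ Ψ Θ‖ ≤ (p - 1 : ℕ) * (R * (3 / 2 / |(x : ℝ)|)) := by
  rw [La]
  refine (norm_sum_le _ _).trans ?_
  have h1 : ∀ a ∈ (univ : Finset (ZMod p)ˣ), ‖(Θ a : ℂ) * lo x ζ Ψ a‖ ≤
      R * (3 / 2 / |(x : ℝ)|) := by
    intro a _
    rw [norm_mul, Complex.norm_intCast]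
    refine mul_le_mul ?_ (norm_lo_le hζ Ψ hx a) (norm_nonneg _) (Nat.cast_nonneg _)
    rw [← Int.cast_abs, Int.abs_eq_natAbs]
    exact_mod_cast hR a
  refine (sum_le_sum h1).trans_eq ?_
  rw [sum_const, card_univ, ZMod.card_units_eq_totient, Nat.totient_prime hp.out, nsmul_eq_mul]

end Emb

/-! ### Norms -/

section Norm

variable {p : ℕ} [hp : Fact p.Prime] {K : Type} [Field K] [NumberField K]
  [IsCyclotomicExtension {p} ℚ K]

theorem card_emb : Fintype.card (K →ₐ[ℚ] ℂ) = p - 1 := by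
  rw [AlgHom.card, IsCyclotomicExtension.finrank K
    (Polynomial.cyclotomic.irreducible_rat hp.out.pos), Nat.totient_prime hp.out]

omit [NumberField K] in
theorem abs_norm_eq [NumberField K] (β : K) :
    |((Algebra.norm ℚ β : ℚ) : ℝ)| = ∏ Ψ : K →ₐ[ℚ] ℂ, ‖Ψ β‖ := by
  have h := congrArg norm (Algebra.norm_eq_prod_embeddings ℚ ℂ β)
  rw [norm_prod, eq_ratCast, Complex.norm_ratCast] at h
  exact h

/-- the complex conjugate of an embedding -/
def cj (Ψ : K →ₐ[ℚ] ℂ) : K →ₐ[ℚ] ℂ := (Complex.conjAe.toAlgHom.restrictScalars ℚ).comp Ψ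

omit [NumberField K] in
theorem cj_apply [NumberField K] (Ψ : K →ₐ[ℚ] ℂ) (β : K) : cj Ψ β = conj (Ψ β) := rfl

omit [IsCyclotomicExtension {p} ℚ K] in
theorem cj_ne (hp2 : p ≠ 2) {ζ : K} (hζ : IsPrimitiveRoot ζ p) (Ψ : K →ₐ[ℚ] ℂ) : cj Ψ ≠ Ψ := by
  intro h
  have h1 : conj (Ψ ζ) = Ψ ζ := by rw [← cj_apply, h]
  have h2 : ‖Ψ ζ‖ = 1 := by
    refine Complex.norm_eq_one_of_pow_eq_one (n := p) ?_ hp.out.ne_zero
    rw [← map_pow, hζ.pow_eq_one, map_one]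
  rw [← Complex.inv_eq_conj h2] at h1
  have h0 : Ψ ζ ≠ 0 := fun h0 => by rw [h0, norm_zero] at h2; exact zero_ne_one h2
  have h3 : Ψ (ζ ^ 2) = Ψ 1 := by
    rw [map_pow, map_one, sq]
    nth_rw 1 [← h1]
    exact inv_mul_cancel₀ h0
  have h4 := (hζ.pow_eq_one_iff_dvd 2).mp (Ψ.toRingHom.injective h3)
  have h5 := (Nat.prime_dvd_prime_iff_eq hp.out Nat.prime_two).mp h4
  exact hp2 h5

theorem abs_norm_le (hp2 : p ≠ 2) {ζ : K} (hζ : IsPrimitiveRoot ζ p) {β : K}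
    (h2 : ∀ Ψ : K →ₐ[ℚ] ℂ, ‖Ψ β‖ ≤ 2) {ε : ℝ} (hε : 0 ≤ ε) {Φ : K →ₐ[ℚ] ℂ} (hΦ : ‖Φ β‖ ≤ ε) :
    |((Algebra.norm ℚ β : ℚ) : ℝ)| ≤ ε ^ 2 * 2 ^ (p - 3) := by
  classical
  have hc : ‖cj Φ β‖ ≤ ε := by rwa [cj_apply, Complex.norm_conj]
  have hmem : cj Φ ∈ (univ : Finset (K →ₐ[ℚ] ℂ)).erase Φ :=
    mem_erase.mpr ⟨cj_ne hp2 hζ Φ, mem_univ _⟩
  rw [abs_norm_eq, ← mul_prod_erase univ _ (mem_univ Φ), ← mul_prod_erase _ _ hmem, ← mul_assoc,
    sq]
  have hcard : (((univ : Finset (K →ₐ[ℚ] ℂ)).erase Φ).erase (cj Φ)).card = p - 3 := by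
    rw [card_erase_of_mem hmem, card_erase_of_mem (mem_univ _), card_univ, card_emb (p := p)]
    omega
  refine mul_le_mul (mul_le_mul hΦ hc (norm_nonneg _) hε) ?_
    (prod_nonneg fun _ _ => norm_nonneg _) (mul_nonneg hε hε)
  rw [← hcard, ← prod_const]
  exact prod_le_prod (fun _ _ => norm_nonneg _) fun Ψ _ => h2 Ψ

theorem natAbs_norm (z : 𝓞 K) :
    ((Algebra.norm ℤ z).natAbs : ℝ) = |((Algebra.norm ℚ (z : K) : ℚ) : ℝ)| := by
  have h8 : Algebra.norm ℚ (z : K) = ((Algebra.norm ℤ z : ℤ) : ℚ) :=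
    (Algebra.coe_norm_int z).symm
  rw [h8, Nat.cast_natAbs]
  push_cast
  rfl

theorem norm_num_le {ζ : 𝓞 K} (hζ : IsPrimitiveRoot (ζ : K) p) (x : ℤ) (Θ : (ZMod p)ˣ → ℤ) :
    ((Algebra.norm ℤ (num x ζ Θ)).natAbs : ℝ) ≤
      ((|(x : ℝ)| + 1) ^ (∑ a, (Θ a).toNat)) ^ (p - 1) := by
  rw [natAbs_norm, abs_norm_eq, ← card_emb (p := p) (K := K), ← card_univ, ← prod_const]
  refine prod_le_prod (fun _ _ => norm_nonneg _) fun Ψ _ => ?_
  have h1 : ((num x ζ Θ : 𝓞 K) : K) = ∏ a, ((X x ζ a : 𝓞 K) : K) ^ (Θ a).toNat := by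
    simp only [num, RingOfIntegers.coe_eq_algebraMap, map_prod, map_pow]
  rw [h1, map_prod, norm_prod, ← prod_pow_eq_pow_sum]
  refine prod_le_prod (fun _ _ => norm_nonneg _) fun a _ => ?_
  rw [map_pow, norm_pow, coe_X]
  exact pow_le_pow_left₀ (norm_nonneg _) (norm_emb_sub_le hζ Ψ x a) _

end Norm

/-! ### The final inequality -/

theorem final_ineq {Y M : ℝ} {p : ℕ} (hp : 3 ≤ p) (hY : 2 ^ (4 * p + 12) ≤ Y + 1)
    (h1 : 1 ≤ (4 / Y) ^ 2 * 2 ^ (p - 3) * M) (h2 : M ^ 4 ≤ (Y + 1) ^ 7) : False := by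
  have hpow : (2 : ℝ) ≤ 2 ^ (4 * p + 11) := by
    calc (2 : ℝ) = 2 ^ 1 := (pow_one 2).symm
      _ ≤ _ := pow_le_pow_right₀ one_le_two (by omega)
  have e12 : (2 : ℝ) ^ (4 * p + 12) = 2 * 2 ^ (4 * p + 11) := by ring
  have hY1 : 1 ≤ Y := by linarith
  have hY0 : 0 < Y := by linarith
  have h3 : Y ^ 2 ≤ 2 ^ (p + 1) * M := by
    have h4 : (4 / Y) ^ 2 * 2 ^ (p - 3) * M = (2 ^ (p + 1) * M) / Y ^ 2 := by
      have h5 : (2 : ℝ) ^ (p + 1) = 16 * 2 ^ (p - 3) := by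
        have h6 : p + 1 = (p - 3) + 4 := by omega
        rw [h6, pow_add]
        norm_num
        ring
      rw [h5, div_pow]
      ring
    rw [h4, one_le_div (by positivity)] at h1
    exact h1
  have h4 : (Y ^ 2) ^ 4 ≤ (2 ^ (p + 1) * M) ^ 4 := pow_le_pow_left₀ (by positivity) h3 4
  have h5 : (Y + 1) ^ 7 ≤ (2 * Y) ^ 7 := pow_le_pow_left₀ (by positivity) (by linarith) 7
  have h6 : Y ^ 7 * Y ≤ Y ^ 7 * 2 ^ (4 * p + 11) := by
    calc Y ^ 7 * Y = (Y ^ 2) ^ 4 := by ring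
      _ ≤ (2 ^ (p + 1) * M) ^ 4 := h4
      _ = (2 ^ (p + 1)) ^ 4 * M ^ 4 := by ring
      _ ≤ (2 ^ (p + 1)) ^ 4 * (2 * Y) ^ 7 := by
          refine mul_le_mul_of_nonneg_left (h2.trans h5) (by positivity)
      _ = Y ^ 7 * 2 ^ (4 * p + 11) := by
          rw [← pow_mul]
          have h7 : (2 : ℝ) ^ (4 * p + 11) = 2 ^ ((p + 1) * 4) * 2 ^ 7 := by
            rw [← pow_add]
            congr 1
            ring
          rw [h7]
          ring
  have h7 : Y ≤ 2 ^ (4 * p + 11) := le_of_mul_le_mul_left h6 (by positivity)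
  linarith

theorem sum_toNat_le {p : ℕ} [Fact p.Prime] {Θ : (ZMod p)ˣ → ℤ} (h : ∑ a, Θ a = 0) {R : ℕ}
    (hR : ∀ a, (Θ a).natAbs ≤ 2 * R) : ∑ a, ((-Θ) a).toNat ≤ (p - 1) * R := by
  have h1 := sum_toNat h
  have h2 : ∑ a, ((-Θ) a).toNat + ∑ a, (Θ a).toNat = ∑ a, (Θ a).natAbs := by
    rw [← sum_add_distrib]
    refine sum_congr rfl fun a _ => ?_
    rw [Pi.neg_apply]
    omega
  have h3 : ∑ a, (Θ a).natAbs ≤ (p - 1) * (2 * R) := by
    refine (sum_le_sum fun a _ => hR a).trans_eq ?_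
    rw [sum_const, card_univ, ZMod.card_units_eq_totient, Nat.totient_prime Fact.out,
      smul_eq_mul]
  have h4 : (p - 1) * (2 * R) = 2 * ((p - 1) * R) := by ring
  omega

/-- **The minus argument.** -/
theorem lt_four_sq (hInd : IndepStmt) {p q : ℕ} [hp : Fact p.Prime] (hp5 : 5 ≤ p) (hq0 : q ≠ 0)
    {x : ℤ} {K : Type} [Field K] [NumberField K] [IsCyclotomicExtension {p} ℚ K] {ζ : 𝓞 K}
    (hζ : IsPrimitiveRoot ζ p) {I : Ideal (𝓞 K)}
    (hI : Ideal.span {(x : 𝓞 K) - ζ} = Ideal.span {1 - ζ} * I ^ q) (hIt : I ≠ ⊤) (hI0 : I ≠ ⊥)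
    (hco : ∀ a : (ZMod p)ˣ, a ≠ 1 → IsCoprime I (Ic I a))
    (hroot : ∀ b : (ZMod p)ˣ, ∃ α : K,
      pw p K (fun a => fel p (b⁻¹ * a)) ((x : K) - (ζ : K)) = α ^ q)
    (hY : 2 ^ (4 * p + 12) ≤ |(x : ℝ)| + 1) : q < 4 * p ^ 2 := by
  classical
  by_contra hcon
  rw [not_lt] at hcon
  have hp2 : p ≠ 2 := by omega
  have hp1 : p ≠ 1 := by omega
  have hodd : p % 2 = 1 := hp.out.eq_two_or_odd.resolve_left hp2
  have hζK : IsPrimitiveRoot (ζ : K) p := hζ.map_of_injective RingOfIntegers.coe_injective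
  set Y : ℝ := |(x : ℝ)| with hYdef
  have hY2 : 2 ≤ Y := by
    have h1 : (4 : ℝ) ≤ 2 ^ (4 * p + 12) := by
      calc (4 : ℝ) = 2 ^ 2 := by norm_num
        _ ≤ _ := pow_le_pow_right₀ one_le_two (by omega)
    linarith
  have hY0 : 0 < Y := by linarith
  set n := (p - 1) / 2 with hn
  have hpn : p = 2 * n + 1 := by omega
  have hn2 : 2 ≤ n := by omega
  set r := 7 * q / (16 * n ^ 2) with hr
  have hrq : 16 * n ^ 2 * r ≤ 7 * q := Nat.mul_div_le _ _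
  let Φ : K →ₐ[ℚ] ℂ := IsAlgClosed.lift
  -- `x - ζ ≠ 0`
  set z : K := (x : K) - (ζ : K) with hz
  have hz0 : z ≠ 0 := by
    intro h0
    have h1 := emb_sub (p := p) (ζ := ζ) Φ x 1
    rw [← hz, h0, map_zero, map_zero] at h1
    have h2 := congrArg norm (sub_eq_zero.mp h1.symm)
    rw [norm_emb hζK, Complex.norm_intCast] at h2
    rw [hYdef, h2] at hY2
    linarith
  have hzO : (x : 𝓞 K) - ζ ≠ 0 := by
    intro h0
    apply hz0
    have h1 := congrArg (algebraMap (𝓞 K) K) h0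
    rw [map_sub, map_intCast, map_zero] at h1
    exact h1
  -- the roots
  choose A hA using hroot
  have hA0 : ∀ b, A b ≠ 0 := by
    intro b h0
    have h1 := hA b
    rw [h0, zero_pow hq0, pw] at h1
    exact (prod_ne_zero_iff.mpr fun a _ => zpow_ne_zero _ ((map_ne_zero _).mpr hz0)) h1
  set al : (Fin n → ℤ) → K := fun c => ∏ i, A (bb i) ^ (c i) with hal
  have hal0 : ∀ c, al c ≠ 0 := fun c => prod_ne_zero_iff.mpr fun i _ => zpow_ne_zero _ (hA0 _)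
  have hpow : ∀ c, pw p K (Th c) z = al c ^ q := by
    intro c
    rw [pw_Th hz0, hal]
    simp only
    rw [← prod_pow]
    refine prod_congr rfl fun i _ => ?_
    rw [hA, ← zpow_natCast, ← zpow_natCast, ← zpow_mul, ← zpow_mul, mul_comm]
  have hTodd : ∀ (c : Fin n → ℤ) (a : (ZMod p)ˣ), Th c (-a) = -Th c a := fun c a =>
    Th_neg hp2 c a
  have hTsum : ∀ c : Fin n → ℤ, ∑ a : (ZMod p)ˣ, Th c a = 0 := fun c =>
    sum_eq_zero_of_odd (hTodd c)
  have hqC : (q : ℂ) ≠ 0 := by exact_mod_cast hq0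
  have hqpos : 0 < q := Nat.pos_of_ne_zero hq0
  -- the roots of unity
  obtain ⟨c, c', hne, hf, hc, hc'⟩ := Count.exists_ne_map_eq (n := n) (r := r)
    (fun c => Φ (al c) * Complex.exp (-(La x ζ Φ (Th c)) / q))
    (Polynomial.nthRootsFinset q (1 : ℂ)) (fun c => by
      rw [Polynomial.mem_nthRootsFinset hqpos, mul_pow, ← map_pow, ← hpow, ← Complex.exp_nat_mul,
        emb_pw hζK Φ hY2 (hTsum c), ← Complex.exp_add, mul_div_cancel₀ _ hqC, add_neg_cancel,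
        Complex.exp_zero])
    (by
      rw [(Complex.isPrimitiveRoot_exp q hq0).card_nthRootsFinset]
      exact Count.card_lt hn2 (by rw [← hpn]; exact hcon))
  set d : Fin n → ℤ := c - c' with hd
  have hd0 : d ≠ 0 := sub_ne_zero.mpr hne
  have hΘ0 : (Th d : (ZMod p)ˣ → ℤ) ≠ 0 := fun h0 => hd0 (eq_zero_of_Th hInd hp2 h0)
  have hald : al d = al c / al c' := by
    rw [hal]
    simp only
    rw [← prod_div_distrib]
    refine prod_congr rfl fun i _ => ?_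
    rw [hd, Pi.sub_apply, zpow_sub₀ (hA0 _)]
  have hLd : La x ζ Φ (Th d : (ZMod p)ˣ → ℤ) = La x ζ Φ (Th c) - La x ζ Φ (Th c') := by
    rw [hd, Th_sub, La, La, La, ← sum_sub_distrib]
    refine sum_congr rfl fun a _ => ?_
    rw [Pi.sub_apply]
    push_cast
    ring
  have hΦd : Φ (al d) = Complex.exp (La x ζ Φ (Th d : (ZMod p)ˣ → ℤ) / q) := by
    have h1 : Φ (al c') ≠ 0 := (map_ne_zero _).mpr (hal0 c')
    rw [hald, map_div₀, div_eq_iff h1, hLd, sub_div, Complex.exp_sub]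
    rw [neg_div, neg_div, Complex.exp_neg, Complex.exp_neg] at hf
    have h2 := Complex.exp_ne_zero (La x ζ Φ (Th c) / q)
    have h3 := Complex.exp_ne_zero (La x ζ Φ (Th c') / q)
    field_simp at hf ⊢
    linear_combination hf
  -- bounds for the coefficients
  have hTd : ∀ a : (ZMod p)ˣ, (Th d a).natAbs ≤ 2 * r := by
    intro a
    refine (natAbs_Th_le d a).trans ?_
    have h1 : ∑ i, (d i).natAbs ≤ ∑ i, ((c i).natAbs + (c' i).natAbs) := by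
      refine sum_le_sum fun i _ => ?_
      rw [hd, Pi.sub_apply]
      omega
    rw [sum_add_distrib] at h1
    exact h1.trans (by omega)
  -- the absolute values of `α - 1`
  have hα1 : al d ≠ 1 := by
    intro h0
    refine hΘ0 (eq_zero_of_root_eq_one hζ hp1 hI hzO hIt hco hq0 (hTodd d) ?_)
    rw [← hz, hpow, h0, one_pow]
  have hnorm : ∀ Ψ : K →ₐ[ℚ] ℂ, ‖Ψ (al d)‖ = 1 := by
    intro Ψ
    have h1 := norm_pw hζK Ψ (x := x) hz0 (hTodd d)
    rw [← hz, hpow, map_pow, norm_pow] at h1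
    exact (pow_eq_one_iff_of_nonneg (norm_nonneg _) hq0).mp h1
  have h2 : ∀ Ψ : K →ₐ[ℚ] ℂ, ‖Ψ (al d - 1)‖ ≤ 2 := by
    intro Ψ
    rw [map_sub, map_one]
    refine (norm_sub_le _ _).trans ?_
    rw [hnorm, norm_one]
    norm_num
  have hp1n : ((p - 1 : ℕ) : ℝ) = 2 * n := by
    have h1 : p - 1 = 2 * n := by omega
    rw [h1]
    push_cast
    ring
  have hqR : (0 : ℝ) < q := by exact_mod_cast hqpos
  have hLq : ‖La x ζ Φ (Th d : (ZMod p)ˣ → ℤ) / q‖ ≤ 2 / Y := by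
    have h1 := norm_La_le hζK Φ hY2 hTd
    rw [norm_div, Complex.norm_natCast, div_le_iff₀ hqR]
    refine h1.trans ?_
    rw [hp1n]
    have h3 : (16 : ℝ) * n ^ 2 * r ≤ 7 * q := by exact_mod_cast hrq
    have h4 : (2 : ℝ) ≤ n := by exact_mod_cast hn2
    have h5 : (0 : ℝ) ≤ r := Nat.cast_nonneg r
    have h6 : (2 : ℝ) * n * ((2 * r : ℕ) * (3 / 2)) ≤ 2 * q := by
      push_cast
      nlinarith [mul_nonneg h5 (sub_nonneg.mpr h4)]
    calc (2 : ℝ) * n * ((2 * r : ℕ) * (3 / 2 / |(x : ℝ)|)) =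
        (2 * n * ((2 * r : ℕ) * (3 / 2))) / Y := by rw [hYdef]; ring
      _ ≤ 2 * q / Y := div_le_div_of_nonneg_right h6 hY0.le
      _ = 2 / Y * q := by ring
  have hΦ1 : ‖Φ (al d - 1)‖ ≤ 4 / Y := by
    rw [map_sub, map_one, hΦd]
    have h1 : (2 : ℝ) / Y ≤ 1 := (div_le_one hY0).mpr hY2
    refine (Complex.norm_exp_sub_one_le (hLq.trans h1)).trans ?_
    calc 2 * ‖La x ζ Φ (Th d : (ZMod p)ˣ → ℤ) / q‖ ≤ 2 * (2 / Y) := by linarith
      _ = 4 / Y := by ring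
  have hN := abs_norm_le hp2 hζK h2 (by positivity) hΦ1
  have hone := one_le_norm_mul hζ hp1 hI hzO hI0 hq0 (hTsum d) (hpow d) hα1
  -- the denominator
  set M : ℝ := (Ideal.absNorm (J I (-(Th d : (ZMod p)ˣ → ℤ))) : ℝ) with hM
  have hM0 : 0 ≤ M := Nat.cast_nonneg _
  have hMq : M ^ q ≤ ((Y + 1) ^ (∑ a, ((-(Th d : (ZMod p)ˣ → ℤ)) a).toNat)) ^ (p - 1) := by
    refine le_trans ?_ (norm_num_le hζK x _)
    rw [hM]
    exact_mod_cast absNorm_J_pow_le hζ hI hzO _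
  have hk := sum_toNat_le (hTsum d) hTd
  have hM4 : M ^ 4 ≤ (Y + 1) ^ 7 := by
    have h1 : (M ^ 4) ^ q ≤ ((Y + 1) ^ 7) ^ q := by
      calc (M ^ 4) ^ q = (M ^ q) ^ 4 := by ring
        _ ≤ (((Y + 1) ^ (∑ a, ((-(Th d : (ZMod p)ˣ → ℤ)) a).toNat)) ^ (p - 1)) ^ 4 :=
            pow_le_pow_left₀ (pow_nonneg hM0 _) hMq 4
        _ = (Y + 1) ^ ((∑ a, ((-(Th d : (ZMod p)ˣ → ℤ)) a).toNat) * (p - 1) * 4) := by
            rw [← pow_mul, ← pow_mul, mul_assoc]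
        _ ≤ (Y + 1) ^ (7 * q) := by
            refine pow_le_pow_right₀ (by linarith) ?_
            have h3 : p - 1 = 2 * n := by omega
            rw [h3] at hk ⊢
            calc _ ≤ 2 * n * r * (2 * n) * 4 := by gcongr
              _ = 16 * n ^ 2 * r := by ring
              _ ≤ 7 * q := hrq
        _ = ((Y + 1) ^ 7) ^ q := by rw [← pow_mul]
    exact (pow_le_pow_iff_left₀ (by positivity) (by positivity) hq0).mp h1
  exact final_ineq (by omega) hY (hone.trans (mul_le_mul_of_nonneg_right hN hM0)) hM4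

end Minus

open Minus in
/-- **Piece 8 of MIH**: `q < 4 p ^ 2`. -/
theorem minusStmt_of (hRoot : RootStmt) (hIdeal : IdealStmt) (hIndep : IndepStmt)
    (hRel : RelStmt) : MinusStmt := by
  intro p q x y hs hp5 hpq
  have : Fact p.Prime := ⟨hs.hp⟩
  have : NeZero p := ⟨hs.hp.ne_zero⟩
  have hcy : IsCyclotomicExtension {p} ℚ (CyclotomicField p ℚ) :=
    CyclotomicField.isCyclotomicExtension p ℚ
  have hnf : NumberField (CyclotomicField p ℚ) := IsCyclotomicExtension.numberField {p} ℚ _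
  by_contra hcon
  rw [not_lt] at hcon
  have hζ := IsCyclotomicExtension.zeta_spec p ℚ (CyclotomicField p ℚ)
  have hζO := hζ.toInteger_isPrimitiveRoot
  obtain ⟨I, hI, hIt, hI0, -, hco⟩ := hIdeal p q x y hs (CyclotomicField p ℚ) hζ.toInteger hζO
  obtain ⟨-, a, u, hxa, -, -, -, -, -, ha0⟩ := hRel p q x y hs
  have hY : (2 : ℝ) ^ (4 * p + 12) ≤ |(x : ℝ)| + 1 := by
    have h1 : (p : ℝ) ^ (q - 1) ≤ |(x : ℝ) - 1| := by
      have h2 : (x : ℝ) - 1 = (p : ℝ) ^ (q - 1) * (a : ℝ) ^ q := by exact_mod_cast hxa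
      rw [h2, abs_mul, abs_pow, abs_pow, Nat.abs_cast]
      refine le_mul_of_one_le_right (by positivity) (one_le_pow₀ ?_)
      have h3 : 1 ≤ |a| := Int.one_le_abs ha0
      exact_mod_cast h3
    have h2 : |(x : ℝ) - 1| ≤ |(x : ℝ)| + 1 := by
      refine (abs_sub _ _).trans_eq ?_
      rw [abs_one]
    have h3 : (2 : ℝ) ^ (4 * p + 12) ≤ (p : ℝ) ^ (q - 1) := by
      calc (2 : ℝ) ^ (4 * p + 12) ≤ 2 ^ (2 * (q - 1)) := by
            refine pow_le_pow_right₀ one_le_two ?_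
            have h4 : 5 * p ≤ p ^ 2 := by nlinarith
            omega
        _ = 4 ^ (q - 1) := by
            rw [pow_mul]
            norm_num
        _ ≤ (p : ℝ) ^ (q - 1) := by
            refine pow_le_pow_left₀ (by norm_num) ?_ _
            have : (5 : ℝ) ≤ p := by exact_mod_cast hp5
            linarith
    linarith
  exact absurd (lt_four_sq hIndep hp5 hs.hq.ne_zero hζO hI hIt hI0 hco
    (fun b => hRoot p q x y hs (CyclotomicField p ℚ) _ hζ b) hY) (not_lt.mpr hcon)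

end Fermat.Agent.Cor.Catalan
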