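import Fermat.Agent.Corollaries.Catalan.Defs
import Fermat.Agent.Corollaries.Nagell.Quad

/-!
# Nagell's theorem on `x ^ p - y ^ 3 = 1` (MIH-4)

`x ^ p - y ^ 3 = 1` has no solution in non-zero integers, `p` an odd prime. By Cassels' relations
`1 - y + y ^ 2 = 3 u ^ p` and `- y = 1 + 3 m`, `3 ^ (p - 2) ∣ m`. In `ℤ[ω]` the number
`m ω - (m + 1) ω²` is a `p`-th power `β ^ p`, so that `β ^ p + β' ^ p = 1` with `β β' = u`. But then
`u` divides `p` or `2`, and `u ≡ 1` modulo `3 ^ (p - 1)`.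
-/

set_option autoImplicit false

namespace Fermat.Agent.Cor.Catalan

open NumberField Module

theorem exists_V_eq_one_aux (K : Type) [Field K] [NumberField K] [IsCyclotomicExtension {3} ℚ K]
    {p : ℕ} (hp : p.Prime) (hp5 : 5 ≤ p) {m u : ℤ}
    (h : 1 + 3 * m + 3 * m ^ 2 = u ^ p) : ∃ P : ℤ, Nagell.V P u p = 1 := by
  have hpodd : Odd p := hp.odd_of_ne_two (by omega)
  have hK : finrank ℚ K = 2 := by
    rw [IsCyclotomicExtension.finrank (n := 3) K
      (Polynomial.cyclotomic.irreducible_rat (by norm_num))]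
    decide
  have hζ : IsPrimitiveRoot (IsCyclotomicExtension.zeta 3 ℚ K) 3 :=
    IsCyclotomicExtension.zeta_spec 3 ℚ K
  set ζ : K := IsCyclotomicExtension.zeta 3 ℚ K with hζdef
  have hζ2 : 1 + ζ + ζ ^ 2 = 0 := by
    have h1 := hζ.geom_sum_eq_zero (by norm_num)
    simpa [Finset.sum_range_succ] using h1
  have hζ3 : ζ ^ 3 = 1 := hζ.pow_eq_one
  have hs : (2 * ζ + 1) ^ 2 = (((-3 : ℤ)) : K) := by
    push_cast
    linear_combination 4 * hζ2
  obtain ⟨τ, hτ⟩ := Nagell.exists_conj hK (by norm_num) hs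
  have hτζ : τ ζ = ζ ^ 2 := by
    rw [map_add, map_mul, map_one, show τ (2 : K) = 2 from map_ofNat τ 2] at hτ
    linear_combination hτ / 2 - hζ2
  let η : 𝓞 K := hζ.toInteger
  have hη : algebraMap (𝓞 K) K η = ζ := rfl
  have hη2 : 1 + η + η ^ 2 = 0 := by
    apply FaithfulSMul.algebraMap_injective (𝓞 K) K
    rw [map_add, map_add, map_pow, map_one, map_zero, hη, hζ2]
  have hη3 : η ^ 3 = 1 := by linear_combination (η - 1) * hη2
  set δ : 𝓞 K := m * η - (m + 1) * η ^ 2 with hδ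
  set δ' : 𝓞 K := m * η ^ 2 - (m + 1) * η with hδ'
  have hsum : δ + δ' = 1 := by
    rw [hδ, hδ']
    linear_combination (-1 : 𝓞 K) * hη2
  have hprod : δ * δ' = (u : 𝓞 K) ^ p := by
    have h1 : ((1 + 3 * m + 3 * m ^ 2 : ℤ) : 𝓞 K) = ((u ^ p : ℤ) : 𝓞 K) := by rw [h]
    push_cast at h1
    rw [← h1, hδ, hδ']
    linear_combination ((m : 𝓞 K) ^ 2 + (m + 1) ^ 2 - (m : 𝓞 K) * (m + 1) * η) * hη3 -
      (m : 𝓞 K) * (m + 1) * hη2
  obtain ⟨I, hI⟩ := exists_eq_pow_of_mul_eq_pow_of_coprime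
    (a := Ideal.span {δ}) (b := Ideal.span {δ'}) (c := Ideal.span {(u : 𝓞 K)}) (n := p)
    ((Ideal.isCoprime_span_singleton_iff _ _).mpr ⟨1, 1, by rw [one_mul, one_mul, hsum]⟩)
    (by rw [Ideal.span_singleton_mul_span_singleton, hprod, Ideal.span_singleton_pow])
  have hpid : IsPrincipalIdealRing (𝓞 K) := IsCyclotomicExtension.Rat.three_pid K
  obtain ⟨⟨β₀, hβ₀⟩⟩ := hpid.principal I
  have hβ₀' : I = Ideal.span {β₀} := hβ₀
  rw [hβ₀', Ideal.span_singleton_pow, eq_comm, Ideal.span_singleton_eq_span_singleton] at hI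
  obtain ⟨v, hv⟩ := hI
  -- the unit is a `p`-th power
  have hv6 : v ^ 6 = 1 := by
    have hη6 : ∀ w : (𝓞 K)ˣ, (w : 𝓞 K) = η → w ^ 3 = 1 := by
      intro w hw
      apply Units.ext
      rw [Units.val_pow_eq_pow_val, hw, hη3, Units.val_one]
    have hmem := IsCyclotomicExtension.Rat.Three.Units.mem hζ v
    have h3 := hη6 _ (IsCyclotomicExtension.Rat.Three.coe_eta hζ)
    set w := (IsPrimitiveRoot.isUnit (hζ.toInteger_isPrimitiveRoot) (by decide)).unit with hw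
    have e1 : w ^ 6 = 1 := by
      rw [show (6 : ℕ) = 3 * 2 from rfl, pow_mul, h3, one_pow]
    have e2 : (w ^ 2) ^ 6 = 1 := by rw [← pow_mul, mul_comm, pow_mul, e1, one_pow]
    have heven : Even 6 := ⟨3, rfl⟩
    simp only [List.mem_cons, List.not_mem_nil, or_false] at hmem
    rcases hmem with h1 | h1 | h1 | h1 | h1 | h1 <;> rw [h1]
    · exact one_pow _
    · rw [heven.neg_pow, one_pow]
    · exact e1
    · rw [heven.neg_pow, e1]
    · exact e2
    · rw [heven.neg_pow, e2]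
  have hcop : Nat.Coprime p 6 := by
    have h2 : Nat.Coprime p 2 := (Nat.coprime_primes hp Nat.prime_two).mpr (by omega)
    have h3 : Nat.Coprime p 3 := (Nat.coprime_primes hp Nat.prime_three).mpr (by omega)
    rw [show (6 : ℕ) = 2 * 3 from rfl]
    exact Nat.Coprime.mul_right h2 h3
  obtain ⟨w, hw⟩ : ∃ w : (𝓞 K)ˣ, w ^ p = v := by
    obtain ⟨a, ha⟩ := exists_pow_eq_self_of_coprime
      (hcop.coprime_dvd_right (orderOf_dvd_of_pow_eq_one hv6))
    exact ⟨v ^ a, by rw [← pow_mul, mul_comm, pow_mul, ha]⟩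
  set β : 𝓞 K := β₀ * w with hβ
  have hβp : β ^ p = δ := by
    rw [hβ, mul_pow, ← Units.val_pow_eq_pow_val, hw, hv]
  have hβK : (β : K) ^ p = δ := by
    rw [← hβp]
    exact (map_pow (algebraMap (𝓞 K) K) β p).symm
  have hδK : (δ : K) = m * ζ - (m + 1) * ζ ^ 2 := by
    show algebraMap (𝓞 K) K δ = _
    rw [hδ, map_sub, map_mul, map_mul, map_pow, map_add, map_one, hη, map_intCast]
  have hτδ : τ (δ : K) = m * ζ ^ 2 - (m + 1) * ζ := by
    rw [hδK, map_sub, map_mul, map_mul, map_pow, map_add, map_one, map_intCast, hτζ]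
    linear_combination (-((m : K) + 1) * ζ) * hζ3
  obtain ⟨P, Q, c, hP, hQ, -, -⟩ := Nagell.exists_trace_norm hK (by norm_num) hs hτ β
  have hτβ : (τ (β : K)) ^ p = m * ζ ^ 2 - (m + 1) * ζ := by
    rw [← hτδ, ← hβK, map_pow]
  have hQu : Q = u := by
    have h1 : ((Q ^ p : ℤ) : K) = ((u ^ p : ℤ) : K) := by
      rw [← h]
      push_cast
      rw [← hQ, mul_pow, hβK, hτβ, hδK]
      linear_combination ((m : K) ^ 2 + (m + 1) ^ 2 - (m : K) * (m + 1) * ζ) * hζ3 -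
        (m : K) * (m + 1) * hζ2
    exact hpodd.strictMono_pow.injective (Int.cast_injective h1)
  refine ⟨P, ?_⟩
  have h1 := Nagell.V_eq (R := K) hP hQ p
  rw [hQu, hβK, hτβ, hδK] at h1
  have h2 : ((Nagell.V P u p : ℤ) : K) = ((1 : ℤ) : K) := by
    rw [← h1]
    push_cast
    linear_combination (-1 : K) * hζ2
  exact Int.cast_injective h2

/-- If `1 + 3 m + 3 m² = u ^ p` with `p ≥ 5` prime, then `V_p(P, u) = 1` for an integer `P`. -/
theorem exists_V_eq_one {p : ℕ} (hp : p.Prime) (hp5 : 5 ≤ p) {m u : ℤ}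
    (h : 1 + 3 * m + 3 * m ^ 2 = u ^ p) : ∃ P : ℤ, Nagell.V P u p = 1 := by
  have : NeZero ((3 : ℕ) : ℚ) := ⟨by norm_num⟩
  have : IsCyclotomicExtension {3} ℚ (CyclotomicField 3 ℚ) :=
    CyclotomicField.isCyclotomicExtension 3 ℚ
  exact exists_V_eq_one_aux (CyclotomicField 3 ℚ) hp hp5 h

/-- `V_p(P, u) = 1`, `u > 1`, `p` an odd prime: `u ≤ p`. -/
theorem le_of_V_eq_one {p : ℕ} (hp : p.Prime) (hp3 : 3 ≤ p) {P u : ℤ} (hu : 1 < u)
    (h : Nagell.V P u p = 1) : u ≤ p := by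
  obtain ⟨k, hk⟩ := hp.odd_of_ne_two (by omega)
  have hPdvd : P ∣ 1 := by
    have h4 := Nagell.dvd_V (P := P) (Q := u) k
    rwa [← hk, h] at h4
  have hP2 : P ^ 2 = 1 := by
    rcases Int.isUnit_iff.mp (isUnit_of_dvd_one hPdvd) with h5 | h5 <;> rw [h5] <;> norm_num
  have h4 := Nagell.V_congr (P := P) (Q := u) hP2 (p - 2)
  have h5 : p - 2 + 2 = p := by omega
  have h7 : (((p - 2 : ℕ) : ℤ) + 2) = p := by omega
  have h8 : P ^ (p - 2) = P := by
    have h8 : p - 2 = 2 * (k - 1) + 1 := by omega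
    rw [h8, pow_succ, pow_mul, hP2, one_pow, one_mul]
  rw [h5, h, h7, h8] at h4
  rcases Int.isUnit_iff.mp (isUnit_of_dvd_one hPdvd) with h6 | h6
  · rw [h6] at h4
    have h9 : u * u ∣ u * p := by
      have h10 : (1 : ℤ) - 1 * (1 - p * u) = u * p := by ring
      rwa [h10, sq] at h4
    have h11 := (mul_dvd_mul_iff_left (by omega : u ≠ 0)).mp h9
    exact Int.le_of_dvd (by exact_mod_cast hp.pos) h11
  · rw [h6] at h4
    have h10 : (1 : ℤ) - (-1) * (1 - p * u) = 2 - u * p := by ring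
    rw [h10] at h4
    have h11 : u ∣ 2 := by
      have h12 : (2 : ℤ) = (2 - u * p) + u * p := by ring
      rw [h12]
      exact dvd_add ((dvd_pow_self _ two_ne_zero).trans h4) (dvd_mul_right _ _)
    have := Int.le_of_dvd (by norm_num) h11
    have : (3 : ℤ) ≤ p := by exact_mod_cast hp3
    omega

/-- If `u ^ p ≡ 1` modulo `3 ^ n` and `p ≥ 5` is a prime, then `u ≡ 1` modulo `3 ^ n`. -/
theorem three_pow_dvd {p : ℕ} (hp : p.Prime) (hp5 : 5 ≤ p) {u : ℤ} {n : ℕ}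
    (h : (3 : ℤ) ^ n ∣ u ^ p - 1) : (3 : ℤ) ^ n ∣ u - 1 := by
  rcases Nat.eq_zero_or_pos n with rfl | hn
  · rw [pow_zero]; exact one_dvd _
  have h3 : (3 : ℤ) ∣ u ^ p - 1 := (dvd_pow_self _ hn.ne').trans h
  obtain ⟨k, hk⟩ := hp.odd_of_ne_two (by omega)
  have hu : u % 3 = 1 := by
    have h1 : u % 3 = 0 ∨ u % 3 = 1 ∨ u % 3 = 2 := by omega
    have h2 : u ^ p % 3 = 1 := by omega
    rcases h1 with h1 | h1 | h1
    · exfalso
      have h4 : (3 : ℤ) ∣ u ^ p := dvd_pow (Int.dvd_of_emod_eq_zero h1) hp.ne_zero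
      omega
    · exact h1
    · exfalso
      have h4 : u ^ p ≡ (-1) ^ p [ZMOD 3] := Int.ModEq.pow p (by
        show u % 3 = (-1) % 3
        omega)
      have h5 : ((-1 : ℤ)) ^ p = -1 := Odd.neg_one_pow ⟨k, hk⟩
      rw [h5] at h4
      have h6 : u ^ p % 3 = (-1) % 3 := h4
      omega
  -- `u ^ p - 1 = (u - 1) S` with `S ≡ p` modulo `3`
  have h1 : (∑ i ∈ Finset.range p, u ^ i) * (u - 1) = u ^ p - 1 := geom_sum_mul u p
  have h2 : IsCoprime ((3 : ℤ) ^ n) (∑ i ∈ Finset.range p, u ^ i) := by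
    apply IsCoprime.pow_left
    rw [Int.isCoprime_iff_gcd_eq_one]
    rw [← Int.isCoprime_iff_gcd_eq_one, (Int.prime_three).coprime_iff_not_dvd]
    intro h4
    have h5 : (∑ i ∈ Finset.range p, u ^ i) ≡ ∑ i ∈ Finset.range p, 1 [ZMOD 3] := by
      apply Int.ModEq.sum
      intro i _
      have h6 : u ^ i ≡ 1 ^ i [ZMOD 3] := Int.ModEq.pow i (by
        show u % 3 = 1 % 3
        omega)
      rwa [one_pow] at h6
    rw [Finset.sum_const, Finset.card_range, nsmul_eq_mul, mul_one] at h5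
    have h6 : (∑ i ∈ Finset.range p, u ^ i) % 3 = (p : ℤ) % 3 := h5
    have h7 : (3 : ℤ) ∣ p := by omega
    have h8 : 3 ∣ p := by exact_mod_cast h7
    have h9 := (Nat.prime_dvd_prime_iff_eq Nat.prime_three hp).mp h8
    omega
  rw [← h1] at h
  exact h2.dvd_of_dvd_mul_left h

/-- **Nagell**: `x ^ p - y ^ 3 = 1` has no solution in non-zero integers, `p` an odd prime. -/
theorem nagellStmt_of (hRel : RelStmt) : NagellStmt := by
  intro p x y h
  obtain ⟨hp3, a, u, h1, h2, h3, hu3, hu1, hau, ha⟩ := hRel 3 p (-y) (-x) h.symm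
  have hp := h.hp
  have hp5 : 5 ≤ p := by
    have h4 := hp.two_le
    have h5 := h.hp2
    by_contra hc
    have h6 : p = 4 := by omega
    rw [h6] at hp
    exact absurd hp (by norm_num)
  have hsum : ∑ i ∈ Finset.range 3, (-y) ^ i = 1 + (-y) + (-y) ^ 2 := by
    simp [Finset.sum_range_succ]
  rw [hsum] at h2
  set m : ℤ := 3 ^ (p - 2) * a ^ p with hm
  have h4 : (-y) - 1 = 3 * m := by
    have h5 : p - 1 = (p - 2) + 1 := by omega
    rw [h1, hm]
    push_cast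
    rw [h5, pow_succ]
    ring
  have h5 : 1 + 3 * m + 3 * m ^ 2 = u ^ p := by
    have h6 : -y = 1 + 3 * m := by linarith
    rw [h6] at h2
    push_cast at h2
    linarith [h2, (by ring : 1 + (1 + 3 * m) + (1 + 3 * m) ^ 2 = 3 * (1 + 3 * m + 3 * m ^ 2))]
  obtain ⟨P, hP⟩ := exists_V_eq_one hp hp5 h5
  have h6 := le_of_V_eq_one hp (by omega) hu1 hP
  have h7 : (3 : ℤ) ^ (p - 1) ∣ u - 1 := by
    apply three_pow_dvd hp hp5
    rw [← h5]
    have h8 : (3 : ℤ) ^ (p - 1) = 3 * 3 ^ (p - 2) := by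
      have h9 : p - 1 = (p - 2) + 1 := by omega
      rw [h9, pow_succ]
      ring
    rw [h8]
    refine ⟨a ^ p * (1 + m), ?_⟩
    rw [hm]
    ring
  have h8 : (3 : ℤ) ^ (p - 1) ≤ u - 1 := Int.le_of_dvd (by omega) h7
  have h9 : p - 1 < 3 ^ (p - 1) := Nat.lt_pow_self (by norm_num)
  have h10 : ((p - 1 : ℕ) : ℤ) < (3 : ℤ) ^ (p - 1) := by exact_mod_cast h9
  omega

end Fermat.Agent.Cor.Catalan
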