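import Fermat.Agent.Corollaries.Cat.Approx

/-!
# Runge's method for Catalan's equation: the series (block MIH, piece 10)

The power series `∏ (1 + c_a X)^(n_a / q)` over a field `K`: three properties of power series which
are stable under products.
* `IntC`: `q^(k + v_q(k!))` times the `k`-th coefficient is integral;
* `Cg`: `k! q^k` times the `k`-th coefficient is congruent to `c^k` modulo `q`;
* `Ev`: over `ℂ`, the value at `t` and the majorant `(1 - X)^(-r)`.
-/

set_option autoImplicit false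

namespace Fermat.Agent.Cor.Catalan

open Finset PowerSeries

open Fermat.Agent.Cor.Cat (numB exq numB_succ dvd_numB)

/-- `binom(n/q, k)` as a rational number -/
noncomputable def bcq (n q k : ℕ) : ℚ := (numB n q k : ℚ) / ((q : ℚ) ^ k * (k.factorial : ℚ))

theorem bcq_zero (n q : ℕ) : bcq n q 0 = 1 := by
  simp [bcq, numB]

theorem bcq_succ (n : ℕ) {q : ℕ} (hq : q ≠ 0) (k : ℕ) :
    bcq n q (k + 1) = bcq n q k * (((n : ℚ) / q - k) / (k + 1)) := by
  have hq' : (q : ℚ) ≠ 0 := Nat.cast_ne_zero.mpr hq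
  have hk : (k : ℚ) + 1 ≠ 0 := by positivity
  have hk' : (k.factorial : ℚ) ≠ 0 := Nat.cast_ne_zero.mpr (Nat.factorial_ne_zero k)
  unfold bcq
  rw [numB_succ, Nat.factorial_succ, pow_succ]
  push_cast
  field_simp

/-- the series `(1 + c X)^(n/q)` -/
noncomputable def bs {K : Type*} [Field K] (n q : ℕ) (c : K) : K⟦X⟧ :=
  PowerSeries.mk fun k => ((bcq n q k : ℚ) : K) * c ^ k

theorem coeff_bs {K : Type*} [Field K] (n q : ℕ) (c : K) (k : ℕ) :
    coeff k (bs n q c) = ((bcq n q k : ℚ) : K) * c ^ k := by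
  rw [bs, coeff_mk]

theorem map_bs {K L : Type*} [Field K] [CharZero K] [Field L] [CharZero L] (φ : K →+* L)
    (n q : ℕ) (c : K) : PowerSeries.map φ (bs n q c) = bs n q (φ c) := by
  ext k
  rw [coeff_map, coeff_bs, coeff_bs, map_mul, map_pow, map_ratCast]

/-! ### Integrality -/

section Int

variable {K : Type*} [Field K] (O : Subring K) (q : ℕ)

/-- `q^(k + v_q(k!))` times the `k`-th coefficient is integral -/
def IntC (F : K⟦X⟧) : Prop := ∀ k, (q : K) ^ exq q k * coeff k F ∈ O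

theorem exq_add_le (i j : ℕ) : exq q i + exq q j ≤ exq q (i + j) := by
  unfold exq
  have h1 : (i.factorial * j.factorial).factorization q ≤ (i + j).factorial.factorization q :=
    (Nat.factorization_le_iff_dvd (mul_ne_zero (Nat.factorial_ne_zero _) (Nat.factorial_ne_zero _))
      (Nat.factorial_ne_zero _)).mpr (Nat.factorial_mul_factorial_dvd_factorial_add i j) q
  rw [Nat.factorization_mul (Nat.factorial_ne_zero _) (Nat.factorial_ne_zero _)] at h1
  simp only [Finsupp.coe_add, Pi.add_apply] at h1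
  omega

variable {O q}

theorem IntC.mul {F G : K⟦X⟧} (hF : IntC O q F) (hG : IntC O q G) : IntC O q (F * G) := by
  intro k
  rw [coeff_mul, mul_sum]
  refine Subring.sum_mem _ fun ij hij => ?_
  obtain ⟨i, j⟩ := ij
  rw [HasAntidiagonal.mem_antidiagonal] at hij
  simp only at hij ⊢
  have h := exq_add_le q i j
  rw [hij] at h
  obtain ⟨e, he⟩ := Nat.exists_eq_add_of_le h
  have h2 : (q : K) ^ exq q k * (coeff i F * coeff j G) =
      (q : K) ^ e * (((q : K) ^ exq q i * coeff i F) * ((q : K) ^ exq q j * coeff j G)) := by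
    rw [he, pow_add, pow_add]
    ring
  rw [h2]
  exact mul_mem (pow_mem (natCast_mem O q) e) (mul_mem (hF i) (hG j))

theorem IntC.one : IntC O q (1 : K⟦X⟧) := by
  intro k
  rw [coeff_one]
  split_ifs with h
  · rw [mul_one]
    exact pow_mem (natCast_mem O q) _
  · rw [mul_zero]
    exact zero_mem O

theorem IntC.prod {ι : Type*} (s : Finset ι) (F : ι → K⟦X⟧) (h : ∀ i ∈ s, IntC O q (F i)) :
    IntC O q (∏ i ∈ s, F i) :=
  Finset.prod_induction F (IntC O q) (fun _ _ => IntC.mul) IntC.one h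

theorem exists_int_bcq (n : ℕ) (hq : q.Prime) (k : ℕ) :
    ∃ N : ℤ, (N : ℚ) = (q : ℚ) ^ exq q k * bcq n q k := by
  set v := k.factorial.factorization q with hv
  set M : ℕ := k.factorial / q ^ v with hM
  have hfac : q ^ v * M = k.factorial := Nat.ordProj_mul_ordCompl_eq_self _ _
  have hMd : M ∣ k.factorial := Dvd.intro_left _ hfac
  have hM0 : M ≠ 0 := fun h => Nat.factorial_ne_zero k (by rw [← hfac, h, mul_zero])
  have hc : Nat.Coprime q M := Nat.coprime_ordCompl hq (Nat.factorial_ne_zero k)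
  obtain ⟨N, hN⟩ := dvd_numB n hMd hc
  refine ⟨N, ?_⟩
  have hq' : (q : ℚ) ≠ 0 := Nat.cast_ne_zero.mpr hq.ne_zero
  have hM' : (M : ℚ) ≠ 0 := Nat.cast_ne_zero.mpr hM0
  unfold bcq exq
  rw [hN, ← hv, ← hfac]
  push_cast
  rw [pow_add]
  field_simp

theorem IntC.bs [CharZero K] (n : ℕ) (hq : q.Prime) {c : K} (hc : c ∈ O) : IntC O q (bs n q c) := by
  intro k
  obtain ⟨N, hN⟩ := exists_int_bcq n hq k
  rw [coeff_bs, ← mul_assoc]
  have h : (q : K) ^ exq q k * ((bcq n q k : ℚ) : K) = (N : K) := by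
    have := congrArg (fun z : ℚ => (z : K)) hN
    push_cast at this
    rw [this]
  rw [h]
  exact mul_mem (intCast_mem O N) (pow_mem hc k)

variable (O q) in
/-- `k! q^k` times the `k`-th coefficient is congruent to `c^k` modulo `q` -/
def Cg (F : K⟦X⟧) (c : K) : Prop :=
  ∀ k, ∃ z ∈ O, (k.factorial : K) * (q : K) ^ k * coeff k F = c ^ k + q * z

theorem Cg.mul {F G : K⟦X⟧} {c d : K} (hc : c ∈ O) (hd : d ∈ O) (hF : Cg O q F c)
    (hG : Cg O q G d) : Cg O q (F * G) (c + d) := by
  intro k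
  choose z hz hz' using hF
  choose w hw hw' using hG
  refine ⟨∑ m ∈ antidiagonal k, ((k.choose m.1 : ℕ) : K) *
    (c ^ m.1 * w m.2 + z m.1 * d ^ m.2 + q * (z m.1 * w m.2)), ?_, ?_⟩
  · refine Subring.sum_mem _ fun m _ => mul_mem (natCast_mem O _) ?_
    exact add_mem (add_mem (mul_mem (pow_mem hc _) (hw _)) (mul_mem (hz _) (pow_mem hd _)))
      (mul_mem (natCast_mem O q) (mul_mem (hz _) (hw _)))
  · rw [(Commute.all c d).add_pow', coeff_mul, mul_sum, mul_sum, ← sum_add_distrib]
    refine sum_congr rfl fun m hm => ?_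
    obtain ⟨i, j⟩ := m
    rw [HasAntidiagonal.mem_antidiagonal] at hm
    simp only at hm ⊢
    have h1 : ((k.factorial : ℕ) : K) =
        ((k.choose i : ℕ) : K) * (i.factorial : K) * (j.factorial : K) := by
      have h2 := Nat.choose_mul_factorial_mul_factorial (show i ≤ k by omega)
      rw [show k - i = j by omega] at h2
      rw [← h2]
      push_cast
      ring
    rw [h1, ← hm, pow_add, nsmul_eq_mul]
    have h3 := hz' i
    have h4 := hw' j
    calc ((i + j).choose i : K) * (i.factorial : K) * (j.factorial : K) *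
          ((q : K) ^ i * (q : K) ^ j) * (coeff i F * coeff j G) =
        ((i + j).choose i : K) * (((i.factorial : K) * (q : K) ^ i * coeff i F) *
          ((j.factorial : K) * (q : K) ^ j * coeff j G)) := by ring
      _ = _ := by
        rw [h3, h4]
        ring

theorem Cg.one : Cg O q (1 : K⟦X⟧) 0 := by
  intro k
  refine ⟨0, zero_mem O, ?_⟩
  rw [coeff_one]
  rcases Nat.eq_zero_or_pos k with rfl | h
  · simp
  · rw [if_neg h.ne', zero_pow h.ne']
    simp

theorem Cg.prod {ι : Type*} (s : Finset ι) (F : ι → K⟦X⟧) (c : ι → K) (hc : ∀ i ∈ s, c i ∈ O)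
    (h : ∀ i ∈ s, Cg O q (F i) (c i)) : Cg O q (∏ i ∈ s, F i) (∑ i ∈ s, c i) := by
  classical
  induction s using Finset.induction_on with
  | empty => simpa using Cg.one
  | insert a s ha ih =>
    rw [prod_insert ha, sum_insert ha]
    refine Cg.mul (hc a (mem_insert_self a s))
      (Subring.sum_mem _ fun i hi => hc i (mem_insert_of_mem hi)) (h a (mem_insert_self a s))
      (ih (fun i hi => hc i (mem_insert_of_mem hi)) fun i hi => h i (mem_insert_of_mem hi))

theorem exists_numB_eq (n k : ℕ) : ∃ z : ℤ, numB n q k = (n : ℤ) ^ k + q * z := by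
  induction k with
  | zero => exact ⟨0, by simp [numB]⟩
  | succ k ih =>
    obtain ⟨z, hz⟩ := ih
    refine ⟨z * ((n : ℤ) - k * q) - (n : ℤ) ^ k * k, ?_⟩
    rw [numB_succ, hz]
    ring

theorem Cg.bs [CharZero K] (n : ℕ) (hq : q ≠ 0) {c : K} (hc : c ∈ O) :
    Cg O q (bs n q c) ((n : K) * c) := by
  intro k
  obtain ⟨z, hz⟩ := exists_numB_eq (q := q) n k
  refine ⟨(z : K) * c ^ k, mul_mem (intCast_mem O z) (pow_mem hc k), ?_⟩
  rw [coeff_bs, bcq, hz]
  have hq' : (q : K) ≠ 0 := Nat.cast_ne_zero.mpr hq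
  have hk' : (k.factorial : K) ≠ 0 := Nat.cast_ne_zero.mpr (Nat.factorial_ne_zero k)
  push_cast
  field_simp
  ring

end Int

/-! ### The majorant -/

theorem multichoose_succ (r : ℝ) (k : ℕ) :
    Ring.multichoose r (k + 1) = Ring.multichoose r k * ((r + k) / (k + 1)) := by
  have h1 := Ring.factorial_nsmul_multichoose_eq_ascPochhammer r (k + 1)
  have h2 := Ring.factorial_nsmul_multichoose_eq_ascPochhammer r k
  rw [ascPochhammer_succ_right, Polynomial.smeval_mul, ← h2] at h1
  simp only [Polynomial.smeval_add, Polynomial.smeval_X, pow_one, Polynomial.smeval_natCast,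
    pow_zero, nsmul_eq_mul, mul_one, Nat.factorial_succ] at h1
  push_cast at h1
  have hk : (k : ℝ) + 1 ≠ 0 := by positivity
  have hk' : (k.factorial : ℝ) ≠ 0 := Nat.cast_ne_zero.mpr (Nat.factorial_ne_zero k)
  have h3 : (k.factorial : ℝ) * (Ring.multichoose r k * (r + k)) =
      (k.factorial : ℝ) * ((k + 1) * Ring.multichoose r (k + 1)) := by
    linear_combination -h1
  have h4 := mul_left_cancel₀ hk' h3
  rw [← mul_div_assoc, h4]
  field_simp

theorem multichoose_nonneg {r : ℝ} (hr : 0 ≤ r) (k : ℕ) : 0 ≤ Ring.multichoose r k := by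
  induction k with
  | zero => rw [Ring.multichoose_zero_right]; exact zero_le_one
  | succ k ih =>
    rw [multichoose_succ]
    positivity

theorem multichoose_add (r s : ℝ) (k : ℕ) : Ring.multichoose (r + s) k =
    ∑ m ∈ antidiagonal k, Ring.multichoose r m.1 * Ring.multichoose s m.2 := by
  have h := Ring.add_choose_eq (r := -r) (s := -s) k (Commute.all _ _)
  rw [← neg_add, Ring.choose_neg'] at h
  have h2 : ∀ m ∈ antidiagonal k, Ring.choose (-r) m.1 * Ring.choose (-s) m.2 =
      Int.negOnePow k • (Ring.multichoose r m.1 * Ring.multichoose s m.2) := by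
    intro m hm
    rw [HasAntidiagonal.mem_antidiagonal] at hm
    rw [Ring.choose_neg', Ring.choose_neg', ← hm, Nat.cast_add, Int.negOnePow_add,
      smul_mul_smul_comm]
  rw [sum_congr rfl h2, ← smul_sum] at h
  exact smul_left_cancel _ h

theorem multichoose_nat_le {m : ℕ} (hm : m ≠ 0) (k : ℕ) :
    Ring.multichoose (m : ℝ) k ≤ 2 ^ (m + k - 1) := by
  have h1 : (m : ℝ) + k - 1 = ((m + k - 1 : ℕ) : ℝ) := by
    rw [Nat.cast_sub (by omega)]
    push_cast
    ring
  rw [Ring.multichoose_eq, h1, Ring.choose_natCast]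
  exact_mod_cast Nat.choose_le_two_pow (m + k - 1) k

theorem abs_bcq_le {n q : ℕ} (hq : q ≠ 0) (k : ℕ) :
    |((bcq n q k : ℚ) : ℝ)| ≤ Ring.multichoose ((n : ℝ) / q) k := by
  induction k with
  | zero => rw [bcq_zero, Ring.multichoose_zero_right]; simp
  | succ k ih =>
    rw [bcq_succ n hq, multichoose_succ]
    push_cast
    rw [abs_mul, abs_div, abs_of_pos (show (0 : ℝ) < (k : ℝ) + 1 by positivity)]
    have h1 : |(n : ℝ) / q - k| ≤ (n : ℝ) / q + k := by
      have h2 : (0 : ℝ) ≤ (n : ℝ) / q := by positivity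
      have h3 : (0 : ℝ) ≤ (k : ℝ) := Nat.cast_nonneg k
      rw [abs_le]
      constructor <;> linarith
    have h4 := multichoose_nonneg (show (0 : ℝ) ≤ (n : ℝ) / q by positivity) k
    gcongr

theorem abs_bcq_le_one {n q : ℕ} (hq : q ≠ 0) (hn : n ≤ q) (k : ℕ) :
    |((bcq n q k : ℚ) : ℝ)| ≤ 1 := by
  induction k with
  | zero => rw [bcq_zero]; simp
  | succ k ih =>
    rw [bcq_succ n hq]
    push_cast
    have hpos : (0 : ℝ) < (k : ℝ) + 1 := by positivity
    rw [abs_mul, abs_div, abs_of_pos hpos]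
    have h0 : (0 : ℝ) ≤ (n : ℝ) / q := by positivity
    have h1 : (n : ℝ) / q ≤ 1 := by
      rw [div_le_one (by positivity)]
      exact_mod_cast hn
    have h3 : (0 : ℝ) ≤ (k : ℝ) := Nat.cast_nonneg k
    have h2 : |(n : ℝ) / q - k| / ((k : ℝ) + 1) ≤ 1 := by
      rw [div_le_one hpos, abs_le]
      constructor <;> linarith
    calc |((bcq n q k : ℚ) : ℝ)| * (|(n : ℝ) / q - k| / ((k : ℝ) + 1)) ≤ 1 * 1 :=
          mul_le_mul ih h2 (by positivity) zero_le_one
      _ = 1 := one_mul 1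

/-! ### Values over `ℂ` -/

/-- The series `F` converges absolutely at `t` with value `v`, and is majorised by `(1 - X)^(-r)`. -/
structure Ev (t : ℂ) (F : ℂ⟦X⟧) (r : ℝ) (v : ℂ) : Prop where
  summ : Summable fun k => ‖coeff k F * t ^ k‖
  sum : HasSum (fun k => coeff k F * t ^ k) v
  maj : ∀ k, ‖coeff k F‖ ≤ Ring.multichoose r k
  nonneg : 0 ≤ r

theorem coeff_mul_pow (F G : ℂ⟦X⟧) (t : ℂ) (k : ℕ) : coeff k (F * G) * t ^ k =
    ∑ m ∈ antidiagonal k, (coeff m.1 F * t ^ m.1) * (coeff m.2 G * t ^ m.2) := by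
  rw [coeff_mul, sum_mul]
  refine sum_congr rfl fun m hm => ?_
  rw [HasAntidiagonal.mem_antidiagonal] at hm
  rw [← hm, pow_add]
  ring

theorem Ev.mul {t : ℂ} {F G : ℂ⟦X⟧} {r s : ℝ} {v w : ℂ} (hF : Ev t F r v) (hG : Ev t G s w) :
    Ev t (F * G) (r + s) (v * w) := by
  have hs := summable_norm_sum_mul_antidiagonal_of_summable_norm
    (f := fun k => coeff k F * t ^ k) (g := fun k => coeff k G * t ^ k) hF.summ hG.summ
  have ht := tsum_mul_tsum_eq_tsum_sum_antidiagonal_of_summable_norm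
    (f := fun k => coeff k F * t ^ k) (g := fun k => coeff k G * t ^ k) hF.summ hG.summ
  rw [hF.sum.tsum_eq, hG.sum.tsum_eq] at ht
  have he : (fun k => coeff k (F * G) * t ^ k) = fun k => ∑ m ∈ antidiagonal k,
      (coeff m.1 F * t ^ m.1) * (coeff m.2 G * t ^ m.2) := funext fun k => coeff_mul_pow F G t k
  refine ⟨?_, ?_, fun k => ?_, add_nonneg hF.nonneg hG.nonneg⟩
  · have he' : (fun k => ‖coeff k (F * G) * t ^ k‖) = fun k => ‖∑ m ∈ antidiagonal k,
        (coeff m.1 F * t ^ m.1) * (coeff m.2 G * t ^ m.2)‖ :=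
      funext fun k => by rw [coeff_mul_pow F G t k]
    rw [he']
    exact hs
  · rw [he, ht]
    exact (hs.of_norm).hasSum
  · rw [coeff_mul, multichoose_add]
    refine (norm_sum_le _ _).trans (sum_le_sum fun m _ => ?_)
    rw [norm_mul]
    exact mul_le_mul (hF.maj _) (hG.maj _) (norm_nonneg _) (multichoose_nonneg hF.nonneg _)

theorem Ev.one (t : ℂ) : Ev t 1 0 1 where
  summ := by
    refine summable_of_ne_finset_zero (s := {0}) fun k hk => ?_
    rw [coeff_one, if_neg (by simpa using hk), zero_mul, norm_zero]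
  sum := by
    have h := hasSum_single (f := fun k => coeff k (1 : ℂ⟦X⟧) * t ^ k) 0 (fun k hk => by
      rw [coeff_one, if_neg hk, zero_mul])
    simpa using h
  maj k := by
    rw [coeff_one]
    rcases Nat.eq_zero_or_pos k with rfl | h
    · rw [Ring.multichoose_zero_right]
      simp
    · rw [if_neg h.ne', norm_zero]
      exact multichoose_nonneg le_rfl k
  nonneg := le_rfl

theorem Ev.prod {ι : Type*} (s : Finset ι) {t : ℂ} (F : ι → ℂ⟦X⟧) (r : ι → ℝ) (v : ι → ℂ)
    (h : ∀ i ∈ s, Ev t (F i) (r i) (v i)) :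
    Ev t (∏ i ∈ s, F i) (∑ i ∈ s, r i) (∏ i ∈ s, v i) := by
  classical
  induction s using Finset.induction_on with
  | empty => simpa using Ev.one t
  | insert a s ha ih =>
    rw [prod_insert ha, sum_insert ha, prod_insert ha]
    exact Ev.mul (h a (mem_insert_self a s)) (ih fun i hi => h i (mem_insert_of_mem hi))

theorem choose_eq_bcq {n q : ℕ} (hq : q ≠ 0) (k : ℕ) :
    Ring.choose ((n : ℂ) / q) k = ((bcq n q k : ℚ) : ℂ) := by
  induction k with
  | zero => simp [bcq_zero]
  | succ k ih =>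
    rw [bcq_succ n hq]
    push_cast
    rw [← ih]
    have h1 := Ring.descPochhammer_eq_factorial_smul_choose ((n : ℂ) / q) (k + 1)
    have h2 := Ring.descPochhammer_eq_factorial_smul_choose ((n : ℂ) / q) k
    rw [descPochhammer_succ_right, Polynomial.smeval_mul, h2] at h1
    simp only [Polynomial.smeval_sub, Polynomial.smeval_X, pow_one, Polynomial.smeval_natCast,
      pow_zero, nsmul_eq_mul, mul_one, Nat.factorial_succ] at h1
    push_cast at h1
    have hk : (k : ℂ) + 1 ≠ 0 := by exact_mod_cast Nat.succ_ne_zero k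
    have hk' : (k.factorial : ℂ) ≠ 0 := Nat.cast_ne_zero.mpr (Nat.factorial_ne_zero k)
    have h3 : (k.factorial : ℂ) * (Ring.choose ((n : ℂ) / q) k * ((n : ℂ) / q - k)) =
        (k.factorial : ℂ) * ((k + 1) * Ring.choose ((n : ℂ) / q) (k + 1)) := by
      linear_combination h1
    have h4 := mul_left_cancel₀ hk' h3
    rw [← mul_div_assoc, h4]
    field_simp

theorem Ev.bs {t c : ℂ} {n q : ℕ} (hq : q ≠ 0) (hn : n ≤ q) (hc : ‖c‖ = 1) (ht : ‖t‖ < 1) :
    Ev t (bs n q c) ((n : ℝ) / q) ((1 + c * t) ^ ((n : ℂ) / q)) where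
  summ := by
    refine Summable.of_nonneg_of_le (fun k => norm_nonneg _) (fun k => ?_)
      (summable_geometric_of_lt_one (norm_nonneg t) ht)
    rw [coeff_bs, norm_mul, norm_mul, norm_pow, norm_pow, hc, one_pow, mul_one]
    have h1 : ‖((bcq n q k : ℚ) : ℂ)‖ ≤ 1 := by
      have h2 := abs_bcq_le_one hq hn k
      rw [← Complex.ofReal_ratCast, Complex.norm_real, Real.norm_eq_abs]
      exact h2
    exact mul_le_of_le_one_left (by positivity) h1
  sum := by
    have h1 := (Complex.one_add_cpow_hasFPowerSeriesOnBall_zero (a := (n : ℂ) / q)).hasSum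
      (y := c * t) (by
        rw [← ENNReal.ofReal_one, Metric.eball_ofReal]
        simpa [hc] using ht)
    rw [zero_add] at h1
    have h2 : (fun k => coeff k (Catalan.bs n q c) * t ^ k) =
        fun k => binomialSeries ℂ ((n : ℂ) / q) k fun _ => c * t := by
      ext k
      rw [binomialSeries_apply, choose_eq_bcq hq, coeff_bs]
      simp [mul_pow, mul_assoc]
    rw [h2]
    exact h1
  maj k := by
    rw [coeff_bs, norm_mul, norm_pow, hc, one_pow, mul_one, ← Complex.ofReal_ratCast,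
      Complex.norm_real, Real.norm_eq_abs]
    exact abs_bcq_le hq k
  nonneg := by positivity

/-- the remainder after the term of degree `m` of a series which is majorised by
`(1 - X)^(-m)` -/
theorem Ev.tail {t v : ℂ} {F : ℂ⟦X⟧} {m : ℕ} (h : Ev t F m v) (hm : m ≠ 0) (ht : ‖t‖ < 1 / 2) :
    ‖v - ∑ k ∈ range (m + 1), coeff k F * t ^ k‖ ≤
      2 ^ (m - 1) * (2 * ‖t‖) ^ (m + 1) / (1 - 2 * ‖t‖) := by
  have h1 := (hasSum_nat_add_iff' (f := fun k => coeff k F * t ^ k) (m + 1)).mpr h.sum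
  have ht2 : 2 * ‖t‖ < 1 := by linarith
  have h2 : HasSum (fun n : ℕ => 2 ^ (m - 1) * (2 * ‖t‖) ^ (m + 1) * (2 * ‖t‖) ^ n)
      (2 ^ (m - 1) * (2 * ‖t‖) ^ (m + 1) * (1 - 2 * ‖t‖)⁻¹) :=
    (hasSum_geometric_of_lt_one (by positivity) ht2).mul_left _
  rw [← h1.tsum_eq, div_eq_mul_inv]
  refine tsum_of_norm_bounded h2 fun n => ?_
  rw [norm_mul, norm_pow]
  have h3 : ‖coeff (n + (m + 1)) F‖ ≤ 2 ^ (m - 1) * 2 ^ (n + (m + 1)) := by
    refine (h.maj _).trans ((multichoose_nat_le hm _).trans ?_)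
    rw [← pow_add]
    exact pow_le_pow_right₀ (by norm_num) (by omega)
  calc ‖coeff (n + (m + 1)) F‖ * ‖t‖ ^ (n + (m + 1)) ≤
        (2 ^ (m - 1) * 2 ^ (n + (m + 1))) * ‖t‖ ^ (n + (m + 1)) :=
        mul_le_mul_of_nonneg_right h3 (by positivity)
    _ = 2 ^ (m - 1) * (2 * ‖t‖) ^ (m + 1) * (2 * ‖t‖) ^ n := by
        rw [mul_assoc, ← mul_pow, mul_assoc, ← pow_add, add_comm (m + 1) n]

end Fermat.Agent.Cor.Catalan
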