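import Fermat.Agent.Corollaries.Cat.Mih
import Fermat.Agent.Corollaries.Catalan.Basic
import Fermat.Agent.Corollaries.Catalan.RungeS

/-!
# Runge's method for Catalan's equation: arithmetic of the cyclotomic field (block MIH, piece 10)

* `exq_bound`: the numerical inequality;
* `dvd_of_dvd_pow`: `q ∣ c^m` implies `q ∣ c` in `ℤ[ζ]`, `q ≠ p`;
* `dvd_of_dvd_sum`: `q ∣ ∑ n_a ζ^a` with `q ∣ ∑ n_a` implies `q ∣ n_a`;
* `conj_embedding`, `sg_neg_one_eq_self`: complex conjugation.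
-/

set_option autoImplicit false

open NumberField Finset

namespace Fermat.Agent.Cor.Catalan

open Fermat.Agent.Cor.Cat (exq)
open Fermat.Agent.Cor.Cat.Mih (act)

theorem exq_bound {p q m X : ℕ} (hq : q.Prime) (hq2 : q ≠ 2) (hm : m ≠ 0) (hmp : 2 * m ≤ p - 1)
    (hB : q ^ (q * (p - 1)) ≤ X ^ (q - 1)) : q ^ exq q m * 4 ^ m + 2 < X := by
  have := Fact.mk hq
  have hq3 : 3 ≤ q := by
    have := hq.two_le
    omega
  have h1 := sub_one_mul_padicValNat_factorial_lt_of_ne_zero q (n := m) hm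
  rw [← Nat.factorization_def _ hq] at h1
  set v := m.factorial.factorization q with hv
  have hexq : exq q m = m + v := rfl
  set Q := q ^ exq q m with hQ
  have hQ3 : 3 ≤ Q := by
    have h2 : q ^ 1 ≤ q ^ exq q m := Nat.pow_le_pow_right hq.pos (by omega)
    rw [pow_one] at h2
    omega
  have h54 : 4 ^ m + 1 ≤ 5 ^ m := Nat.pow_lt_pow_left (by norm_num) hm
  have h3 : Q * 4 ^ m + 2 < 5 ^ m * Q := by nlinarith
  by_contra hcon
  push Not at hcon
  have h4 : X < 5 ^ m * Q := lt_of_le_of_lt hcon h3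
  have h5 : X ^ (q - 1) < (5 ^ m * Q) ^ (q - 1) := Nat.pow_lt_pow_left h4 (by omega)
  have h6 : 5 ^ (q - 1) ≤ q ^ q := by
    rcases Nat.lt_or_ge q 5 with h | h
    · have : q = 3 := by
        interval_cases q
        · rfl
        · exact absurd hq (by norm_num)
      subst this
      norm_num
    · calc 5 ^ (q - 1) ≤ q ^ (q - 1) := Nat.pow_le_pow_left h _
        _ ≤ q ^ q := Nat.pow_le_pow_right hq.pos (by omega)
  have h7 : (5 ^ m * Q) ^ (q - 1) ≤ q ^ (q * (p - 1)) := by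
    calc (5 ^ m * Q) ^ (q - 1) = (5 ^ (q - 1)) ^ m * q ^ ((q - 1) * (m + v)) := by
          rw [mul_pow, hQ, hexq, ← pow_mul, ← pow_mul, ← pow_mul, mul_comm m, mul_comm (m + v)]
      _ ≤ (q ^ q) ^ m * q ^ ((q - 1) * (m + v)) := by gcongr
      _ = q ^ (q * m + (q - 1) * (m + v)) := by rw [← pow_mul, pow_add]
      _ ≤ q ^ (q * (p - 1)) := by
          refine Nat.pow_le_pow_right hq.pos ?_
          have h8 : (q - 1) * (m + v) ≤ q * m := by
            have h9 : q * m = (q - 1) * m + m := by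
              obtain ⟨r, rfl⟩ : ∃ r, q = r + 1 := ⟨q - 1, by omega⟩
              rw [Nat.add_sub_cancel]
              ring
            rw [mul_add, h9]
            omega
          calc q * m + (q - 1) * (m + v) ≤ q * m + q * m := by omega
            _ = q * (2 * m) := by ring
            _ ≤ q * (p - 1) := Nat.mul_le_mul_left _ hmp
  omega

section Field

variable {p : ℕ} [hp : Fact p.Prime] {K : Type} [Field K] [NumberField K]
  [hcyc : IsCyclotomicExtension {p} ℚ K]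

theorem adjoin_eq_top {z : 𝓞 K} (hz : IsPrimitiveRoot z p) : Algebra.adjoin ℤ {z} = ⊤ := by
  have : NeZero p := ⟨hp.out.ne_zero⟩
  have hζ : IsPrimitiveRoot (z : K) p := hz.map_of_injective (RingOfIntegers.coe_injective (K := K))
  have h3 := IsCyclotomicExtension.Rat.adjoin_singleton_eq_top hζ
  have h4 : hζ.toInteger = z := RingOfIntegers.coe_injective rfl
  rwa [h4] at h3

/-- `𝓞_K / q` is reduced -/
theorem dvd_of_dvd_pow {q : ℕ} (hq : q.Prime) (hpq : p ≠ q) {z : 𝓞 K} (hz : IsPrimitiveRoot z p)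
    {c : 𝓞 K} {m : ℕ} (hm : 2 * m ≤ p - 1) (h : (q : 𝓞 K) ∣ c ^ m) : (q : 𝓞 K) ∣ c := by
  have hqp : q ^ (p - 1) % p = 1 := by
    have h1 := ZMod.pow_card_sub_one_eq_one (p := p) (a := (q : ZMod p)) (by
      rw [Ne, ZMod.natCast_eq_zero_iff]
      intro hd
      exact hpq ((Nat.prime_dvd_prime_iff_eq hp.out hq).mp hd))
    have h2 : ((q ^ (p - 1) : ℕ) : ZMod p) = ((1 : ℕ) : ZMod p) := by
      push_cast
      exact h1
    rw [ZMod.natCast_eq_natCast_iff'] at h2
    rw [h2, Nat.mod_eq_of_lt hp.out.one_lt]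
  have hzq : z ^ q ^ (p - 1) = z := by
    rw [← Nat.mod_add_div (q ^ (p - 1)) p, hqp, pow_add, pow_mul, hz.pow_eq_one, one_pow, mul_one,
      pow_one]
  have h3 := Cat.Mih.dvd_pow_sub_self hq hzq (adjoin_eq_top hz) c
  have h4 : (q : 𝓞 K) ∣ c ^ q ^ (p - 1) := by
    refine h.trans (pow_dvd_pow c ?_)
    have h5 : p - 1 < q ^ (p - 1) := Nat.lt_pow_self hq.one_lt
    omega
  have h6 := dvd_sub h4 h3
  rwa [sub_sub_cancel] at h6

theorem coe_act_sg (a : (ZMod p)ˣ) (z : 𝓞 K) : ((act (sg p K a) z : 𝓞 K) : K) = sg p K a z := rfl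

theorem dvd_of_dvd_sum {q : ℕ} (hq : q.Prime) (hpq : p ≠ q) {z : 𝓞 K} (hz : IsPrimitiveRoot z p)
    (n : (ZMod p)ˣ → ℤ) (hn : (q : ℤ) ∣ ∑ a, n a)
    (h : (q : 𝓞 K) ∣ ∑ a, (n a : 𝓞 K) * act (sg p K a) z) (b : (ZMod p)ˣ) : (q : ℤ) ∣ n b := by
  classical
  have hwp : ∀ a, (act (sg p K a) z) ^ p = 1 := fun a => by rw [← map_pow, hz.pow_eq_one, map_one]
  set w' : 𝓞 K := (act (sg p K b) z) ^ (p - 1) with hw'
  have hw : act (sg p K b) z * w' = 1 := by
    rw [hw', ← pow_succ', Nat.sub_add_cancel hp.out.one_le, hwp]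
  have hw'p : w' ^ p = 1 := by
    rw [hw', ← pow_mul, mul_comm, pow_mul, hwp, one_pow]
  have hterm : ∀ a, ∑ τ : K ≃ₐ[ℚ] K, act τ (act (sg p K a) z * w') =
      if a = b then ((p : ℤ) : 𝓞 K) - 1 else -1 := by
    intro a
    by_cases hab : a = b
    · subst hab
      rw [if_pos rfl, hw]
      simp only [map_one, sum_const, card_univ, Cat.Mih.card_gal (p := p), nsmul_eq_mul, mul_one]
      rw [Nat.cast_sub hp.out.one_le]
      push_cast
      ring
    · rw [if_neg hab]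
      refine Cat.Mih.sum_act (Cat.Mih.primitive_of_ne_one (by rw [mul_pow, hwp, hw'p, one_mul])
        fun h3 => hab ?_)
      have h4 : act (sg p K a) z = act (sg p K b) z := by
        linear_combination (act (sg p K b) z) * h3 - (act (sg p K a) z) * hw
      exact sg_bijective.injective (Cat.Mih.act_injective hz h4)
  have hsum : ∑ τ : K ≃ₐ[ℚ] K, act τ ((∑ a, (n a : 𝓞 K) * act (sg p K a) z) * w') =
      ((p * n b - ∑ a, n a : ℤ) : 𝓞 K) := by
    have h3 : ∀ τ : K ≃ₐ[ℚ] K, act τ ((∑ a, (n a : 𝓞 K) * act (sg p K a) z) * w') =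
        ∑ a, (n a : 𝓞 K) * act τ (act (sg p K a) z * w') := by
      intro τ
      rw [sum_mul, map_sum]
      refine sum_congr rfl fun a _ => ?_
      rw [mul_assoc, map_mul, map_intCast]
    simp only [h3]
    rw [sum_comm]
    have h5 : ∀ a, ∑ τ : K ≃ₐ[ℚ] K, (n a : 𝓞 K) * act τ (act (sg p K a) z * w') =
        (if a = b then (n a : 𝓞 K) * p else 0) - n a := by
      intro a
      rw [← mul_sum, hterm]
      split_ifs
      · push_cast
        ring
      · ring
    rw [sum_congr rfl fun a _ => h5 a, sum_sub_distrib, sum_ite_eq' univ b, if_pos (mem_univ b)]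
    push_cast
    ring
  have h6 : ((q : ℤ) : 𝓞 K) ∣ ((p * n b - ∑ a, n a : ℤ) : 𝓞 K) := by
    rw [← hsum]
    refine dvd_sum fun τ _ => ?_
    have h4 := map_dvd (act τ) (h.mul_right w')
    rw [map_natCast] at h4
    exact_mod_cast h4
  have h7 := Cat.Mih.intCast_dvd_iff h6
  have h8 : (q : ℤ) ∣ p * n b := by
    have := dvd_add h7 hn
    simpa using this
  rcases (Nat.prime_iff_prime_int.mp hq).dvd_mul.mp h8 with h9 | h9
  · exact absurd ((Nat.prime_dvd_prime_iff_eq hq hp.out).mp (Int.natCast_dvd_natCast.mp h9)).symm hpq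
  · exact h9

/-- the norm of `x - σ_a ζ` -/
theorem norm_sub_sg {ζ : K} (hζ : IsPrimitiveRoot ζ p) (x : ℤ) (a : (ZMod p)ˣ) :
    Algebra.norm ℚ ((x : K) - sg p K a ζ) = ((∑ i ∈ range p, x ^ i : ℤ) : ℚ) := by
  have : IsGalois ℚ K := IsCyclotomicExtension.isGalois {p} ℚ K
  apply (algebraMap ℚ K).injective
  rw [Algebra.norm_eq_prod_automorphisms, map_intCast]
  have h1 := Cat.Mih.prod_gal (K := K) (hζ.map_of_injective (sg p K a).injective) (x : K)
  push_cast
  rw [← h1]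
  refine prod_congr rfl fun σ _ => ?_
  rw [map_sub, map_intCast]

/-- complex conjugation -/
theorem conj_embedding {ζ : K} (hζ : IsPrimitiveRoot ζ p) (φ : K →+* ℂ) (z : K) :
    (starRingEnd ℂ) (φ z) = φ (sg p K (-1) z) := by
  have h1 : ((starRingEnd ℂ).comp φ).toRatAlgHom =
      (φ.comp (sg p K (-1) : K →+* K)).toRatAlgHom := by
    refine (hζ.powerBasis ℚ).algHom_ext ?_
    rw [IsPrimitiveRoot.powerBasis_gen]
    change (starRingEnd ℂ) (φ ζ) = φ (sg p K (-1) ζ)
    have h2 : sg p K (-1) ζ * ζ = 1 := by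
      rw [sg_apply hζ, ← pow_succ, hζ.pow_eq_one_iff_dvd, ← ZMod.natCast_eq_zero_iff]
      push_cast
      rw [ZMod.natCast_zmod_val]
      exact neg_add_cancel 1
    have h4 : ‖φ ζ‖ = 1 := (hζ.map_of_injective φ.injective).norm'_eq_one hp.out.ne_zero
    have h5 : φ (sg p K (-1) ζ) * φ ζ = 1 := by rw [← map_mul, h2, map_one]
    rw [eq_inv_of_mul_eq_one_left h5, Complex.inv_eq_conj h4]
  exact DFunLike.congr_fun h1 z

/-- there is no non-trivial `q`-th root of unity in `K` -/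
theorem eq_one_of_pow_eq_one {q : ℕ} (hq : q.Prime) (hq2 : q ≠ 2) (hpq : p ≠ q) {u : K}
    (hu : u ^ q = 1) : u = 1 := by
  by_contra h
  have := Fact.mk hq
  have : NeZero p := ⟨hp.out.ne_zero⟩
  have h1 : IsPrimitiveRoot u q := IsPrimitiveRoot.iff_orderOf.mpr (orderOf_eq_prime hu h)
  have h2 := IsPrimitiveRoot.dvd_of_isCyclotomicExtension (n := p) h1 hq.ne_zero
  rcases hq.dvd_mul.mp h2 with h3 | h3
  · exact hq2 ((Nat.prime_dvd_prime_iff_eq hq Nat.prime_two).mp h3)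
  · exact hpq ((Nat.prime_dvd_prime_iff_eq hq hp.out).mp h3).symm

end Field

end Fermat.Agent.Cor.Catalan
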