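import Fermat.Agent.Corollaries.Catalan.Rel
import Fermat.Agent.Corollaries.Catalan.RungeN

/-!
# Runge's method for Catalan's equation (block MIH, piece 10)

Let `x^p - y^q = 1` with odd primes `q < p` and `n : (ZMod p)ˣ → ℤ` even. If `∏ (x - σ_a ζ)^(n_a)`
is a `q`-th power in `ℚ(ζ)` then `q` divides all `n_a` (P. Mihăilescu; the first half of the plus
argument).

One may assume `0 ≤ n_a < q` and `∑ n_a = m q` with `m ≤ (p - 1) / 2`. Let `F = ∑ A_k X^k` be the
series `∏ (1 - σ_a ζ X)^(n_a/q)`. The `q`-th root `α` is real in every embedding, equal to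
`x^m F(1/x)`; its approximation `∑_{k ≤ m} A_k x^(m-k)` has the denominator `q^(m + v_q(m!))`, and
`q^(m + v_q(m!)) (α - ∑_{k ≤ m} A_k x^(m-k))` is an algebraic integer all of whose conjugates have
absolute value `< 1`. So it is `0`, and this gives `(∑ n_a σ_a ζ)^m ≡ 0 mod q`.
-/

set_option autoImplicit false

open NumberField Finset

open scoped PowerSeries

namespace Fermat.Agent.Cor.Catalan

open Fermat.Agent.Cor.Cat (exq exq_lt)
open Fermat.Agent.Cor.Cat.Mih (act)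

section Field

variable {p : ℕ} [hp : Fact p.Prime] {K : Type} [Field K] [NumberField K]
  [hcyc : IsCyclotomicExtension {p} ℚ K]

/-- the series `∏ (1 - σ_a ζ X)^(n_a/q)` -/
noncomputable def rs (q : ℕ) (n : (ZMod p)ˣ → ℕ) (ζ : K) : K⟦X⟧ :=
  ∏ a, bs (n a) q (-(sg p K a ζ))

variable (K) in
/-- the ring of integers as a subring of `K` -/
noncomputable def Oi : Subring K := (algebraMap (𝓞 K) K).range

omit [NumberField K] in
theorem coe_mem_Oi (y : 𝓞 K) : (y : K) ∈ Oi K := ⟨y, rfl⟩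

theorem intC_rs {q : ℕ} (hq : q.Prime) (n : (ZMod p)ˣ → ℕ) (z : 𝓞 K) :
    IntC (Oi K) q (rs q n (z : K)) :=
  IntC.prod univ _ fun a _ => IntC.bs (n a) hq (neg_mem (coe_mem_Oi (act (sg p K a) z)))

theorem cg_rs {q : ℕ} (hq : q ≠ 0) (n : (ZMod p)ˣ → ℕ) (z : 𝓞 K) :
    Cg (Oi K) q (rs q n (z : K)) (∑ a, (n a : K) * -(sg p K a (z : K))) :=
  Cg.prod univ _ _ (fun a _ => mul_mem (natCast_mem _ _)
    (neg_mem (coe_mem_Oi (act (sg p K a) z))))
    fun a _ => Cg.bs (n a) hq (neg_mem (coe_mem_Oi (act (sg p K a) z)))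

/-! ### The arithmetic half -/

theorem runge_arith {q : ℕ} (hq : q.Prime) (hpq : p ≠ q) {z : 𝓞 K} (hz : IsPrimitiveRoot z p)
    (n : (ZMod p)ˣ → ℕ) (hn : ∀ a, n a < q) {m : ℕ} (hm0 : m ≠ 0) (hm : ∑ a, n a = m * q)
    (h2m : 2 * m ≤ p - 1) (x : ℤ) (α : 𝓞 K)
    (h : (q : K) ^ exq q m * ((α : K) - ∑ k ∈ range (m + 1),
      PowerSeries.coeff k (rs q n (z : K)) * (x : K) ^ (m - k)) = 0) (b : (ZMod p)ˣ) : n b = 0 := by
  set F : K⟦X⟧ := rs q n (z : K) with hF
  have hI := intC_rs hq n z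
  have hC := cg_rs hq.ne_zero n z
  rw [← hF] at hI hC
  -- the terms of degree less than `m`
  have h1 : ∀ k < m, ∃ w ∈ Oi K, (q : K) ^ exq q m * PowerSeries.coeff k F = q * w := by
    intro k hk
    have h2 := exq_lt (q := q) hk
    obtain ⟨e, he⟩ := Nat.exists_eq_add_of_lt h2
    refine ⟨(q : K) ^ e * ((q : K) ^ exq q k * PowerSeries.coeff k F),
      mul_mem (pow_mem (natCast_mem _ q) e) (hI k), ?_⟩
    rw [he, pow_succ, pow_add]
    ring
  choose! w hw hw' using h1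
  have hexq : m ≤ exq q m := Nat.le_add_right _ _
  -- the term of degree `m`
  have h2 : (q : K) ^ exq q m * PowerSeries.coeff m F =
      q * ((q : K) ^ (exq q m - 1) * (α : K) - ∑ k ∈ range m, w k * (x : K) ^ (m - k)) := by
    rw [mul_sub, mul_sum, sum_range_succ, Nat.sub_self, pow_zero, mul_one] at h
    have h3 : (q : K) ^ exq q m = q * (q : K) ^ (exq q m - 1) := by
      rw [← pow_succ', Nat.sub_add_cancel (by omega)]
    have h4 : ∑ k ∈ range m, (q : K) ^ exq q m * (PowerSeries.coeff k F * (x : K) ^ (m - k)) =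
        q * ∑ k ∈ range m, w k * (x : K) ^ (m - k) := by
      rw [mul_sum]
      refine sum_congr rfl fun k hk => ?_
      rw [← mul_assoc, hw' k (mem_range.mp hk), mul_assoc]
    rw [h4] at h
    linear_combination (α : K) * h3 - h
  obtain ⟨z', hz', hz''⟩ := hC m
  set c : K := ∑ a, (n a : K) * -(sg p K a (z : K)) with hc
  set v := m.factorial.factorization q with hv
  have hfac : ((q ^ v * (m.factorial / q ^ v) : ℕ) : K) = (m.factorial : K) :=
    congrArg _ (Nat.ordProj_mul_ordCompl_eq_self _ _)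
  set M : ℕ := m.factorial / q ^ v with hM
  have h5 : c ^ m = q * (M * ((q : K) ^ (exq q m - 1) * (α : K) -
      ∑ k ∈ range m, w k * (x : K) ^ (m - k)) - z') := by
    have h6 : (m.factorial : K) * (q : K) ^ m * PowerSeries.coeff m F =
        M * ((q : K) ^ exq q m * PowerSeries.coeff m F) := by
      rw [← hfac, show exq q m = m + v from rfl, pow_add]
      push_cast
      ring
    rw [h6, h2] at hz''
    linear_combination -hz''
  have hmem : (M * ((q : K) ^ (exq q m - 1) * (α : K) -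
      ∑ k ∈ range m, w k * (x : K) ^ (m - k)) - z') ∈ Oi K := by
    refine sub_mem (mul_mem (natCast_mem _ _) (sub_mem (mul_mem (pow_mem (natCast_mem _ _) _)
      (coe_mem_Oi α)) (Subring.sum_mem _ fun k hk => mul_mem (hw k (mem_range.mp hk))
        (pow_mem (intCast_mem _ _) _)))) hz'
  obtain ⟨y, hy⟩ := hmem
  set C : 𝓞 K := ∑ a, ((n a : ℤ) : 𝓞 K) * act (sg p K a) z with hCdef
  have hCc : (C : K) = -c := by
    rw [hCdef, hc, ← sum_neg_distrib]
    change algebraMap (𝓞 K) K _ = _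
    rw [map_sum]
    refine sum_congr rfl fun a _ => ?_
    rw [map_mul, map_intCast, mul_neg, neg_neg, Int.cast_natCast]
    rfl
  have hdvd : (q : 𝓞 K) ∣ C ^ m := by
    refine ⟨(-1) ^ m * y, ?_⟩
    apply RingOfIntegers.coe_injective
    rw [map_pow, map_mul, map_mul, map_pow, map_neg, map_one, map_natCast, hy]
    change (C : K) ^ m = _
    rw [hCc, neg_pow, h5]
    ring
  have hdvd2 := dvd_of_dvd_pow hq hpq hz h2m hdvd
  have h7 := dvd_of_dvd_sum hq hpq hz (fun a => (n a : ℤ)) (by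
    have h8 : ∑ a, (n a : ℤ) = m * q := by exact_mod_cast hm
    rw [h8]
    exact dvd_mul_left _ _) hdvd2 b
  exact Nat.eq_zero_of_dvd_of_lt (Int.natCast_dvd_natCast.mp h7) (hn b)

/-! ### The analytic half -/

theorem sg_neg_one_eq {q : ℕ} (hq : q.Prime) (hq2 : q ≠ 2) (hpq : p ≠ q) {ζ : K}
    (n : (ZMod p)ˣ → ℕ) (heven : ∀ a, n (-a) = n a) (x : ℤ) {α : K}
    (hα : α ^ q = ∏ a, ((x : K) - sg p K a ζ) ^ n a) : sg p K (-1) α = α := by
  by_cases h0 : α = 0
  · rw [h0, map_zero]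
  have h1 : (sg p K (-1) α) ^ q = α ^ q := by
    rw [← map_pow, hα, map_prod]
    refine Fintype.prod_equiv (Equiv.neg _) _ _ fun a => ?_
    rw [map_pow, map_sub, map_intCast, ← sg_mul_apply, neg_one_mul, Equiv.neg_apply, heven]
  have h2 : (sg p K (-1) α / α) ^ q = 1 := by
    rw [div_pow, h1, div_self (pow_ne_zero _ h0)]
  have h3 := eq_one_of_pow_eq_one hq hq2 hpq h2
  rwa [div_eq_one_iff_eq h0] at h3

theorem runge_embedding {q : ℕ} (hq : q.Prime) (hq2 : q ≠ 2) (hpq : p ≠ q) {ζ : K}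
    (hζ : IsPrimitiveRoot ζ p) (n : (ZMod p)ˣ → ℕ) (hn : ∀ a, n a < q)
    (heven : ∀ a, n (-a) = n a) {m : ℕ} (hm0 : m ≠ 0) (hm : ∑ a, n a = m * q) (x : ℤ)
    (hx : q ^ exq q m * 4 ^ m + 2 < x.natAbs) {α : K}
    (hα : α ^ q = ∏ a, ((x : K) - sg p K a ζ) ^ n a) (φ : K →+* ℂ) :
    ‖φ ((q : K) ^ exq q m * (α - ∑ k ∈ range (m + 1),
      PowerSeries.coeff k (rs q n ζ) * (x : K) ^ (m - k)))‖ < 1 := by
  have hq0 : (q : ℂ) ≠ 0 := Nat.cast_ne_zero.mpr hq.ne_zero
  have hqR : (q : ℝ) ≠ 0 := Nat.cast_ne_zero.mpr hq.ne_zero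
  set X : ℝ := (x.natAbs : ℝ) with hX
  have hXx : ‖(x : ℂ)‖ = X := by
    rw [Complex.norm_intCast, hX, Nat.cast_natAbs, Int.cast_abs]
  have hxR : (q : ℝ) ^ exq q m * 4 ^ m + 2 < X := by
    rw [hX]
    exact_mod_cast hx
  have hX2 : 2 < X := by
    have : (0 : ℝ) ≤ (q : ℝ) ^ exq q m * 4 ^ m := by positivity
    linarith
  have hx0 : (x : ℂ) ≠ 0 := by
    intro h0
    rw [h0, norm_zero] at hXx
    linarith
  set t : ℂ := (x : ℂ)⁻¹ with ht
  have htn : ‖t‖ = X⁻¹ := by rw [ht, norm_inv, hXx]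
  have ht2 : ‖t‖ < 1 / 2 := by
    rw [htn, one_div]
    exact inv_strictAnti₀ (by norm_num) hX2
  have ht1 : ‖t‖ < 1 := by linarith
  set c : (ZMod p)ˣ → ℂ := fun a => φ (-(sg p K a ζ)) with hc
  have hcn : ∀ a, ‖c a‖ = 1 := by
    intro a
    rw [hc]
    simp only [map_neg, norm_neg]
    exact ((hζ.map_of_injective (sg p K a).injective).map_of_injective
      φ.injective).norm'_eq_one hp.out.ne_zero
  set v : (ZMod p)ˣ → ℂ := fun a => (1 + c a * t) ^ ((n a : ℂ) / q) with hv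
  have hEv : Ev t (∏ a, bs (n a) q (c a)) (∑ a, (n a : ℝ) / q) (∏ a, v a) :=
    Ev.prod univ _ _ _ fun a _ => Ev.bs hq.ne_zero (hn a).le (hcn a) ht1
  have hsum : ∑ a, (n a : ℝ) / q = m := by
    rw [← sum_div, ← Nat.cast_sum, hm]
    push_cast
    field_simp
  rw [hsum] at hEv
  have hmap : PowerSeries.map φ (rs q n ζ) = ∏ a, bs (n a) q (c a) := by
    rw [rs, map_prod]
    exact prod_congr rfl fun a _ => map_bs φ _ _ _
  set V : ℂ := ∏ a, v a with hV
  -- the `q`-th power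
  have hVq : V ^ q = ∏ a, (1 + c a * t) ^ n a := by
    rw [hV, ← prod_pow]
    refine prod_congr rfl fun a _ => ?_
    rw [hv]
    simp only
    rw [← Complex.cpow_mul_nat, div_mul_cancel₀ _ hq0, Complex.cpow_natCast]
  have hpow : ((x : ℂ) ^ m * V) ^ q = (φ α) ^ q := by
    rw [← map_pow, hα, map_prod, mul_pow, hVq, ← pow_mul, ← hm, ← prod_pow_eq_pow_sum,
      ← prod_mul_distrib]
    refine prod_congr rfl fun a _ => ?_
    rw [map_pow, map_sub, map_intCast, ← mul_pow, mul_add, mul_one, ht, mul_comm (c a), ← mul_assoc,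
      mul_inv_cancel₀ hx0, one_mul, hc]
    simp only [map_neg]
    rw [sub_eq_add_neg]
  -- both are real
  have hconjt : (starRingEnd ℂ) t = t := by
    rw [ht, map_inv₀, map_intCast]
  have hconjc : ∀ a, (starRingEnd ℂ) (c a) = c (-a) := by
    intro a
    rw [hc]
    simp only
    rw [conj_embedding hζ, map_neg, ← sg_mul_apply, neg_one_mul]
  have hconjv : ∀ a, (starRingEnd ℂ) (v a) = v (-a) := by
    intro a
    rw [hv]
    simp only
    have h1 : ‖c a * t‖ < 1 := by rw [norm_mul, hcn, one_mul]; exact ht1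
    have h2 := Complex.conj_cpow (1 + c a * t) ((n a : ℂ) / q)
      (Complex.mem_slitPlane_iff_arg.mp (Complex.mem_slitPlane_of_norm_lt_one h1)).1
    rw [map_div₀, Complex.conj_natCast, Complex.conj_natCast] at h2
    rw [← h2, map_add, map_one, map_mul, hconjc, hconjt, heven]
  have hconjV : (starRingEnd ℂ) V = V := by
    rw [hV, map_prod]
    refine Fintype.prod_equiv (Equiv.neg _) _ _ fun a => ?_
    rw [Equiv.neg_apply, hconjv]
  have hconjα : (starRingEnd ℂ) (φ α) = φ α := by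
    rw [conj_embedding hζ, sg_neg_one_eq hq hq2 hpq n heven x hα]
  have hconjxV : (starRingEnd ℂ) ((x : ℂ) ^ m * V) = (x : ℂ) ^ m * V := by
    rw [map_mul, map_pow, map_intCast, hconjV]
  have hαV : φ α = (x : ℂ) ^ m * V := by
    rw [Complex.conj_eq_iff_real] at hconjα hconjxV
    obtain ⟨r, hr⟩ := hconjα
    obtain ⟨s, hs⟩ := hconjxV
    rw [hr, hs] at hpow ⊢
    have h1 : s ^ q = r ^ q := by exact_mod_cast hpow
    rw [(hq.odd_of_ne_two hq2).pow_injective h1]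
  -- the estimate
  have hβ : φ ((q : K) ^ exq q m * (α - ∑ k ∈ range (m + 1),
      PowerSeries.coeff k (rs q n ζ) * (x : K) ^ (m - k))) =
      (q : ℂ) ^ exq q m * ((x : ℂ) ^ m * (V - ∑ k ∈ range (m + 1),
        PowerSeries.coeff k (∏ a, bs (n a) q (c a)) * t ^ k)) := by
    rw [map_mul, map_pow, map_natCast, map_sub, hαV, map_sum, mul_sub ((x : ℂ) ^ m), mul_sum]
    congr 2
    refine sum_congr rfl fun k hk => ?_
    rw [map_mul, map_pow, map_intCast, ← hmap, PowerSeries.coeff_map]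
    have hkm : k ≤ m := Nat.lt_succ_iff.mp (mem_range.mp hk)
    have h1 : (x : ℂ) ^ m * t ^ k = (x : ℂ) ^ (m - k) := by
      rw [ht, inv_pow, ← div_eq_mul_inv, pow_sub₀ _ hx0 hkm]
      rfl
    rw [← h1]
    ring
  rw [hβ, norm_mul, norm_mul, norm_pow, norm_pow, hXx, Complex.norm_natCast]
  have htail := hEv.tail hm0 ht2
  rw [htn] at htail
  have hX0 : X ≠ 0 := by linarith
  have hX20 : X - 2 ≠ 0 := by linarith
  have hcalc : X ^ m * (2 ^ (m - 1) * (2 * X⁻¹) ^ (m + 1) / (1 - 2 * X⁻¹)) =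
      4 ^ m / (X - 2) := by
    obtain ⟨r, rfl⟩ : ∃ r, m = r + 1 := ⟨m - 1, by omega⟩
    have h1 : 1 - 2 * X⁻¹ = (X - 2) / X := by field_simp
    have h4 : (4 : ℝ) = 2 ^ 2 := by norm_num
    rw [h1, Nat.add_sub_cancel, h4, ← pow_mul, mul_pow, inv_pow]
    field_simp
    ring
  calc (q : ℝ) ^ exq q m * (X ^ m * ‖V - ∑ k ∈ range (m + 1),
        PowerSeries.coeff k (∏ a, bs (n a) q (c a)) * t ^ k‖) ≤
      (q : ℝ) ^ exq q m * (X ^ m * (2 ^ (m - 1) * (2 * X⁻¹) ^ (m + 1) / (1 - 2 * X⁻¹))) := by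
        gcongr
    _ = (q : ℝ) ^ exq q m * (4 ^ m / (X - 2)) := by rw [hcalc]
    _ < 1 := by
        rw [mul_div_assoc', div_lt_one (by linarith)]
        linarith

/-! ### The reduced case -/

theorem runge_core {q : ℕ} (hq : q.Prime) (hq2 : q ≠ 2) (hpq : p ≠ q) {ζ : K}
    (hζ : IsPrimitiveRoot ζ p) {x : ℤ} (hB : (q : ℤ) ^ (q * (p - 1)) ≤ |x| ^ (q - 1))
    (n : (ZMod p)ˣ → ℕ) (hn : ∀ a, n a < q) (heven : ∀ a, n (-a) = n a) {m : ℕ}
    (hm : ∑ a, n a = m * q) (h2m : 2 * m ≤ p - 1) {α : K}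
    (hα : α ^ q = ∏ a, ((x : K) - sg p K a ζ) ^ n a) (b : (ZMod p)ˣ) : n b = 0 := by
  rcases Nat.eq_zero_or_pos m with h0 | hm0
  · rw [h0, zero_mul, sum_eq_zero_iff] at hm
    exact hm b (mem_univ b)
  have hBn : q ^ (q * (p - 1)) ≤ x.natAbs ^ (q - 1) := by
    rw [Int.abs_eq_natAbs] at hB
    exact_mod_cast hB
  have hx := exq_bound hq hq2 hm0.ne' h2m hBn
  -- integrality
  obtain ⟨z, rfl⟩ : ∃ z : 𝓞 K, (z : K) = ζ := ⟨hζ.toInteger, rfl⟩
  have hz : IsPrimitiveRoot z p :=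
    hζ.of_map_of_injective (f := algebraMap (𝓞 K) K) RingOfIntegers.coe_injective
  have hαi : IsIntegral ℤ α := by
    refine IsIntegral.of_pow hq.pos ?_
    rw [hα]
    refine IsIntegral.prod _ fun a _ => IsIntegral.pow (IsIntegral.sub ?_ ?_) _
    · exact isIntegral_algebraMap (R := ℤ) (x := x)
    · exact (act (sg p K a) z).isIntegral_coe
  obtain ⟨A, rfl⟩ : ∃ A : 𝓞 K, (A : K) = α := ⟨⟨α, hαi⟩, rfl⟩
  refine runge_arith hq hpq hz n hn hm0.ne' hm h2m x A ?_ b
  have hI := intC_rs hq n z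
  have hmem : (q : K) ^ exq q m * ((A : K) - ∑ k ∈ range (m + 1),
      PowerSeries.coeff k (rs q n (z : K)) * (x : K) ^ (m - k)) ∈ Oi K := by
    rw [mul_sub, mul_sum]
    refine sub_mem (mul_mem (pow_mem (natCast_mem _ _) _) (coe_mem_Oi A))
      (Subring.sum_mem _ fun k hk => ?_)
    have hkm : k ≤ m := Nat.lt_succ_iff.mp (mem_range.mp hk)
    have h1 : exq q k ≤ exq q m := by
      rcases hkm.eq_or_lt with rfl | h
      · exact le_rfl
      · exact (exq_lt h).le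
    obtain ⟨e, he⟩ := Nat.exists_eq_add_of_le h1
    have h2 : (q : K) ^ exq q m * (PowerSeries.coeff k (rs q n (z : K)) * (x : K) ^ (m - k)) =
        (q : K) ^ e * ((q : K) ^ exq q k * PowerSeries.coeff k (rs q n (z : K))) *
          (x : K) ^ (m - k) := by
      rw [he, pow_add]
      ring
    rw [h2]
    exact mul_mem (mul_mem (pow_mem (natCast_mem _ _) _) (hI k)) (pow_mem (intCast_mem _ _) _)
  obtain ⟨β, hβ⟩ := hmem
  rw [← hβ]
  by_contra hne
  have hβ0 : β ≠ 0 := fun h => hne (by rw [h, map_zero])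
  have hlt : ∀ w : InfinitePlace K, w (β : K) < 1 := by
    intro w
    rw [← InfinitePlace.norm_embedding_eq]
    have h3 := runge_embedding hq hq2 hpq hζ n hn heven hm0.ne' hm x hx hα w.embedding
    rw [← hβ] at h3
    exact h3
  have w : InfinitePlace K := Classical.arbitrary _
  have h4 := InfinitePlace.one_le_of_lt_one (w := w) hβ0 fun z' _ => hlt z'
  exact absurd h4 (not_le.mpr (hlt w))

/-! ### The reduction -/

theorem dvd_sum_of_pow {q : ℕ} (hq : q.Prime) {ζ : K} (hζ : IsPrimitiveRoot ζ p) {x u : ℤ}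
    (hu : ∑ i ∈ range p, x ^ i = p * u ^ q) (hu0 : u ≠ 0) (n : (ZMod p)ˣ → ℕ) {α : K}
    (hα : α ^ q = ∏ a, ((x : K) - sg p K a ζ) ^ n a) : q ∣ ∑ a, n a := by
  have h1 : (Algebra.norm ℚ α) ^ q = ((p : ℚ) * (u : ℚ) ^ q) ^ (∑ a, n a) := by
    rw [← map_pow, hα, map_prod, ← prod_pow_eq_pow_sum]
    refine prod_congr rfl fun a _ => ?_
    rw [map_pow, norm_sub_sg hζ, hu]
    push_cast
    rfl
  have hp0 : (p : ℚ) ≠ 0 := Nat.cast_ne_zero.mpr hp.out.ne_zero
  have huq : ((u : ℚ)) ≠ 0 := Int.cast_ne_zero.mpr hu0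
  have hN : Algebra.norm ℚ α ≠ 0 := by
    intro h0
    rw [h0, zero_pow hq.ne_zero] at h1
    exact (pow_ne_zero _ (mul_ne_zero hp0 (pow_ne_zero _ huq))) h1.symm
  have h2 := congrArg (padicValRat p) h1
  rw [padicValRat.pow, padicValRat.pow, padicValRat.mul hp0 (pow_ne_zero _ huq), padicValRat.pow,
    padicValRat.self hp.out.one_lt] at h2
  have h3 : (q : ℤ) ∣ ((∑ a, n a : ℕ) : ℤ) := by
    refine ⟨padicValRat p (Algebra.norm ℚ α) - (∑ a, n a : ℕ) * padicValRat p (u : ℚ), ?_⟩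
    linear_combination -h2
  exact Int.natCast_dvd_natCast.mp h3

theorem exists_root_reduced {q : ℕ} {ζ : K} {x : ℤ} (hz : (x : K) - ζ ≠ 0)
    {k : (ZMod p)ˣ → ℤ} {β : K} (hk : pw p K k ((x : K) - ζ) = β ^ q) (N : (ZMod p)ˣ → ℕ)
    (hN : ∀ a, (q : ℤ) ∣ (N a : ℤ) - k a) :
    ∃ α : K, α ^ q = ∏ a, ((x : K) - sg p K a ζ) ^ N a := by
  obtain ⟨w, hw⟩ := exists_pw_eq_pow (K := K) (n := fun a => (N a : ℤ) - k a) hN ((x : K) - ζ)
  refine ⟨β * w, ?_⟩
  rw [mul_pow, ← hk, ← hw, ← pw_add _ _ hz, pw]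
  refine prod_congr rfl fun a _ => ?_
  rw [Pi.add_apply, add_sub_cancel, zpow_natCast, map_sub, map_intCast]

end Field

theorem emod_toNat {q : ℕ} (hq : q ≠ 0) (k : ℤ) :
    (((k % q).toNat : ℕ) : ℤ) = k % q ∧ (k % q).toNat < q ∧ (q : ℤ) ∣ ((k % q).toNat : ℤ) - k := by
  have hq' : (q : ℤ) ≠ 0 := Nat.cast_ne_zero.mpr hq
  have h1 : (((k % q).toNat : ℕ) : ℤ) = k % q := Int.toNat_of_nonneg (Int.emod_nonneg k hq')
  refine ⟨h1, ?_, ?_⟩
  · have h2 := Int.emod_lt_of_pos k (show (0 : ℤ) < q by positivity)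
    rw [← h1] at h2
    exact_mod_cast h2
  · rw [h1]
    exact ⟨-(k / q), by rw [Int.emod_def]; ring⟩

/-- **(C10) Runge's method** (the plus argument, first half) -/
theorem rungeStmt : RungeStmt := by
  intro p q x y hS hlt hp K _ _ _ ζ hζ n heven hα b
  obtain ⟨α, hα⟩ := hα
  obtain ⟨hpq, a0, u, -, hu, -, hpu, hu1, -, -⟩ := relStmt p q x y hS
  have hB := boundStmt p q x y hS hlt
  have hq := hS.hq
  have hu0 : u ≠ 0 := by
    rintro rfl
    exact absurd hu1 (by norm_num)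
  have hz : (x : K) - ζ ≠ 0 := by
    intro h0
    have h1 := norm_sub_sg hζ x 1
    have h2 : sg p K 1 ζ = ζ := by
      rw [sg_one]
      rfl
    rw [h2, h0, Algebra.norm_zero, hu] at h1
    have h3 : (p : ℤ) * u ^ q = 0 := by exact_mod_cast h1.symm
    exact (mul_ne_zero (Nat.cast_ne_zero.mpr hp.out.ne_zero) (pow_ne_zero _ hu0)) h3
  set N : (ZMod p)ˣ → ℕ := fun a => (n a % q).toNat with hN
  set N' : (ZMod p)ˣ → ℕ := fun a => ((-n a) % q).toNat with hN'
  have hNs := fun a => emod_toNat hq.ne_zero (n a)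
  have hNs' := fun a => emod_toNat hq.ne_zero (-n a)
  have hNe : ∀ a, N (-a) = N a := fun a => by rw [hN]; simp only [heven]
  have hNe' : ∀ a, N' (-a) = N' a := fun a => by rw [hN']; simp only [heven]
  obtain ⟨A, hA⟩ := exists_root_reduced hz hα N fun a => (hNs a).2.2
  have hα' : pw p K (-n) ((x : K) - ζ) = (α⁻¹) ^ q := by rw [pw_neg, hα, inv_pow]
  obtain ⟨A', hA'⟩ := exists_root_reduced hz hα' N' fun a => (hNs' a).2.2
  obtain ⟨m, hm⟩ := dvd_sum_of_pow hq hζ hu hu0 N hA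
  obtain ⟨m', hm'⟩ := dvd_sum_of_pow hq hζ hu hu0 N' hA'
  rw [mul_comm] at hm hm'
  have hle : ∀ a, N a + N' a ≤ q := by
    intro a
    have h1 := (hNs a).2.1
    have h2 := (hNs' a).2.1
    have h3 : (q : ℤ) ∣ ((N a + N' a : ℕ) : ℤ) := by
      have h4 := dvd_add (hNs a).2.2 (hNs' a).2.2
      have h5 : ((n a % q).toNat : ℤ) - n a + (((-n a % q).toNat : ℤ) - -n a) =
          ((N a + N' a : ℕ) : ℤ) := by
        rw [hN, hN']
        push_cast
        ring
      rwa [h5] at h4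
    obtain ⟨c, hc⟩ := Int.natCast_dvd_natCast.mp h3
    have h6 : N a + N' a < 2 * q := by
      rw [hN, hN']
      simp only
      omega
    rw [hc] at h6 ⊢
    have h7 : c < 2 := by
      by_contra h8
      push Not at h8
      have := Nat.mul_le_mul_left q h8
      omega
    have h9 : c ≤ 1 := by omega
    calc q * c ≤ q * 1 := Nat.mul_le_mul_left _ h9
      _ = q := mul_one q
  have hcard : m + m' ≤ p - 1 := by
    have h1 : ∑ a, (N a + N' a) ≤ ∑ _a : (ZMod p)ˣ, q := sum_le_sum fun a _ => hle a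
    rw [sum_add_distrib, hm, hm', sum_const, card_univ, ZMod.card_units, smul_eq_mul,
      ← add_mul] at h1
    exact Nat.le_of_mul_le_mul_right h1 hq.pos
  rcases Nat.lt_or_ge (p - 1) (2 * m) with h | h
  · have h1 := runge_core hq hS.hq2 hpq hζ hB N' (fun a => (hNs' a).2.1) hNe' hm' (by omega) hA' b
    have h2 := (hNs' b).1
    have h3 : ((-n b % q).toNat : ℤ) = 0 := by exact_mod_cast h1
    rw [h3] at h2
    exact (dvd_neg).mp (Int.dvd_of_emod_eq_zero h2.symm)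
  · have h1 := runge_core hq hS.hq2 hpq hζ hB N (fun a => (hNs a).2.1) hNe hm h hA b
    have h2 := (hNs b).1
    have h3 : ((n b % q).toNat : ℤ) = 0 := by exact_mod_cast h1
    rw [h3] at h2
    exact Int.dvd_of_emod_eq_zero h2.symm

end Fermat.Agent.Cor.Catalan
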