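import Fermat.Agent.Corollaries.Catalan.Defs
import Fermat.Agent.S14_Units

/-!
# Units modulo `q`-th powers in the `p`-th cyclotomic field

For a generator `s` of `(ZMod p)ˣ` and an irreducible factor `g` of `1 + X + ⋯ + X^(m-1)` modulo
`q`, `m = (p - 1) / 2`, `q ∤ p - 1`, the kernel of `g(s)` on the units modulo `q`-th powers is
generated by any of its non-zero elements.
-/

set_option autoImplicit false
set_option maxSynthPendingDepth 3

namespace Fermat.Agent.Cor.Catalan.UnitMod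

open Polynomial Module NumberField TensorProduct Fermat.Agent.S14units

section algebra

variable {F V : Type*} [Field F] [AddCommGroup V] [Module F V]

/-- The first powers of `ψ` are linearly independent on a non-zero vector killed by the
irreducible polynomial `g`. -/
theorem linInd (ψ : V →ₗ[F] V) {g : F[X]} (hg : Irreducible g) {x : V} (hx : aeval ψ g x = 0)
    (hx0 : x ≠ 0) : LinearIndependent F (fun i : Fin g.natDegree => (ψ ^ (i : ℕ)) x) := by
  rw [Fintype.linearIndependent_iff]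
  intro c hc
  set r : F[X] := ∑ i : Fin g.natDegree, C (c i) * X ^ (i : ℕ) with hr
  have hrx : aeval ψ r x = 0 := by
    rw [hr, map_sum, LinearMap.sum_apply, ← hc]
    refine Finset.sum_congr rfl fun i _ => ?_
    rw [map_mul, aeval_C, map_pow, aeval_X, Module.End.mul_apply,
      Module.algebraMap_end_apply]
  have hdeg : r.degree < g.degree := by
    rw [hr, degree_eq_natDegree hg.ne_zero]
    refine lt_of_le_of_lt (degree_sum_le _ _) ?_
    rw [Finset.sup_lt_iff (WithBot.bot_lt_coe _)]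
    intro i _
    exact lt_of_le_of_lt (degree_C_mul_X_pow_le _ _) (by exact_mod_cast i.2)
  have hr0 : r = 0 := by
    by_contra hne
    have hcop : IsCoprime g r := by
      rw [hg.coprime_iff_not_dvd]
      intro h
      exact absurd (degree_le_of_dvd h hne) (not_le.mpr hdeg)
    obtain ⟨a, b, hab⟩ := hcop
    have h1 := congrArg (fun f => aeval ψ f x) hab
    simp only [map_add, map_mul, LinearMap.add_apply, Module.End.mul_apply, hx, hrx, map_zero,
      add_zero, map_one, Module.End.one_apply] at h1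
    exact hx0 h1.symm
  intro i
  have h2 : r.coeff (i : ℕ) = c i := by
    rw [hr, finsetSum_coeff, Finset.sum_eq_single i]
    · simp
    · intro j _ hj
      rw [coeff_C_mul, coeff_X_pow, if_neg, mul_zero]
      intro h
      exact hj (Fin.ext h.symm)
    · intro h
      exact absurd (Finset.mem_univ i) h
  rw [← h2, hr0, coeff_zero]

/-- If the eigenspace of a root of the irreducible polynomial `g` has dimension at most one, then
the kernel of `g(ψ)` is generated by any of its non-zero elements. -/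
theorem exists_aeval_eq [FiniteDimensional F V] (ψ : V →ₗ[F] V) {g : F[X]} (hg : Irreducible g)
    {k : Type*} [Field k] [Algebra F k] (μ : k) (hμ : aeval μ g = 0)
    (hsurj : ∀ c : k, ∃ r : F[X], aeval μ r = c)
    (hdim : finrank k (Module.End.eigenspace (ψ.baseChange k) μ) ≤ 1) {x y : V}
    (hx : aeval ψ g x = 0) (hy : aeval ψ g y = 0) (hy0 : y ≠ 0) :
    ∃ r : F[X], x = aeval ψ r y := by
  set Ψ : (k ⊗[F] V) →ₗ[k] (k ⊗[F] V) := ψ.baseChange k with hΨ
  obtain ⟨H, hH⟩ : (X - C μ) ∣ g.map (algebraMap F k) := by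
    rw [dvd_iff_isRoot, IsRoot, eval_map_algebraMap]; exact hμ
  have hbase : ∀ (f : F[X]) (z : V), aeval Ψ (f.map (algebraMap F k)) ((1 : k) ⊗ₜ[F] z) =
      (1 : k) ⊗ₜ[F] (aeval ψ f z) := by
    intro f z
    have h1 : aeval Ψ (f.map (algebraMap F k)) = (aeval ψ f).baseChange k := by
      rw [aeval_map_algebraMap]
      exact aeval_algHom_apply (Module.End.baseChangeHom F k V) ψ f
    rw [h1, LinearMap.baseChange_tmul]
  have hg0 : g.map (algebraMap F k) ≠ 0 :=
    (Polynomial.map_ne_zero_iff (algebraMap F k).injective).mpr hg.ne_zero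
  have hH0 : H ≠ 0 := by
    rintro rfl
    exact hg0 (by rw [hH, mul_zero])
  have hHdeg : H.natDegree < g.natDegree := by
    have h1 := congrArg natDegree hH
    rw [natDegree_map, natDegree_mul (X_sub_C_ne_zero μ) hH0, natDegree_X_sub_C] at h1
    omega
  -- `E z = H(Ψ)(1 ⊗ z)` is an eigenvector
  have hE : ∀ z : V, aeval ψ g z = 0 → Ψ (aeval Ψ H ((1 : k) ⊗ₜ[F] z)) =
      μ • aeval Ψ H ((1 : k) ⊗ₜ[F] z) := by
    intro z hz
    have h1 := hbase g z
    rw [hz, tmul_zero, hH, map_mul, Module.End.mul_apply, map_sub, aeval_X, aeval_C,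
      LinearMap.sub_apply, sub_eq_zero, Module.algebraMap_end_apply] at h1
    exact h1
  have hpoly : ∀ (f : k[X]) (w : k ⊗[F] V), Ψ w = μ • w → aeval Ψ f w = f.eval μ • w := by
    intro f w hw
    induction f using Polynomial.induction_on' with
    | add a b ha hb => rw [map_add, LinearMap.add_apply, ha, hb, eval_add, add_smul]
    | monomial n a =>
      have h1 : ∀ n : ℕ, (Ψ ^ n) w = μ ^ n • w := by
        intro n
        induction n with
        | zero => simp
        | succ n ih => rw [pow_succ', Module.End.mul_apply, ih, map_smul, hw, smul_smul, pow_succ]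
      rw [aeval_monomial, Module.End.mul_apply, h1, Module.algebraMap_end_apply, eval_monomial,
        smul_smul]
  have hEr : ∀ (r : F[X]) (z : V), aeval ψ g z = 0 → aeval Ψ H ((1 : k) ⊗ₜ[F] (aeval ψ r z)) =
      aeval μ r • aeval Ψ H ((1 : k) ⊗ₜ[F] z) := by
    intro r z hz
    rw [← hbase, ← Module.End.mul_apply, ← map_mul, mul_comm, map_mul, Module.End.mul_apply,
      hpoly _ _ (hE z hz), eval_map_algebraMap]
  have hinj : ∀ z : V, aeval ψ g z = 0 → aeval Ψ H ((1 : k) ⊗ₜ[F] z) = 0 → z = 0 := by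
    intro z hz h0
    by_contra hz0
    have hli := Module.Flat.linearIndependent_one_tmul (S := k) (linInd ψ hg hz hz0)
    rw [Fintype.linearIndependent_iff] at hli
    rw [aeval_eq_sum_range' hHdeg, LinearMap.sum_apply, Finset.sum_range] at h0
    have h1 : ∀ i : Fin g.natDegree, H.coeff i = 0 := by
      refine hli (fun i => H.coeff i) ?_
      rw [← h0]
      refine Finset.sum_congr rfl fun i _ => ?_
      rw [LinearMap.smul_apply, hΨ, ← LinearMap.baseChange_pow, LinearMap.baseChange_tmul]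
    apply hH0
    ext i
    rw [coeff_zero]
    by_cases hi : i < g.natDegree
    · exact h1 ⟨i, hi⟩
    · exact coeff_eq_zero_of_natDegree_lt (by omega)
  have hmem : ∀ z : V, aeval ψ g z = 0 →
      aeval Ψ H ((1 : k) ⊗ₜ[F] z) ∈ Module.End.eigenspace Ψ μ := by
    intro z hz
    rw [Module.End.mem_eigenspace_iff]
    exact hE z hz
  obtain ⟨v, hv⟩ := finrank_le_one_iff.mp hdim
  obtain ⟨a, ha⟩ := hv ⟨_, hmem x hx⟩
  obtain ⟨b, hb⟩ := hv ⟨_, hmem y hy⟩
  have ha' : a • (v : k ⊗[F] V) = aeval Ψ H ((1 : k) ⊗ₜ[F] x) := congrArg Subtype.val ha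
  have hb' : b • (v : k ⊗[F] V) = aeval Ψ H ((1 : k) ⊗ₜ[F] y) := congrArg Subtype.val hb
  have hb0 : b ≠ 0 := by
    rintro rfl
    rw [zero_smul] at hb'
    exact hy0 (hinj y hy hb'.symm)
  obtain ⟨r, hr⟩ := hsurj (a * b⁻¹)
  refine ⟨r, ?_⟩
  rw [← sub_eq_zero]
  have hry : aeval ψ g (aeval ψ r y) = 0 := by
    rw [← Module.End.mul_apply, ← map_mul, mul_comm, map_mul, Module.End.mul_apply, hy, map_zero]
  refine hinj _ ?_ ?_
  · rw [map_sub, hx, hry, sub_zero]
  · rw [tmul_sub, map_sub, hEr r y hy, hr, ← ha', ← hb', smul_smul, mul_assoc, inv_mul_cancel₀ hb0,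
      mul_one, sub_self]

end algebra

section units

variable {p q : ℕ} [hp : Fact p.Prime] [hq : Fact q.Prime] {K : Type} [Field K] [NumberField K]
  [hK : IsCyclotomicExtension {p} ℚ K]

theorem pw_add (n n' : (ZMod p)ˣ → ℤ) {z : K} (hz : z ≠ 0) :
    pw p K (n + n') z = pw p K n z * pw p K n' z := by
  unfold pw
  rw [← Finset.prod_mul_distrib]
  refine Finset.prod_congr rfl fun a _ => ?_
  rw [Pi.add_apply, zpow_add₀]
  exact (map_ne_zero_iff _ (sg p K a).injective).mpr hz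

theorem pw_zero (z : K) : pw p K 0 z = 1 := by
  unfold pw
  simp

theorem pw_sum {ι : Type*} (t : Finset ι) (n : ι → (ZMod p)ˣ → ℤ) {z : K} (hz : z ≠ 0) :
    pw p K (∑ i ∈ t, n i) z = ∏ i ∈ t, pw p K (n i) z := by
  classical
  induction t using Finset.induction_on with
  | empty => rw [Finset.sum_empty, Finset.prod_empty, pw_zero]
  | insert a t ha ih => rw [Finset.sum_insert ha, Finset.prod_insert ha, pw_add _ _ hz, ih]

theorem pw_single (a : (ZMod p)ˣ) (m : ℤ) (z : K) :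
    pw p K (Pi.single a m) z = (sg p K a z) ^ m := by
  unfold pw
  rw [Finset.prod_eq_single a]
  · rw [Pi.single_eq_same]
  · intro b _ hb
    rw [Pi.single_eq_of_ne hb, zpow_zero]
  · intro h
    exact absurd (Finset.mem_univ a) h

theorem sg_pow (s : (ZMod p)ˣ) (i : ℕ) : sg p K (s ^ i) = (sg p K s) ^ i := by
  unfold sg
  rw [map_pow]

/-- the action of `P(s)` on units -/
noncomputable def actU (P : ℤ[X]) (σ : K ≃ₐ[ℚ] K) (u : (𝓞 K)ˣ) : (𝓞 K)ˣ :=
  ∏ i ∈ P.support, ((act σ)^[i] u) ^ (P.coeff i)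

theorem coe_actU (P : ℤ[X]) (s : (ZMod p)ˣ) (u : (𝓞 K)ˣ) :
    ((actU P (sg p K s) u : 𝓞 K) : K) = pw p K (plEl p s P) ((u : 𝓞 K) : K) := by
  have hu : ((u : 𝓞 K) : K) ≠ 0 := Units.coe_ne_zero u
  unfold plEl
  rw [pw_sum _ _ hu]
  have h1 : ((actU P (sg p K s) u : 𝓞 K) : K) = ((algebraMap (𝓞 K) K : 𝓞 K →* K).comp
    (Units.coeHom (𝓞 K))) (actU P (sg p K s) u) := rfl
  rw [h1, actU, map_prod]
  refine Finset.prod_congr rfl fun i _ => ?_
  rw [pw_single, sg_pow, ← coe_act_pow]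
  exact NumberField.Units.coe_zpow _ _

theorem cls_prod {ι : Type*} (t : Finset ι) (f : ι → (𝓞 K)ˣ) :
    cls (∏ i ∈ t, f i) = ∑ i ∈ t, cls (f i) := by
  classical
  induction t using Finset.induction_on with
  | empty => rw [Finset.sum_empty, Finset.prod_empty, cls_one]
  | insert a t ha ih => rw [Finset.sum_insert ha, Finset.prod_insert ha, cls_mul, ih]

theorem cls_actU (P : ℤ[X]) (σ : K ≃ₐ[ℚ] K) (u : (𝓞 K)ˣ) :
    cls (actU P σ u) = aeval (actLat σ) P (cls u) := by
  rw [actU, cls_prod, aeval_eq_sum_range, LinearMap.sum_apply]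
  refine Finset.sum_subset_zero_on_sdiff ?_ ?_ ?_
  · intro i hi
    rw [Finset.mem_range]
    exact Nat.lt_succ_of_le (le_natDegree_of_mem_supp i hi)
  · intro i hi
    rw [Finset.mem_sdiff, Polynomial.notMem_support_iff] at hi
    rw [hi.2, zero_smul, LinearMap.zero_apply]
  · intro i _
    rw [cls_zpow, LinearMap.smul_apply, actLat_pow_cls]

theorem exists_unit_of_pow (η : (𝓞 K)ˣ) {w : K} {q : ℕ} (hq : 0 < q)
    (h : ((η : 𝓞 K) : K) = w ^ q) : ∃ δ : (𝓞 K)ˣ, η = δ ^ q := by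
  have hw0 : w ≠ 0 := by
    rintro rfl
    rw [zero_pow hq.ne'] at h
    exact Units.coe_ne_zero η h
  have hi : IsIntegral ℤ w := by
    refine IsIntegral.of_pow hq ?_
    rw [← h]
    exact RingOfIntegers.isIntegral_coe _
  have hi' : IsIntegral ℤ w⁻¹ := by
    refine IsIntegral.of_pow hq ?_
    rw [inv_pow, ← h]
    have h1 : ((η : 𝓞 K) : K)⁻¹ = ((η⁻¹ : (𝓞 K)ˣ) : K) := (coe_inv_unit η).symm
    rw [h1]
    exact RingOfIntegers.isIntegral_coe _
  refine ⟨⟨⟨w, hi⟩, ⟨w⁻¹, hi'⟩, ?_, ?_⟩, ?_⟩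
  · ext; exact mul_inv_cancel₀ hw0
  · ext; exact inv_mul_cancel₀ hw0
  · apply Units.ext
    ext
    rw [h]
    rfl

theorem torsion_pow (h3 : 3 ≤ p) {τ : (𝓞 K)ˣ} (hτ : τ ∈ Units.torsion K) : τ ^ (2 * p) = 1 := by
  have hζ := IsCyclotomicExtension.zeta_spec p ℚ K
  have hz : (zetaU hζ) ^ p = 1 := by
    apply Units.ext
    rw [Units.val_pow_eq_pow_val]
    exact hζ.toInteger_isPrimitiveRoot.pow_eq_one
  obtain ⟨r, -, h | h⟩ := torsion_cases hζ h3 hτ
  · rw [h, ← pow_mul, show r * (2 * p) = p * (2 * r) by ring, pow_mul, hz, one_pow]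
  · rw [h, mul_pow, ← pow_mul, show r * (2 * p) = p * (2 * r) by ring, pow_mul (zetaU hζ), hz,
      one_pow, pow_mul, mul_one]
    simp

theorem exists_pow_of_tmul_eq_zero (h3 : 3 ≤ p) (hq2 : q ≠ 2) (hpq : p ≠ q) (η : (𝓞 K)ˣ)
    (h : (1 : ZMod q) ⊗ₜ[ℤ] cls η = 0) : ∃ δ : (𝓞 K)ˣ, η = δ ^ q := by
  obtain ⟨y, hy⟩ := exists_eq_smul_of_tmul_eq_zero (p := q) (cls η) h
  obtain ⟨δ, rfl⟩ := cls_surjective y
  have hτ : η * (δ ^ q)⁻¹ ∈ Units.torsion K := by
    rw [← cls_eq_zero_iff, cls_mul, hy]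
    have : cls (δ ^ q)⁻¹ = -((q : ℤ) • cls δ) := by
      rw [← cls_zpow, zpow_natCast]; rfl
    rw [this, add_neg_cancel]
  have h2 := torsion_pow h3 hτ
  have hcop : Nat.Coprime (2 * p) q := by
    refine Nat.Coprime.mul_left ?_ ?_
    · exact (Nat.coprime_primes Nat.prime_two hq.out).mpr (Ne.symm hq2)
    · exact (Nat.coprime_primes hp.out hq.out).mpr hpq
  obtain ⟨a, b, hab⟩ := (Nat.isCoprime_iff_coprime.mpr hcop)
  refine ⟨(η * (δ ^ q)⁻¹) ^ b * δ, ?_⟩
  have h4 : ((η * (δ ^ q)⁻¹) ^ b) ^ q = η * (δ ^ q)⁻¹ := by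
    have h5 : (b * (q : ℤ)) = 1 - a * ((2 * p : ℕ) : ℤ) := by linear_combination hab
    rw [← zpow_natCast, ← zpow_mul, h5, zpow_sub, zpow_one, mul_comm a, zpow_mul, zpow_natCast, h2,
      one_zpow, inv_one, mul_one]
  rw [mul_pow, h4, inv_mul_cancel_right]

theorem tmul_cls_pow (δ : (𝓞 K)ˣ) : (1 : ZMod q) ⊗ₜ[ℤ] cls (δ ^ q) = 0 := by
  rw [cls_pow, TensorProduct.tmul_smul, ← Nat.cast_smul_eq_nsmul (ZMod q), CharP.cast_eq_zero,
    zero_smul]

theorem aeval_tmul (σ : K ≃ₐ[ℚ] K) (P : ℤ[X]) (u : (𝓞 K)ˣ) :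
    aeval ((actLat σ).baseChange (ZMod q)) (P.map (Int.castRingHom (ZMod q)))
      ((1 : ZMod q) ⊗ₜ[ℤ] cls u) = (1 : ZMod q) ⊗ₜ[ℤ] cls (actU P σ u) := by
  have h1 : aeval ((actLat σ).baseChange (ZMod q)) (P.map (Int.castRingHom (ZMod q))) =
      (aeval (actLat σ) P).baseChange (ZMod q) := by
    rw [← algebraMap_int_eq, aeval_map_algebraMap]
    exact aeval_algHom_apply (Module.End.baseChangeHom ℤ (ZMod q) (UnitLat K)) (actLat σ) P
  rw [h1, LinearMap.baseChange_tmul, cls_actU]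

end units

end Fermat.Agent.Cor.Catalan.UnitMod

namespace Fermat.Agent.Cor.Catalan

open Polynomial Module NumberField TensorProduct Fermat.Agent.S14units UnitMod

theorem unitStmt : UnitStmt := by
  intro p q hp hq hp2 hq2 hpq hqp K _ _ hK s hs g hg hgd u v hu hv hvn
  have h3 : 3 ≤ p := by
    have := hp.out.two_le
    omega
  have hodd := hp.out.odd_of_ne_two hp2
  have : IsGalois ℚ K := IsCyclotomicExtension.isGalois {p} ℚ K
  have : IsTotallyComplex K := IsCyclotomicExtension.Rat.isTotallyComplex K (n := p) (by omega)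
  set σ := sg p K s with hσdef
  have hσ : ∀ τ : K ≃ₐ[ℚ] K, τ ∈ Subgroup.zpowers σ := by
    intro τ
    obtain ⟨j, hj⟩ := Subgroup.mem_zpowers_iff.mp (hs (JacobiSumStickelberger.cycloGalEquiv p K τ))
    rw [Subgroup.mem_zpowers_iff]
    refine ⟨j, ?_⟩
    rw [hσdef, sg, ← map_zpow, hj, MulEquiv.symm_apply_apply]
  obtain ⟨n, hn⟩ : ∃ n, (p - 1) / 2 = n + 1 := ⟨(p - 1) / 2 - 1, by omega⟩
  have hn0 : 0 < n := by
    rcases Nat.eq_zero_or_pos n with h | h
    · exfalso
      rw [hn, h] at hgd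
      simp only [zero_add, Finset.sum_range_one, pow_zero] at hgd
      exact hg.not_isUnit (isUnit_of_dvd_one hgd)
    · exact h
  have hcard : Fintype.card (InfinitePlace K) = n + 1 := by
    rw [card_places p h3 K]; omega
  have hrank : finrank ℤ (UnitLat K) = n := by
    rw [Units.finrank_modTorsion, Units.rank, hcard]; rfl
  obtain ⟨um, hum⟩ := exists_minkowski σ hσ n hcard
  have hchar := charpoly_eq_geom (actLat σ) n hn0 hrank (sum_actLat_pow σ hσ (n + 1) hcard) um hum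
  have : Fact (Irreducible g) := ⟨hg⟩
  have hF : ((n + 1 : ℕ) : AdjoinRoot g) ≠ 0 := by
    intro h
    rw [← map_natCast (algebraMap (ZMod q) (AdjoinRoot g)),
      map_eq_zero_iff _ (algebraMap (ZMod q) (AdjoinRoot g)).injective,
      ZMod.natCast_eq_zero_iff] at h
    apply hqp
    obtain ⟨c, hc⟩ := h
    obtain ⟨d, hd⟩ := hodd
    exact ⟨2 * c, by rw [mul_left_comm, ← hc]; omega⟩
  have hdim : finrank (AdjoinRoot g) (Module.End.eigenspace
      (((actLat σ).baseChange (ZMod q)).baseChange (AdjoinRoot g)) (AdjoinRoot.root g)) ≤ 1 := by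
    refine (LinearMap.finrank_eigenspace_le _ _).trans ?_
    rw [LinearMap.charpoly_baseChange, LinearMap.charpoly_baseChange, hchar]
    have : ((∑ i ∈ Finset.range (n + 1), (X : ℤ[X]) ^ i).map (algebraMap ℤ (ZMod q))).map
        (algebraMap (ZMod q) (AdjoinRoot g)) = ∑ i ∈ Finset.range (n + 1), X ^ i := by
      simp [Polynomial.map_sum]
    rw [this]
    exact rootMultiplicity_geom_le_one n hF _
  have hker : ∀ u : (𝓞 K)ˣ, (∀ P : ℤ[X], P.map (Int.castRingHom (ZMod q)) = g →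
      ∃ w : K, pw p K (plEl p s P) ((u : 𝓞 K) : K) = w ^ q) →
      aeval ((actLat σ).baseChange (ZMod q)) g ((1 : ZMod q) ⊗ₜ[ℤ] cls u) = 0 := by
    intro u hu
    obtain ⟨P, hP⟩ := Polynomial.map_surjective (Int.castRingHom (ZMod q))
      (ZMod.ringHom_surjective _) g
    obtain ⟨w, hw⟩ := hu P hP
    rw [← coe_actU] at hw
    obtain ⟨δ, hδ⟩ := exists_unit_of_pow _ hq.out.pos hw
    rw [← hP, aeval_tmul, hσdef, hδ, tmul_cls_pow]
  have hv0 : (1 : ZMod q) ⊗ₜ[ℤ] cls v ≠ 0 := by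
    intro h
    obtain ⟨δ, rfl⟩ := exists_pow_of_tmul_eq_zero h3 hq2 hpq v h
    exact hvn ((δ : 𝓞 K) : K) rfl
  obtain ⟨r, hr⟩ := exists_aeval_eq ((actLat σ).baseChange (ZMod q)) hg (AdjoinRoot.root g)
    (by rw [AdjoinRoot.aeval_eq, AdjoinRoot.mk_self])
    (fun c => by
      obtain ⟨r, rfl⟩ := AdjoinRoot.mk_surjective c
      exact ⟨r, AdjoinRoot.aeval_eq r⟩) hdim (hker u hu) (hker v hv) hv0
  obtain ⟨R, hR⟩ := Polynomial.map_surjective (Int.castRingHom (ZMod q))
    (ZMod.ringHom_surjective _) r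
  rw [← hR, aeval_tmul, ← sub_eq_zero, ← TensorProduct.tmul_sub] at hr
  have h5 : cls u - cls (actU R σ v) = cls (u * (actU R σ v)⁻¹) := by
    rw [sub_eq_add_neg, cls_mul]
    rfl
  rw [h5] at hr
  obtain ⟨δ, hδ⟩ := exists_pow_of_tmul_eq_zero h3 hq2 hpq _ hr
  refine ⟨R, ((δ : 𝓞 K) : K), ?_⟩
  rw [← coe_actU, ← hσdef]
  have h6 : u = actU R σ v * δ ^ q := by
    rw [← hδ, mul_comm, inv_mul_cancel_right]
  conv_lhs => rw [h6]
  rfl

end Fermat.Agent.Cor.Catalan
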