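import Fermat.Agent.Corollaries.Catalan.PlusDefs
import Fermat.Agent.Corollaries.Catalan.Unit

/-!
# Catalan's equation: class group and units

With the structure of the units modulo `q`-th powers (`UnitStmt`), the unit in `ClassStmt` is a
power of `(1 - ζ) ^ h`.
-/

set_option autoImplicit false
set_option maxSynthPendingDepth 3

namespace Fermat.Agent.Cor.Catalan

open NumberField Polynomial

namespace Step

variable {p : ℕ} [Fact p.Prime] {K : Type} [Field K] [NumberField K]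
  [IsCyclotomicExtension {p} ℚ K]

theorem pw_X_sub_one (s : (ZMod p)ˣ) {z : K} (hz : z ≠ 0) :
    pw p K (plEl p s (X - 1)) z = sg p K s z / z := by
  rw [plEl_sub, pw_sub _ _ hz, pw_plEl_one, ← monomial_one_one_eq_X, plEl_monomial, pw_single,
    pow_one, zpow_one]

/-- `σ_s (1 - ζ) / (1 - ζ)` is a unit -/
theorem exists_unit {ζ : 𝓞 K} (hζ : IsPrimitiveRoot ζ p) (s : (ZMod p)ˣ) :
    ∃ η : (𝓞 K)ˣ, ((η : 𝓞 K) : K) = sg p K s (1 - (ζ : K)) / (1 - (ζ : K)) := by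
  have hp : p.Prime := Fact.out
  have hζK : IsPrimitiveRoot (ζ : K) p := hζ.map_of_injective (RingOfIntegers.coe_injective)
  have hcop : Nat.Coprime ((s : ZMod p).val) p := ZMod.val_coe_unit_coprime s
  have h1 : Associated (1 - ζ) (1 - ζ ^ (s : ZMod p).val) := by
    have h2 := hζ.associated_sub_one_pow_sub_one_of_coprime hcop
    have h3 : (1 - ζ) = -(ζ - 1) := by ring
    have h4 : (1 - ζ ^ (s : ZMod p).val) = -(ζ ^ (s : ZMod p).val - 1) := by ring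
    rw [h3, h4]
    exact h2.neg_left.neg_right
  obtain ⟨η, hη⟩ := h1
  refine ⟨η, ?_⟩
  have h5 : (1 : K) - (ζ : K) ≠ 0 := by
    rw [sub_ne_zero]
    exact (hζK.ne_one hp.one_lt).symm
  rw [map_sub, map_one, sg_apply hζK, eq_div_iff h5]
  have h6 := congrArg (fun z : 𝓞 K => (z : K)) hη
  push_cast at h6
  rw [mul_comm]
  exact h6

/-- `(1 - ζ) ^ h` is a unit times a `q`-th power if `q ∣ h(1)` -/
theorem exists_unit_mul {q : ℕ} {ζ : 𝓞 K} (hζ : IsPrimitiveRoot ζ p) (s : (ZMod p)ˣ) {h : ℤ[X]}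
    (hq : (q : ℤ) ∣ h.eval 1) : ∃ (v : (𝓞 K)ˣ) (w : K), w ≠ 0 ∧
      pw p K (plEl p s h) (1 - (ζ : K)) = ((v : 𝓞 K) : K) * w ^ q := by
  have hp : p.Prime := Fact.out
  have hζK : IsPrimitiveRoot (ζ : K) p := hζ.map_of_injective (RingOfIntegers.coe_injective)
  have h5 : (1 : K) - (ζ : K) ≠ 0 := by
    rw [sub_ne_zero]
    exact (hζK.ne_one hp.one_lt).symm
  obtain ⟨c, hc⟩ := hq
  obtain ⟨k, hk⟩ : (X - C 1) ∣ h - C (h.eval 1) := by
    rw [dvd_iff_isRoot, IsRoot, eval_sub, eval_C, sub_self]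
  obtain ⟨η, hη⟩ := exists_unit (K := K) hζ s
  refine ⟨UnitMod.actU k (sg p K s) η, (1 - (ζ : K)) ^ c, zpow_ne_zero _ h5, ?_⟩
  have h6 : h = k * (X - 1) + C (h.eval 1) * 1 := by
    rw [mul_one, ← sub_eq_iff_eq_add, hk, C_1, mul_comm]
  rw [UnitMod.coe_actU, hη]
  conv_lhs => rw [h6]
  rw [pw_plEl_add _ _ _ h5, pw_plEl_mul _ _ _ h5, pw_X_sub_one _ h5, plEl_C_mul, pw_smul,
    pw_plEl_one, hc, mul_comm (q : ℤ) c, zpow_mul, zpow_natCast]

end Step

open Step in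
theorem stepStmt_of (hC : ClassStmt) (hU : UnitStmt) : StepStmt := by
  intro p q x y hsol hqp hqd hp hq K _ _ _ ζ hζ s hs g hg hgd h hh hne
  obtain ⟨u, w0, hw0, hu⟩ := hC p q x y hsol hqp hqd K ζ hζ s hs g hg hgd h hh hne
  have hζK : IsPrimitiveRoot (ζ : K) p := hζ.map_of_injective (RingOfIntegers.coe_injective)
  have h1ζ : (1 : K) - (ζ : K) ≠ 0 := by
    rw [sub_ne_zero]
    exact (hζK.ne_one hp.out.one_lt).symm
  have hxζ : (x : K) - (ζ : K) ≠ 0 := by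
    intro h0
    rw [sub_eq_zero] at h0
    have h1 : (x : K) ^ p = 1 := by rw [h0, hζK.pow_eq_one]
    have h2 : x ^ p = 1 := by exact_mod_cast h1
    have h3 : y ^ q = 0 := by linarith [hsol.eq]
    exact hsol.hy (pow_eq_zero_iff hq.out.ne_zero |>.mp h3)
  -- `q ∣ h(1)`
  have hev : (q : ℤ) ∣ h.eval 1 := by
    have h1 := congrArg (fun f => f.eval (1 : ZMod q)) hh
    simp only [eval_mul, eval_sub, eval_pow, eval_X, one_pow, eval_one, sub_self, mul_eq_zero]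
      at h1
    rcases h1 with h1 | h1
    · rw [← ZMod.intCast_zmod_eq_zero_iff_dvd, ← h1, ← Int.cast_one (R := ZMod q),
        eval_intCast_map]
      rfl
    · exfalso
      obtain ⟨f, hf⟩ := hgd
      have h2 := congrArg (fun f => f.eval (1 : ZMod q)) hf
      simp only [eval_finsetSum, eval_pow, eval_X, one_pow, Finset.sum_const, Finset.card_range,
        nsmul_eq_mul, mul_one, eval_mul, h1, zero_mul] at h2
      rw [ZMod.natCast_eq_zero_iff] at h2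
      have hodd := hp.out.odd_of_ne_two hsol.hp2
      apply hqd
      obtain ⟨c, hc⟩ := h2
      obtain ⟨d, hd⟩ := hodd
      exact ⟨2 * c, by rw [mul_left_comm, ← hc]; omega⟩
  obtain ⟨v, w1, hw1, hv⟩ := exists_unit_mul (K := K) hζ s hev
  have hv0 : ((v : 𝓞 K) : K) ≠ 0 := Units.coe_ne_zero v
  have hu0 : ((u : 𝓞 K) : K) ≠ 0 := Units.coe_ne_zero u
  have hvu : (((v * u : (𝓞 K)ˣ) : 𝓞 K) : K) = ((v : 𝓞 K) : K) * ((u : 𝓞 K) : K) := by
    rw [Units.val_mul]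
    rfl
  have hxh : pw p K (plEl p s h) ((x : K) - ζ) =
      (((v * u : (𝓞 K)ˣ) : 𝓞 K) : K) * (w1 * w0) ^ q := by
    rw [hu, hv, hvu]
    ring
  -- the products `P h` act by `q`-th powers
  have hPh : ∀ P : ℤ[X], P.map (Int.castRingHom (ZMod q)) = g → ∀ z : K,
      ∃ w : K, pw p K (plEl p s (P * h)) z = w ^ q := by
    intro P hP z
    refine exists_pw_eq_pow (dvd_plEl s ?_) z
    rw [Polynomial.map_mul, hP, mul_comm, hh]
  have key : ∀ (t : (𝓞 K)ˣ) (z w : K), z ≠ 0 → w ≠ 0 →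
      pw p K (plEl p s h) z = ((t : 𝓞 K) : K) * w ^ q →
      ∀ P : ℤ[X], P.map (Int.castRingHom (ZMod q)) = g →
        ∃ w : K, pw p K (plEl p s P) ((t : 𝓞 K) : K) = w ^ q := by
    intro t z w hz hw ht P hP
    obtain ⟨w', hw'⟩ := hPh P hP z
    rw [pw_plEl_mul _ _ _ hz, ht, pw_mul, pw_pow] at hw'
    refine ⟨w' / pw p K (plEl p s P) w, ?_⟩
    rw [div_pow, ← hw', mul_div_assoc, div_self (pow_ne_zero _ (pw_ne_zero _ hw)), mul_one]
  have hvn : ∀ w : K, ((v : 𝓞 K) : K) ≠ w ^ q := by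
    intro w hw
    apply hne (w * w1)
    rw [hv, hw, mul_pow]
  obtain ⟨r, w2, hr⟩ := hU p q hsol.hp2 hsol.hq2 (by omega) hqd K s hs g hg hgd (v * u) v
    (key _ _ _ hxζ (mul_ne_zero hw1 hw0) hxh) (key _ _ _ h1ζ hw1 hv) hvn
  have hw2 : w2 ≠ 0 := by
    rintro rfl
    rw [zero_pow hq.out.ne_zero, mul_zero] at hr
    exact (Units.coe_ne_zero (v * u)) hr
  have hpr : pw p K (plEl p s r) w1 ≠ 0 := pw_ne_zero _ hw1
  refine ⟨r, w2 * w1 * w0 / pw p K (plEl p s r) w1, div_ne_zero (mul_ne_zero (mul_ne_zero hw2 hw1)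
    hw0) hpr, ?_⟩
  rw [hxh, hr, pw_plEl_mul _ _ _ h1ζ, hv, pw_mul, pw_pow, div_pow, mul_div_assoc', eq_div_iff
    (pow_ne_zero _ hpr)]
  ring

end Fermat.Agent.Cor.Catalan
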