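import Fermat.Agent.Corollaries.Catalan.Thaine
import Fermat.Agent.Corollaries.Catalan.AuxPrime

/-!
# Thaine's theorem modulo `q`, unconditional

`Thaine` (Thaine's relation and Nakayama) and `AuxPrime` (the auxiliary primes) together.
-/

set_option autoImplicit false

namespace Fermat.Agent.Cor.Catalan

theorem auxStmt : AuxStmt := fun p q _ _ hq2 hpq K _ _ _ H hH hHq v hv0 hv => by
  obtain ⟨ℓ, P, h1, -, h2, h3, h4, -, h5⟩ := exists_thaine_prime hq2 hpq H hH hHq hv0 hv 0
  exact ⟨ℓ, P, h1, h2, h3, h4, h5⟩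

/-- **Thaine's theorem** modulo `q`. -/
theorem thaineStmt : ThaineStmt := thaineStmt_of auxStmt

end Fermat.Agent.Cor.Catalan
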