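import Fermat.Agent.Corollaries.Catalan.Defs
import Fermat.Agent.Corollaries.Cat.Rel
import Fermat.Agent.Corollaries.Cat.Approx

/-!
# Catalan's equation: Cassels' theorem, Cassels' relations, Hyyrö's bound

`casselsStmt`, `relStmt`, `boundStmt`.
-/

set_option autoImplicit false

open Finset

namespace Fermat.Agent.Cor.Catalan

theorem Sol.easy {p q : ℕ} {x y : ℤ} (h : Sol p q x y) (hlt : p < q) : (p : ℤ) ∣ y :=
  Cat.dvd_of_lt h.hp h.hp2 h.hq h.hq2 h.hx h.hy h.eq hlt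

/-- the hard half of Cassels' theorem -/
theorem Sol.hard {p q : ℕ} {x y : ℤ} (h : Sol p q x y) (hlt : q < p) : (p : ℤ) ∣ y := by
  by_contra hpy
  obtain ⟨a, ha⟩ := Cat.relations' h.hp h.hq h.hq2 h.eq hpy
  have hqx : (q : ℤ) ∣ x := by
    have := h.symm.easy hlt
    simpa using this
  have h1 := Cat.le_abs h.hp h.hp2 h.hq h.hq2 h.hx h.eq hlt hqx
  have hq2 : (2 : ℤ) ≤ q := by exact_mod_cast h.hq.two_le
  have h2 : (q : ℤ) ^ (p - 1) ≤ |a| ^ q := by
    rw [← abs_pow, ← ha]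
    have h3 : |x| - |1| ≤ |x - 1| := abs_sub_abs_le_abs_sub x 1
    rw [abs_one] at h3
    linarith
  refine Cat.ne_one_of_le h.hp h.hq h.hq2 hlt h2 (y := y) ?_
  have h3 : 1 + a ^ q = x := by
    rw [← ha]
    ring
  rw [h3]
  exact h.eq

theorem Sol.ne {p q : ℕ} {x y : ℤ} (h : Sol p q x y) : p ≠ q := by
  rintro rfl
  have hodd : Odd p := h.hp.odd_of_ne_two h.hp2
  have hx := h.hx
  have hy := h.hy
  have heq := h.eq
  have hlt : y < x := by
    have : y ^ p < x ^ p := by linarith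
    exact hodd.strictMono_pow.lt_iff_lt.mp this
  have hdvd : x - y ∣ 1 := by
    rw [← heq]
    exact sub_dvd_pow_sub_pow x y p
  have h1 : x - y = 1 := Int.eq_one_of_dvd_one (by linarith) hdvd
  have h2 : x = y + 1 := by linarith
  subst h2
  rcases le_or_gt 1 y with h3 | h3
  · have := Cat.pow_add_one_lt h3 h.hp.two_le
    linarith
  · have h4 : 1 ≤ -(y + 1) := by
      by_contra hcon
      have : y = -1 ∨ y = 0 := by omega
      rcases this with h5 | h5
      · exact hx (by rw [h5]; norm_num)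
      · exact hy h5
    have h5 := Cat.pow_add_one_lt h4 h.hp.two_le
    have h6 : -(y + 1) + 1 = -y := by ring
    rw [h6, hodd.neg_pow, hodd.neg_pow] at h5
    linarith

/-- **Cassels' theorem** -/
theorem Sol.dvd_right {p q : ℕ} {x y : ℤ} (h : Sol p q x y) : (p : ℤ) ∣ y := by
  rcases lt_or_gt_of_ne h.ne with h1 | h1
  · exact h.easy h1
  · exact h.hard h1

theorem Sol.dvd_left {p q : ℕ} {x y : ℤ} (h : Sol p q x y) : (q : ℤ) ∣ x := by
  have := h.symm.dvd_right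
  simpa using this

/-- (C3) **Cassels' theorem** -/
theorem casselsStmt : CasselsStmt := fun _ _ _ _ h => h.dvd_left

theorem geom_sum_ne {p : ℕ} (hp3 : 3 ≤ p) {x : ℤ} (hx : x ≠ 1) (hd : (p : ℤ) ^ 2 ∣ x - 1) :
    ∑ i ∈ range p, x ^ i ≠ p := by
  intro h
  have h7 : (x - 1) * p = x ^ p - 1 := by rw [← h, mul_geom_sum]
  have hp0 : (3 : ℤ) ≤ p := by exact_mod_cast hp3
  have h8 : (p : ℤ) * p ≤ |x - 1| := by
    have h9 := Int.le_of_dvd (abs_pos.mpr (sub_ne_zero.mpr hx)) ((dvd_abs _ _).mpr hd)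
    rw [pow_two] at h9
    exact h9
  have h9 : |x - 1| ≤ |x| + 1 := by
    have := abs_sub x 1
    simpa using this
  have hZ8 : (8 : ℤ) ≤ |x| := by nlinarith
  have hZq : (p : ℤ) ≤ |x| := by nlinarith
  have h10 : |x| ^ 3 - 1 ≤ (|x| + 1) * p := by
    calc |x| ^ 3 - 1 ≤ |x| ^ p - 1 := by
          have := pow_le_pow_right₀ (show (1 : ℤ) ≤ |x| by linarith) hp3
          linarith
      _ = |x ^ p| - |1| := by rw [abs_pow, abs_one]
      _ ≤ |x ^ p - 1| := abs_sub_abs_le_abs_sub _ _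
      _ = |x - 1| * p := by
          rw [← h7, abs_mul, abs_of_pos (show (0 : ℤ) < p by linarith)]
      _ ≤ (|x| + 1) * p := mul_le_mul_of_nonneg_right h9 (by linarith)
  nlinarith [mul_nonneg (show (0 : ℤ) ≤ |x| + 1 by positivity) (sub_nonneg.mpr hZq)]

theorem three_le {p : ℕ} (hp : p.Prime) (hp2 : p ≠ 2) : 3 ≤ p := by
  have := hp.two_le
  omega

/-- **Cassels' relations** -/
theorem Sol.rel {p q : ℕ} {x y : ℤ} (h : Sol p q x y) :
    ∃ a u : ℤ, x - 1 = p ^ (q - 1) * a ^ q ∧ ∑ i ∈ range p, x ^ i = p * u ^ q ∧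
      y = p * a * u ∧ ¬ (p : ℤ) ∣ u ∧ 1 < u ∧ IsCoprime a u ∧ a ≠ 0 := by
  obtain ⟨a, u, h1, h2, h3, h4⟩ := Cat.relations h.hp h.hp2 h.hq h.hq2 h.eq h.dvd_right
  have hp3 := three_le h.hp h.hp2
  have hq3 := three_le h.hq h.hq2
  have hpZ : (3 : ℤ) ≤ p := by exact_mod_cast hp3
  have ha : a ≠ 0 := by
    rintro rfl
    apply h.hy
    rw [h3]
    ring
  have hpodd : Odd p := h.hp.odd_of_ne_two h.hp2
  have hqodd : Odd q := h.hq.odd_of_ne_two h.hq2
  have hu0 : 0 < u := by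
    have h5 : 0 < ∑ i ∈ range p, x ^ i := hpodd.geom_sum_pos
    rw [h2] at h5
    exact hqodd.pow_pos_iff.mp ((mul_pos_iff_of_pos_left (by linarith)).mp h5)
  have hq1 : q - 1 = (q - 2) + 1 := by omega
  refine ⟨a, u, h1, h2, h3, h4, ?_, ?_, ha⟩
  · by_contra hcon
    have hu1 : u = 1 := by omega
    rw [hu1, one_pow, mul_one] at h2
    refine geom_sum_ne hp3 ?_ ?_ h2
    · intro hx1
      rw [hx1, sub_self] at h1
      rcases mul_eq_zero.mp h1.symm with h5 | h5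
      · exact absurd (pow_eq_zero_iff (by omega) |>.mp h5) (by linarith)
      · exact ha (pow_eq_zero_iff (by omega) |>.mp h5)
    · rw [h1]
      exact (pow_dvd_pow _ (by omega)).mul_right _
  · obtain ⟨k, hk⟩ := Cat.exists_geom_sum_eq x p
    rw [h2, h1, hq1, pow_succ] at hk
    have h5 : u ^ q = 1 + (p : ℤ) ^ (q - 2) * a ^ q * k := by
      refine mul_left_cancel₀ (show (p : ℤ) ≠ 0 by linarith) ?_
      linear_combination hk
    have hq' : q = (q - 1) + 1 := by omega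
    refine ⟨-((p : ℤ) ^ (q - 2) * a ^ (q - 1) * k), u ^ (q - 1), ?_⟩
    have h6 : u ^ (q - 1) * u = u ^ q := by rw [← pow_succ, ← hq']
    have h7 : a ^ (q - 1) * a = a ^ q := by rw [← pow_succ, ← hq']
    linear_combination h6 + h5 - ((p : ℤ) ^ (q - 2) * k) * h7

/-- (C3) **Cassels' relations** -/
theorem relStmt : RelStmt := fun _ _ _ _ h => ⟨h.ne, h.rel⟩

/-- `v ≡ 1 mod q ^ (p - 1)` -/
theorem dvd_sub_one_of_pow {p q n : ℕ} (hp : p.Prime) (hq : q.Prime) (hlt : q < p) (hn : n ≠ 0)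
    {v : ℤ} (h : ((q ^ n : ℕ) : ℤ) ∣ v ^ p - 1) : ((q ^ n : ℕ) : ℤ) ∣ v - 1 := by
  set N : ℕ := q ^ n with hN
  have hN0 : N ≠ 0 := pow_ne_zero _ hq.ne_zero
  have : NeZero N := ⟨hN0⟩
  have h7 : (v : ZMod N) ^ p = 1 := by
    rw [← ZMod.intCast_zmod_eq_zero_iff_dvd] at h
    push_cast at h
    exact sub_eq_zero.mp h
  set u : (ZMod N)ˣ := Units.ofPowEqOne (v : ZMod N) p h7 hp.ne_zero with hu
  have hup : u ^ p = 1 := by
    ext
    rw [Units.val_pow_eq_pow_val, Units.val_one]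
    exact h7
  have ho1 : orderOf u ∣ p := orderOf_dvd_of_pow_eq_one hup
  have ho2 : orderOf u ∣ N.totient := by
    rw [← ZMod.card_units_eq_totient]
    exact orderOf_dvd_card
  have hq2 := hq.two_le
  have ho3 : orderOf u = 1 := by
    rcases (Nat.dvd_prime hp).mp ho1 with h8 | h8
    · exact h8
    · exfalso
      rw [h8, hN, Nat.totient_prime_pow hq (by omega)] at ho2
      rcases (Nat.Prime.dvd_mul hp).mp ho2 with h9 | h9
      · have := Nat.le_of_dvd hq.pos (hp.dvd_of_dvd_pow h9)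
        omega
      · have := Nat.le_of_dvd (by omega) h9
        omega
  have hu1 : u = 1 := orderOf_eq_one_iff.mp ho3
  have hv1 : (v : ZMod N) = ((1 : ℤ) : ZMod N) := by
    have h8 : (u : ZMod N) = 1 := by rw [hu1, Units.val_one]
    rw [Int.cast_one, ← h8]
    rfl
  rw [ZMod.intCast_eq_intCast_iff_dvd_sub] at hv1
  exact dvd_sub_comm.mp hv1

/-- `∑ Y^i ≤ (2 |D|)^(n-1)`, `Y = 1 + D` -/
theorem abs_geom_sum_le {D : ℤ} (hD : 2 ≤ |D|) (n : ℕ) :
    |∑ i ∈ range (n + 1), (1 + D) ^ i| ≤ (2 * |D|) ^ n := by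
  induction n with
  | zero => simp
  | succ n ih =>
    rw [geom_sum_succ]
    have h1 : |1 + D| ≤ 1 + |D| := by
      have := abs_add_le 1 D
      simpa using this
    have h2 : (1 : ℤ) ≤ (2 * |D|) ^ n := one_le_pow₀ (by linarith)
    calc |(1 + D) * ∑ i ∈ range (n + 1), (1 + D) ^ i + 1| ≤
        |(1 + D) * ∑ i ∈ range (n + 1), (1 + D) ^ i| + |1| := abs_add_le _ _
      _ = |1 + D| * |∑ i ∈ range (n + 1), (1 + D) ^ i| + 1 := by rw [abs_mul, abs_one]
      _ ≤ (1 + |D|) * (2 * |D|) ^ n + 1 := by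
          have := mul_le_mul h1 ih (abs_nonneg _) (by positivity)
          linarith
      _ ≤ (2 * |D|) ^ (n + 1) := by
          rw [pow_succ]
          nlinarith

/-- (C3) **Hyyrö's bound** -/
theorem boundStmt : BoundStmt := by
  intro p q x y h hlt
  obtain ⟨b, v, h1, h2, h3, h4, hv1, -, hb⟩ := h.symm.rel
  have hp3 := three_le h.hp h.hp2
  have hq3 := three_le h.hq h.hq2
  have hqZ : (3 : ℤ) ≤ q := by exact_mod_cast hq3
  have hq0 : (q : ℤ) ≠ 0 := by linarith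
  have hp1 : p - 1 = (p - 2) + 1 := by omega
  set Y : ℤ := -y with hY
  set D : ℤ := (q : ℤ) ^ (p - 1) * b ^ p with hD
  have hYD : Y = 1 + D := by linarith
  -- `v ≡ 1`
  have h5 : ((q ^ (p - 1) : ℕ) : ℤ) ∣ v - 1 := by
    refine dvd_sub_one_of_pow h.hp h.hq hlt (by omega) ?_
    have hqY : (q : ℤ) ∣ Y - 1 := by
      rw [h1, hD, hp1, pow_succ]
      exact Dvd.intro_left _ (by ring : (q : ℤ) ^ (p - 2) * b ^ p * q = _)
    obtain ⟨k, hk⟩ := Cat.exists_two_geom_sum_eq Y q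
    have h6 : ((q : ℤ) ^ (p - 1)) * q ∣ 2 * (∑ i ∈ range q, Y ^ i - q) := by
      have e1 : (q : ℤ) ^ (p - 1) * (q : ℤ) ^ (p - 1) = (q : ℤ) ^ (p - 1) * q * (q : ℤ) ^ (p - 2) := by
        rw [mul_assoc, ← pow_succ', ← hp1]
      refine ⟨b ^ p * (q - 1) + (q : ℤ) ^ (p - 2) * b ^ p * b ^ p * k, ?_⟩
      rw [mul_sub, hk, h1, hD]
      linear_combination (b ^ p * b ^ p * k) * e1
    have h7 : IsCoprime ((q : ℤ) ^ (p - 1) * q) 2 := by
      rw [← pow_succ]
      refine IsCoprime.pow_left ?_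
      have : Nat.Coprime q 2 := (Nat.coprime_primes h.hq Nat.prime_two).mpr h.hq2
      exact_mod_cast this.isCoprime
    obtain ⟨l, hl⟩ := h7.dvd_of_dvd_mul_left h6
    refine ⟨l, ?_⟩
    push_cast
    refine mul_left_cancel₀ hq0 ?_
    rw [h2] at hl
    linear_combination hl
  have hv2 : (q : ℤ) ^ (p - 1) ≤ v := by
    have := Int.le_of_dvd (by omega) h5
    push_cast at this
    linarith
  have hb1 : 1 ≤ |b| := Int.one_le_abs hb
  have hv0 : 0 ≤ v := by linarith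
  -- the upper bound for `v`
  have hDabs : |D| = (q : ℤ) ^ (p - 1) * |b| ^ p := by
    rw [hD, abs_mul, abs_pow, abs_pow, abs_of_pos (show (0 : ℤ) < q by linarith)]
  have hD2 : 2 ≤ |D| := by
    rw [hDabs]
    have h6 : (q : ℤ) ^ 1 ≤ (q : ℤ) ^ (p - 1) := pow_le_pow_right₀ (by linarith) (by omega)
    have h7 : (1 : ℤ) ≤ |b| ^ p := one_le_pow₀ hb1
    nlinarith
  have h6 : (q : ℤ) * v ^ p ≤ (2 * ((q : ℤ) ^ (p - 1) * |b| ^ p)) ^ (q - 1) := by
    have h7 := abs_geom_sum_le hD2 (q - 1)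
    have hq' : q - 1 + 1 = q := by omega
    rw [hq', ← hYD, h2, hDabs] at h7
    exact (le_abs_self _).trans h7
  have h7 : v ≤ ((q : ℤ) * |b|) ^ (q - 1) := by
    have h8 : v ^ p ≤ (((q : ℤ) * |b|) ^ (q - 1)) ^ p := by
      -- `v^p * 2^(q-1) ≤ v^p * q^q`
      have h9 : (2 : ℤ) ^ (q - 1) ≤ (q : ℤ) ^ (q - 1) := pow_le_pow_left₀ (by norm_num) (by linarith) _
      have h10 : (q : ℤ) * v ^ p ≤ (q : ℤ) * (((q : ℤ) * |b|) ^ (q - 1)) ^ p := by
        calc (q : ℤ) * v ^ p ≤ (2 * ((q : ℤ) ^ (p - 1) * |b| ^ p)) ^ (q - 1) := h6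
          _ = (2 : ℤ) ^ (q - 1) * (((q : ℤ) ^ (p - 1) * |b| ^ p)) ^ (q - 1) := by rw [mul_pow]
          _ ≤ (q : ℤ) ^ (q - 1) * (((q : ℤ) ^ (p - 1) * |b| ^ p)) ^ (q - 1) :=
              mul_le_mul_of_nonneg_right h9 (by positivity)
          _ = ((q : ℤ) * (q : ℤ) ^ (p - 1) * |b| ^ p) ^ (q - 1) := by
              rw [← mul_pow]
              ring_nf
          _ = ((q : ℤ) ^ p * |b| ^ p) ^ (q - 1) := by
              rw [← pow_succ']
              congr 3
              omega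
          _ = (((q : ℤ) * |b|) ^ (q - 1)) ^ p := by
              rw [← mul_pow, ← pow_mul, ← pow_mul, mul_comm p]
          _ ≤ (q : ℤ) * (((q : ℤ) * |b|) ^ (q - 1)) ^ p := by
              refine le_mul_of_one_le_left (by positivity) (by linarith)
      exact le_of_mul_le_mul_left h10 (by linarith)
    exact le_of_pow_le_pow_left₀ h.hp.ne_zero (by positivity) h8
  have h8 : |x| = q * |b| * v := by
    rw [← abs_neg, h3, abs_mul, abs_mul, abs_of_nonneg hv0,
      abs_of_pos (show (0 : ℤ) < q by linarith)]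
  calc (q : ℤ) ^ (q * (p - 1)) = ((q : ℤ) ^ (p - 1)) ^ q := by rw [← pow_mul, mul_comm]
    _ ≤ v ^ q := pow_le_pow_left₀ (by positivity) hv2 _
    _ = v * v ^ (q - 1) := by
        rw [← pow_succ']
        congr 1
        omega
    _ ≤ ((q : ℤ) * |b|) ^ (q - 1) * v ^ (q - 1) := mul_le_mul_of_nonneg_right h7 (by positivity)
    _ = |x| ^ (q - 1) := by rw [← mul_pow, h8]

end Fermat.Agent.Cor.Catalan
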