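import Fermat.Agent.Corollaries.Catalan.Root
import Fermat.Agent.Corollaries.Catalan.Rel
import Fermat.Agent.Corollaries.Catalan.Final

/-!
# Catalan's equation: Mihăilescu's divisibility `q² ∣ x`

For a solution of `x ^ p - y ^ q = 1` in non-zero integers, `p`, `q` odd primes: `q² ∣ x` and `p² ∣ y`
(`wieferichStmt`, `p_sq_dvd`), hence the double Wieferich criterion
`p ^ (q - 1) ≡ 1 mod q²`, `q ^ (p - 1) ≡ 1 mod p²` (`double_wieferich`).
-/

set_option autoImplicit false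

namespace Fermat.Agent.Cor.Catalan

open NumberField Finset

/-- (C7) Mihăilescu -/
theorem wieferichStmt_of (hC : CasselsStmt) (hR : RelStmt) : WieferichStmt := by
  intro p q x y h
  obtain ⟨hpq, a, u, h1, h2, -⟩ := hR p q x y h
  have hp : Fact p.Prime := ⟨h.hp⟩
  obtain ⟨K, _, _, _, z, hz⟩ := exists_cyc p
  have hζ : IsPrimitiveRoot (algebraMap (𝓞 K) K z) p :=
    hz.map_of_injective (RingOfIntegers.coe_injective (K := K))
  obtain ⟨T, hT1, hT2⟩ := Cat.exists_half_ideal (K := K) h.hp2 hζ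
  exact Cat.mihailescu_sq_dvd h.hp h.hq h.hp2 h.hq2 hpq hζ hT1 hT2 (hC p q x y h) h1 h2

theorem idealStmt : IdealStmt := idealStmt_of relStmt

theorem rootStmt : RootStmt := rootStmt_of relStmt

theorem wieferichStmt : WieferichStmt := wieferichStmt_of casselsStmt relStmt

/-- **Mihăilescu**: a non-trivial solution of `x ^ p - y ^ q = 1` has `q² ∣ x` and `p² ∣ y`. -/
theorem sq_dvd {p q : ℕ} {x y : ℤ} (h : Sol p q x y) : (q : ℤ) ^ 2 ∣ x ∧ (p : ℤ) ^ 2 ∣ y := by
  refine ⟨wieferichStmt p q x y h, ?_⟩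
  have h1 := wieferichStmt q p (-y) (-x) h.symm
  exact (dvd_neg).mp h1

/-- **Mihăilescu's double Wieferich criterion** for Catalan's equation. -/
theorem double_wieferich {p q : ℕ} {x y : ℤ} (h : Sol p q x y) :
    (q : ℤ) ^ 2 ∣ (p : ℤ) ^ (q - 1) - 1 ∧ (p : ℤ) ^ 2 ∣ (q : ℤ) ^ (p - 1) - 1 := by
  have key : ∀ {p q : ℕ} {x y : ℤ}, Sol p q x y → (q : ℤ) ^ 2 ∣ (p : ℤ) ^ (q - 1) - 1 := by
    intro p q x y h
    obtain ⟨hpq, a, u, h1, -⟩ := relStmt p q x y h
    refine wieferich_of h.hq h.hq2 ?_ (wieferichStmt p q x y h) h1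
    rw [Nat.isCoprime_iff_coprime]
    exact (Nat.coprime_primes h.hq h.hp).mpr (Ne.symm hpq)
  exact ⟨key h, key h.symm⟩

end Fermat.Agent.Cor.Catalan
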