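import Fermat.Agent.Corollaries.Catalan.Final
import Fermat.Agent.Corollaries.Catalan.Nagell
import Fermat.Agent.Corollaries.Catalan.Indep
import Fermat.Agent.Corollaries.Catalan.Minus
import Fermat.Agent.Corollaries.Catalan.Wieferich
import Fermat.Agent.Corollaries.Catalan.Runge
import Fermat.Agent.Corollaries.Catalan.ThaineMain
import Fermat.Agent.Corollaries.Catalan.Class
import Fermat.Agent.Corollaries.Catalan.Step
import Fermat.Agent.Corollaries.Catalan.Bez
import Fermat.Agent.Corollaries.Catalan.Plus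
import Fermat.Agent.Corollaries.Cat.Square

/-!
# Catalan's conjecture (Mihăilescu's theorem)

`mihailescu`: the only solution of `x ^ a = y ^ b + 1` in integers `x, y > 0`, `a, b > 1` is
`3 ^ 2 = 2 ^ 3 + 1`; `consecutive_powers`: `8` and `9` are the only consecutive perfect powers;
`mihailescu_int`: the solutions of `x ^ a - y ^ b = 1` in non-zero integers.
-/

set_option autoImplicit false

namespace Fermat.Agent.Cor.Catalan

/-- V. A. Lebesgue 1850 -/
theorem lebesgueStmt : LebesgueStmt := by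
  intro m x y hm _ h
  by_contra hy
  exact Cat.sq_add_one_ne_pow (x := y) (y := x) (n := m) hm hy h.symm

/-- Euler 1738 -/
theorem eulerStmt : EulerStmt := by
  intro x y h
  by_cases hx : x = 0
  · subst hx
    right; left
    have h1 : (y + 1) * (y ^ 2 - y + 1) = 0 := by linear_combination -h
    rcases mul_eq_zero.mp h1 with h2 | h2
    · omega
    · nlinarith [sq_nonneg (2 * y - 1)]
  by_cases hy : y = 0
  · exact Or.inl hy
  right; right
  exact (Cat.sq_eq_pow_add_one (by norm_num) hx hy h).2.1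

/-- Chao Ko 1965 -/
theorem koStmt : KoStmt := by
  intro q x y hq hq5 h
  by_contra hcon
  push Not at hcon
  exact Cat.sq_sub_pow_ne_one_of_prime hq hq5 hcon.1 hcon.2 h

/-- the theorems on the steps -/
theorem nagellStmt : NagellStmt := nagellStmt_of relStmt

theorem minusStmt : MinusStmt := minusStmt_of rootStmt idealStmt indepStmt relStmt

theorem classStmt : ClassStmt := classStmt_of idealStmt thaineStmt

theorem stepStmt : StepStmt := stepStmt_of classStmt unitStmt

theorem plusStmt : PlusStmt := plusStmt_of stepStmt rungeStmt wieferichStmt relStmt bezStmt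

/-- no non-trivial solution with odd prime exponents -/
theorem no_sol (p q : ℕ) (x y : ℤ) : ¬ Sol p q x y :=
  no_sol_of relStmt nagellStmt wieferichStmt minusStmt plusStmt notPrimaryStmt

/-- **Catalan's conjecture** (P. Mihăilescu 2002) -/
theorem catalanStmt : CatalanStmt :=
  catalanStmt_of lebesgueStmt eulerStmt koStmt relStmt nagellStmt wieferichStmt minusStmt plusStmt
    notPrimaryStmt

/-- **Catalan's conjecture** (P. Mihăilescu 2002): `x ^ a = y ^ b + 1` with `x, y > 0` and
`a, b > 1` only for `3 ^ 2 = 2 ^ 3 + 1`. -/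
theorem mihailescu (x y a b : ℕ) (ha : 1 < a) (hb : 1 < b) (hx : 0 < x) (hy : 0 < y)
    (h : x ^ a = y ^ b + 1) : x = 3 ∧ a = 2 ∧ y = 2 ∧ b = 3 :=
  catalanStmt x y a b ha hb hx hy h

theorem mihailescu_iff {x y a b : ℕ} (ha : 1 < a) (hb : 1 < b) (hx : 0 < x) (hy : 0 < y) :
    x ^ a = y ^ b + 1 ↔ x = 3 ∧ a = 2 ∧ y = 2 ∧ b = 3 :=
  ⟨mihailescu x y a b ha hb hx hy, by rintro ⟨rfl, rfl, rfl, rfl⟩; norm_num⟩

/-- **`8` and `9` are the only consecutive perfect powers** of positive integers. -/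
theorem consecutive_powers {n : ℕ} (hn : 0 < n) (h1 : ∃ y b : ℕ, 1 < b ∧ n = y ^ b)
    (h2 : ∃ x a : ℕ, 1 < a ∧ n + 1 = x ^ a) : n = 8 := by
  obtain ⟨y, b, hb, hy⟩ := h1
  obtain ⟨x, a, ha, hx⟩ := h2
  have hy0 : 0 < y := by
    rcases Nat.eq_zero_or_pos y with h0 | h0
    · rw [h0, zero_pow (by omega)] at hy
      omega
    · exact h0
  have hx0 : 0 < x := by
    rcases Nat.eq_zero_or_pos x with h0 | h0
    · rw [h0, zero_pow (by omega)] at hx
      omega
    · exact h0
  obtain ⟨-, -, rfl, rfl⟩ := mihailescu x y a b ha hb hx0 hy0 (by rw [← hx, hy])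
  rw [hy]
  norm_num

/-- **Catalan's equation in integers**: `x ^ a - y ^ b = 1` with `x y ≠ 0` and `a, b > 1` only for
`(± 3) ^ 2 - 2 ^ 3 = 1`. -/
theorem mihailescu_int (x y : ℤ) (a b : ℕ) (ha : 1 < a) (hb : 1 < b) (hx : x ≠ 0) (hy : y ≠ 0)
    (h : x ^ a - y ^ b = 1) : (x = 3 ∨ x = -3) ∧ a = 2 ∧ y = 2 ∧ b = 3 := by
  have hxa : 0 < |x| := abs_pos.mpr hx
  have hya : 0 < |y| := abs_pos.mpr hy
  -- the equation for the absolute values
  have key : ∀ (u v : ℤ) (k l : ℕ), 1 < k → 1 < l → 0 < u → 0 < v → u ^ k = v ^ l + 1 →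
      u = 3 ∧ k = 2 ∧ v = 2 ∧ l = 3 := by
    intro u v k l hk hl hu hv he
    obtain ⟨u, rfl⟩ := Int.eq_ofNat_of_zero_le hu.le
    obtain ⟨v, rfl⟩ := Int.eq_ofNat_of_zero_le hv.le
    obtain ⟨h1, h2, h3, h4⟩ := mihailescu u v k l hk hl (by exact_mod_cast hu)
      (by exact_mod_cast hv) (by exact_mod_cast he)
    exact ⟨by exact_mod_cast h1, h2, by exact_mod_cast h3, h4⟩
  rcases lt_or_gt_of_ne hy with hy0 | hy0
  · -- `y < 0`
    have hyb : |y| = -y := abs_of_neg hy0
    rcases Nat.even_or_odd b with hbe | hbo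
    · -- `b` even
      have hX : |x| ^ a = |y| ^ b + 1 := by
        rw [hbe.pow_abs]
        have h1 : (0 : ℤ) < x ^ a := by
          have := hbe.pow_nonneg y
          linarith
        rw [← abs_pow, abs_of_pos h1]
        linarith
      obtain ⟨-, -, -, hb3⟩ := key _ _ a b ha hb hxa hya hX
      rw [hb3] at hbe
      exact absurd hbe (by decide)
    · -- `b` odd: `x ^ a = 1 - |y| ^ b ≤ 0`
      have h1 : y ^ b = -(|y| ^ b) := by rw [hyb, hbo.neg_pow, neg_neg]
      have h2 : (1 : ℤ) ≤ |y| ^ b := one_le_pow₀ (by omega)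
      have h3 : x ^ a ≤ 0 := by linarith
      have h4 : x ^ a ≠ 0 := pow_ne_zero a hx
      have h5 : x ^ a < 0 := lt_of_le_of_ne h3 h4
      have hao : Odd a := by
        rw [← Nat.not_even_iff_odd]
        exact fun hae => absurd (hae.pow_nonneg x) (not_le.mpr h5)
      have hx0 : x < 0 := by
        by_contra hcon
        exact absurd (pow_nonneg (not_lt.mp hcon) a) (not_le.mpr h5)
      have hxb : |x| = -x := abs_of_neg hx0
      have h6 : x ^ a = -(|x| ^ a) := by rw [hxb, hao.neg_pow, neg_neg]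
      obtain ⟨-, hb2, -, -⟩ := key _ _ b a hb ha hya hxa (by linarith)
      rw [hb2] at hbo
      exact absurd hbo (by decide)
  · -- `y > 0`
    have hyb : |y| = y := abs_of_pos hy0
    have h1 : (0 : ℤ) < x ^ a := by
      have := pow_pos hy0 b
      linarith
    have hX : |x| ^ a = y ^ b + 1 := by
      rw [← abs_pow, abs_of_pos h1]
      linarith
    obtain ⟨h2, h3, h4, h5⟩ := key _ _ a b ha hb hxa hy0 hX
    refine ⟨?_, h3, h4, h5⟩
    rcases abs_choice x with h6 | h6 <;> omega

end Fermat.Agent.Cor.Catalan
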