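import Fermat.Agent.Corollaries.Catalan.Defs

/-!
# Arithmetic of the minus argument (block MIH, piece 8b, first part)

`K = ℚ(ζ_p)`, `(x - ζ) = (1 - ζ) I ^ q` with pairwise coprime conjugates of `I`. If
`(x - ζ) ^ Θ = α ^ q` with `∑ Θ = 0` then `α J ⊆ 𝓞 K` for the ideal `J = ∏ σ_a(I) ^ Θ⁻(a)`; hence
`1 ≤ |N(α - 1)| N(J)` if `α ≠ 1`, and `N(J) ^ q ≤ |N(∏ (x - σ_a ζ) ^ Θ⁻(a))|`.
-/

set_option autoImplicit false

noncomputable section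

namespace Fermat.Agent.Cor.Catalan

open NumberField

namespace Minus

variable {p : ℕ} [Fact p.Prime] {K : Type} [Field K] [NumberField K]
  [IsCyclotomicExtension {p} ℚ K]

variable (K) in
/-- the automorphism `σ_a` of the ring of integers -/
abbrev ac (a : (ZMod p)ˣ) : 𝓞 K ≃+* 𝓞 K := JacobiSumStickelberger.clRingAction p K a

theorem coe_ac (a : (ZMod p)ˣ) (z : 𝓞 K) : ((ac K a z : 𝓞 K) : K) = sg p K a (z : K) :=
  algebraMap_galRestrict_apply ℤ _ z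

theorem ac_mul (a b : (ZMod p)ˣ) (z : 𝓞 K) : ac K (a * b) z = ac K a (ac K b z) := by
  rw [ac, map_mul]
  rfl

theorem sg_zeta {ζ : K} (hζ : IsPrimitiveRoot ζ p) (a : (ZMod p)ˣ) :
    sg p K a ζ = ζ ^ (a : ZMod p).val := by
  have h := IsCyclotomicExtension.Rat.galEquivZMod_apply_of_pow_eq p K (sg p K a) hζ.pow_eq_one
  rw [h]
  congr 3
  exact (JacobiSumStickelberger.cycloGalEquiv p K).apply_symm_apply a

/-- the conjugates of `x - ζ` -/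
def X (x : ℤ) (ζ : 𝓞 K) (a : (ZMod p)ˣ) : 𝓞 K := x - ac K a ζ

theorem coe_X (x : ℤ) (ζ : 𝓞 K) (a : (ZMod p)ˣ) :
    ((X x ζ a : 𝓞 K) : K) = sg p K a ((x : K) - (ζ : K)) := by
  rw [X, map_sub, map_intCast, ← coe_ac]
  simp

theorem X_eq (x : ℤ) (ζ : 𝓞 K) (a : (ZMod p)ˣ) : X x ζ a = ac K a ((x : 𝓞 K) - ζ) := by
  rw [X, map_sub, map_intCast]

/-- the conjugates of an ideal -/
def Ic (I : Ideal (𝓞 K)) (a : (ZMod p)ˣ) : Ideal (𝓞 K) := I.map (ac K a : 𝓞 K →+* 𝓞 K)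

theorem Ic_one (I : Ideal (𝓞 K)) : Ic I (1 : (ZMod p)ˣ) = I := by
  have h : ((ac K (1 : (ZMod p)ˣ)) : 𝓞 K →+* 𝓞 K) = RingHom.id (𝓞 K) := by
    rw [ac, map_one]
    rfl
  rw [Ic, h, Ideal.map_id]

theorem Ic_Ic (I : Ideal (𝓞 K)) (a b : (ZMod p)ˣ) : Ic (Ic I b) a = Ic I (a * b) := by
  rw [Ic, Ic, Ideal.map_map, Ic]
  congr 1
  ext z
  simp only [RingHom.comp_apply, RingHom.coe_coe]
  rw [ac_mul]

theorem Ic_ne_top {I : Ideal (𝓞 K)} (h : I ≠ ⊤) (a : (ZMod p)ˣ) : Ic I a ≠ ⊤ := by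
  intro h1
  apply h
  have h2 : Ic (Ic I a) a⁻¹ = Ic ⊤ a⁻¹ := by rw [h1]
  rw [Ic_Ic, inv_mul_cancel, Ic_one] at h2
  rw [h2, Ic, Ideal.map_top]

theorem Ic_ne_bot {I : Ideal (𝓞 K)} (h : I ≠ ⊥) (a : (ZMod p)ˣ) : Ic I a ≠ ⊥ := by
  intro h1
  apply h
  have h2 : Ic (Ic I a) a⁻¹ = Ic ⊥ a⁻¹ := by rw [h1]
  rw [Ic_Ic, inv_mul_cancel, Ic_one] at h2
  rw [h2, Ic, Ideal.map_bot]

theorem isCoprime_Ic {I : Ideal (𝓞 K)} (h : ∀ a : (ZMod p)ˣ, a ≠ 1 → IsCoprime I (Ic I a))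
    {a b : (ZMod p)ˣ} (hab : a ≠ b) : IsCoprime (Ic I a) (Ic I b) := by
  have h1 : a⁻¹ * b ≠ 1 := fun h0 => hab (inv_mul_eq_one.mp h0)
  have h2 := (h _ h1).map (Ideal.mapHom (ac K a : 𝓞 K →+* 𝓞 K))
  change IsCoprime (Ic I a) (Ic (Ic I (a⁻¹ * b)) a) at h2
  rwa [Ic_Ic, mul_inv_cancel_left] at h2

theorem span_one_sub {ζ : 𝓞 K} (hζ : IsPrimitiveRoot ζ p) (a : (ZMod p)ˣ) :
    Ideal.span {1 - ac K a ζ} = Ideal.span {1 - ζ} := by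
  have hζK : IsPrimitiveRoot (ζ : K) p := hζ.map_of_injective RingOfIntegers.coe_injective
  have h1 : ac K a ζ = ζ ^ (a : ZMod p).val := by
    apply RingOfIntegers.ext
    rw [coe_ac, sg_zeta hζK, RingOfIntegers.coe_eq_algebraMap, RingOfIntegers.coe_eq_algebraMap,
      map_pow]
  have h2 := hζ.associated_sub_one_pow_sub_one_of_coprime (ZMod.val_coe_unit_coprime a)
  rw [Ideal.span_singleton_eq_span_singleton, h1]
  have h3 := h2.symm.neg_neg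
  rwa [neg_sub, neg_sub] at h3

theorem span_X {x : ℤ} {ζ : 𝓞 K} (hζ : IsPrimitiveRoot ζ p) {I : Ideal (𝓞 K)} {q : ℕ}
    (hI : Ideal.span {(x : 𝓞 K) - ζ} = Ideal.span {1 - ζ} * I ^ q) (a : (ZMod p)ˣ) :
    Ideal.span {X x ζ a} = Ideal.span {1 - ζ} * (Ic I a) ^ q := by
  have h := congrArg (Ideal.map (ac K a : 𝓞 K →+* 𝓞 K)) hI
  rw [Ideal.map_mul, Ideal.map_pow, Ideal.map_span, Ideal.map_span, Set.image_singleton,
    Set.image_singleton, RingHom.coe_coe, ← X_eq, map_sub, map_one, span_one_sub hζ] at h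
  exact h

/-! ### Numerators and denominators -/

/-- the positive part of `(x - ζ) ^ Θ` -/
def num (x : ℤ) (ζ : 𝓞 K) (Θ : (ZMod p)ˣ → ℤ) : 𝓞 K := ∏ a, X x ζ a ^ (Θ a).toNat

/-- the same for ideals -/
def J (I : Ideal (𝓞 K)) (Θ : (ZMod p)ˣ → ℤ) : Ideal (𝓞 K) := ∏ a, Ic I a ^ (Θ a).toNat

theorem span_num {x : ℤ} {ζ : 𝓞 K} (hζ : IsPrimitiveRoot ζ p) {I : Ideal (𝓞 K)} {q : ℕ}
    (hI : Ideal.span {(x : 𝓞 K) - ζ} = Ideal.span {1 - ζ} * I ^ q) (Θ : (ZMod p)ˣ → ℤ) :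
    Ideal.span {num x ζ Θ} =
      Ideal.span {1 - ζ} ^ (∑ a, (Θ a).toNat) * J I Θ ^ q := by
  rw [num, J, ← Ideal.prod_span_singleton, ← Finset.prod_pow_eq_pow_sum, ← Finset.prod_pow,
    ← Finset.prod_mul_distrib]
  refine Finset.prod_congr rfl fun a _ => ?_
  rw [← Ideal.span_singleton_pow, span_X hζ hI, mul_pow, pow_right_comm]

theorem X_ne_zero {x : ℤ} {ζ : 𝓞 K} (h : (x : 𝓞 K) - ζ ≠ 0) (a : (ZMod p)ˣ) : X x ζ a ≠ 0 := by
  rw [X_eq]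
  exact (map_ne_zero_iff _ (ac K a).injective).mpr h

theorem num_ne_zero {x : ℤ} {ζ : 𝓞 K} (h : (x : 𝓞 K) - ζ ≠ 0) (Θ : (ZMod p)ˣ → ℤ) :
    num x ζ Θ ≠ 0 :=
  Finset.prod_ne_zero_iff.mpr fun a _ => pow_ne_zero _ (X_ne_zero h a)

theorem pw_mul_den {x : ℤ} {ζ : 𝓞 K} (h : (x : 𝓞 K) - ζ ≠ 0) (Θ : (ZMod p)ˣ → ℤ) :
    pw p K Θ ((x : K) - (ζ : K)) * ((num x ζ (-Θ) : 𝓞 K) : K) = ((num x ζ Θ : 𝓞 K) : K) := by
  have hc : ∀ Θ : (ZMod p)ˣ → ℤ, ((num x ζ Θ : 𝓞 K) : K) =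
      ∏ a, ((X x ζ a : 𝓞 K) : K) ^ (Θ a).toNat := fun Θ => by
    simp only [num, RingOfIntegers.coe_eq_algebraMap, map_prod, map_pow]
  rw [pw, hc, hc, ← Finset.prod_mul_distrib]
  refine Finset.prod_congr rfl fun a _ => ?_
  have h0 : ((X x ζ a : 𝓞 K) : K) ≠ 0 := by
    simpa using X_ne_zero h a
  change (sg p K a ((x : K) - (ζ : K))) ^ (Θ a) * ((X x ζ a : 𝓞 K) : K) ^ ((-Θ) a).toNat =
    ((X x ζ a : 𝓞 K) : K) ^ (Θ a).toNat
  rw [← coe_X, ← zpow_natCast, ← zpow_natCast, ← zpow_add₀ h0]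
  congr 1
  rw [Pi.neg_apply]
  omega

theorem pow_left_inj_ideal {A B : Ideal (𝓞 K)} {q : ℕ} (hq : q ≠ 0) (h : A ^ q = B ^ q) :
    A = B := by
  have h1 : A ∣ B := (UniqueFactorizationMonoid.pow_dvd_pow_iff_dvd hq).mp h.dvd
  have h2 : B ∣ A := (UniqueFactorizationMonoid.pow_dvd_pow_iff_dvd hq).mp h.symm.dvd
  exact dvd_antisymm h1 h2

theorem sum_toNat {Θ : (ZMod p)ˣ → ℤ} (h : ∑ a, Θ a = 0) :
    ∑ a, ((-Θ) a).toNat = ∑ a, (Θ a).toNat := by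
  have h1 : (∑ a, ((Θ a).toNat : ℤ)) - ∑ a, (((-Θ) a).toNat : ℤ) = 0 := by
    rw [← Finset.sum_sub_distrib, ← h]
    refine Finset.sum_congr rfl fun a _ => ?_
    rw [Pi.neg_apply]
    omega
  have h2 : (∑ a, (((-Θ) a).toNat : ℤ)) = ∑ a, ((Θ a).toNat : ℤ) := by linarith
  exact_mod_cast h2

section Main

variable {x : ℤ} {ζ : 𝓞 K} {I : Ideal (𝓞 K)} {q : ℕ} {Θ : (ZMod p)ˣ → ℤ}

/-- `(u) J⁻ = (v) J⁺` if `α = u / v`. -/
theorem span_mul_J (hζ : IsPrimitiveRoot ζ p) (hp2 : p ≠ 1)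
    (hI : Ideal.span {(x : 𝓞 K) - ζ} = Ideal.span {1 - ζ} * I ^ q) (hx : (x : 𝓞 K) - ζ ≠ 0)
    (hq : q ≠ 0) (hΘ : ∑ a, Θ a = 0) {u v : 𝓞 K} (hv : v ≠ 0)
    (hα : pw p K Θ ((x : K) - (ζ : K)) = ((u : K) / (v : K)) ^ q) :
    Ideal.span {u} * J I (-Θ) = Ideal.span {v} * J I Θ := by
  have hvK : (v : K) ≠ 0 := by simpa using hv
  have h1 := pw_mul_den hx Θ
  rw [hα, div_pow] at h1
  have h2 : (u : K) ^ q * ((num x ζ (-Θ) : 𝓞 K) : K) = (v : K) ^ q * ((num x ζ Θ : 𝓞 K) : K) := by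
    rw [← h1]
    field_simp
  have h3 : u ^ q * num x ζ (-Θ) = v ^ q * num x ζ Θ := by
    apply RingOfIntegers.coe_injective
    push_cast
    exact h2
  have h4 := congrArg (fun z : 𝓞 K => Ideal.span {z}) h3
  simp only [← Ideal.span_singleton_mul_span_singleton, ← Ideal.span_singleton_pow] at h4
  rw [span_num hζ hI, span_num hζ hI, sum_toNat hΘ] at h4
  have hz : Ideal.span {1 - ζ} ^ (∑ a, (Θ a).toNat) ≠ ⊥ := by
    refine pow_ne_zero _ ?_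
    rw [Ne, Ideal.zero_eq_bot, Ideal.span_singleton_eq_bot, sub_eq_zero]
    exact fun h0 => hp2 (hζ.unique (h0 ▸ IsPrimitiveRoot.one))
  have h5 : (Ideal.span {u} * J I (-Θ)) ^ q = (Ideal.span {v} * J I Θ) ^ q := by
    rw [mul_pow, mul_pow]
    refine mul_left_cancel₀ hz ?_
    calc _ = Ideal.span {u} ^ q * (Ideal.span {1 - ζ} ^ (∑ a, (Θ a).toNat) * J I (-Θ) ^ q) := by
          ring
      _ = _ := h4
      _ = _ := by ring
  exact pow_left_inj_ideal hq h5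

theorem span_sub_mul_le {R : Type*} [CommRing R] {u v : R} {A B : Ideal R}
    (h : Ideal.span {u} * A = Ideal.span {v} * B) : Ideal.span {u - v} * A ≤ Ideal.span {v} := by
  rw [Ideal.span_singleton_mul_le_iff]
  intro w hw
  have h3 : u * w ∈ Ideal.span {v} := by
    have h4 : u * w ∈ Ideal.span {u} * A :=
      Ideal.mul_mem_mul (Ideal.mem_span_singleton_self u) hw
    rw [h] at h4
    have h5 : Ideal.span {v} * B ≤ Ideal.span {v} := Ideal.mul_le_left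
    exact h5 h4
  rw [sub_mul]
  exact Ideal.sub_mem _ h3 (Ideal.mul_mem_right _ _ (Ideal.mem_span_singleton_self v))

theorem J_ne_bot (hI0 : I ≠ ⊥) (Θ : (ZMod p)ˣ → ℤ) : J I Θ ≠ ⊥ :=
  Finset.prod_ne_zero_iff.mpr fun a _ => pow_ne_zero _ (Ic_ne_bot hI0 a)

/-- **The norm inequality.** -/
theorem one_le_norm_mul (hζ : IsPrimitiveRoot ζ p) (hp2 : p ≠ 1)
    (hI : Ideal.span {(x : 𝓞 K) - ζ} = Ideal.span {1 - ζ} * I ^ q) (hx : (x : 𝓞 K) - ζ ≠ 0)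
    (hI0 : I ≠ ⊥) (hq : q ≠ 0) (hΘ : ∑ a, Θ a = 0) {α : K}
    (hα : pw p K Θ ((x : K) - (ζ : K)) = α ^ q) (hα1 : α ≠ 1) :
    (1 : ℝ) ≤ |((Algebra.norm ℚ (α - 1) : ℚ) : ℝ)| * (Ideal.absNorm (J I (-Θ)) : ℝ) := by
  obtain ⟨u, v, hv, rfl⟩ := IsFractionRing.div_surjective (A := 𝓞 K) α
  have hv0 : v ≠ 0 := nonZeroDivisors.ne_zero hv
  have hvK : (v : K) ≠ 0 := by simpa using hv0
  have h1 := span_mul_J hζ hp2 hI hx hq hΘ hv0 hα
  have huv : u - v ≠ 0 := by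
    intro h0
    apply hα1
    rw [sub_eq_zero.mp h0, div_self hvK]
  have h2 : Ideal.span {v} ∣ Ideal.span {u - v} * J I (-Θ) :=
    Ideal.dvd_iff_le.mpr (span_sub_mul_le h1)
  have h3 := map_dvd Ideal.absNorm h2
  rw [map_mul, Ideal.absNorm_span_singleton, Ideal.absNorm_span_singleton] at h3
  have h4 : 0 < (Algebra.norm ℤ (u - v)).natAbs * Ideal.absNorm (J I (-Θ)) := by
    refine Nat.mul_pos (Int.natAbs_pos.mpr ?_) (Nat.pos_of_ne_zero ?_)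
    · rwa [Ne, Algebra.norm_eq_zero_iff]
    · rw [Ne, Ideal.absNorm_eq_zero_iff]
      exact J_ne_bot hI0 _
  have h5 := Nat.le_of_dvd h4 h3
  have h6 : (((u : K) / (v : K)) - 1) * (v : K) = ((u - v : 𝓞 K) : K) := by
    rw [sub_mul, div_mul_cancel₀ _ hvK, one_mul]
    exact (map_sub (algebraMap (𝓞 K) K) u v).symm
  have h7 : ∀ z : 𝓞 K, |((Algebra.norm ℚ (z : K) : ℚ) : ℝ)| = ((Algebra.norm ℤ z).natAbs : ℝ) := by
    intro z
    have h8 : Algebra.norm ℚ (z : K) = ((Algebra.norm ℤ z : ℤ) : ℚ) :=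
      (Algebra.coe_norm_int z).symm
    rw [h8, Nat.cast_natAbs]
    push_cast
    rfl
  have h9 : (0 : ℝ) < ((Algebra.norm ℤ v).natAbs : ℝ) := by
    rw [Nat.cast_pos, Int.natAbs_pos]
    rwa [Ne, Algebra.norm_eq_zero_iff]
  have h10 : |((Algebra.norm ℚ ((u : K) / (v : K) - 1) : ℚ) : ℝ)| * ((Algebra.norm ℤ v).natAbs : ℝ) =
      ((Algebra.norm ℤ (u - v)).natAbs : ℝ) := by
    rw [← h7, ← h7, ← h6, map_mul, Rat.cast_mul, abs_mul]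
  refine le_of_mul_le_mul_right ?_ h9
  rw [one_mul, mul_right_comm, h10]
  exact_mod_cast h5

/-- the norm of `J` -/
theorem absNorm_J_pow_le (hζ : IsPrimitiveRoot ζ p)
    (hI : Ideal.span {(x : 𝓞 K) - ζ} = Ideal.span {1 - ζ} * I ^ q) (hx : (x : 𝓞 K) - ζ ≠ 0)
    (Θ : (ZMod p)ˣ → ℤ) :
    Ideal.absNorm (J I Θ) ^ q ≤ (Algebra.norm ℤ (num x ζ Θ)).natAbs := by
  rw [← Ideal.absNorm_span_singleton, span_num hζ hI, map_mul, map_pow, map_pow]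
  refine Nat.le_mul_of_pos_left _ (pow_pos (Nat.pos_of_ne_zero ?_) _)
  have h1 : Ideal.span {(x : 𝓞 K) - ζ} ≠ ⊥ := by
    rwa [Ne, Ideal.span_singleton_eq_bot]
  rw [Ne, Ideal.absNorm_eq_zero_iff]
  intro h0
  rw [hI, h0, Ideal.bot_mul] at h1
  exact h1 rfl

/-- **The root is not `1`.** -/
theorem eq_zero_of_root_eq_one (hζ : IsPrimitiveRoot ζ p) (hp2 : p ≠ 1)
    (hI : Ideal.span {(x : 𝓞 K) - ζ} = Ideal.span {1 - ζ} * I ^ q) (hx : (x : 𝓞 K) - ζ ≠ 0)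
    (hIt : I ≠ ⊤) (hco : ∀ a : (ZMod p)ˣ, a ≠ 1 → IsCoprime I (Ic I a)) (hq : q ≠ 0)
    (hodd : ∀ a, Θ (-a) = -Θ a) (hα : pw p K Θ ((x : K) - (ζ : K)) = 1) : Θ = 0 := by
  have hΘ : ∑ a, Θ a = 0 := by
    have h1 : ∑ a, Θ a = ∑ a, Θ (-a) := (Equiv.sum_comp (Equiv.neg _) _).symm
    simp_rw [hodd, Finset.sum_neg_distrib] at h1
    omega
  have h1 := span_mul_J (u := 1) (v := 1) hζ hp2 hI hx hq hΘ one_ne_zero (by
    rw [hα]
    simp)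
  rw [Ideal.span_singleton_one, Ideal.one_eq_top.symm, one_mul, one_mul] at h1
  have hle : ∀ a, Θ a ≤ 0 := by
    intro a
    by_contra hpos
    rw [not_le] at hpos
    have h2 : Ic I a ∣ J I Θ := by
      rw [J]
      refine dvd_trans (dvd_pow_self _ ?_) (Finset.dvd_prod_of_mem _ (Finset.mem_univ a))
      omega
    rw [← h1] at h2
    have h3 : IsCoprime (Ic I a) (J I (-Θ)) := by
      refine IsCoprime.prod_right fun b _ => ?_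
      rcases eq_or_ne a b with rfl | hab
      · have h4 : ((-Θ) a).toNat = 0 := by
          rw [Pi.neg_apply]
          omega
        rw [h4, pow_zero]
        exact isCoprime_one_right
      · exact (isCoprime_Ic hco hab).pow_right
    have h4 : IsUnit (Ic I a) := h3.isUnit_of_dvd' dvd_rfl h2
    exact Ic_ne_top hIt a (Ideal.isUnit_iff.mp h4)
  funext a
  have h2 := hle a
  have h3 := hle (-a)
  rw [hodd] at h3
  rw [Pi.zero_apply]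
  omega

end Main

end Minus

end Fermat.Agent.Cor.Catalan
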