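import Fermat.Agent.Corollaries.Catalan.Basic
import Fermat.Agent.Corollaries.Cat.Mih

/-!
# Catalan's equation: `1 - ζ` is not a `q`-th power modulo `q ^ 2` for `q < p`

If `1 - ζ ≡ γ ^ q mod q ^ 2`, then with `ζ = η ^ q` we get `γ ≡ 1 - η mod q` (the `q`-th power map
is injective modulo `q`), hence `1 - η ^ q ≡ (1 - η) ^ q mod q ^ 2`; the polynomial
`(1 - X) ^ q - 1 + X ^ q` has degree `< p - 1` and its coefficient of `X` is `-q`.
-/

set_option autoImplicit false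

namespace Fermat.Agent.Cor.Catalan

open NumberField Polynomial

variable {p : ℕ} [Fact p.Prime] {K : Type} [Field K] [NumberField K]
  [IsCyclotomicExtension {p} ℚ K]

/-- The powers `1, ζ, ..., ζ ^ (p - 2)` are a basis: divisibility of the coefficients. -/
theorem dvd_coeff_of_dvd_sum {ζ : 𝓞 K} (hζ : IsPrimitiveRoot ζ p) {n : ℤ} {c : ℕ → ℤ}
    (h : (n : 𝓞 K) ∣ ∑ i ∈ Finset.range (p - 1), (c i : 𝓞 K) * ζ ^ i) {i : ℕ} (hi : i < p - 1) :
    n ∣ c i := by
  have hζK : IsPrimitiveRoot (ζ : K) p := hζ.map_of_injective RingOfIntegers.coe_injective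
  set pb := hζK.integralPowerBasis with hpb
  have hdim : pb.dim = p - 1 := by
    rw [hpb, IsPrimitiveRoot.integralPowerBasis_dim, Nat.totient_prime Fact.out]
  have hgen : pb.gen = ζ := by
    rw [hpb, IsPrimitiveRoot.integralPowerBasis_gen]
    apply RingOfIntegers.coe_injective
    rfl
  obtain ⟨y, hy⟩ := h
  have h1 : ∑ j : Fin pb.dim, c j • pb.basis j = n • y := by
    rw [zsmul_eq_mul, ← hy, ← hdim, Finset.sum_range]
    refine Finset.sum_congr rfl fun j _ => ?_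
    rw [pb.basis_eq_pow, hgen, zsmul_eq_mul]
  have h2 := congrArg (fun z => pb.basis.repr z ⟨i, by rw [hdim]; exact hi⟩) h1
  simp only [map_smul, Finsupp.smul_apply, smul_eq_mul] at h2
  rw [Module.Basis.repr_sum_self] at h2
  exact ⟨_, h2⟩

theorem pow_totient_root {q : ℕ} (hq : q.Prime) (hqp : q ≠ p) {z : 𝓞 K} (hz : z ^ p = 1) :
    z ^ q ^ (p - 1) = z := by
  have hp : p.Prime := Fact.out
  have h3 : q ^ (p - 1) ≡ 1 [MOD p] := by
    have h4 := Nat.ModEq.pow_totient ((Nat.coprime_primes hq hp).mpr hqp)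
    rwa [Nat.totient_prime hp] at h4
  have h5 : p ∣ q ^ (p - 1) - 1 := (Nat.modEq_iff_dvd' (Nat.one_le_pow _ _ hq.pos)).mp h3.symm
  obtain ⟨k, hk⟩ := h5
  have h6 : q ^ (p - 1) = p * k + 1 := by
    have := Nat.one_le_pow (p - 1) q hq.pos
    omega
  rw [h6, pow_succ, pow_mul, hz, one_pow, one_mul]

/-- The `q`-th power map is injective modulo `q`. -/
theorem dvd_sub_of_pow {ζ : 𝓞 K} (hζ : IsPrimitiveRoot ζ p) {q : ℕ} (hq : q.Prime)
    (hqp : q ≠ p) {β γ : 𝓞 K} (h : (q : 𝓞 K) ∣ β ^ q - γ ^ q) : (q : 𝓞 K) ∣ β - γ := by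
  have hp : p.Prime := Fact.out
  have hζK : IsPrimitiveRoot (ζ : K) p := hζ.map_of_injective RingOfIntegers.coe_injective
  have htop : Algebra.adjoin ℤ {ζ} = ⊤ := by
    have : NeZero p := ⟨hp.ne_zero⟩
    have h3 := IsCyclotomicExtension.Rat.adjoin_singleton_eq_top hζK
    have h4 : hζK.toInteger = ζ := by
      apply RingOfIntegers.coe_injective
      rfl
    rwa [h4] at h3
  exact Cat.Mih.dvd_sub_of_dvd_pow_sub hq (by have := hp.two_le; omega)
    (Cat.Mih.dvd_pow_sub_self hq (pow_totient_root hq hqp hζ.pow_eq_one) htop) h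

/-- `β ^ q ≡ γ ^ q mod q` implies `β ^ q ≡ γ ^ q mod q ^ 2`. -/
theorem sq_dvd_of_dvd {ζ : 𝓞 K} (hζ : IsPrimitiveRoot ζ p) {q : ℕ} (hq : q.Prime)
    (hqp : q ≠ p) {β γ : 𝓞 K} (h : (q : 𝓞 K) ∣ β ^ q - γ ^ q) :
    (q : 𝓞 K) ^ 2 ∣ β ^ q - γ ^ q := by
  have h3 := dvd_sub_pow_of_dvd_sub (dvd_sub_of_pow hζ hq hqp h) 1
  rwa [pow_one] at h3

/-- a `q`-th root of `ζ` -/
theorem exists_root_of_unity {ζ : 𝓞 K} (hζ : IsPrimitiveRoot ζ p) {q : ℕ} (hq : q.Prime)
    (hqp : q ≠ p) : ∃ η : 𝓞 K, IsPrimitiveRoot η p ∧ η ^ q = ζ := by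
  have hp : p.Prime := Fact.out
  have hcop : q.Coprime p := (Nat.coprime_primes hq hp).mpr hqp
  refine ⟨ζ ^ (q ^ (p - 2)), hζ.pow_of_coprime _ (hcop.pow_left _), ?_⟩
  rw [← pow_mul, ← pow_succ, show p - 2 + 1 = p - 1 by have := hp.two_le; omega]
  exact pow_totient_root hq hqp hζ.pow_eq_one

theorem notPrimaryStmt : NotPrimaryStmt := by
  intro p q hq hq2 hqp _ K _ _ _ ζ hζ γ hγ
  have hp : p.Prime := Fact.out
  have hodd : Odd q := hq.odd_of_ne_two hq2
  obtain ⟨η, hη, rfl⟩ := exists_root_of_unity hζ hq hqp.ne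
  -- `(1 - η) ^ q ≡ 1 - η ^ q mod q`
  have h1 : (q : 𝓞 K) ∣ (1 - η) ^ q - (1 - η ^ q) := by
    obtain ⟨r, hr⟩ := exists_add_pow_prime_eq hq (1 - η) η
    rw [sub_add_cancel, one_pow] at hr
    exact ⟨-((1 - η) * η * r), by linear_combination -hr⟩
  have h2 : (q : 𝓞 K) ∣ (1 - η) ^ q - γ ^ q := by
    have h3 := dvd_add h1 ((dvd_pow_self (q : 𝓞 K) two_ne_zero).trans hγ)
    convert h3 using 1
    ring
  have h3 := sq_dvd_of_dvd hη hq hqp.ne h2
  have h4 : (q : 𝓞 K) ^ 2 ∣ (1 - η) ^ q - (1 - η ^ q) := by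
    have h5 := dvd_sub h3 hγ
    convert h5 using 1
    ring
  -- the coefficients
  set c : ℕ → ℤ := fun i => if i = 0 then 0 else if i < q then (-1) ^ i * (q.choose i) else 0
    with hc
  have h5 : (1 - η) ^ q - (1 - η ^ q) = ∑ i ∈ Finset.range (p - 1), (c i : 𝓞 K) * η ^ i := by
    have h6 : (1 - η) ^ q = ∑ i ∈ Finset.range (q + 1), (-1) ^ i * (q.choose i : 𝓞 K) * η ^ i := by
      rw [sub_eq_neg_add, add_pow]
      refine Finset.sum_congr rfl fun i _ => ?_
      rw [one_pow, neg_pow]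
      ring
    have hq1 : 1 ≤ q := hq.one_le
    obtain ⟨k, rfl⟩ : ∃ k, q = k + 1 := ⟨q - 1, by omega⟩
    have h7 : ∑ i ∈ Finset.range (p - 1), (c i : 𝓞 K) * η ^ i =
        ∑ i ∈ Finset.range (k + 1), (c i : 𝓞 K) * η ^ i := by
      symm
      refine Finset.sum_subset (fun i hi => ?_) fun i _ hi => ?_
      · rw [Finset.mem_range] at hi ⊢
        omega
      · rw [Finset.mem_range] at hi
        have : c i = 0 := by
          rw [hc]
          simp only
          split_ifs <;> first | rfl | omega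
        rw [this, Int.cast_zero, zero_mul]
    rw [h7, h6, Finset.sum_range_succ, Finset.sum_range_succ' _ k, Finset.sum_range_succ' _ k]
    have h8 : ∑ i ∈ Finset.range k, (c (i + 1) : 𝓞 K) * η ^ (i + 1) =
        ∑ i ∈ Finset.range k, (-1) ^ (i + 1) * ((k + 1).choose (i + 1) : 𝓞 K) * η ^ (i + 1) := by
      refine Finset.sum_congr rfl fun i hi => ?_
      rw [Finset.mem_range] at hi
      have : c (i + 1) = (-1) ^ (i + 1) * ((k + 1).choose (i + 1)) := by
        rw [hc]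
        simp only
        rw [if_neg (by omega), if_pos (by omega)]
      rw [this]
      push_cast
      ring
    have h9 : c 0 = 0 := by rw [hc]; simp
    rw [h8, h9, hodd.neg_one_pow, Nat.choose_self, Nat.choose_zero_right]
    push_cast
    ring
  rw [h5] at h4
  have h6 : (((q : ℤ) ^ 2 : ℤ) : 𝓞 K) ∣ ∑ i ∈ Finset.range (p - 1), (c i : 𝓞 K) * η ^ i := by
    push_cast
    exact h4
  have hq3 : 3 ≤ q := by
    have := hq.two_le
    omega
  have h7 := dvd_coeff_of_dvd_sum hη h6 (i := 1) (by omega)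
  have h8 : c 1 = -(q : ℤ) := by
    rw [hc]
    simp only
    rw [if_neg (by omega), if_pos (by omega), Nat.choose_one_right]
    ring
  rw [h8, dvd_neg, pow_two] at h7
  have h9 : (q : ℤ) ∣ 1 := by
    have hq0 : (q : ℤ) ≠ 0 := by exact_mod_cast hq.ne_zero
    obtain ⟨d, hd⟩ := h7
    exact ⟨d, by
      apply mul_left_cancel₀ hq0
      linarith⟩
  have h10 : q ∣ 1 := by exact_mod_cast h9
  exact absurd (Nat.dvd_one.mp h10) hq.ne_one

end Fermat.Agent.Cor.Catalan
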