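import Fermat.Agent.Corollaries.Catalan.Main
import Mathlib.NumberTheory.LucasLehmer
import Mathlib.NumberTheory.Fermat

/-!
# Mihăilescu's theorem and the numbers of Mersenne and of Fermat

No Mersenne number `2 ^ n - 1`, `n ≥ 2`, and no Fermat number `2 ^ 2 ^ n + 1` is a perfect power; there
are no three consecutive perfect powers; the theorem of Gersonides on the powers of two and three.
-/

set_option autoImplicit false

namespace Fermat.Agent.Cor.Catalan

/-- `y ^ b + 1` is not a perfect power, except `2 ^ 3 + 1` -/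
theorem pow_add_one_ne_pow {x y a b : ℕ} (ha : 1 < a) (hb : 1 < b) (hy : 0 < y)
    (h : ¬ (y = 2 ∧ b = 3)) : y ^ b + 1 ≠ x ^ a := by
  intro he
  have hx : 0 < x := by
    rcases Nat.eq_zero_or_pos x with h0 | h0
    · rw [h0, zero_pow (by omega)] at he
      omega
    · exact h0
  obtain ⟨-, -, h1, h2⟩ := mihailescu x y a b ha hb hx hy he.symm
  exact h ⟨h1, h2⟩

/-- `x ^ a - 1` is not a perfect power, except `3 ^ 2 - 1` (`x ≥ 2`) -/
theorem pow_sub_one_ne_pow {x y a b : ℕ} (ha : 1 < a) (hb : 1 < b) (hx : 2 ≤ x)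
    (h : ¬ (x = 3 ∧ a = 2)) : x ^ a - 1 ≠ y ^ b := by
  intro he
  have h2 : 2 ^ 2 ≤ x ^ a := (Nat.pow_le_pow_left hx 2).trans (Nat.pow_le_pow_right (by omega) ha)
  have hy : 0 < y := by
    rcases Nat.eq_zero_or_pos y with h0 | h0
    · rw [h0, zero_pow (by omega)] at he
      omega
    · exact h0
  have h3 : x ^ a = y ^ b + 1 := by omega
  obtain ⟨h4, h5, -, -⟩ := mihailescu x y a b ha hb (by omega) hy h3
  exact h ⟨h4, h5⟩

/-- **no Mersenne number `2 ^ n - 1` with `n ≥ 2` is a perfect power** -/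
theorem mersenne_ne_pow {n x a : ℕ} (hn : 2 ≤ n) (ha : 1 < a) : mersenne n ≠ x ^ a := by
  rw [mersenne]
  exact pow_sub_one_ne_pow (by omega) ha le_rfl (by omega)

/-- **no Fermat number is a perfect power** -/
theorem fermatNumber_ne_pow {n x a : ℕ} (ha : 1 < a) : Nat.fermatNumber n ≠ x ^ a := by
  rw [Nat.fermatNumber]
  rcases Nat.eq_zero_or_pos n with rfl | hn
  · intro h
    have hx : 2 ≤ x := by
      rcases x with _ | _ | x
      · rw [zero_pow (by omega)] at h
        norm_num at h
      · norm_num at h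
      · omega
    have h2 : 2 ^ 2 ≤ x ^ a := (Nat.pow_le_pow_left hx 2).trans (Nat.pow_le_pow_right (by omega) ha)
    rw [← h] at h2
    norm_num at h2
  · refine pow_add_one_ne_pow ha ?_ two_pos ?_
    · calc 1 < 2 ^ 1 := by norm_num
        _ ≤ 2 ^ n := Nat.pow_le_pow_right (by norm_num) hn
    · rintro ⟨-, h⟩
      have h2 : 2 ∣ 2 ^ n := dvd_pow_self 2 (by omega)
      rw [h] at h2
      norm_num at h2

/-- there are no three consecutive perfect powers of positive integers -/
theorem not_three_consecutive {n : ℕ} (hn : 0 < n) :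
    ¬ ((∃ y b : ℕ, 1 < b ∧ n = y ^ b) ∧ (∃ y b : ℕ, 1 < b ∧ n + 1 = y ^ b) ∧
      ∃ y b : ℕ, 1 < b ∧ n + 2 = y ^ b) := by
  rintro ⟨h1, h2, h3⟩
  have h4 := consecutive_powers hn h1 h2
  have h5 := consecutive_powers (n := n + 1) (by omega) h2 h3
  omega

/-- **Gersonides (1343)**: the powers of `2` and of `3` which differ by one -/
theorem gersonides {m n : ℕ} : (3 ^ m = 2 ^ n + 1 ↔ (m = 1 ∧ n = 1) ∨ (m = 2 ∧ n = 3)) ∧
    (2 ^ n = 3 ^ m + 1 ↔ (m = 0 ∧ n = 1) ∨ (m = 1 ∧ n = 2)) := by
  constructor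
  · constructor
    · intro h
      rcases m with _ | _ | m
      · have := Nat.one_le_two_pow (n := n)
        omega
      · left
        refine ⟨rfl, ?_⟩
        have h2 : 2 ^ n = 2 ^ 1 := by omega
        exact Nat.pow_right_injective le_rfl h2
      · right
        rcases n with _ | _ | n
        · have : 3 ^ 2 ≤ 3 ^ (m + 1 + 1) := Nat.pow_le_pow_right (by norm_num) (by omega)
          omega
        · have : 3 ^ 2 ≤ 3 ^ (m + 1 + 1) := Nat.pow_le_pow_right (by norm_num) (by omega)
          omega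
        · obtain ⟨-, h1, -, h2⟩ := mihailescu 3 2 (m + 1 + 1) (n + 1 + 1) (by omega) (by omega)
            (by norm_num) (by norm_num) h
          exact ⟨h1, h2⟩
    · rintro (⟨rfl, rfl⟩ | ⟨rfl, rfl⟩) <;> norm_num
  · constructor
    · intro h
      rcases m with _ | _ | m
      · left
        refine ⟨rfl, ?_⟩
        have h2 : 2 ^ n = 2 ^ 1 := by omega
        exact Nat.pow_right_injective le_rfl h2
      · right
        refine ⟨rfl, ?_⟩
        have h2 : 2 ^ n = 2 ^ 2 := by omega
        exact Nat.pow_right_injective le_rfl h2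
      · exfalso
        have h9 : 3 ^ 2 ≤ 3 ^ (m + 1 + 1) := Nat.pow_le_pow_right (by norm_num) (by omega)
        rcases n with _ | _ | n
        · omega
        · omega
        · obtain ⟨h1, -⟩ := mihailescu 2 3 (n + 1 + 1) (m + 1 + 1) (by omega) (by omega)
            (by norm_num) (by norm_num) h
          omega
    · rintro (⟨rfl, rfl⟩ | ⟨rfl, rfl⟩) <;> norm_num

end Fermat.Agent.Cor.Catalan
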