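import Fermat.Agent.Corollaries.Catalan.Prim

/-!
# Catalan's equation: the plus argument

If `q ^ 2 ∣ x` then `x - ζ` is `q`-primary. For each irreducible factor `g` of `X ^ m - 1` modulo `q`,
`m = (p - 1) / 2`, the `g`-part of `1 - ζ` is obtained from that of `x - ζ`: by norms for
`g = X - 1`, and by `StepStmt` (Thaine's theorem and the structure of the units) and Runge's method
for the other factors.
-/

set_option autoImplicit false

namespace Fermat.Agent.Cor.Catalan

open NumberField Polynomial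

section Aux

variable {p : ℕ} [Fact p.Prime] {q : ℕ} [Fact q.Prime] {K : Type} [Field K] [NumberField K]
  [IsCyclotomicExtension {p} ℚ K]

/-- elements of `ℤ[G]` that agree modulo `q` -/
theorem exists_pw_eq_of_dvd_sub {m n : (ZMod p)ˣ → ℤ} (h : ∀ a, (q : ℤ) ∣ m a - n a) {z : K}
    (hz : z ≠ 0) : ∃ w : K, w ≠ 0 ∧ pw p K m z = pw p K n z * w ^ q := by
  obtain ⟨w, hw⟩ := exists_pw_eq_pow (n := m - n) h z
  refine ⟨w, ?_, ?_⟩
  · rintro rfl
    rw [zero_pow (Fact.out : q.Prime).ne_zero] at hw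
    exact pw_ne_zero _ hz hw
  · rw [← hw, ← pw_add _ _ hz, add_sub_cancel]

/-- polynomials that agree modulo `q` and `X ^ (p - 1) - 1` -/
theorem exists_pw_plEl_eq (s : (ZMod p)ˣ) {P Q : ℤ[X]}
    (h : (X ^ (p - 1) - 1 : (ZMod q)[X]) ∣ (P - Q).map (Int.castRingHom (ZMod q))) {z : K}
    (hz : z ≠ 0) : ∃ w : K, w ≠ 0 ∧ pw p K (plEl p s P) z = pw p K (plEl p s Q) z * w ^ q := by
  refine exists_pw_eq_of_dvd_sub (fun a => ?_) hz
  have h1 := dvd_plEl s h a
  rwa [plEl_sub] at h1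

omit [Fact q.Prime] in
theorem sub_coe_ne_zero (hp2 : p ≠ 2) {ζ : 𝓞 K} (hζ : IsPrimitiveRoot ζ p) (x : ℤ) :
    (x : K) - ζ ≠ 0 := by
  intro h
  have hp : p.Prime := Fact.out
  have hζK : IsPrimitiveRoot (ζ : K) p := hζ.map_of_injective RingOfIntegers.coe_injective
  have h1 : (ζ : K) = (x : K) := (sub_eq_zero.mp h).symm
  have h2 : (x : K) ^ p = 1 := by rw [← h1]; exact hζK.pow_eq_one
  have h3 : x ^ p = 1 := by exact_mod_cast h2
  have h4 : x = 1 := by
    rcases pow_eq_one_iff_cases.mp h3 with h4 | h4 | ⟨-, h4⟩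
    · exact absurd h4 hp.ne_zero
    · exact h4
    · exact absurd h4 (Nat.not_even_iff_odd.mpr (hp.odd_of_ne_two hp2))
  rw [h4, Int.cast_one] at h1
  exact hζK.ne_one hp.one_lt h1

/-- the product of the conjugates of `x - ζ` -/
theorem prod_sg_sub {ζ : 𝓞 K} (hζ : IsPrimitiveRoot ζ p) (x : ℤ) :
    ∏ a, sg p K a ((x : K) - ζ) = ((∑ i ∈ Finset.range p, x ^ i : ℤ) : K) := by
  have hζK : IsPrimitiveRoot (ζ : K) p := hζ.map_of_injective RingOfIntegers.coe_injective
  have h1 := Cat.Mih.prod_gal hζK (x : K)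
  rw [Int.cast_sum]
  simp only [Int.cast_pow]
  rw [← h1]
  refine Fintype.prod_bijective (sg p K) sg_bijective _ _ fun a => ?_
  rw [map_sub, map_intCast]

/-- `s ^ ((p - 1) / 2) = -1` for a generator `s` -/
theorem gen_pow_half (hp2 : p ≠ 2) {s : (ZMod p)ˣ} (hs : ∀ a, a ∈ Subgroup.zpowers s) :
    s ^ ((p - 1) / 2) = -1 := by
  have hp : p.Prime := Fact.out
  have hodd := Nat.odd_iff.mp (hp.odd_of_ne_two hp2)
  have hord : orderOf s = p - 1 := by
    rw [orderOf_eq_card_of_forall_mem_zpowers hs, Nat.card_eq_fintype_card, ZMod.card_units]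
  have h1 : (s ^ ((p - 1) / 2)) * (s ^ ((p - 1) / 2)) = 1 := by
    rw [← pow_add, show (p - 1) / 2 + (p - 1) / 2 = p - 1 by omega, ← hord, pow_orderOf_eq_one]
  have h2 : ((s ^ ((p - 1) / 2) : (ZMod p)ˣ) : ZMod p) * ((s ^ ((p - 1) / 2) : (ZMod p)ˣ) : ZMod p)
      = 1 := by
    rw [← Units.val_mul, h1, Units.val_one]
  rcases mul_self_eq_one_iff.mp h2 with h3 | h3
  · exfalso
    have h4 : s ^ ((p - 1) / 2) = 1 := Units.ext (by rw [h3, Units.val_one])
    have h5 := orderOf_dvd_of_pow_eq_one h4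
    rw [hord] at h5
    have h6 := Nat.le_of_dvd (by have := hp.two_le; omega) h5
    have := hp.two_le
    omega
  · exact Units.ext (by rw [h3, Units.val_neg, Units.val_one])

/-- `(X ^ k P)(s) = s ^ k P(s)` -/
theorem plEl_pow_mul (s : (ZMod p)ˣ) (k : ℕ) (P : ℤ[X]) (a : (ZMod p)ˣ) :
    plEl p s (X ^ k * P) (s ^ k * a) = plEl p s P a := by
  induction P using Polynomial.induction_on' with
  | add P Q hP hQ => rw [mul_add, plEl_add, plEl_add, Pi.add_apply, Pi.add_apply, hP, hQ]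
  | monomial i c =>
    have h1 : (X : ℤ[X]) ^ k = monomial k 1 := (monomial_one_right_eq_X_pow _).symm
    rw [h1, monomial_mul_monomial, plEl_monomial, plEl_monomial, pow_add, one_mul]
    by_cases h : a = s ^ i
    · rw [h, Pi.single_eq_same, Pi.single_eq_same]
    · rw [Pi.single_eq_of_ne h, Pi.single_eq_of_ne]
      exact fun h' => h (mul_left_cancel h')

end Aux

/-- one irreducible factor -/
theorem prim_factor (hS : StepStmt) (hR : RungeStmt) {p q : ℕ} {x y : ℤ} (h : Sol p q x y)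
    (hqp : q < p) (hd : ¬ q ∣ p - 1) (hx : (q : ℤ) ^ 2 ∣ x) [Fact p.Prime] [Fact q.Prime]
    {K : Type} [Field K] [NumberField K] [IsCyclotomicExtension {p} ℚ K] {ζ : 𝓞 K}
    (hζ : IsPrimitiveRoot ζ p) {s : (ZMod p)ˣ} (hs : ∀ a, a ∈ Subgroup.zpowers s)
    {g : (ZMod q)[X]} (hg : Irreducible g) (hgd : g ∣ ∑ i ∈ Finset.range ((p - 1) / 2), X ^ i)
    {f : ℤ[X]} (hf : f.map (Int.castRingHom (ZMod q)) * g = X ^ (p - 1) - 1) :
    Prim q K (pw p K (plEl p s f) (1 - (ζ : K))) := by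
  have hp : p.Prime := Fact.out
  have hq : q.Prime := Fact.out
  have hζK : IsPrimitiveRoot (ζ : K) p := hζ.map_of_injective RingOfIntegers.coe_injective
  have h1ζ : (1 : K) - ζ ≠ 0 := sub_ne_zero.mpr (hζK.ne_one hp.one_lt).symm
  have hxζ : (x : K) - ζ ≠ 0 := sub_coe_ne_zero h.hp2 hζ x
  by_cases hw : ∃ w : K, pw p K (plEl p s f) (1 - (ζ : K)) = w ^ q
  · obtain ⟨w, hw⟩ := hw
    rw [hw]
    refine Prim.pow_self q ?_
    rintro rfl
    rw [zero_pow hq.ne_zero] at hw
    exact pw_ne_zero _ h1ζ hw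
  push Not at hw
  obtain ⟨r, w, hw0, hE⟩ := hS p q x y h hqp hd K ζ hζ s hs g hg hgd f hf hw
  -- `r` is prime to `g`
  have hrg : ¬ g ∣ r.map (Int.castRingHom (ZMod q)) := by
    intro hgr
    have h1 : (X ^ (p - 1) - 1 : (ZMod q)[X]) ∣ (r * f).map (Int.castRingHom (ZMod q)) := by
      rw [← hf, Polynomial.map_mul, mul_comm (r.map _)]
      exact mul_dvd_mul_left _ hgr
    obtain ⟨w', hw'⟩ := exists_pw_eq_pow (fun a => dvd_plEl s h1 a) (1 - (ζ : K))
    -- a symmetric function with values in `[0, q)`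
    set n : (ZMod p)ˣ → ℤ := fun a => plEl p s f a % q with hn
    have hsymm : ∀ a, n (-a) = n a := by
      intro a
      have h2 : (X ^ (p - 1) - 1 : (ZMod q)[X]) ∣
          (X ^ ((p - 1) / 2) * f - f).map (Int.castRingHom (ZMod q)) := by
        have h3 : (X ^ ((p - 1) / 2) * f - f).map (Int.castRingHom (ZMod q)) =
            (X ^ ((p - 1) / 2) - 1) * f.map (Int.castRingHom (ZMod q)) := by
          simp [sub_mul]
        obtain ⟨c, hc⟩ := hgd
        refine ⟨c * (X - 1), ?_⟩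
        rw [h3, ← geom_sum_mul, hc, ← hf]
        ring
      have h3 := dvd_plEl s h2 (-a)
      rw [plEl_sub, Pi.sub_apply] at h3
      have h4 : plEl p s (X ^ ((p - 1) / 2) * f) (-a) = plEl p s f a := by
        have h5 := plEl_pow_mul s ((p - 1) / 2) f a
        rwa [gen_pow_half h.hp2 hs, neg_one_mul] at h5
      rw [h4] at h3
      rw [hn]
      exact Int.modEq_iff_dvd.mpr h3
    have hroot : ∃ α : K, pw p K n ((x : K) - ζ) = α ^ q := by
      obtain ⟨v, -, hv⟩ := exists_pw_eq_of_dvd_sub (q := q) (m := n) (n := plEl p s f)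
        (fun a => by
          rw [hn]
          exact ⟨-(plEl p s f a / q), by
            have := Int.emod_add_mul_ediv (plEl p s f a) q
            simp only
            linarith⟩) hxζ
      refine ⟨w' * w * v, ?_⟩
      rw [hv, hE, hw', mul_pow, mul_pow]
    have h2 := hR p q x y h hqp K (ζ : K) hζK n hsymm hroot
    have h3 : ∀ a, (q : ℤ) ∣ plEl p s f a := by
      intro a
      exact (Int.dvd_iff_emod_eq_zero).mpr (by
        have h4 := h2 a
        have h5 : (q : ℤ) ∣ plEl p s f a := by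
          have := Int.emod_add_mul_ediv (plEl p s f a) q
          rw [← this]
          exact dvd_add h4 (dvd_mul_right _ _)
        exact Int.emod_eq_zero_of_dvd h5)
    have h4 := dvd_of_dvd_plEl hs h3
    rw [← hf] at h4
    have hf0 : f.map (Int.castRingHom (ZMod q)) ≠ 0 := by
      intro h0
      rw [h0, zero_mul] at hf
      have h5 : (X ^ (p - 1) - 1 : (ZMod q)[X]).natDegree = p - 1 :=
        natDegree_X_pow_sub_C (r := (1 : ZMod q))
      rw [← hf, natDegree_zero] at h5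
      have := hp.two_le
      omega
    obtain ⟨c, hc⟩ := h4
    apply hg.not_isUnit
    refine IsUnit.of_mul_eq_one c ?_
    apply mul_left_cancel₀ hf0
    rw [mul_one, ← mul_assoc, ← hc]
  -- Bezout
  obtain ⟨a, b, hab⟩ := (hg.coprime_iff_not_dvd).mpr hrg
  obtain ⟨B, rfl⟩ := Polynomial.map_surjective (Int.castRingHom (ZMod q))
    (ZMod.ringHom_surjective _) b
  have h1 : (X ^ (p - 1) - 1 : (ZMod q)[X]) ∣
      (f - B * (r * f)).map (Int.castRingHom (ZMod q)) := by
    refine ⟨a, ?_⟩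
    rw [← hf, Polynomial.map_sub, Polynomial.map_mul, Polynomial.map_mul]
    linear_combination (-(f.map (Int.castRingHom (ZMod q)))) * hab
  obtain ⟨v, hv0, hv⟩ := exists_pw_plEl_eq (K := K) s h1 h1ζ
  rw [hv, pw_plEl_mul s _ _ h1ζ]
  refine Prim.mul (Prim.pw hq ?_ _) (Prim.pow_self q hv0)
  refine Prim.of_mul_pow hw0 ?_
  rw [← hE]
  exact Prim.pw hq (prim_sub hζ hq h.hq2 hqp.ne hx) _

/-- the factor `X - 1` -/
theorem prim_norm (hR : RelStmt) {p q : ℕ} {x y : ℤ} (h : Sol p q x y)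
    (hqp : q < p) (hx : (q : ℤ) ^ 2 ∣ x) [Fact p.Prime] [Fact q.Prime]
    {K : Type} [Field K] [NumberField K] [IsCyclotomicExtension {p} ℚ K] {ζ : 𝓞 K}
    (hζ : IsPrimitiveRoot ζ p) {s : (ZMod p)ˣ} (hs : ∀ a, a ∈ Subgroup.zpowers s)
    {f : ℤ[X]} (hf : f.map (Int.castRingHom (ZMod q)) * (X - 1) = X ^ (p - 1) - 1) :
    Prim q K (pw p K (plEl p s f) (1 - (ζ : K))) := by
  have hp : p.Prime := Fact.out
  have hq : q.Prime := Fact.out
  have hζK : IsPrimitiveRoot (ζ : K) p := hζ.map_of_injective RingOfIntegers.coe_injective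
  have h1ζ : (1 : K) - ζ ≠ 0 := sub_ne_zero.mpr (hζK.ne_one hp.one_lt).symm
  have hxζ : (x : K) - ζ ≠ 0 := sub_coe_ne_zero h.hp2 hζ x
  obtain ⟨-, a, u, -, hu, -, -, hu1, -, -⟩ := hR p q x y h
  have hone : ∀ b, plEl p s (∑ i ∈ Finset.range (p - 1), X ^ i) b = 1 := by
    intro b
    have hp1 : p - 1 ≠ 0 := by have := hp.two_le; omega
    have hdeg : (∑ i ∈ Finset.range (p - 1), (X : ℤ[X]) ^ i).natDegree < p - 1 := by
      refine lt_of_le_of_lt (natDegree_sum_le_of_forall_le _ _ (n := p - 2) fun i hi => ?_) ?_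
      · rw [natDegree_X_pow]
        have := Finset.mem_range.mp hi
        omega
      · have := hp.two_le
        omega
    obtain ⟨k, hk⟩ : ∃ k : ℕ, k < p - 1 ∧ s ^ k = b := by
      have hord : orderOf s = p - 1 := by
        rw [orderOf_eq_card_of_forall_mem_zpowers hs, Nat.card_eq_fintype_card, ZMod.card_units]
      have h1 := (mem_zpowers_iff_mem_range_orderOf (x := s) (y := b)).mp (hs b)
      obtain ⟨k, hk, rfl⟩ := Finset.mem_image.mp h1
      exact ⟨k, by rw [← hord]; exact Finset.mem_range.mp hk, rfl⟩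
    rw [← hk.2, plEl_apply_pow hs hdeg hk.1, finset_sum_coeff, Finset.sum_eq_single k]
    · rw [coeff_X_pow, if_pos rfl]
    · intro j _ hj
      rw [coeff_X_pow, if_neg (Ne.symm hj)]
    · intro h
      exact absurd (Finset.mem_range.mpr hk.1) h
  have hpw : ∀ z : K, pw p K (plEl p s (∑ i ∈ Finset.range (p - 1), X ^ i)) z =
      ∏ a, sg p K a z := by
    intro z
    rw [pw]
    exact Finset.prod_congr rfl fun a _ => by rw [hone, zpow_one]
  have hmap : f.map (Int.castRingHom (ZMod q)) =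
      (∑ i ∈ Finset.range (p - 1), (X : ℤ[X]) ^ i).map (Int.castRingHom (ZMod q)) := by
    have h1 : (X - 1 : (ZMod q)[X]) ≠ 0 := X_sub_C_ne_zero 1
    apply mul_right_cancel₀ h1
    rw [hf]
    simp [Polynomial.map_sum, geom_sum_mul]
  have h1 : (X ^ (p - 1) - 1 : (ZMod q)[X]) ∣
      (f - ∑ i ∈ Finset.range (p - 1), X ^ i).map (Int.castRingHom (ZMod q)) := by
    rw [Polynomial.map_sub, hmap, sub_self]
    exact dvd_zero _
  obtain ⟨v, hv0, hv⟩ := exists_pw_plEl_eq (K := K) s h1 h1ζ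
  rw [hv]
  refine Prim.mul ?_ (Prim.pow_self q hv0)
  have hu0 : (u : K) ≠ 0 := by
    have : u ≠ 0 := by omega
    exact_mod_cast this
  refine Prim.of_mul_pow hu0 ?_
  have h2 : pw p K (plEl p s (∑ i ∈ Finset.range (p - 1), X ^ i)) (1 - (ζ : K)) * (u : K) ^ q =
      pw p K (plEl p s (∑ i ∈ Finset.range (p - 1), X ^ i)) ((x : K) - ζ) := by
    rw [hpw, hpw, prod_sg_sub hζ x, hu]
    have h3 := prod_sg_sub (K := K) hζ 1
    rw [Int.cast_one] at h3
    rw [h3]
    simp
  rw [h2]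
  exact Prim.pw hq (prim_sub hζ hq h.hq2 hqp.ne hx) _

/-- (C13) the plus argument -/
theorem plusStmt_of (hS : StepStmt) (hR : RungeStmt) (hW : WieferichStmt) (hRel : RelStmt)
    (hB : BezStmt) : PlusStmt := by
  intro p q x y h hqp hq5 hd _ K _ _ _ ζ hζ
  have hq : q.Prime := h.hq
  have : Fact q.Prime := ⟨hq⟩
  have hp : p.Prime := h.hp
  have hx := hW p q x y h
  obtain ⟨s, hs⟩ := IsCyclic.exists_generator (α := (ZMod p)ˣ)
  have h1 := hB p q h.hp2 h.hq2 hqp.ne' hd K ζ hζ s hs ?_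
  · have h2 : (1 : K) - ζ = ((1 - ζ : 𝓞 K) : K) := by
      change _ = algebraMap (𝓞 K) K (1 - ζ)
      rw [map_sub, map_one]
    rw [h2] at h1
    exact exists_of_prim hq h1
  · intro g hg hgd f hf
    rw [← geom_sum_mul] at hgd
    rcases hg.prime.dvd_or_dvd hgd with h2 | h2
    · exact prim_factor hS hR h hqp hd hx hζ hs hg h2 hf
    · -- `g` is associated to `X - 1`
      have h3 : Irreducible (X - 1 : (ZMod q)[X]) := irreducible_X_sub_C 1
      obtain ⟨u, hu⟩ := hg.associated_of_dvd h3 h2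
      obtain ⟨c, hc⟩ := Polynomial.map_surjective (Int.castRingHom (ZMod q))
        (ZMod.ringHom_surjective _) (((u⁻¹ : ((ZMod q)[X])ˣ)) : (ZMod q)[X])
      obtain ⟨d, hd'⟩ := Polynomial.map_surjective (Int.castRingHom (ZMod q))
        (ZMod.ringHom_surjective _) ((u : ((ZMod q)[X])ˣ) : (ZMod q)[X])
      have h4 : (c * f).map (Int.castRingHom (ZMod q)) * (X - 1) = X ^ (p - 1) - 1 := by
        rw [Polynomial.map_mul, hc, ← hu, ← hf]
        have h5 : ((u⁻¹ : ((ZMod q)[X])ˣ) : (ZMod q)[X]) * u = 1 := u.inv_mul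
        linear_combination (f.map (Int.castRingHom (ZMod q)) * g) * h5
      have h5 := prim_norm hRel h hqp hx hζ hs h4
      have hζK : IsPrimitiveRoot (ζ : K) p := hζ.map_of_injective RingOfIntegers.coe_injective
      have h1ζ : (1 : K) - ζ ≠ 0 := sub_ne_zero.mpr (hζK.ne_one hp.one_lt).symm
      have h6 : (X ^ (p - 1) - 1 : (ZMod q)[X]) ∣
          (f - d * (c * f)).map (Int.castRingHom (ZMod q)) := by
        have h7 : (f - d * (c * f)).map (Int.castRingHom (ZMod q)) = 0 := by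
          rw [Polynomial.map_sub, Polynomial.map_mul, Polynomial.map_mul, hc, hd',
            ← mul_assoc, u.mul_inv, one_mul, sub_self]
        rw [h7]
        exact dvd_zero _
      obtain ⟨v, hv0, hv⟩ := exists_pw_plEl_eq (K := K) s h6 h1ζ
      rw [hv, pw_plEl_mul s _ _ h1ζ]
      exact Prim.mul (Prim.pw hq h5 _) (Prim.pow_self q hv0)

end Fermat.Agent.Cor.Catalan
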