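import Fermat.Agent.Corollaries.Catalan.Basic

/-!
# Catalan's equation: the plus argument, definitions and cut

`Prim q K z`: `z` is a `q`-th power times an integer `≡ 1 mod q ^ 2`.
-/

set_option autoImplicit false

namespace Fermat.Agent.Cor.Catalan

open NumberField Polynomial

/-- `z` is a `q`-th power times an integer `≡ 1 mod q ^ 2`. -/
def Prim (q : ℕ) (K : Type) [Field K] [NumberField K] (z : K) : Prop :=
  ∃ (a : 𝓞 K) (w : K), w ≠ 0 ∧ z = (a : K) * w ^ q ∧ (q : 𝓞 K) ^ 2 ∣ a - 1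

/-- (C13b1) class group: `(x - ζ) ^ h` is `(1 - ζ) ^ h` times a unit and a `q`-th power -/
def ClassStmt : Prop := ∀ (p q : ℕ) (x y : ℤ), Sol p q x y → q < p → ¬ q ∣ p - 1 →
  ∀ [Fact p.Prime] [Fact q.Prime] (K : Type) [Field K] [NumberField K]
  [IsCyclotomicExtension {p} ℚ K] (ζ : 𝓞 K), IsPrimitiveRoot ζ p →
  ∀ s : (ZMod p)ˣ, (∀ a, a ∈ Subgroup.zpowers s) →
  ∀ g : (ZMod q)[X], Irreducible g → g ∣ ∑ i ∈ Finset.range ((p - 1) / 2), X ^ i →
  ∀ h : ℤ[X], h.map (Int.castRingHom (ZMod q)) * g = X ^ (p - 1) - 1 →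
  (∀ w : K, pw p K (plEl p s h) (1 - (ζ : K)) ≠ w ^ q) →
  ∃ (u : (𝓞 K)ˣ) (w : K), w ≠ 0 ∧ pw p K (plEl p s h) ((x : K) - ζ) =
    pw p K (plEl p s h) (1 - (ζ : K)) * ((u : 𝓞 K) : K) * w ^ q

/-- (C13b) class group and units: `(x - ζ) ^ h` is in the module generated by `(1 - ζ) ^ h` -/
def StepStmt : Prop := ∀ (p q : ℕ) (x y : ℤ), Sol p q x y → q < p → ¬ q ∣ p - 1 →
  ∀ [Fact p.Prime] [Fact q.Prime] (K : Type) [Field K] [NumberField K]
  [IsCyclotomicExtension {p} ℚ K] (ζ : 𝓞 K), IsPrimitiveRoot ζ p →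
  ∀ s : (ZMod p)ˣ, (∀ a, a ∈ Subgroup.zpowers s) →
  ∀ g : (ZMod q)[X], Irreducible g → g ∣ ∑ i ∈ Finset.range ((p - 1) / 2), X ^ i →
  ∀ h : ℤ[X], h.map (Int.castRingHom (ZMod q)) * g = X ^ (p - 1) - 1 →
  (∀ w : K, pw p K (plEl p s h) (1 - (ζ : K)) ≠ w ^ q) →
  ∃ (r : ℤ[X]) (w : K), w ≠ 0 ∧ pw p K (plEl p s h) ((x : K) - ζ) =
    pw p K (plEl p s (r * h)) (1 - (ζ : K)) * w ^ q

/-- (C13c) Bezout: if the `g`-parts of `1 - ζ` are primary for all `g ∣ X ^ m - 1`,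
then `1 - ζ` is primary -/
def BezStmt : Prop := ∀ (p q : ℕ) [Fact p.Prime] [Fact q.Prime], p ≠ 2 → q ≠ 2 → p ≠ q →
  ¬ q ∣ p - 1 → ∀ (K : Type) [Field K] [NumberField K] [IsCyclotomicExtension {p} ℚ K]
  (ζ : 𝓞 K), IsPrimitiveRoot ζ p → ∀ s : (ZMod p)ˣ, (∀ a, a ∈ Subgroup.zpowers s) →
  (∀ g : (ZMod q)[X], Irreducible g → g ∣ X ^ ((p - 1) / 2) - 1 →
    ∀ h : ℤ[X], h.map (Int.castRingHom (ZMod q)) * g = X ^ (p - 1) - 1 →
    Prim q K (pw p K (plEl p s h) (1 - (ζ : K)))) →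
  Prim q K (1 - (ζ : K))

section Poly

variable {p : ℕ} [Fact p.Prime] {q : ℕ} [Fact q.Prime]

/-- a polynomial with coefficients divisible by `q` -/
theorem exists_C_mul_of_map_eq_zero {P : ℤ[X]} (h : P.map (Int.castRingHom (ZMod q)) = 0) :
    ∃ R : ℤ[X], P = C (q : ℤ) * R := by
  rw [← dvd_def, C_dvd_iff_dvd_coeff]
  intro i
  have h1 := congrArg (fun T => T.coeff i) h
  simp only [coeff_map, coeff_zero, eq_intCast] at h1
  exact (ZMod.intCast_zmod_eq_zero_iff_dvd _ _).mp h1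

theorem plEl_X_pow_mul (s : (ZMod p)ˣ) (P : ℤ[X]) :
    plEl p s (X ^ (p - 1) * P) = plEl p s P := by
  induction P using Polynomial.induction_on' with
  | add P Q hP hQ => rw [mul_add, plEl_add, plEl_add, hP, hQ]
  | monomial i c =>
    have h1 : (X : ℤ[X]) ^ (p - 1) = monomial (p - 1) 1 := (monomial_one_right_eq_X_pow _).symm
    rw [h1, monomial_mul_monomial, plEl_monomial, plEl_monomial, pow_add,
      ZMod.units_pow_card_sub_one_eq_one, one_mul, one_mul]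

theorem plEl_sub (s : (ZMod p)ˣ) (P Q : ℤ[X]) : plEl p s (P - Q) = plEl p s P - plEl p s Q := by
  rw [eq_sub_iff_add_eq, ← plEl_add, sub_add_cancel]

/-- `P(s) ≡ 0 mod q` if `X ^ (p - 1) - 1` divides `P` modulo `q` -/
theorem dvd_plEl (s : (ZMod p)ˣ) {P : ℤ[X]}
    (h : (X ^ (p - 1) - 1 : (ZMod q)[X]) ∣ P.map (Int.castRingHom (ZMod q))) (a : (ZMod p)ˣ) :
    (q : ℤ) ∣ plEl p s P a := by
  obtain ⟨Q', hQ'⟩ := h
  obtain ⟨Q, rfl⟩ := Polynomial.map_surjective (Int.castRingHom (ZMod q))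
    (ZMod.ringHom_surjective _) Q'
  have h1 : (P - (X ^ (p - 1) - 1) * Q).map (Int.castRingHom (ZMod q)) = 0 := by
    simp [hQ']
  obtain ⟨R, hR⟩ := exists_C_mul_of_map_eq_zero h1
  have h2 : P = X ^ (p - 1) * Q - Q + C (q : ℤ) * R := by
    rw [← hR]
    ring
  rw [h2, plEl_add, plEl_sub, plEl_X_pow_mul, sub_self, zero_add, plEl_C_mul]
  exact ⟨plEl p s R a, rfl⟩

/-- the coefficients of a polynomial of degree `< p - 1` -/
theorem plEl_apply_pow {s : (ZMod p)ˣ} (hs : ∀ a, a ∈ Subgroup.zpowers s) {P : ℤ[X]}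
    (hP : P.natDegree < p - 1) {i : ℕ} (hi : i < p - 1) : plEl p s P (s ^ i) = P.coeff i := by
  have hord : orderOf s = p - 1 := by
    rw [orderOf_eq_card_of_forall_mem_zpowers hs, Nat.card_eq_fintype_card, ZMod.card_units]
  rw [plEl_eq s P (p - 1) hP, Finset.sum_apply, Finset.sum_eq_single i]
  · rw [Pi.single_eq_same]
  · intro j hj hji
    rw [Pi.single_eq_of_ne]
    intro h
    exact hji (pow_injOn_Iio_orderOf (by rw [hord]; exact Finset.mem_range.mp hj)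
      (by rw [hord]; exact hi) h.symm)
  · intro h
    exact absurd (Finset.mem_range.mpr hi) h

end Poly

section Poly2

variable {p : ℕ} [Fact p.Prime] {q : ℕ} [Fact q.Prime]

/-- the converse of `dvd_plEl` -/
theorem dvd_of_dvd_plEl {s : (ZMod p)ˣ} (hs : ∀ a, a ∈ Subgroup.zpowers s) {P : ℤ[X]}
    (h : ∀ a, (q : ℤ) ∣ plEl p s P a) :
    (X ^ (p - 1) - 1 : (ZMod q)[X]) ∣ P.map (Int.castRingHom (ZMod q)) := by
  have hp : p.Prime := Fact.out
  have hp1 : p - 1 ≠ 0 := by have := hp.two_le; omega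
  have hm : (X ^ (p - 1) - 1 : ℤ[X]).Monic := monic_X_pow_sub_C 1 hp1
  set D : ℤ[X] := X ^ (p - 1) - 1 with hD
  have hdeg : D.natDegree = p - 1 := natDegree_X_pow_sub_C (r := (1 : ℤ))
  have hne : D ≠ 1 := by
    intro h1
    rw [h1, natDegree_one] at hdeg
    exact hp1 hdeg.symm
  have h1 : P = P %ₘ D + D * (P /ₘ D) := (modByMonic_add_div P D).symm
  have h2 : (P %ₘ D).natDegree < p - 1 := by
    rw [← hdeg]
    exact natDegree_modByMonic_lt P hm hne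
  have h3 : plEl p s P = plEl p s (P %ₘ D) := by
    conv_lhs => rw [h1]
    rw [plEl_add, hD, sub_mul, one_mul, plEl_sub, plEl_X_pow_mul, sub_self, add_zero]
  have h4 : (P %ₘ D).map (Int.castRingHom (ZMod q)) = 0 := by
    ext i
    rw [coeff_map, coeff_zero, eq_intCast, ZMod.intCast_zmod_eq_zero_iff_dvd]
    rcases lt_or_ge i (p - 1) with hi | hi
    · rw [← plEl_apply_pow hs h2 hi, ← h3]
      exact h _
    · rw [coeff_eq_zero_of_natDegree_lt (h2.trans_le hi)]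
      exact dvd_zero _
  have h5 : D.map (Int.castRingHom (ZMod q)) = X ^ (p - 1) - 1 := by
    rw [hD]
    simp
  rw [h1, Polynomial.map_add, h4, zero_add, Polynomial.map_mul, h5]
  exact dvd_mul_right _ _

end Poly2

end Fermat.Agent.Cor.Catalan
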