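import Fermat.Agent.Corollaries.Catalan.PlusDefs
import Fermat.Agent.Corollaries.Catalan.NotPrimary

/-!
# Catalan's equation: the group of `q`-primary elements
-/

set_option autoImplicit false

namespace Fermat.Agent.Cor.Catalan

open NumberField Polynomial

section Field

variable {p : ℕ} [Fact p.Prime] {K : Type} [Field K] [NumberField K]
  [IsCyclotomicExtension {p} ℚ K] {q : ℕ}

omit [Fact p.Prime] [IsCyclotomicExtension {p} ℚ K] in
/-- an integer `≡ 1 mod q ^ 2` is not zero -/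
theorem ne_zero_of_sq_dvd (hq : q.Prime) {a : 𝓞 K} (ha : (q : 𝓞 K) ^ 2 ∣ a - 1) : a ≠ 0 := by
  rintro rfl
  rw [zero_sub, dvd_neg] at ha
  have h1 : (((q : ℤ) ^ 2 : ℤ) : 𝓞 K) ∣ ((1 : ℤ) : 𝓞 K) := by
    push_cast
    exact ha
  have h2 := Cat.Mih.intCast_dvd_iff h1
  have h3 : (q : ℤ) ∣ 1 := (dvd_pow_self _ two_ne_zero).trans h2
  have h4 : q ∣ 1 := by exact_mod_cast h3
  exact hq.ne_one (Nat.dvd_one.mp h4)

omit [Fact p.Prime] [IsCyclotomicExtension {p} ℚ K] in
theorem Prim.mul {z z' : K} (h : Prim q K z) (h' : Prim q K z') : Prim q K (z * z') := by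
  obtain ⟨a, w, hw, rfl, ha⟩ := h
  obtain ⟨a', w', hw', rfl, ha'⟩ := h'
  refine ⟨a * a', w * w', mul_ne_zero hw hw', ?_, ?_⟩
  · push_cast
    ring
  · have h1 : a * a' - 1 = (a - 1) * a' + (a' - 1) := by ring
    rw [h1]
    exact dvd_add (ha.mul_right _) ha'

omit [Fact p.Prime] [IsCyclotomicExtension {p} ℚ K] in
/-- `q`-th powers -/
theorem Prim.pow_self (q : ℕ) {w : K} (hw : w ≠ 0) : Prim q K (w ^ q) :=
  ⟨1, w, hw, by simp, by simp⟩

omit [Fact p.Prime] [IsCyclotomicExtension {p} ℚ K] in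
theorem Prim.one (q : ℕ) : Prim q K (1 : K) := by
  simpa using Prim.pow_self (K := K) q (one_ne_zero)

omit [Fact p.Prime] [IsCyclotomicExtension {p} ℚ K] in
theorem Prim.pow {z : K} (h : Prim q K z) (n : ℕ) : Prim q K (z ^ n) := by
  induction n with
  | zero => rw [pow_zero]; exact Prim.one q
  | succ n ih => rw [pow_succ]; exact ih.mul h

omit [Fact p.Prime] [IsCyclotomicExtension {p} ℚ K] in
theorem Prim.ne_zero (hq : q.Prime) {z : K} (h : Prim q K z) : z ≠ 0 := by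
  obtain ⟨a, w, hw, rfl, ha⟩ := h
  refine mul_ne_zero ?_ (pow_ne_zero _ hw)
  have := ne_zero_of_sq_dvd hq ha
  simpa using this

omit [Fact p.Prime] [IsCyclotomicExtension {p} ℚ K] in
theorem Prim.inv (hq : q.Prime) {z : K} (h : Prim q K z) : Prim q K z⁻¹ := by
  have hz := h.ne_zero hq
  have h1 : z⁻¹ = z ^ (q - 1) * (z⁻¹) ^ q := by
    obtain ⟨k, rfl⟩ : ∃ k, q = k + 1 := ⟨q - 1, by have := hq.one_le; omega⟩
    rw [Nat.add_sub_cancel, pow_succ, ← mul_assoc, ← mul_pow, mul_inv_cancel₀ hz, one_pow,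
      one_mul]
  rw [h1]
  exact (h.pow _).mul (Prim.pow_self q (inv_ne_zero hz))

omit [Fact p.Prime] [IsCyclotomicExtension {p} ℚ K] in
theorem Prim.zpow (hq : q.Prime) {z : K} (h : Prim q K z) (n : ℤ) : Prim q K (z ^ n) := by
  obtain ⟨k, rfl | rfl⟩ := n.eq_nat_or_neg
  · rw [zpow_natCast]
    exact h.pow k
  · rw [zpow_neg, zpow_natCast]
    exact (h.pow k).inv hq

omit [Fact p.Prime] [IsCyclotomicExtension {p} ℚ K] in
theorem Prim.div (hq : q.Prime) {z z' : K} (h : Prim q K z) (h' : Prim q K z') :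
    Prim q K (z / z') := by
  rw [div_eq_mul_inv]
  exact h.mul (h'.inv hq)

omit [Fact p.Prime] [IsCyclotomicExtension {p} ℚ K] in
/-- multiplication by a `q`-th power does not matter -/
theorem Prim.of_mul_pow {z w : K} (hw : w ≠ 0) (h : Prim q K (z * w ^ q)) : Prim q K z := by
  have h1 : z = z * w ^ q * (w⁻¹) ^ q := by
    rw [inv_pow, mul_assoc, mul_inv_cancel₀ (pow_ne_zero _ hw), mul_one]
  rw [h1]
  exact h.mul (Prim.pow_self q (inv_ne_zero hw))

theorem Prim.sg {z : K} (h : Prim q K z) (b : (ZMod p)ˣ) : Prim q K (sg p K b z) := by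
  obtain ⟨a, w, hw, rfl, c, hc⟩ := h
  refine ⟨JacobiSumStickelberger.clRingAction p K b a, Catalan.sg p K b w, sg_ne_zero b hw, ?_, ?_⟩
  · rw [map_mul, map_pow, coe_clRingAction]
  · refine ⟨JacobiSumStickelberger.clRingAction p K b c, ?_⟩
    have h1 := congrArg (JacobiSumStickelberger.clRingAction p K b) hc
    rw [map_sub, map_mul, map_pow, map_natCast, map_one] at h1
    exact h1

omit [Fact p.Prime] [IsCyclotomicExtension {p} ℚ K] in
theorem Prim.prod (q : ℕ) {ι : Type*} (s : Finset ι) (f : ι → K) (h : ∀ i ∈ s, Prim q K (f i)) :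
    Prim q K (∏ i ∈ s, f i) := by
  classical
  induction s using Finset.induction_on with
  | empty => rw [Finset.prod_empty]; exact Prim.one q
  | insert i s hi ih =>
    rw [Finset.prod_insert hi]
    exact (h i (Finset.mem_insert_self i s)).mul
      (ih fun j hj => h j (Finset.mem_insert_of_mem hj))

theorem Prim.pw (hq : q.Prime) {z : K} (h : Prim q K z) (n : (ZMod p)ˣ → ℤ) :
    Prim q K (pw p K n z) :=
  Prim.prod q _ _ fun a _ => (h.sg a).zpow hq (n a)

/-- `x - ζ` is primary if `q ^ 2 ∣ x` -/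
theorem prim_sub {ζ : 𝓞 K} (hζ : IsPrimitiveRoot ζ p) (hq : q.Prime) (hq2 : q ≠ 2)
    (hqp : q ≠ p) {x : ℤ} (hx : (q : ℤ) ^ 2 ∣ x) : Prim q K ((x : K) - ζ) := by
  obtain ⟨η, hη, hηq⟩ := exists_root_of_unity hζ hq hqp
  have hodd : Odd q := hq.odd_of_ne_two hq2
  have hp : p.Prime := Fact.out
  have hη0 : η ≠ 0 := hη.ne_zero hp.ne_zero
  have hinv : ζ * ζ ^ (p - 1) = 1 := by
    rw [← pow_succ', show p - 1 + 1 = p by have := hp.two_le; omega, hζ.pow_eq_one]
  refine ⟨1 - x * ζ ^ (p - 1), -(η : K), ?_, ?_, ?_⟩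
  · rw [neg_ne_zero]
    simpa using hη0
  · have h1 : (-(η : K)) ^ q = -(ζ : K) := by
      rw [hodd.neg_pow, ← hηq]
      push_cast
      rfl
    rw [h1]
    have h2 : (ζ : K) * (ζ : K) ^ (p - 1) = 1 := by
      have := congrArg (algebraMap (𝓞 K) K) hinv
      simpa using this
    have h3 : ((1 - x * ζ ^ (p - 1) : 𝓞 K) : K) = 1 - (x : K) * (ζ : K) ^ (p - 1) := by
      change algebraMap (𝓞 K) K (1 - x * ζ ^ (p - 1)) = _
      rw [map_sub, map_one, map_mul, map_intCast, map_pow]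
    rw [h3]
    linear_combination (-(x : K)) * h2
  · obtain ⟨c, rfl⟩ := hx
    refine ⟨-(c * ζ ^ (p - 1)), ?_⟩
    push_cast
    ring

/-- from `Prim` to a congruence between integers -/
theorem exists_of_prim (hq : q.Prime) {z : 𝓞 K} (h : Prim q K (z : K)) :
    ∃ γ : 𝓞 K, (q : 𝓞 K) ^ 2 ∣ z - γ ^ q := by
  obtain ⟨a, w, hw, hz, ha⟩ := h
  have ha0 := ne_zero_of_sq_dvd hq ha
  obtain ⟨k, hk⟩ : ∃ k, q = k + 1 := ⟨q - 1, by have := hq.one_le; omega⟩
  have h1 : ((a : K) * w) ^ q = (z : K) * (a : K) ^ k := by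
    rw [hz, mul_pow, hk]
    ring
  have h2 : IsIntegral ℤ ((a : K) * w) := by
    refine IsIntegral.of_pow hq.pos ?_
    rw [h1]
    exact (RingOfIntegers.isIntegral_coe _).mul ((RingOfIntegers.isIntegral_coe _).pow _)
  obtain ⟨g, hg⟩ : ∃ g : 𝓞 K, (g : K) = (a : K) * w :=
    IsIntegralClosure.isIntegral_iff.mp h2
  refine ⟨g, ?_⟩
  have h3 : g ^ q = z * a ^ k := by
    apply RingOfIntegers.coe_injective
    rw [map_pow, map_mul, map_pow]
    rw [← hg] at h1
    exact h1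
  rw [h3]
  have h4 : (a - 1) ∣ a ^ k - 1 := by
    simpa using sub_dvd_pow_sub_pow a 1 k
  have h5 : z - z * a ^ k = -(z * (a ^ k - 1)) := by ring
  rw [h5, dvd_neg]
  exact (ha.trans h4).mul_left z

end Field

end Fermat.Agent.Cor.Catalan
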