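import Fermat.Agent.Corollaries.Catalan.Main

/-!
# Consequences of Mihăilescu's theorem

* `consecutive_primePow`: if `n` and `n + 1` are prime powers then `n = 8`, or `n + 1` is a Fermat
  prime, or `n` is a Mersenne prime;
* `fermat_catalan_one`: the generalized Fermat equation `1 + y ^ b = x ^ a`;
* `two_le_sub`: two different perfect powers of positive integers, the smaller not `8`, are at
  least `2` apart.
-/

set_option autoImplicit false

namespace Fermat.Agent.Cor.Catalan

/-- **Consecutive prime powers**: if `n` and `n + 1` are prime powers then `n = 8`, or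
`n = 2 ^ (2 ^ k)` and `n + 1` is a Fermat prime, or `n = 2 ^ p - 1` is a Mersenne prime. -/
theorem consecutive_primePow {n : ℕ} (h : IsPrimePow n) (h' : IsPrimePow (n + 1)) :
    n = 8 ∨ (∃ k : ℕ, (2 ^ 2 ^ k + 1).Prime ∧ n = 2 ^ 2 ^ k) ∨
      ∃ p : ℕ, p.Prime ∧ (2 ^ p - 1).Prime ∧ n = 2 ^ p - 1 := by
  obtain ⟨r, k, hr, hk, hrk⟩ := (isPrimePow_nat_iff n).mp h
  obtain ⟨q, b, hq, hb, hqb⟩ := (isPrimePow_nat_iff (n + 1)).mp h'
  rcases Nat.even_or_odd n with he | ho
  · -- `n = 2 ^ k`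
    have hr2 : r = 2 := by
      have h1 : 2 ∣ r ^ k := by rw [hrk]; exact he.two_dvd
      exact ((Nat.prime_dvd_prime_iff_eq Nat.prime_two hr).mp
        (Nat.prime_two.dvd_of_dvd_pow h1)).symm
    subst hr2
    rcases Nat.lt_or_ge 1 b with hb1 | hb1
    · rcases Nat.lt_or_ge 1 k with hk1 | hk1
      · obtain ⟨-, -, -, h4⟩ := mihailescu q 2 b k hb1 hk1 hq.pos two_pos (by rw [hqb, hrk])
        left
        rw [← hrk, h4]
        norm_num
      · have h1 : k = 1 := by omega
        subst h1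
        exfalso
        have h2 : q ^ b = 3 := by rw [hqb, ← hrk, pow_one]
        exact Nat.Prime.not_prime_pow hb1 (h2 ▸ Nat.prime_three)
    · have h1 : b = 1 := by omega
      subst h1
      have h2 : (2 ^ k + 1).Prime := by
        rw [hrk, ← hqb, pow_one]
        exact hq
      obtain ⟨m, rfl⟩ := Nat.pow_of_pow_add_prime one_lt_two hk.ne' h2
      exact Or.inr (Or.inl ⟨m, h2, hrk.symm⟩)
  · -- `n + 1 = 2 ^ b`
    have hq2 : q = 2 := by
      have h1 : 2 ∣ q ^ b := by rw [hqb]; exact ho.add_one.two_dvd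
      exact ((Nat.prime_dvd_prime_iff_eq Nat.prime_two hq).mp
        (Nat.prime_two.dvd_of_dvd_pow h1)).symm
    subst hq2
    have hn1 : n ≠ 1 := h.ne_one
    have hn0 : n ≠ 0 := h.ne_zero
    have hb1 : 1 < b := by
      by_contra hcon
      have h1 : b = 1 := by omega
      rw [h1, pow_one] at hqb
      omega
    rcases Nat.lt_or_ge 1 k with hk1 | hk1
    · obtain ⟨h1, -, -, -⟩ := mihailescu 2 r b k hb1 hk1 two_pos hr.pos (by rw [hqb, hrk])
      omega
    · have h1 : k = 1 := by omega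
      subst h1
      rw [pow_one] at hrk
      have h2 : n = 2 ^ b - 1 := by omega
      have h3 : (2 ^ b - 1).Prime := by
        rw [← h2, ← hrk]
        exact hr
      obtain ⟨-, h4⟩ := Nat.prime_of_pow_sub_one_prime hb1.ne' h3
      exact Or.inr (Or.inr ⟨b, h4, h3, h2⟩)

/-- The generalized Fermat equation `1 ^ n + y ^ b = x ^ a`, `a, b > 1`: only `1 + 2 ^ 3 = 3 ^ 2`. -/
theorem fermat_catalan_one {n x y a b : ℕ} (ha : 1 < a) (hb : 1 < b) (hx : 0 < x) (hy : 0 < y) :
    1 ^ n + y ^ b = x ^ a ↔ x = 3 ∧ a = 2 ∧ y = 2 ∧ b = 3 := by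
  rw [one_pow, add_comm, eq_comm]
  exact mihailescu_iff ha hb hx hy

/-- Different perfect powers `m < n` of positive integers are at least `2` apart, except `8`, `9`. -/
theorem two_le_sub {m n : ℕ} (hm : 0 < m) (hmn : m < n) (h1 : ∃ y b : ℕ, 1 < b ∧ m = y ^ b)
    (h2 : ∃ x a : ℕ, 1 < a ∧ n = x ^ a) (h89 : m ≠ 8) : m + 2 ≤ n := by
  by_contra hcon
  have h3 : n = m + 1 := by omega
  subst h3
  exact h89 (consecutive_powers hm h1 h2)

end Fermat.Agent.Cor.Catalan
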