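import Fermat.Agent.Corollaries.Ray.FormsMain
import Fermat.Agent.Corollaries.Recip.Const

/-!
# Ray characters on ideals, and primes on which two of them do not vanish

* `divVal_eq_of_rayEq`: an additive ray character (`LT.IsRay`) depends only on the ray class;
* `exists_deg_one_of_two`: two homomorphisms on ideals which depend only on the ray class and are
  both non-trivial are simultaneously non-trivial at a prime ideal of residue degree one.
-/

set_option autoImplicit false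

namespace Fermat.Agent.Cor.Catalan

open NumberField IsDedekindDomain nonZeroDivisors WithZero
open Fermat.Agent.CFT.SUnits (ord ord_mul ord_inv ord_pow ord_div ord_eq_zero_iff ord_eq_count)
open Fermat.Agent.CFT.Global (cong mem_cong)
open Fermat.Agent.LT (divVal divVal_single divVal_single_of_mem rayVal rayVal_apply IsRay)
open Fermat.Agent.Cor.Ray (RayEq)
open Fermat.Agent.Cor.Recip (unt unt_val)

section Bridge

variable {K : Type*} [Field K] [NumberField K] {A : Type*} [AddCommGroup A]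

/-- the divisor of an integral ideal -/
noncomputable def dv (I : (Ideal (𝓞 K))⁰) : HeightOneSpectrum (𝓞 K) →₀ ℤ :=
  Finsupp.ofSupportFinite
    (fun v => FractionalIdeal.count K v (((I : Ideal (𝓞 K)) : FractionalIdeal (𝓞 K)⁰ K))) (by
      have h := FractionalIdeal.finite_factors (K := K)
        (((I : Ideal (𝓞 K)) : FractionalIdeal (𝓞 K)⁰ K))
      rw [Filter.eventually_cofinite] at h
      exact h)

lemma dv_apply (I : (Ideal (𝓞 K))⁰) (v : HeightOneSpectrum (𝓞 K)) :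
    dv I v = FractionalIdeal.count K v (((I : Ideal (𝓞 K)) : FractionalIdeal (𝓞 K)⁰ K)) := rfl

lemma coeIdeal_ne (I : (Ideal (𝓞 K))⁰) :
    (((I : Ideal (𝓞 K)) : FractionalIdeal (𝓞 K)⁰ K)) ≠ 0 :=
  FractionalIdeal.coeIdeal_ne_zero.mpr (nonZeroDivisors.coe_ne_zero I)

lemma dv_mul (I J : (Ideal (𝓞 K))⁰) : dv (I * J) = dv I + dv J := by
  ext v
  rw [Finsupp.add_apply, dv_apply, dv_apply, dv_apply, Submonoid.coe_mul,
    FractionalIdeal.coeIdeal_mul, FractionalIdeal.count_mul K v (coeIdeal_ne I) (coeIdeal_ne J)]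

lemma dv_one : dv (1 : (Ideal (𝓞 K))⁰) = 0 := by
  have h := dv_mul (1 : (Ideal (𝓞 K))⁰) 1
  rw [mul_one] at h
  exact left_eq_add.mp h

/-- the place as a nonzero ideal -/
def pl (P : HeightOneSpectrum (𝓞 K)) : (Ideal (𝓞 K))⁰ :=
  ⟨P.asIdeal, mem_nonZeroDivisors_of_ne_zero P.ne_bot⟩

open Classical in
lemma dv_pl (P : HeightOneSpectrum (𝓞 K)) : dv (pl P) = Finsupp.single P 1 := by
  ext v
  rw [dv_apply, Finsupp.single_apply]
  exact FractionalIdeal.count_maximal K v P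

/-- the value of a function on places on ideals -/
noncomputable def idVal (S : Finset (HeightOneSpectrum (𝓞 K))) (η : HeightOneSpectrum (𝓞 K) → A) :
    (Ideal (𝓞 K))⁰ →* Multiplicative A where
  toFun I := Multiplicative.ofAdd (divVal S η (dv I))
  map_one' := by rw [dv_one, map_zero, ofAdd_zero]
  map_mul' I J := by rw [dv_mul, map_add, ofAdd_add]

lemma idVal_pl {S : Finset (HeightOneSpectrum (𝓞 K))} {η : HeightOneSpectrum (𝓞 K) → A}
    {P : HeightOneSpectrum (𝓞 K)} (hP : P ∉ S) :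
    idVal S η (pl P) = Multiplicative.ofAdd (η P) := by
  classical
  change Multiplicative.ofAdd (divVal S η (dv (pl P))) = _
  rw [dv_pl, divVal_single S η hP, one_smul]

/-- the modulus -/
noncomputable def modS (S : Finset (HeightOneSpectrum (𝓞 K))) (n : ℕ) : Ideal (𝓞 K) :=
  ∏ v ∈ S, v.asIdeal ^ (n + 1)

omit [NumberField K] in
lemma modS_ne_bot (S : Finset (HeightOneSpectrum (𝓞 K))) (n : ℕ) : modS S n ≠ ⊥ := by
  rw [modS, ← Ideal.zero_eq_bot, Finset.prod_ne_zero_iff]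
  exact fun v _ => pow_ne_zero _ v.ne_bot

omit [NumberField K] in
lemma modS_le {S : Finset (HeightOneSpectrum (𝓞 K))} {n : ℕ} {v : HeightOneSpectrum (𝓞 K)}
    (hv : v ∈ S) : modS S n ≤ v.asIdeal ^ (n + 1) :=
  Ideal.le_of_dvd (Finset.dvd_prod_of_mem _ hv)

omit [NumberField K] in
lemma modS_le' {S : Finset (HeightOneSpectrum (𝓞 K))} {n : ℕ} {v : HeightOneSpectrum (𝓞 K)}
    (hv : v ∈ S) : modS S n ≤ v.asIdeal :=
  (modS_le hv).trans (Ideal.pow_le_self n.succ_ne_zero)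

omit [NumberField K] in
lemma notMem_of_coprime {S : Finset (HeightOneSpectrum (𝓞 K))} {n : ℕ}
    {P : HeightOneSpectrum (𝓞 K)} (h : IsCoprime P.asIdeal (modS S n)) : P ∉ S := by
  intro hP
  apply P.isPrime.ne_top
  rw [← Ideal.isCoprime_iff_sup_eq.mp h]
  exact (sup_eq_left.mpr (modS_le' hP)).symm

lemma coprime_of_notMem {S : Finset (HeightOneSpectrum (𝓞 K))} {n : ℕ}
    {P : HeightOneSpectrum (𝓞 K)} (h : P ∉ S) : IsCoprime P.asIdeal (modS S n) := by
  refine IsCoprime.prod_right fun v hv => IsCoprime.pow_right ?_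
  have hne : P ≠ v := by
    rintro rfl
    exact h hv
  exact Ideal.isCoprime_of_isMaximal fun h' => hne (HeightOneSpectrum.ext h')

/-- **Ray characters depend only on the ray class.** -/
theorem idVal_eq_of_rayEq {S : Finset (HeightOneSpectrum (𝓞 K))} {n : ℕ}
    {η : HeightOneSpectrum (𝓞 K) → A} (hη : IsRay S n η) {I J : (Ideal (𝓞 K))⁰}
    (h : RayEq (modS S n) I J) : idVal S η I = idVal S η J := by
  classical
  obtain ⟨a, b, ha, hb, hcop, hab, hIJ⟩ := h
  have h1 (v : HeightOneSpectrum (𝓞 K)) {c : 𝓞 K} (hc : c ≠ 0) :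
      ord v (unt hc) = FractionalIdeal.count K v
        (((Ideal.span {c} : Ideal (𝓞 K)) : FractionalIdeal (𝓞 K)⁰ K)) := by
    rw [ord_eq_count, unt_val, FractionalIdeal.coeIdeal_span_singleton]
  have h2 {c : 𝓞 K} (hc : c ≠ 0) :
      (((Ideal.span {c} : Ideal (𝓞 K)) : FractionalIdeal (𝓞 K)⁰ K)) ≠ 0 := by
    rw [FractionalIdeal.coeIdeal_ne_zero, Ne, Ideal.span_singleton_eq_bot]
    exact hc
  have hdiv : CFT.SUnits.div (R := 𝓞 K) (unt ha / unt hb) = dv J - dv I := by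
    ext v
    rw [CFT.SUnits.div_apply, ord_div, Finsupp.sub_apply, dv_apply, dv_apply, h1 v ha, h1 v hb]
    have h3 := congrArg (fun L : Ideal (𝓞 K) => FractionalIdeal.count K v
      ((L : FractionalIdeal (𝓞 K)⁰ K))) hIJ
    simp only [FractionalIdeal.coeIdeal_mul] at h3
    rw [FractionalIdeal.count_mul K v (h2 ha) (coeIdeal_ne I),
      FractionalIdeal.count_mul K v (h2 hb) (coeIdeal_ne J)] at h3
    linarith
  have hx : ∀ v ∈ S, unt ha / unt hb ∈ cong v n := by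
    intro v hv
    have hav : a ∉ v.asIdeal := by
      intro h
      apply v.isPrime.ne_top
      rw [eq_top_iff, ← Ideal.isCoprime_iff_sup_eq.mp hcop, sup_le_iff]
      exact ⟨(Ideal.span_singleton_le_iff_mem _).mpr h, modS_le' hv⟩
    have hbv : b ∉ v.asIdeal := by
      intro h
      apply hav
      have := v.asIdeal.add_mem (modS_le' hv hab) h
      rwa [sub_add_cancel] at this
    have hb1 : v.valuation K (algebraMap (𝓞 K) K b) = 1 :=
      (v.valuation_eq_one_iff_notMem (K := K)).2 hbv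
    have hb0 : algebraMap (𝓞 K) K b ≠ 0 := (unt hb).ne_zero
    rw [mem_cong, Units.val_div_eq_div_val, unt_val, unt_val, div_sub_one hb0, ← map_sub,
      map_div₀, hb1, _root_.div_one, HeightOneSpectrum.valuation_of_algebraMap]
    have h4 := (v.intValuation_le_pow_iff_mem (a - b) (n + 1)).mpr (modS_le hv hab)
    exact_mod_cast h4
  have h5 := hη _ hx
  rw [rayVal_apply, hdiv, map_sub] at h5
  have h6 : divVal S η (dv J) - divVal S η (dv I) = 0 := by
    exact Multiplicative.ofAdd.injective (h5.trans ofAdd_zero.symm)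
  change Multiplicative.ofAdd (divVal S η (dv I)) = Multiplicative.ofAdd (divVal S η (dv J))
  rw [sub_eq_zero.mp h6]

end Bridge

section Two

variable {N : Type} [Field N] [NumberField N] {X₁ X₂ : Type*} [Monoid X₁] [Monoid X₂]

/-- **Two characters**: the ideals are not the union of two proper subgroups. -/
theorem exists_deg_one_of_two {𝔪 : Ideal (𝓞 N)} (h𝔪 : 𝔪 ≠ ⊥)
    (f₁ : (Ideal (𝓞 N))⁰ →* X₁) (f₂ : (Ideal (𝓞 N))⁰ →* X₂)
    (h₁ : ∀ I J, RayEq 𝔪 I J → f₁ I = f₁ J) (h₂ : ∀ I J, RayEq 𝔪 I J → f₂ I = f₂ J)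
    (e₁ : ∃ I : (Ideal (𝓞 N))⁰, IsCoprime (I : Ideal (𝓞 N)) 𝔪 ∧ f₁ I ≠ 1)
    (e₂ : ∃ I : (Ideal (𝓞 N))⁰, IsCoprime (I : Ideal (𝓞 N)) 𝔪 ∧ f₂ I ≠ 1) (B : ℕ) :
    ∃ P : HeightOneSpectrum (𝓞 N), (Ideal.absNorm P.asIdeal).Prime ∧ B < Ideal.absNorm P.asIdeal ∧
      IsCoprime P.asIdeal 𝔪 ∧ f₁ (pl P) ≠ 1 ∧ f₂ (pl P) ≠ 1 := by
  obtain ⟨J, hJ, hJ₁, hJ₂⟩ : ∃ J : (Ideal (𝓞 N))⁰, IsCoprime (J : Ideal (𝓞 N)) 𝔪 ∧
      f₁ J ≠ 1 ∧ f₂ J ≠ 1 := by
    obtain ⟨I₁, c₁, e₁⟩ := e₁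
    obtain ⟨I₂, c₂, e₂⟩ := e₂
    by_cases h12 : f₂ I₁ = 1
    · by_cases h21 : f₁ I₂ = 1
      · refine ⟨I₁ * I₂, ?_, ?_, ?_⟩
        · rw [Submonoid.coe_mul]
          exact c₁.mul_left c₂
        · rw [map_mul, h21, mul_one]
          exact e₁
        · rw [map_mul, h12, one_mul]
          exact e₂
      · exact ⟨I₂, c₂, h21, e₂⟩
    · exact ⟨I₁, c₁, e₁, h12⟩
  have hinf := Ray.rayDegOne N 𝔪 h𝔪 J hJ
  have hfin : {P : ClassL.Pr N | Ideal.absNorm (P.1 : Ideal (𝓞 N)) ≤ B}.Finite := by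
    refine Set.Finite.of_finite_image (f := fun P : ClassL.Pr N => (P.1 : Ideal (𝓞 N)))
      ((Ideal.finite_setOfPred_absNorm_le (S := 𝓞 N) B).subset ?_) ?_
    · rintro _ ⟨P, hP, rfl⟩
      exact hP
    · intro P _ Q _ h
      exact Subtype.ext (Subtype.ext h)
  obtain ⟨P, ⟨hP1, hP2⟩, hPB⟩ := (hinf.sdiff hfin).nonempty
  have hPp : (P.1 : Ideal (𝓞 N)).IsPrime := Ideal.isPrime_of_prime P.2
  let P' : HeightOneSpectrum (𝓞 N) := ⟨(P.1 : Ideal (𝓞 N)), hPp, P.2.ne_zero⟩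
  have hpl : pl P' = P.1 := Subtype.ext rfl
  refine ⟨P', hP2, not_le.mp hPB, Ray.RayEq.coprime hP1 hJ, ?_, ?_⟩
  · rw [hpl, h₁ _ _ hP1]
    exact hJ₁
  · rw [hpl, h₂ _ _ hP1]
    exact hJ₂

end Two

end Fermat.Agent.Cor.Catalan
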