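import Fermat.Agent.Corollaries.Catalan.Ideal
import Fermat.Agent.Corollaries.Cat.Theta

/-!
# Catalan's equation: the `q`-th roots

Stickelberger's relation for the element `∑_{c > p/2} σ_c⁻¹` (on ideal classes, `stickStmt`), and: for
a solution of `x ^ p - y ^ q = 1` the element `(x - ζ) ^ (1 - ι) θ`, `θ = ∑_{c > p/2} σ_c⁻¹`, and its
conjugates are `q`-th powers in `ℚ(ζ)` (`rootStmt_of`).
-/

set_option autoImplicit false
set_option linter.style.haveILetI false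

namespace Fermat.Agent.Cor.Catalan.XZ

open NumberField Finset
open scoped nonZeroDivisors

/-- The half `{c : c⁻¹ > p/2}` of the group. -/
def halfSet (p : ℕ) [Fact p.Prime] : Finset (ZMod p)ˣ :=
  univ.filter fun a => p < 2 * ((a⁻¹ : (ZMod p)ˣ) : ZMod p).val

theorem mem_halfSet {p : ℕ} [Fact p.Prime] {a : (ZMod p)ˣ} :
    a ∈ halfSet p ↔ p < 2 * ((a⁻¹ : (ZMod p)ˣ) : ZMod p).val := by
  rw [halfSet, mem_filter]
  simp only [mem_univ, true_and]

theorem neg_mem_halfSet {p : ℕ} [hp : Fact p.Prime] (hp2 : p ≠ 2) (a : (ZMod p)ˣ) :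
    -a ∈ halfSet p ↔ a ∉ halfSet p := by
  rw [mem_halfSet, mem_halfSet]
  have h1 : (((-a)⁻¹ : (ZMod p)ˣ) : ZMod p) = -((a⁻¹ : (ZMod p)ˣ) : ZMod p) := by
    rw [inv_neg, Units.val_neg]
  rw [h1, ZMod.neg_val, if_neg (a⁻¹).ne_zero]
  have h2 : Odd p := hp.out.odd_of_ne_two hp2
  have h3 := ZMod.val_lt ((a⁻¹ : (ZMod p)ˣ) : ZMod p)
  obtain ⟨k, hk⟩ := h2
  omega

section

variable {p : ℕ} [hp : Fact p.Prime] {K : Type} [Field K] [NumberField K]
  [hcyc : IsCyclotomicExtension {p} ℚ K] {ζ : K}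

theorem expo_sg (hζ : IsPrimitiveRoot ζ p) (a : (ZMod p)ˣ) :
    Cat.expo hζ (sg p K a) = (a : ZMod p).val := by
  have h1 := Cat.pow_expo hζ (sg p K a)
  rw [sg_apply p hζ] at h1
  exact hζ.pow_inj (Cat.expo_lt hζ _) (ZMod.val_lt _) h1

theorem sg_inv (a : (ZMod p)ˣ) : sg p K a⁻¹ = (sg p K a)⁻¹ :=
  map_inv (JacobiSumStickelberger.cycloGalEquiv p K).symm a

theorem sg_mem_half (hζ : IsPrimitiveRoot ζ p) (a : (ZMod p)ˣ) :
    sg p K a ∈ Cat.half hζ ↔ a ∈ halfSet p := by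
  rw [Cat.mem_half, mem_halfSet, ← sg_inv, expo_sg hζ]

theorem prod_half (hζ : IsPrimitiveRoot ζ p) {M : Type*} [CommMonoid M]
    (f : (K ≃ₐ[ℚ] K) → M) :
    ∏ σ ∈ Cat.half hζ, f σ = ∏ a ∈ halfSet p, f (sg p K a) := by
  symm
  refine prod_nbij (sg p K) ?_ ?_ ?_ ?_
  · exact fun a ha => (sg_mem_half hζ a).mpr ha
  · exact (sg_injective p K).injOn
  · intro σ hσ
    refine ⟨JacobiSumStickelberger.cycloGalEquiv p K σ, ?_, ?_⟩
    · have h1 : sg p K (JacobiSumStickelberger.cycloGalEquiv p K σ) = σ :=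
        (JacobiSumStickelberger.cycloGalEquiv p K).symm_apply_apply σ
      rw [mem_coe, ← sg_mem_half hζ, h1]
      exact hσ
    · exact (JacobiSumStickelberger.cycloGalEquiv p K).symm_apply_apply σ
  · exact fun _ _ => rfl

theorem span_half_prime (hp2 : p ≠ 2) (hζ : IsPrimitiveRoot ζ p) {P : Ideal (𝓞 K)}
    (hP : P.IsPrime) (hN : (Ideal.absNorm P).Prime) (hNp : Ideal.absNorm P ≠ p) :
    ∃ α : 𝓞 K, ∏ σ ∈ Cat.half hζ, P.map (Cat.act σ) = Ideal.span {α} := by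
  have hcard : Nat.card (𝓞 K ⧸ P) = Ideal.absNorm P := by
    rw [Ideal.absNorm_apply, Submodule.cardQuot_apply]
  have : Finite (𝓞 K ⧸ P) := Nat.finite_of_card_ne_zero (hcard ▸ hN.ne_zero)
  have hmax : P.IsMaximal := hP.isMaximal fun h => hN.ne_zero (by rw [h, Ideal.absNorm_bot])
  let _ : Fintype (𝓞 K ⧸ P) := Fintype.ofFinite _
  let _ : Field (𝓞 K ⧸ P) := Ideal.Quotient.field P
  exact Cat.exists_span (r := Ideal.Quotient.mk P) hp2 hζ hP hN hNp
    (fun x => Ideal.Quotient.eq_zero_iff_mem) (by rw [← hcard, Nat.card_eq_fintype_card])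

/-- **Stickelberger's relation** `∏_{c > p/2} σ_c⁻¹ I ~ 1` for ideals. -/
theorem span_half (hp2 : p ≠ 2) (hζ : IsPrimitiveRoot ζ p) {I : Ideal (𝓞 K)} (hI : I ≠ ⊥) :
    ∃ α : 𝓞 K, ∏ σ ∈ Cat.half hζ, I.map (Cat.act σ) = Ideal.span {α} := by
  have hI0 : I ∈ (Ideal (𝓞 K))⁰ := mem_nonZeroDivisors_of_ne_zero hI
  obtain ⟨P, hPI, hPn, hPp⟩ := exists_deg_one_in_class (ClassGroup.mk0 ⟨I, hI0⟩) p
  obtain ⟨α, hα⟩ := span_half_prime hp2 hζ (Ideal.isPrime_of_prime P.2) hPn hPp.ne'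
  obtain ⟨x, y, hx, hy, hxy⟩ := ClassGroup.mk0_eq_mk0_iff.mp hPI
  have h1 := congrArg (fun J => ∏ σ ∈ Cat.half hζ, Ideal.map (Cat.act σ) J) hxy
  simp only [Cat.prod_map_span_singleton_mul] at h1
  rw [hα, Ideal.span_singleton_mul_span_singleton] at h1
  exact Cat.exists_of_span_mul (prod_ne_zero_iff.mpr fun σ _ => Cat.act_ne_zero σ hy) h1

/-- The same for ideal classes. -/
theorem clPw_half (hp2 : p ≠ 2) (c : ClassGroup (𝓞 K)) : clPw p K (half p) c = 1 := by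
  obtain ⟨⟨I, hI⟩, rfl⟩ := ClassGroup.mk0_surjective c
  have hζ := IsCyclotomicExtension.zeta_spec p ℚ K
  obtain ⟨α, hα⟩ := span_half hp2 hζ (nonZeroDivisors.ne_zero hI)
  rw [prod_half hζ] at hα
  have h1 : clPw p K (half p) (ClassGroup.mk0 ⟨I, hI⟩) =
      ∏ a ∈ halfSet p, clAct p K a (ClassGroup.mk0 ⟨I, hI⟩) := by
    rw [clPw, halfSet, prod_filter]
    refine prod_congr rfl fun a _ => ?_
    rw [half]
    split_ifs
    · rw [zpow_one]
    · rw [zpow_zero]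
  rw [h1]
  have h2 : ∀ a : (ZMod p)ˣ, clAct p K a (ClassGroup.mk0 ⟨I, hI⟩) =
      ClassGroup.mk0 (Ideal.mapNonZero (JacobiSumStickelberger.clRingAction p K a) ⟨I, hI⟩) :=
    fun a => ClassGroup.mulEquiv_mk0 _ _
  rw [prod_congr rfl fun a _ => h2 a, ← map_prod, ClassGroup.mk0_eq_one_iff]
  have h3 : ((∏ a ∈ halfSet p, Ideal.mapNonZero (JacobiSumStickelberger.clRingAction p K a)
      ⟨I, hI⟩ : (Ideal (𝓞 K))⁰) : Ideal (𝓞 K)) = Ideal.span {α} := by
    rw [← hα, Submonoid.coe_finsetProd]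
    refine prod_congr rfl fun a _ => ?_
    rw [Ideal.coe_mapNonZero, clRingAction_eq]
  rw [h3]
  exact ⟨⟨α, rfl⟩⟩

end

section

variable {p : ℕ} [hp : Fact p.Prime] {K : Type} [Field K] [NumberField K]
  [hcyc : IsCyclotomicExtension {p} ℚ K] {ζ : K}

theorem pw_translate (n : (ZMod p)ˣ → ℤ) (w : K) (b : (ZMod p)ˣ) :
    pw p K (fun a => n (b⁻¹ * a)) w = sg p K b (pw p K n w) := by
  rw [pw, pw, map_prod]
  refine (Fintype.prod_equiv (Equiv.mulLeft b) _ _ fun a => ?_).symm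
  rw [Equiv.coe_mulLeft, inv_mul_cancel_left, sg_mul, map_zpow₀]
  rfl

theorem sg_neg_apply (a : (ZMod p)ˣ) (w : K) : sg p K (-a) w = sg p K (-1) (sg p K a w) := by
  rw [← neg_one_mul a, sg_mul]
  rfl

theorem sg_neg_one (hζ : IsPrimitiveRoot ζ p) : sg p K (-1) ζ = ζ⁻¹ := by
  rw [sg_apply p hζ]
  refine eq_inv_of_mul_eq_one_left ?_
  rw [← pow_succ]
  refine (hζ.pow_eq_one_iff_dvd _).mpr ((ZMod.natCast_eq_zero_iff _ _).mp ?_)
  rw [Nat.cast_add, ZMod.natCast_zmod_val, Units.val_neg, Units.val_one, Nat.cast_one,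
    neg_add_cancel]

theorem pw_fel (hp2 : p ≠ 2) (w : K) : pw p K (fel p) w =
    (∏ a ∈ halfSet p, sg p K a w) / sg p K (-1) (∏ a ∈ halfSet p, sg p K a w) := by
  rw [pw, ← prod_filter_mul_prod_filter_not univ
    (fun a : (ZMod p)ˣ => p < 2 * ((a⁻¹ : (ZMod p)ˣ) : ZMod p).val), div_eq_mul_inv]
  congr 1
  · refine prod_congr rfl fun a ha => ?_
    rw [fel, if_pos (mem_halfSet.mp ha), zpow_one]
  · rw [map_prod, ← prod_inv_distrib]
    refine prod_nbij' (fun a => -a) (fun a => -a) ?_ ?_ ?_ ?_ ?_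
    · intro a ha
      rw [mem_filter] at ha
      rw [neg_mem_halfSet hp2, mem_halfSet]
      exact ha.2
    · intro a ha
      rw [mem_filter]
      refine ⟨mem_univ _, ?_⟩
      rw [← mem_halfSet, neg_mem_halfSet hp2, not_not]
      exact ha
    · exact fun a _ => neg_neg a
    · exact fun a _ => neg_neg a
    · intro a ha
      rw [mem_filter] at ha
      rw [fel, if_neg ha.2, zpow_neg_one, ← sg_neg_apply, neg_neg]

end

end XZ

open XZ NumberField Finset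

/-- (C6) Stickelberger -/
theorem stickStmt : StickStmt := fun _ _ _ _ _ _ hp2 c => clPw_half hp2 c

/-- (C7) the `q`-th roots -/
theorem rootStmt_of (hRel : RelStmt) : RootStmt := by
  intro p q x y h hp K _ _ _ ζ hζ b
  obtain ⟨hpq, a, u, h1, h2, h3, h4, h5, h6, h7⟩ := hRel p q x y h
  have hq0 : q ≠ 0 := h.hq.ne_zero
  have hpdvd : (p : ℤ) ∣ x - 1 := by
    rw [h1]
    exact (dvd_pow_self _ (by have := h.hq.two_le; omega)).mul_right _
  suffices hmain : ∃ α : K, pw p K (fel p) ((x : K) - ζ) = α ^ q by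
    obtain ⟨α, hα⟩ := hmain
    exact ⟨sg p K b α, by rw [pw_translate (fel p), hα, map_pow]⟩
  obtain ⟨z, hzζ⟩ : ∃ z : 𝓞 K, (z : K) = ζ := ⟨hζ.toInteger, rfl⟩
  have hz : IsPrimitiveRoot z p := by
    rw [← hzζ] at hζ
    exact hζ.of_map_of_injective (RingOfIntegers.coe_injective (K := K))
  obtain ⟨l, hl⟩ := exists_quot hz hpdvd
  have hprod := prod_quot hz hl h2
  obtain ⟨I, hI⟩ := Cat.Mih.exists_ideal hz hl hprod
  have hu0 : (u : 𝓞 K) ≠ 0 := by
    have : u ≠ 0 := by omega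
    exact_mod_cast this
  have hl0 : l ≠ 0 := by
    rintro rfl
    have hlu : (0 : 𝓞 K) ∣ (u : 𝓞 K) ^ q := by
      rw [← hprod]
      exact dvd_prod_of_mem (fun σ : K ≃ₐ[ℚ] K => Cat.Mih.act σ (0 : 𝓞 K)) (mem_univ 1)
    exact pow_ne_zero q hu0 (zero_dvd_iff.mp hlu)
  obtain ⟨α, ε, hα⟩ := Cat.Mih.exists_elt hl0 hq0 hI (T := Cat.half hζ)
    (fun I hI => span_half h.hp2 hζ hI)
  obtain ⟨c, hc, hunit⟩ := Cat.Mih.exists_conj (K := K) h.hp2 hζ
  obtain rfl : c = sg p K (-1) := Cat.Mih.gal_injective hζ (hc.trans (sg_neg_one hζ).symm)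
  obtain ⟨θ, hθ, hεθ⟩ := hunit ε
  rw [prod_half hζ] at hα
  -- everything in `K`
  have hlK : (1 - ζ) * (l : K) = x - ζ := by
    have := congrArg (algebraMap (𝓞 K) K) hl
    rw [map_mul, map_sub, map_sub, map_one, map_intCast] at this
    rw [← hzζ]
    exact this
  have hαK : ∏ a ∈ halfSet p, sg p K a (l : K) = (α : K) ^ q * ((ε : 𝓞 K) : K) := by
    have := congrArg (algebraMap (𝓞 K) K) hα
    rw [map_mul, map_pow, map_prod] at this
    exact this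
  have hεK : ((ε : 𝓞 K) : K) = (θ : K) * sg p K (-1) ((ε : 𝓞 K) : K) := by
    have := congrArg (algebraMap (𝓞 K) K) hεθ
    rw [map_mul] at this
    exact this
  have hθK : (θ : K) ^ (2 * p) = 1 := by
    have := congrArg (algebraMap (𝓞 K) K) hθ
    rwa [map_pow, map_one] at this
  have hwc : ∀ a : (ZMod p)ˣ, sg p K (-1) (sg p K a ζ) = (sg p K a ζ)⁻¹ := by
    intro a
    rw [sg_apply p hζ a, map_pow, sg_neg_one hζ, inv_pow]
  have hw0 : ∀ a : (ZMod p)ˣ, sg p K a ζ ≠ 0 := fun a =>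
    (map_ne_zero _).mpr (hζ.ne_zero hp.out.ne_zero)
  have hP : ∏ a ∈ halfSet p, (1 - sg p K a ζ) =
      (∏ a ∈ halfSet p, (-sg p K a ζ)) * sg p K (-1) (∏ a ∈ halfSet p, (1 - sg p K a ζ)) := by
    rw [map_prod, ← prod_mul_distrib]
    refine prod_congr rfl fun a _ => ?_
    rw [map_sub, map_one, hwc]
    have := hw0 a
    field_simp
    ring
  have hν : (∏ a ∈ halfSet p, (-sg p K a ζ)) ^ (2 * p) = 1 := by
    rw [← prod_pow]
    refine prod_eq_one fun a _ => ?_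
    rw [pow_mul, neg_sq, ← pow_mul, mul_comm, pow_mul, ← map_pow, hζ.pow_eq_one, map_one, one_pow]
  set ν : K := ∏ a ∈ halfSet p, (-sg p K a ζ) with hνdef
  set P : K := ∏ a ∈ halfSet p, (1 - sg p K a ζ) with hPdef
  have hP0 : P ≠ 0 := by
    rw [hPdef, prod_ne_zero_iff]
    intro a _
    rw [sub_ne_zero]
    intro h8
    exact hζ.ne_one hp.out.one_lt ((sg p K a).injective (by rw [← h8, map_one]))
  have hε0 : sg p K (-1) ((ε : 𝓞 K) : K) ≠ 0 := by
    refine (map_ne_zero _).mpr ?_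
    have := (ε.isUnit.map (algebraMap (𝓞 K) K)).ne_zero
    exact this
  have h2p : 2 * p ≠ 0 := by have := hp.out.pos; omega
  have hq2p : q.Coprime (2 * p) := by
    refine Nat.Coprime.mul_right ?_ ?_
    · exact (Nat.coprime_primes h.hq Nat.prime_two).mpr h.hq2
    · exact (Nat.coprime_primes h.hq hp.out).mpr (Ne.symm hpq)
  obtain ⟨η, hη⟩ := Cat.Mih.exists_pow_mul_eq (R := K) hq2p
    (θ := (θ : K) * ν) (ν := 1) (by rw [mul_pow, hθK, hν, one_mul]) (one_pow _) h2p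
  rw [mul_one] at hη
  refine ⟨(α : K) / sg p K (-1) (α : K) * η, ?_⟩
  have hW : ∏ a ∈ halfSet p, sg p K a ((x : K) - ζ) = P * ((α : K) ^ q * ((ε : 𝓞 K) : K)) := by
    rw [← hαK, hPdef, ← prod_mul_distrib]
    refine prod_congr rfl fun a _ => ?_
    rw [← hlK, map_mul, map_sub, map_one]
  have hP0' : sg p K (-1) P ≠ 0 := (map_ne_zero _).mpr hP0
  have e1 : P * ((α : K) ^ q * ((ε : 𝓞 K) : K)) =
      (ν * sg p K (-1) P) * ((α : K) ^ q * ((θ : K) * sg p K (-1) ((ε : 𝓞 K) : K))) := by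
    rw [← hP, ← hεK]
  rw [pw_fel h.hp2, hW, map_mul, map_mul, map_pow, mul_pow, div_pow, hη, e1]
  by_cases hα0 : (α : K) = 0
  · rw [hα0, map_zero, zero_pow hq0]
    simp
  have hα0' : (sg p K (-1) (α : K)) ^ q ≠ 0 := pow_ne_zero q ((map_ne_zero _).mpr hα0)
  rw [div_mul_eq_mul_div, div_eq_div_iff (mul_ne_zero hP0' (mul_ne_zero hα0' hε0)) hα0']
  ring

end Fermat.Agent.Cor.Catalan
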