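import Fermat.Agent.S14_Thaine

/-!
# Thaine's relation, exponent `r ∣ ℓ - 1`

`Fermat.Agent.S14thaine.relation` for a character of the class group of `K = ℚ(ζ_p)` of any exponent
`r` dividing `ℓ - 1`, where `ℓ ≡ 1 mod p` is the auxiliary prime (called `q` here as in S14). The
proofs are those of S14.
-/

set_option autoImplicit false
set_option linter.unusedSectionVars false

namespace Fermat.Agent.Cor.Catalan.Th

open NumberField Polynomial Ideal UniqueFactorizationMonoid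
open Fermat.Agent.S14thaine
open scoped Pointwise

section

variable {p q : ℕ} [hp : Fact p.Prime] [hq : Fact q.Prime]
  {K : Type*} [Field K] [NumberField K] [hK : IsCyclotomicExtension {p} ℚ K]
  {F : Type*} [Field F] [NumberField F] [Algebra K F] [hF : IsCyclotomicExtension {q} K F]
  {M : Type*} [CommGroup M]

omit hp hK in
theorem cl_pow_eq_one' {r : ℕ} (χ : ClassGroup (𝓞 K) →* M) (hχ : ∀ c, χ c ^ r = 1)
    (I : Ideal (𝓞 K)) : cl χ I ^ r = 1 := by
  by_cases h : I = ⊥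
  · rw [cl, dif_pos h, one_pow]
  · rw [cl_of_ne χ h, hχ]

/-- The class of the relative norm of an invariant ideal, modulo `r`-th powers, `r ∣ q - 1`. -/
theorem cl_relNorm_of_dvd (hpq : q % p = 1) {r : ℕ} (hr : r ∣ q - 1) (χ : ClassGroup (𝓞 K) →* M)
    (hχ : ∀ c, χ c ^ r = 1)
    (S : Finset (Ideal (𝓞 K))) (hS : ∀ Q, Q ∈ S ↔ Q.IsPrime ∧ (q : 𝓞 K) ∈ Q)
    (𝔔 : Ideal (𝓞 K) → Ideal (𝓞 F)) (h𝔔 : ∀ Q ∈ S, (𝔔 Q).IsPrime ∧ (𝔔 Q).LiesOver Q) (n : ℕ) :
    ∀ J : Ideal (𝓞 F), J ≠ ⊥ → (∀ σ : Gal(F/K), σ • J = J) → absNorm J = n →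
    cl χ (relNorm (𝓞 K) J) =
      ∏ Q ∈ S, cl χ Q ^ (open Classical in (normalizedFactors J).count (𝔔 Q)) := by
  classical
  have : IsGalois K F := IsCyclotomicExtension.isGalois {q} K F
  induction n using Nat.strong_induction_on with
  | _ n ih =>
  intro J hJ0 hJ hn
  by_cases htop : J = ⊤
  · subst htop
    rw [relNorm_top, cl_top]
    rw [← Ideal.one_eq_top, normalizedFactors_one]
    simp
  obtain ⟨𝔓, h𝔓, hJ𝔓⟩ := exists_le_maximal J htop
  have h𝔓0 : 𝔓 ≠ ⊥ := fun h => hJ0 (le_bot_iff.mp (h ▸ hJ𝔓))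
  have hpos : 0 < absNorm J := Nat.pos_of_ne_zero (by rwa [Ne, absNorm_eq_zero_iff])
  set P := under (𝓞 K) 𝔓 with hPdef
  have hPover : 𝔓.LiesOver P := over_under 𝔓
  have hPprime : P.IsPrime := IsPrime.under (𝓞 K) 𝔓
  have hP0 : P ≠ ⊥ := fun h => h𝔓0 (eq_bot_of_comap_eq_bot (R := 𝓞 K) h)
  by_cases hq𝔓 : (q : 𝓞 K) ∈ P
  · -- the ramified case
    have hPS : P ∈ S := (hS P).mpr ⟨hPprime, hq𝔓⟩
    have h1 := (h𝔔 P hPS).1
    have h2 := (h𝔔 P hPS).2
    have h3 : 𝔔 P = 𝔓 := unique_over hpq P hq𝔓 _ _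
    obtain ⟨J', rfl⟩ := dvd_iff_le.mpr hJ𝔓
    have hJ'0 : J' ≠ ⊥ := right_ne_zero_of_mul hJ0
    have hJ' : ∀ σ : Gal(F/K), σ • J' = J' := by
      intro σ
      have h4 := hJ σ
      rw [smul_mul', smul_eq_over hpq P hq𝔓 𝔓 σ] at h4
      exact mul_left_cancel₀ h𝔓0 h4
    have hlt : absNorm J' < n := by
      rw [← hn, map_mul]
      have h5 : 1 < absNorm 𝔓 := by
        rw [absNorm_𝔔 hpq P hq𝔓 𝔓]; exact hq.out.one_lt
      have h6 : 0 < absNorm J' := Nat.pos_of_ne_zero (by rwa [Ne, absNorm_eq_zero_iff])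
      nlinarith
    have h7 := ih _ hlt J' hJ'0 hJ' rfl
    have h8 : relNorm (𝓞 K) 𝔓 = P := by
      have : P.IsMaximal := Ring.DimensionLEOne.maximalOfPrime hP0 inferInstance
      rw [relNorm_eq_pow_of_isMaximal 𝔓 P, (over_q hpq P hq𝔓 𝔓).2.2.2.1, pow_one]
    have h9 : relNorm (𝓞 K) J' ≠ ⊥ := by rwa [Ne, relNorm_eq_bot_iff]
    rw [map_mul, h8, cl_mul χ hP0 h9, h7]
    have h10 : ∀ Q ∈ S, cl χ Q ^ ((normalizedFactors (𝔓 * J')).count (𝔔 Q)) =
        (if Q = P then cl χ P else 1) * cl χ Q ^ ((normalizedFactors J').count (𝔔 Q)) := by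
      intro Q hQ
      rw [count_mul h𝔓0 hJ'0, pow_add]
      congr 1
      rw [normalizedFactors_irreducible (prime_of_isPrime h𝔓0 inferInstance).irreducible,
        normalize_eq, Multiset.count_singleton]
      by_cases hQP : Q = P
      · subst hQP
        rw [if_pos h3, if_pos rfl, pow_one]
      · rw [if_neg hQP, if_neg, pow_zero]
        intro h11
        apply hQP
        have h12 := (h𝔔 Q hQ).2.over
        rw [h12, h11]
    rw [Finset.prod_congr rfl h10, Finset.prod_mul_distrib, Finset.prod_ite_eq' S P, if_pos hPS]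
  · -- the unramified case
    obtain ⟨J', hJ'eq⟩ := map_dvd hpq P hP0 hq𝔓 J hJ 𝔓 hJ𝔓
    have hmap0 : P.map (algebraMap (𝓞 K) (𝓞 F)) ≠ ⊥ := fun h => hJ0 (by
      rw [hJ'eq, h, bot_mul])
    have hJ'0 : J' ≠ ⊥ := fun h => hJ0 (by rw [hJ'eq, h, mul_bot])
    have hJ' : ∀ σ : Gal(F/K), σ • J' = J' := by
      intro σ
      have h4 := hJ σ
      rw [hJ'eq, smul_mul', smul_map] at h4
      exact mul_left_cancel₀ hmap0 h4
    have hmaple : P.map (algebraMap (𝓞 K) (𝓞 F)) ≤ 𝔓 := map_le_iff_le_comap.mpr le_rfl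
    have hlt : absNorm J' < n := by
      rw [← hn, hJ'eq, map_mul]
      have h5 : 1 < absNorm (P.map (algebraMap (𝓞 K) (𝓞 F))) := by
        have h5a : absNorm (P.map (algebraMap (𝓞 K) (𝓞 F))) ≠ 0 := by
          rwa [Ne, absNorm_eq_zero_iff]
        have h5b : absNorm (P.map (algebraMap (𝓞 K) (𝓞 F))) ≠ 1 := by
          rw [Ne, absNorm_eq_one_iff]
          intro h
          rw [h] at hmaple
          exact h𝔓.ne_top (top_le_iff.mp hmaple)
        omega
      have h6 : 0 < absNorm J' := Nat.pos_of_ne_zero (by rwa [Ne, absNorm_eq_zero_iff])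
      nlinarith
    have h7 := ih _ hlt J' hJ'0 hJ' rfl
    have h9 : relNorm (𝓞 K) J' ≠ ⊥ := by rwa [Ne, relNorm_eq_bot_iff]
    rw [hJ'eq, map_mul, relNorm_algebraMap, cl_mul χ (pow_ne_zero _ hP0) h9, h7, cl_pow χ hP0]
    have h10 : cl χ P ^ (Module.finrank (𝓞 K) (𝓞 F)) = 1 := by
      have h11 : r ∣ Module.finrank (𝓞 K) (𝓞 F) := by
        have h12 : Module.finrank (𝓞 K) (𝓞 F) = q - 1 := by
          rw [← finrank_F (p := p) (K := K) (F := F) (ne_of_mod hpq)]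
          exact (IsFractionRing.finrank_eq (𝓞 K) K (𝓞 F) F).symm
        rw [h12]
        exact hr
      obtain ⟨k, hk⟩ := h11
      rw [hk, pow_mul, cl_pow_eq_one' χ hχ, one_pow]
    rw [h10, one_mul]
    apply Finset.prod_congr rfl
    intro Q hQ
    have h13 : (normalizedFactors (P.map (algebraMap (𝓞 K) (𝓞 F)))).count (𝔔 Q) = 0 := by
      rw [Multiset.count_eq_zero]
      intro hmem
      have h14 := dvd_of_mem_normalizedFactors hmem
      rw [dvd_iff_le, map_le_iff_le_comap] at h14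
      have h15 := (h𝔔 Q hQ).2.over
      have h16 : P ≤ Q := by rw [h15]; exact h14
      have h17 : P.IsMaximal := Ring.DimensionLEOne.maximalOfPrime hP0 inferInstance
      have h18 := h17.eq_of_le ((hS Q).mp hQ).1.ne_top h16
      exact hq𝔓 (h18 ▸ ((hS Q).mp hQ).2)
    rw [count_mul hmap0 hJ'0, h13, zero_add]

end

section

variable {p q : ℕ} [hp : Fact p.Prime] [hq : Fact q.Prime]
  {K : Type} [Field K] [NumberField K] [hK : IsCyclotomicExtension {p} ℚ K]
  {M : Type*} [CommGroup M]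

/-- **Thaine's relation** for a character of the class group of exponent `r ∣ q - 1`. -/
theorem relation_of_dvd (hpq : q % p = 1) {r : ℕ} (hr : r ∣ q - 1) (χ : ClassGroup (𝓞 K) →* M)
    (hχ : ∀ c, χ c ^ r = 1)
    {ζ : 𝓞 K} (hζ : IsPrimitiveRoot ζ p)
    (S : Finset (Ideal (𝓞 K))) (hS : ∀ Q, Q ∈ S ↔ Q.IsPrime ∧ (q : 𝓞 K) ∈ Q) :
    ∃ (g : ℕ) (n : Ideal (𝓞 K) → ℕ),
      (∀ Q ∈ S, (g : 𝓞 K) ^ (n Q) * (1 - ζ) - 1 ∈ Q) ∧ ∏ Q ∈ S, cl χ Q ^ n Q = 1 := by
  classical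
  let F := CyclotomicField q K
  have hcyc : IsCyclotomicExtension {q} K F := inferInstance
  have hG : IsGalois K F := IsCyclotomicExtension.isGalois {q} K F
  have : NeZero q := ⟨hq.out.ne_zero⟩
  have hw := IsCyclotomicExtension.zeta_spec q K F
  have hcycl := isCyclic_gal (K := K) hw
  obtain ⟨g, τ, -, hτ, hτw⟩ := exists_generator (p := p) (K := K) (ne_of_mod hpq) hw
  -- the unit `u = 1 - ζ_p ζ_q`
  set w : 𝓞 F := hw.toInteger with hwdef
  have hwI : IsPrimitiveRoot w q := hw.toInteger_isPrimitiveRoot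
  have hζK : IsPrimitiveRoot (ζ : K) p := hζ.map_of_injective RingOfIntegers.coe_injective
  set z : 𝓞 F := algebraMap (𝓞 K) (𝓞 F) ζ with hz
  have hnorm : Algebra.norm K (algebraMap (𝓞 F) F (1 - z * w)) = 1 := by
    have h1 : algebraMap (𝓞 F) F (1 - z * w) = 1 - algebraMap K F ζ * (w : F) := by
      rw [map_sub, map_one, map_mul]
      rfl
    rw [h1]
    exact norm_eq_one hpq hζK hw
  have hunit : IsUnit (1 - z * w) := by
    rw [← RingOfIntegers.isUnit_norm K]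
    have h1 : RingOfIntegers.norm K (1 - z * w) = 1 := by
      apply RingOfIntegers.ext
      rw [RingOfIntegers.coe_norm]
      exact hnorm
    rw [h1]
    exact isUnit_one
  obtain ⟨b, hb0, hb⟩ := groupCohomology.exists_mul_galRestrict_of_norm_eq_one (A := 𝓞 K) hτ hnorm
  have hb' : (1 - z * w) * (τ • b) = b := by
    have h1 : galRestrict (𝓞 K) K F (𝓞 F) τ b = τ • b := by
      apply RingOfIntegers.ext
      exact algebraMap_galRestrict_apply (𝓞 K) τ b
    rw [← h1]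
    exact hb
  have hτw' : τ • w = w ^ (g : ZMod q).val := by
    apply RingOfIntegers.ext
    exact hτw
  -- the invariant ideal `(b)`
  have hJ : ∀ σ : Gal(F/K), σ • span {b} = span {b} := by
    intro σ
    have h1 : τ ∈ MulAction.stabilizer Gal(F/K) (span {b}) := by
      rw [MulAction.mem_stabilizer_iff, pointwise_smul_def, map_span, Set.image_singleton,
        span_singleton_eq_span_singleton]
      obtain ⟨u, hu⟩ := hunit
      refine ⟨u, ?_⟩
      rw [hu, mul_comm]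
      exact hb'
    have h2 : Subgroup.zpowers τ ≤ MulAction.stabilizer Gal(F/K) (span {b}) := by
      rwa [Subgroup.zpowers_le]
    exact h2 (hτ σ)
  -- choose primes above
  have hex : ∀ Q ∈ S, ∃ 𝔔 : Ideal (𝓞 F), 𝔔.IsPrime ∧ 𝔔.LiesOver Q := by
    intro Q hQ
    have := ((hS Q).mp hQ).1
    obtain ⟨⟨𝔔, h1, h2⟩⟩ := Q.nonempty_primesOver (S := 𝓞 F)
    exact ⟨𝔔, h1, h2⟩
  choose! 𝔔 h𝔔 using hex
  refine ⟨(g : ZMod q).val, fun Q => (normalizedFactors (span {b})).count (𝔔 Q), ?_, ?_⟩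
  · intro Q hQ
    have h1 := ((hS Q).mp hQ).1
    have h2 := ((hS Q).mp hQ).2
    have h3 := (h𝔔 Q hQ).1
    have h4 := (h𝔔 Q hQ).2
    have h5 := local_cong hpq Q h2 (𝔔 Q) hwI z τ _ hτw' b hb0 hb'
    have h6 : Q = comap (algebraMap (𝓞 K) (𝓞 F)) (𝔔 Q) := h4.over
    rw [h6, mem_comap, ← h6, map_sub, map_mul, map_pow, map_sub, map_one, map_natCast, ← hz]
    exact h5
  · have h1 := cl_relNorm_of_dvd hpq hr χ hχ S hS 𝔔 h𝔔 _ (span {b}) (by rwa [Ne, span_singleton_eq_bot]) hJ rfl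
    rw [← h1, relNorm_singleton, cl_span_singleton]
    rwa [Ne, Algebra.intNorm_eq_zero]


end

end Fermat.Agent.Cor.Catalan.Th
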