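import Fermat.Agent.Corollaries.Catalan.Basic
import Fermat.Agent.Corollaries.Catalan.ThaineRel

/-!
# Thaine's theorem modulo `q`

`thaineStmt_of` : `ThaineStmt` from the existence of suitable auxiliary primes
(`exists_thaine_prime`) and Thaine's relation (`Th.relation_of_dvd`).
-/

set_option autoImplicit false

namespace Fermat.Agent.Cor.Catalan

open NumberField Polynomial nonZeroDivisors IsDedekindDomain

/-- the existence of the auxiliary primes -/
def AuxStmt : Prop := ∀ (p q : ℕ) [Fact p.Prime] [Fact q.Prime], q ≠ 2 → p ≠ q →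
  ∀ (K : Type) [Field K] [NumberField K] [IsCyclotomicExtension {p} ℚ K]
  (H : Subgroup (ClassGroup (𝓞 K))), H ≠ ⊤ → (∀ c : ClassGroup (𝓞 K), c ^ q ∈ H) →
  ∀ v : 𝓞 K, v ≠ 0 → (∀ w : K, (v : K) ≠ w ^ q) → ∃ (ℓ : ℕ) (P : HeightOneSpectrum (𝓞 K)),
    ℓ.Prime ∧ p * q ∣ ℓ - 1 ∧ Ideal.absNorm P.asIdeal = ℓ ∧
    ClassGroup.mk0 ⟨P.asIdeal, mem_nonZeroDivisors_of_ne_zero P.ne_bot⟩ ∉ H ∧
    ∀ w : 𝓞 K, v - w ^ q ∉ P.asIdeal

namespace Th

section Alg

variable {p : ℕ} [Fact p.Prime] {K : Type} [Field K] [NumberField K]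
  [IsCyclotomicExtension {p} ℚ K]

theorem clPw_one (n : (ZMod p)ˣ → ℤ) : clPw p K n 1 = 1 := by
  rw [clPw]
  exact Finset.prod_eq_one fun a _ => by rw [map_one, one_zpow]

theorem clPw_zero (c : ClassGroup (𝓞 K)) : clPw p K 0 c = 1 := by simp [clPw]

/-- the action of `ℤ[X]` on the class group through `s` -/
@[reducible] noncomputable def polyModule (s : (ZMod p)ˣ) :
    Module ℤ[X] (Additive (ClassGroup (𝓞 K))) where
  smul P v := Additive.ofMul (clPw p K (plEl p s P) v.toMul)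
  one_smul v := by
    change Additive.ofMul (clPw p K (plEl p s 1) v.toMul) = v
    rw [← monomial_zero_one, plEl_monomial, clPw_single, pow_zero, clAct_one, zpow_one]
    rfl
  mul_smul P Q v := by
    change Additive.ofMul (clPw p K (plEl p s (P * Q)) v.toMul) =
      Additive.ofMul (clPw p K (plEl p s P) (clPw p K (plEl p s Q) v.toMul))
    rw [clPw_plEl_mul]
  smul_zero P := by
    change Additive.ofMul (clPw p K (plEl p s P) 1) = 0
    rw [clPw_one]
    rfl
  smul_add P v w := by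
    change Additive.ofMul (clPw p K (plEl p s P) (v.toMul * w.toMul)) =
      Additive.ofMul (clPw p K (plEl p s P) v.toMul * clPw p K (plEl p s P) w.toMul)
    rw [clPw_mul]
  add_smul P Q v := by
    change Additive.ofMul (clPw p K (plEl p s (P + Q)) v.toMul) =
      Additive.ofMul (clPw p K (plEl p s P) v.toMul * clPw p K (plEl p s Q) v.toMul)
    rw [plEl_add, clPw_add]
  zero_smul v := by
    change Additive.ofMul (clPw p K (plEl p s 0) v.toMul) = 0
    rw [plEl_zero, clPw_zero]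
    rfl

/-- Nakayama's lemma. -/
theorem eq_one_of_smul_top (s : (ZMod p)ˣ) (I : Ideal ℤ[X])
    (h : letI := polyModule (K := K) s
      I • (⊤ : Submodule ℤ[X] (Additive (ClassGroup (𝓞 K)))) = ⊤)
    {c : ClassGroup (𝓞 K)} (hc : ∀ P ∈ I, clPw p K (plEl p s P) c = 1) : c = 1 := by
  let := polyModule (K := K) s
  obtain ⟨r, hr, hr0⟩ := Submodule.exists_sub_one_mem_and_smul_eq_zero_of_fg_of_le_smul I
    (⊤ : Submodule ℤ[X] (Additive (ClassGroup (𝓞 K))))
    (Submodule.fg_def.mpr ⟨Set.univ, Set.toFinite _, Submodule.span_univ⟩) h.ge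
  have h1 : r • (Additive.ofMul c) = 0 := hr0 _ Submodule.mem_top
  have h2 : (r - 1) • (Additive.ofMul c) = 0 := hc _ hr
  rw [sub_smul, h1, one_smul, zero_sub, neg_eq_zero] at h2
  exact h2

theorem C_smul (s : (ZMod p)ˣ) (k : ℤ) (c : ClassGroup (𝓞 K)) :
    clPw p K (plEl p s (C k)) c = c ^ k := by
  rw [← monomial_zero_left, plEl_monomial, clPw_single, pow_zero, clAct_one]

end Alg

/-! ### The ideal `(q, g)` of `ℤ[X]` -/

section Poly

variable {q : ℕ} [Fact q.Prime]

/-- the ideal `(q, g)` of `ℤ[X]` -/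
noncomputable def idl (g : (ZMod q)[X]) : Ideal ℤ[X] :=
  (Ideal.span {g}).comap (mapRingHom (Int.castRingHom (ZMod q)))

theorem mem_idl {g : (ZMod q)[X]} {P : ℤ[X]} :
    P ∈ idl g ↔ g ∣ P.map (Int.castRingHom (ZMod q)) := by
  rw [idl, Ideal.mem_comap, Ideal.mem_span_singleton]
  rfl

omit [Fact q.Prime] in
theorem castRingHom_surjective : Function.Surjective (Int.castRingHom (ZMod q)) :=
  ZMod.intCast_surjective

theorem idl_isMaximal {g : (ZMod q)[X]} (hg : Irreducible g) : (idl g).IsMaximal := by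
  have : (Ideal.span {g}).IsMaximal := PrincipalIdealRing.isMaximal_of_irreducible hg
  exact Ideal.comap_isMaximal_of_surjective _
    (Polynomial.map_surjective _ castRingHom_surjective)

theorem exists_of_mem_idl {g : (ZMod q)[X]} {P : ℤ[X]} (hP : P ∈ idl g) :
    ∃ G k R : ℤ[X], G.map (Int.castRingHom (ZMod q)) = g ∧ P = k * G + R * C (q : ℤ) := by
  obtain ⟨y, hy⟩ := mem_idl.mp hP
  obtain ⟨G, hG⟩ := Polynomial.map_surjective _ castRingHom_surjective g
  obtain ⟨k, hk⟩ := Polynomial.map_surjective _ castRingHom_surjective y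
  have h1 : (P - k * G).map (Int.castRingHom (ZMod q)) = 0 := by
    rw [Polynomial.map_sub, Polynomial.map_mul, hG, hk, hy, mul_comm y g, sub_self]
  have h2 : C (q : ℤ) ∣ P - k * G := by
    rw [C_dvd_iff_dvd_coeff]
    intro i
    have h3 := congrArg (fun Q => Polynomial.coeff Q i) h1
    simp only [coeff_map, coeff_zero, eq_intCast] at h3
    exact (ZMod.intCast_zmod_eq_zero_iff_dvd _ _).mp h3
  obtain ⟨R, hR⟩ := h2
  exact ⟨G, k, R, hG, by rw [mul_comm R, ← hR]; ring⟩

end Poly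

/-! ### The convolution -/

section Conv

variable {p : ℕ} [Fact p.Prime] {q : ℕ} [Fact q.Prime]

/-- the translation by `s` on functions -/
noncomputable def trL (s : (ZMod p)ˣ) : Module.End (ZMod q) ((ZMod p)ˣ → ZMod q) :=
  LinearMap.funLeft (ZMod q) (ZMod q) fun x => s⁻¹ * x

theorem trL_pow_apply (s : (ZMod p)ˣ) (i : ℕ) (w : (ZMod p)ˣ → ZMod q) (x : (ZMod p)ˣ) :
    ((trL s) ^ i : Module.End (ZMod q) ((ZMod p)ˣ → ZMod q)) w x = w ((s ^ i)⁻¹ * x) := by
  induction i generalizing w x with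
  | zero => simp
  | succ i ih =>
    rw [pow_succ, Module.End.mul_apply, ih]
    change w (s⁻¹ * ((s ^ i)⁻¹ * x)) = _
    rw [pow_succ, mul_inv_rev, mul_assoc]

theorem aeval_trL_apply (s : (ZMod p)ˣ) (P : ℤ[X]) (w : (ZMod p)ˣ → ZMod q) (x : (ZMod p)ˣ) :
    (aeval (trL s) (P.map (Int.castRingHom (ZMod q))) :
      Module.End (ZMod q) ((ZMod p)ˣ → ZMod q)) w x =
      ∑ a, ((plEl p s P a : ℤ) : ZMod q) * w (a⁻¹ * x) := by
  classical
  induction P using Polynomial.induction_on' with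
  | add P Q hP hQ =>
    rw [Polynomial.map_add, map_add, LinearMap.add_apply, Pi.add_apply, hP, hQ, plEl_add,
      ← Finset.sum_add_distrib]
    refine Finset.sum_congr rfl fun a _ => ?_
    rw [Pi.add_apply, Int.cast_add, add_mul]
  | monomial i k =>
    rw [map_monomial, aeval_monomial, plEl_monomial, Finset.sum_eq_single (s ^ i)]
    · rw [Pi.single_eq_same, Module.End.mul_apply, Module.algebraMap_end_apply, Pi.smul_apply,
        trL_pow_apply, smul_eq_mul]
      rfl
    · intro b _ hb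
      rw [Pi.single_eq_of_ne hb, Int.cast_zero, zero_mul]
    · intro h
      exact absurd (Finset.mem_univ _) h

/-- If `h g = X^(p-1) - 1` and `g` divides `∑ m(s^i) X^i` then the convolution of `h(s)` and `m`
vanishes at `1`. -/
theorem conv_eq_zero {s : (ZMod p)ˣ} {g : (ZMod q)[X]} {h N : ℤ[X]}
    (hh : h.map (Int.castRingHom (ZMod q)) * g = X ^ (p - 1) - 1)
    (hN : g ∣ N.map (Int.castRingHom (ZMod q))) :
    ∑ a, ((plEl p s h a : ℤ) : ZMod q) * ((plEl p s N a⁻¹ : ℤ) : ZMod q) = 0 := by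
  classical
  obtain ⟨y, hy⟩ := hN
  set w : (ZMod p)ˣ → ZMod q := fun a => ((plEl p s N a : ℤ) : ZMod q) with hw
  have h1 : (aeval (trL s) (N.map (Int.castRingHom (ZMod q))) :
      Module.End (ZMod q) ((ZMod p)ˣ → ZMod q)) (Pi.single 1 1) = w := by
    funext x
    rw [aeval_trL_apply, Finset.sum_eq_single x]
    · rw [inv_mul_cancel, Pi.single_eq_same, mul_one]
    · intro b _ hb
      rw [Pi.single_eq_of_ne, mul_zero]
      intro h2
      exact hb (inv_mul_eq_one.mp h2)
    · intro h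
      exact absurd (Finset.mem_univ _) h
  have h2 : (aeval (trL s) (X ^ (p - 1) - 1 : (ZMod q)[X]) :
      Module.End (ZMod q) ((ZMod p)ˣ → ZMod q)) = 0 := by
    rw [map_sub, map_pow, aeval_X, map_one, sub_eq_zero]
    ext1 a
    refine LinearMap.ext fun k => ?_
    funext x
    change ((trL s) ^ (p - 1) : Module.End (ZMod q) ((ZMod p)ˣ → ZMod q)) _ x = _
    rw [trL_pow_apply]
    have h3 : s ^ (p - 1) = 1 := ZMod.units_pow_card_sub_one_eq_one p s
    rw [h3, inv_one, one_mul]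
    rfl
  have h3 : (aeval (trL s) (h.map (Int.castRingHom (ZMod q))) :
      Module.End (ZMod q) ((ZMod p)ˣ → ZMod q)) w = 0 := by
    rw [← h1, ← Module.End.mul_apply, ← map_mul, hy, ← mul_assoc, hh, map_mul, h2, zero_mul,
      LinearMap.zero_apply]
  have h4 := congrFun h3 1
  rw [aeval_trL_apply] at h4
  simp only [mul_one] at h4
  exact h4

end Conv

/-! ### The orbit of a prime of degree one -/

section Orbit

open Ideal
open scoped Pointwise

variable {p ℓ : ℕ} [hp : Fact p.Prime] [hℓ : Fact ℓ.Prime] {K : Type} [Field K] [NumberField K]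
  [IsCyclotomicExtension {p} ℚ K]

theorem smul_eq_map (a : (ZMod p)ˣ) (I : Ideal (𝓞 K)) :
    sg p K a • I = I.map (JacobiSumStickelberger.clRingAction p K a : 𝓞 K →+* 𝓞 K) := by
  rw [Ideal.pointwise_smul_def]
  congr 1
  refine RingHom.ext fun x => ?_
  apply RingOfIntegers.ext
  exact (coe_clRingAction a x).symm

theorem orbit (hpℓ : ℓ % p = 1) (P : Ideal (𝓞 K)) [P.IsPrime] (hP : (ℓ : 𝓞 K) ∈ P)
    (S : Finset (Ideal (𝓞 K))) (hS : ∀ Q, Q ∈ S ↔ Q.IsPrime ∧ (ℓ : 𝓞 K) ∈ Q) :
    open Classical in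
    Finset.univ.image (fun a : (ZMod p)ˣ => sg p K a • P) = S ∧
      Function.Injective (fun a : (ZMod p)ˣ => sg p K a • P) := by
  classical
  have hGal : IsGalois ℚ K := IsCyclotomicExtension.isGalois {p} ℚ K
  have hlP := (S14thaine.inertiaDeg_Q hpℓ P hP).1
  have hsS : ∀ b, sg p K b • P ∈ S := by
    intro b
    rw [hS]
    refine ⟨inferInstance, ?_⟩
    have h1 : sg p K b • (ℓ : 𝓞 K) ∈ sg p K b • P := smul_mem_pointwise_smul _ _ _ hP
    have h2 : sg p K b • (ℓ : 𝓞 K) = ℓ :=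
      map_natCast (MulSemiringAction.toRingHom Gal(K/ℚ) (𝓞 K) (sg p K b)) ℓ
    rwa [h2] at h1
  have himage : Finset.univ.image (fun b => sg p K b • P) = S := by
    apply Finset.Subset.antisymm
    · intro Q hQ
      rw [Finset.mem_image] at hQ
      obtain ⟨b, -, rfl⟩ := hQ
      exact hsS b
    · intro Q hQ
      have hQ1 := ((hS Q).mp hQ).1
      have hQ2 := ((hS Q).mp hQ).2
      have hQ3 := (S14thaine.inertiaDeg_Q hpℓ Q hQ2).1
      obtain ⟨σ, hσ⟩ := exists_smul_eq_of_isGaloisGroup (span {(ℓ : ℤ)}) P Q Gal(K/ℚ)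
      obtain ⟨b, hb⟩ := (sg_bijective (p := p) (K := K)).2 σ
      rw [Finset.mem_image]
      exact ⟨b, Finset.mem_univ _, by rw [hb, hσ]⟩
  refine ⟨himage, ?_⟩
  have hcard : S.card = Fintype.card (ZMod p)ˣ := by
    have h1 := ncard_primesOver_mul_ramificationIdxIn_mul_inertiaDegIn (span {(ℓ : ℤ)}) (𝓞 K)
      Gal(K/ℚ)
    rw [ramificationIdxIn_eq_ramificationIdx (span {(ℓ : ℤ)}) P Gal(K/ℚ),
      inertiaDegIn_eq_inertiaDeg (span {(ℓ : ℤ)}) P Gal(K/ℚ),
      (S14thaine.inertiaDeg_Q hpℓ P hP).2.1, (S14thaine.inertiaDeg_Q hpℓ P hP).2.2, mul_one,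
      mul_one] at h1
    have h2 : primesOver (span {(ℓ : ℤ)}) (𝓞 K) = (S : Set (Ideal (𝓞 K))) := by
      ext Q
      rw [Finset.mem_coe, hS]
      constructor
      · rintro ⟨h3, h4⟩
        refine ⟨h3, ?_⟩
        have h5 : (ℓ : ℤ) ∈ under ℤ Q := by
          rw [← h4.over]; exact mem_span_singleton_self _
        rw [under_def, mem_comap] at h5
        simpa using h5
      · rintro ⟨h3, h4⟩
        exact ⟨h3, (S14thaine.inertiaDeg_Q hpℓ Q h4).1⟩
    rw [h2, Set.ncard_coe_finset] at h1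
    rw [h1, ← Nat.card_eq_fintype_card]
    exact Nat.card_congr (Equiv.ofBijective _ (sg_bijective (p := p) (K := K))).symm
  have h1 : (Finset.univ.image (fun b => sg p K b • P)).card =
      (Finset.univ : Finset (ZMod p)ˣ).card := by
    rw [himage, hcard, Finset.card_univ]
  rw [Finset.card_image_iff] at h1
  exact fun a b h => h1 (Finset.mem_coe.mpr (Finset.mem_univ _))
    (Finset.mem_coe.mpr (Finset.mem_univ _)) h

end Orbit

section Gen

variable {p : ℕ} [Fact p.Prime]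

theorem plEl_sum_monomial {s : (ZMod p)ˣ} (hs : ∀ a, a ∈ Subgroup.zpowers s)
    (m : (ZMod p)ˣ → ℤ) (a : (ZMod p)ˣ) :
    plEl p s (∑ i ∈ Finset.range (p - 1), monomial i (m (s ^ i))) a = m a := by
  classical
  have h1 : ∀ n, plEl p s (∑ i ∈ Finset.range n, monomial i (m (s ^ i))) =
      ∑ i ∈ Finset.range n, Pi.single (s ^ i) (m (s ^ i)) := by
    intro n
    induction n with
    | zero => rw [Finset.range_zero, Finset.sum_empty, Finset.sum_empty, plEl_zero]
    | succ n ih =>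
      rw [Finset.sum_range_succ, Finset.sum_range_succ, plEl_add, ih, plEl_monomial]
  have hord : orderOf s = p - 1 := by
    rw [orderOf_eq_card_of_forall_mem_zpowers hs, Nat.card_eq_fintype_card, ZMod.card_units]
  obtain ⟨j, hj, rfl⟩ : ∃ j < p - 1, s ^ j = a := by
    obtain ⟨j, hj, hj'⟩ := Finset.mem_image.mp (mem_zpowers_iff_mem_range_orderOf.mp (hs a))
    exact ⟨j, by rw [← hord]; exact Finset.mem_range.mp hj, hj'⟩
  rw [h1, Finset.sum_apply, Finset.sum_eq_single j]
  · rw [Pi.single_eq_same]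
  · intro i hi hij
    rw [Pi.single_eq_of_ne]
    intro h2
    exact hij ((pow_injOn_Iio_orderOf (x := s) (by
      rw [Set.mem_Iio, hord]; exact hj) (by
      rw [Set.mem_Iio, hord]; exact Finset.mem_range.mp hi) h2).symm)
  · intro h2
    exact absurd (Finset.mem_range.mpr hj) h2

end Gen

section Main

open scoped Pointwise

variable {p : ℕ} [Fact p.Prime] {K : Type} [Field K] [NumberField K]
  [IsCyclotomicExtension {p} ℚ K]

/-- reduction of the exponents modulo `q` -/
theorem exists_integral {q : ℕ} (hq : 0 < q) (n : (ZMod p)ˣ → ℤ) {z : 𝓞 K} (hz : z ≠ 0) :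
    ∃ u : K, pw p K n (z : K) = ((∏ a, (JacobiSumStickelberger.clRingAction p K a z) ^
      (n a % q).toNat : 𝓞 K) : K) * u ^ q := by
  refine ⟨pw p K (fun a => n a / q) z, ?_⟩
  have hz' : (z : K) ≠ 0 := by
    rwa [Ne, RingOfIntegers.coe_eq_zero_iff]
  have h1 : n = (fun a => ((n a % q).toNat : ℤ)) + (q : ℤ) • fun a => n a / q := by
    funext a
    rw [Pi.add_apply, Pi.smul_apply, smul_eq_mul,
      Int.toNat_of_nonneg (Int.emod_nonneg _ (by exact_mod_cast hq.ne')), Int.emod_add_mul_ediv]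
  conv_lhs => rw [h1]
  rw [pw_add _ _ hz', pw_smul, zpow_natCast]
  congr 1
  change pw p K _ _ = algebraMap (𝓞 K) K _
  rw [pw, map_prod]
  refine Finset.prod_congr rfl fun a _ => ?_
  rw [zpow_natCast, map_pow]
  congr 1
  exact (coe_clRingAction a z).symm

/-- the local computation -/
theorem local_eq {g₀ k : ℕ} (a : (ZMod p)ˣ) (P : Ideal (𝓞 K)) (z : 𝓞 K)
    (h : (g₀ : 𝓞 K) ^ k * z - 1 ∈ sg p K a⁻¹ • P) :
    Ideal.Quotient.mk P g₀ ^ k *
      Ideal.Quotient.mk P (JacobiSumStickelberger.clRingAction p K a z) = 1 := by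
  have h1 := Ideal.smul_mem_pointwise_smul (sg p K a) _ _ h
  rw [← mul_smul, ← sg_mul, mul_inv_cancel, sg_one, one_smul] at h1
  have h2 : sg p K a • ((g₀ : 𝓞 K) ^ k * z - 1) =
      (g₀ : 𝓞 K) ^ k * JacobiSumStickelberger.clRingAction p K a z - 1 := by
    have h4 : sg p K a • (g₀ : 𝓞 K) = g₀ :=
      map_natCast (MulSemiringAction.toRingHom Gal(K/ℚ) (𝓞 K) (sg p K a)) g₀
    have h5 : sg p K a • z = JacobiSumStickelberger.clRingAction p K a z := by
      apply RingOfIntegers.ext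
      exact (coe_clRingAction a z).symm
    rw [smul_sub, smul_mul', smul_pow', smul_one, h4, h5]
  rw [h2, ← Ideal.Quotient.eq_zero_iff_mem, map_sub, map_one, sub_eq_zero, map_mul, map_pow] at h1
  exact h1

theorem prod_clAct_mem {ℓ q : ℕ} [Fact ℓ.Prime] (hpℓ : ℓ % p = 1) (hq : q ∣ ℓ - 1)
    (H : Subgroup (ClassGroup (𝓞 K))) (hH : ∀ c : ClassGroup (𝓞 K), c ^ q ∈ H) {ζ : 𝓞 K}
    (hζ : IsPrimitiveRoot ζ p) (P : (Ideal (𝓞 K))⁰) (hP : (P : Ideal (𝓞 K)).IsPrime)
    (hℓP : (ℓ : 𝓞 K) ∈ (P : Ideal (𝓞 K))) :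
    ∃ (g₀ : ℕ) (m : (ZMod p)ˣ → ℕ),
      (∀ a, (g₀ : 𝓞 K) ^ m a * (1 - ζ) - 1 ∈ sg p K a • (P : Ideal (𝓞 K))) ∧
      ∏ a, (clAct p K a (ClassGroup.mk0 P)) ^ m a ∈ H := by
  classical
  obtain ⟨S, hS⟩ := S14thaine.exists_primes_finset (K := K) ℓ (Fact.out : ℓ.Prime).ne_zero
  obtain ⟨g₀, n₀, hloc, hprod⟩ := relation_of_dvd hpℓ hq (QuotientGroup.mk' H) (fun c => by
    rw [← map_pow, QuotientGroup.mk'_apply, QuotientGroup.eq_one_iff]
    exact hH c) hζ S hS
  obtain ⟨himage, hinj⟩ := orbit (K := K) hpℓ (P : Ideal (𝓞 K)) hℓP S hS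
  refine ⟨g₀, fun a => n₀ (sg p K a • (P : Ideal (𝓞 K))), fun a => ?_, ?_⟩
  · refine hloc _ ?_
    rw [← himage]
    exact Finset.mem_image_of_mem _ (Finset.mem_univ a)
  · rw [← QuotientGroup.eq_one_iff, ← QuotientGroup.mk'_apply, map_prod]
    rw [← himage, Finset.prod_image fun a _ b _ h => hinj h] at hprod
    rw [← hprod]
    refine Finset.prod_congr rfl fun a _ => ?_
    rw [map_pow, clAct_mk0]
    congr 1
    have h0 : sg p K a • (P : Ideal (𝓞 K)) ≠ ⊥ := by
      rw [smul_eq_map]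
      exact nonZeroDivisors.coe_ne_zero
        (Ideal.mapNonZero (JacobiSumStickelberger.clRingAction p K a) P)
    rw [S14thaine.cl_of_ne _ h0]
    congr 2
    exact Subtype.ext (smul_eq_map a _).symm

end Main

end Th

open Th in
/-- **Thaine's theorem** modulo `q`, from the existence of the auxiliary primes. -/
theorem thaineStmt_of (hA : AuxStmt) : ThaineStmt := by
  classical
  intro p q hp hq hp2 hq2 hpq hqp K _ _ _ ζ hζ s hs g hg hgd h hh hnot c hcq hc
  let := polyModule (K := K) s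
  by_cases htop : idl g • (⊤ : Submodule ℤ[X] (Additive (ClassGroup (𝓞 K)))) = ⊤
  · refine eq_one_of_smul_top s (idl g) htop fun P hP => ?_
    obtain ⟨G, k, R, hG, rfl⟩ := exists_of_mem_idl hP
    rw [plEl_add, clPw_add, clPw_plEl_mul, hc G hG, clPw_one, clPw_plEl_mul, C_smul,
      zpow_natCast, hcq, clPw_one, one_mul]
  · exfalso
    set N : Submodule ℤ[X] (Additive (ClassGroup (𝓞 K))) := idl g • ⊤ with hN
    -- the subgroup
    let H : Subgroup (ClassGroup (𝓞 K)) :=
      { carrier := {c | Additive.ofMul c ∈ N}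
        mul_mem' := fun ha hb => N.add_mem ha hb
        one_mem' := N.zero_mem
        inv_mem' := fun ha => N.neg_mem ha }
    have hmemH : ∀ c, c ∈ H ↔ Additive.ofMul c ∈ N := fun _ => Iff.rfl
    have hH : H ≠ ⊤ := by
      intro h1
      refine htop (eq_top_iff.mpr fun v _ => ?_)
      have h2 : v.toMul ∈ H := by
        rw [h1]
        exact Subgroup.mem_top _
      exact h2
    have hHq : ∀ c : ClassGroup (𝓞 K), c ^ q ∈ H := by
      intro c
      have h1 : (C (q : ℤ) : ℤ[X]) • Additive.ofMul c ∈ N := by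
        refine Submodule.smul_mem_smul (mem_idl.mpr ?_) Submodule.mem_top
        rw [map_C, eq_intCast, Int.cast_natCast, CharP.cast_eq_zero, C_0]
        exact dvd_zero g
      have h2 : (C (q : ℤ) : ℤ[X]) • Additive.ofMul c = Additive.ofMul (c ^ q) := by
        change Additive.ofMul (clPw p K (plEl p s (C (q : ℤ))) c) = _
        rw [C_smul, zpow_natCast]
      rw [h2] at h1
      exact h1
    -- the integral element
    set z : 𝓞 K := 1 - hζ.toInteger with hz
    have hzK : (z : K) = 1 - ζ := by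
      change algebraMap (𝓞 K) K z = _
      rw [hz, map_sub, map_one]
      rfl
    have hz0 : z ≠ 0 := by
      intro h0
      have h1 : (z : K) = 0 := by
        rw [h0]
        rfl
      rw [hzK, sub_eq_zero] at h1
      exact hζ.ne_one hp.out.one_lt h1.symm
    set n := plEl p s h with hn
    set v : 𝓞 K := ∏ a, (JacobiSumStickelberger.clRingAction p K a z) ^ (n a % q).toNat with hv
    have hv0 : v ≠ 0 := Finset.prod_ne_zero_iff.mpr fun a _ => pow_ne_zero _ (by
      rwa [Ne, map_eq_zero_iff _ (RingEquiv.injective _)])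
    obtain ⟨u, hu⟩ := exists_integral (K := K) hq.out.pos n hz0
    rw [hzK, ← hv] at hu
    have hvn : ∀ w : K, (v : K) ≠ w ^ q := fun w hw => hnot (w * u) (by rw [hu, hw, mul_pow])
    obtain ⟨ℓ, P, hℓ, hdvd, hnorm, hPH, hPv⟩ := hA p q hq2 hpq K H hH hHq v hv0 hvn
    have hℓF : Fact ℓ.Prime := ⟨hℓ⟩
    have hpℓ : ℓ % p = 1 := by
      obtain ⟨k, hk⟩ := (Dvd.intro _ rfl : p ∣ p * q).trans hdvd
      have h1 : ℓ = 1 + p * k := by
        have := hℓ.two_le
        omega
      rw [h1, Nat.add_mul_mod_self_left, Nat.mod_eq_of_lt hp.out.one_lt]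
    have hqℓ : q ∣ ℓ - 1 := (Dvd.intro_left _ rfl : q ∣ p * q).trans hdvd
    set P' : (Ideal (𝓞 K))⁰ := ⟨P.asIdeal, mem_nonZeroDivisors_of_ne_zero P.ne_bot⟩ with hP'
    have hℓP : (ℓ : 𝓞 K) ∈ (P' : Ideal (𝓞 K)) := by
      rw [← hnorm]
      exact Ideal.absNorm_mem P.asIdeal
    obtain ⟨g₀, m, hloc, hprod⟩ := prod_clAct_mem (K := K) hpℓ hqℓ H hHq
      hζ.toInteger_isPrimitiveRoot P' P.isPrime hℓP
    -- the polynomial
    set Nn : ℤ[X] := ∑ i ∈ Finset.range (p - 1), monomial i ((m (s ^ i) : ℕ) : ℤ) with hNn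
    have hpl : ∀ a, plEl p s Nn a = m a := fun a =>
      plEl_sum_monomial hs (fun a => ((m a : ℕ) : ℤ)) a
    set x : Additive (ClassGroup (𝓞 K)) := Additive.ofMul (ClassGroup.mk0 P') with hx
    have hNx : Nn • x ∈ N := by
      have h1 : Nn • x = Additive.ofMul (∏ a, (clAct p K a (ClassGroup.mk0 P')) ^ m a) := by
        change Additive.ofMul (clPw p K (plEl p s Nn) (ClassGroup.mk0 P')) = _
        rw [clPw]
        congr 1
        refine Finset.prod_congr rfl fun a _ => ?_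
        rw [hpl, zpow_natCast]
      rw [h1]
      exact hprod
    set J : Ideal ℤ[X] := N.comap (LinearMap.toSpanSingleton ℤ[X] _ x) with hJ
    have hmemJ : ∀ Q : ℤ[X], Q ∈ J ↔ Q • x ∈ N := fun _ => Iff.rfl
    have hle : idl g ≤ J := fun Q hQ => (hmemJ Q).mpr (Submodule.smul_mem_smul hQ Submodule.mem_top)
    have hJtop : J ≠ ⊤ := by
      intro h1
      have h2 : (1 : ℤ[X]) ∈ J := by
        rw [h1]
        exact Submodule.mem_top
      rw [hmemJ, one_smul] at h2
      exact hPH h2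
    have hNg : g ∣ Nn.map (Int.castRingHom (ZMod q)) := by
      rw [← mem_idl, (idl_isMaximal hg).eq_of_le hJtop hle]
      exact hNx
    have hconv := conv_eq_zero (s := s) hh hNg
    -- the congruence
    have hdvd2 : q ∣ ∑ a, m a⁻¹ * (n a % q).toNat := by
      rw [← ZMod.natCast_eq_zero_iff, Nat.cast_sum, ← hconv]
      refine Finset.sum_congr rfl fun a _ => ?_
      rw [Nat.cast_mul, hpl, Int.cast_natCast, mul_comm, ← hn]
      congr 1
      rw [← Int.cast_natCast, Int.toNat_of_nonneg (Int.emod_nonneg _ (by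
        exact_mod_cast hq.out.ne_zero)), ZMod.intCast_mod]
    obtain ⟨k, hk⟩ := hdvd2
    have hmax : P.asIdeal.IsMaximal := P.isMaximal
    let := Ideal.Quotient.field P.asIdeal
    have hfin : (Ideal.Quotient.mk P.asIdeal g₀ ^ k) ^ q * Ideal.Quotient.mk P.asIdeal v = 1 := by
      have h1 : ∀ a, Ideal.Quotient.mk P.asIdeal g₀ ^ (m a⁻¹) *
          Ideal.Quotient.mk P.asIdeal (JacobiSumStickelberger.clRingAction p K a z) = 1 :=
        fun a => local_eq a P.asIdeal z (hloc a⁻¹)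
      have h2 : ∏ a, (Ideal.Quotient.mk P.asIdeal g₀ ^ (m a⁻¹) *
          Ideal.Quotient.mk P.asIdeal (JacobiSumStickelberger.clRingAction p K a z)) ^
            (n a % q).toNat = 1 :=
        Finset.prod_eq_one fun a _ => by rw [h1, one_pow]
      rw [Finset.prod_congr rfl fun a _ => mul_pow _ _ _, Finset.prod_mul_distrib,
        Finset.prod_congr rfl fun a _ => (pow_mul _ _ _).symm, Finset.prod_pow_eq_pow_sum, hk] at h2
      rw [← pow_mul, mul_comm k q, hv, map_prod, ← h2]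
      congr 1
    obtain ⟨y, hy⟩ := Ideal.Quotient.mk_surjective (I := P.asIdeal)
      (Ideal.Quotient.mk P.asIdeal g₀ ^ k)⁻¹
    refine hPv y ?_
    rw [← Ideal.Quotient.eq_zero_iff_mem, map_sub, map_pow, hy, sub_eq_zero, inv_pow]
    exact eq_inv_of_mul_eq_one_right hfin

end Fermat.Agent.Cor.Catalan
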